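import Mathlib

/-!
# S35, slice (e), part B0: a common eigenvector of a commuting family

`exists_common_eigenvector` : a family of pairwise commuting endomorphisms of a vector space over
an algebraically closed field, stabilising a nonzero finite dimensional subspace `W`, has a common
eigenvector in `W`.
-/

set_option autoImplicit false
set_option linter.unusedSectionVars false
set_option linter.style.haveILetI false

namespace Fermat.Agent.S35.CommonEigen

variable {K V : Type*} [Field K] [IsAlgClosed K] [AddCommGroup V] [Module K V]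
  {ι : Type*} (T : ι → Module.End K V)

theorem exists_common_eigenvector_aux (hcomm : ∀ i j, T i * T j = T j * T i) :
    ∀ (n : ℕ) (W : Submodule K V), FiniteDimensional K W → Module.finrank K W = n → W ≠ ⊥ →
      (∀ i, ∀ w ∈ W, T i w ∈ W) → ∃ v ∈ W, v ≠ 0 ∧ ∀ i, ∃ c : K, T i v = c • v := by
  intro n
  induction n using Nat.strong_induction_on with
  | _ n ih =>
    intro W hfin hn hW hstab
    by_cases hscal : ∀ i, ∃ c : K, ∀ w ∈ W, T i w = c • w
    · obtain ⟨v, hvW, hv0⟩ := Submodule.exists_mem_ne_zero_of_ne_bot hW
      refine ⟨v, hvW, hv0, fun i => ?_⟩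
      obtain ⟨c, hc⟩ := hscal i
      exact ⟨c, hc v hvW⟩
    · push Not at hscal
      obtain ⟨i, hi⟩ := hscal
      -- an eigenvalue of `T i` on `W`
      haveI : Nontrivial W := Submodule.nontrivial_iff_ne_bot.2 hW
      let Ti : Module.End K W := (T i).restrict (hstab i)
      obtain ⟨c, hc⟩ := Module.End.exists_eigenvalue Ti
      obtain ⟨u, hu⟩ := hc.exists_hasEigenvector
      -- the eigenspace inside `W`
      let W' : Submodule K V := W ⊓ LinearMap.ker (T i - c • (1 : Module.End K V))
      have hmemW' : ∀ w, w ∈ W' ↔ w ∈ W ∧ T i w = c • w := by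
        intro w
        simp only [W', Submodule.mem_inf, LinearMap.mem_ker, LinearMap.sub_apply,
          LinearMap.smul_apply, Module.End.one_apply, sub_eq_zero]
      have hle : W' ≤ W := inf_le_left
      have huW' : (u : V) ∈ W' := by
        rw [hmemW']
        refine ⟨u.2, ?_⟩
        have := hu.apply_eq_smul
        have h2 := congrArg (Subtype.val) this
        simpa [Ti] using h2
      have hu0 : (u : V) ≠ 0 := fun h => hu.2 (Subtype.ext h)
      have hW'bot : W' ≠ ⊥ := fun h => hu0 (by rw [h] at huW'; exact huW')
      have hne : W' ≠ W := by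
        intro h
        obtain ⟨w, hwW, hw⟩ := hi c
        rw [← h] at hwW
        exact hw ((hmemW' w).1 hwW).2
      have hlt : W' < W := lt_of_le_of_ne hle hne
      have hfin' : FiniteDimensional K W' := Submodule.finiteDimensional_of_le hle
      have hrank : Module.finrank K W' < n := by
        rw [← hn]
        exact Submodule.finrank_lt_finrank_of_lt hlt
      have hstab' : ∀ j, ∀ w ∈ W', T j w ∈ W' := by
        intro j w hw
        rw [hmemW'] at hw ⊢
        refine ⟨hstab j w hw.1, ?_⟩
        have h1 : T i (T j w) = (T i * T j) w := rfl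
        rw [h1, hcomm i j, Module.End.mul_apply, hw.2, map_smul]
      obtain ⟨v, hvW', hv0, hv⟩ := ih _ hrank W' hfin' rfl hW'bot hstab'
      exact ⟨v, hle hvW', hv0, hv⟩

/-- **a common eigenvector** of a commuting family in a nonzero stable finite dimensional
subspace -/
theorem exists_common_eigenvector (hcomm : ∀ i j, T i * T j = T j * T i)
    (W : Submodule K V) [FiniteDimensional K W] (hW : W ≠ ⊥)
    (hstab : ∀ i, ∀ w ∈ W, T i w ∈ W) : ∃ v ∈ W, v ≠ 0 ∧ ∀ i, ∃ c : K, T i v = c • v :=
  exists_common_eigenvector_aux T hcomm _ W inferInstance rfl hW hstab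

end Fermat.Agent.S35.CommonEigen
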