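import Mathlib

/-!
# S35, slice (e), part 0: a residue map of `ℤbar` that does not kill a given nonzero element

For `x ≠ 0` in `ℤbar = integralClosure ℤ ℂ` and a bound `n₀` there are a prime `p > n₀`, a field `k`
of characteristic `p` and a ring homomorphism `φ : ℤbar →+* k` with `φ x ≠ 0`
(`exists_residue_map`).  [`x` divides the constant coefficient `c₀ ≠ 0` of its minimal polynomial;
take `p` not dividing `c₀` and a maximal ideal of `ℤbar` over `p`.]
-/

set_option autoImplicit false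
set_option linter.unusedSectionVars false
set_option linter.style.haveILetI false

namespace Fermat.Agent.S35.ResidueMap

open Polynomial

/-- `ℤbar`. -/
abbrev Zbar := integralClosure ℤ ℂ

/-- a nonzero algebraic integer divides a nonzero rational integer -/
theorem exists_int_dvd {x : Zbar} (hx : x ≠ 0) : ∃ c : ℤ, c ≠ 0 ∧ x ∣ (c : Zbar) := by
  have hint : IsIntegral ℤ x := Algebra.IsIntegral.isIntegral x
  have hc0 : (minpoly ℤ x).coeff 0 ≠ 0 := by
    intro h0
    have hX : (X : ℤ[X]) ∣ minpoly ℤ x := X_dvd_iff.2 h0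
    obtain ⟨q, hq⟩ := hX
    have hirr : Irreducible (minpoly ℤ x) := minpoly.irreducible hint
    have hq' := hq
    rcases hirr.isUnit_or_isUnit hq with hu | hu
    · exact not_isUnit_X hu
    · have h2 := congrArg (aeval x) hq'
      rw [minpoly.aeval, map_mul, aeval_X] at h2
      have hu' : IsUnit (aeval x q) := hu.map (aeval x)
      exact hx ((hu'.mul_left_eq_zero).1 h2.symm)
  refine ⟨(minpoly ℤ x).coeff 0, hc0, ?_⟩
  have h1 : (X : ℤ[X]) ∣ minpoly ℤ x - C ((minpoly ℤ x).coeff 0) := X_dvd_sub_C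
  obtain ⟨q, hq⟩ := h1
  have h2 := congrArg (aeval x) hq
  rw [map_sub, minpoly.aeval, aeval_C, map_mul, aeval_X, zero_sub] at h2
  refine ⟨-(aeval x q), ?_⟩
  rw [mul_neg, ← h2, neg_neg]
  rfl

theorem exists_residue_map {x : Zbar} (hx : x ≠ 0) (n₀ : ℕ) :
    ∃ (p : ℕ) (_ : p.Prime) (k : Type) (_ : Field k) (_ : CharP k p) (φ : Zbar →+* k),
      n₀ < p ∧ φ x ≠ 0 := by
  classical
  obtain ⟨c, hc0, hxc⟩ := exists_int_dvd hx
  obtain ⟨p, hpge, hp⟩ := Nat.exists_infinite_primes (max n₀ c.natAbs + 1)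
  have hpn₀ : n₀ < p := lt_of_le_of_lt (le_max_left _ _) (Nat.lt_of_succ_le hpge)
  have hpc : c.natAbs < p := lt_of_le_of_lt (le_max_right _ _) (Nat.lt_of_succ_le hpge)
  have hpndvd : ¬ (p : ℤ) ∣ c := by
    intro hdvd
    have h1 : p ∣ c.natAbs := Int.natCast_dvd.1 hdvd
    have h2 : 0 < c.natAbs := Int.natAbs_pos.2 hc0
    exact absurd (Nat.le_of_dvd h2 h1) (not_le.2 hpc)
  -- a maximal ideal over `p`
  haveI hPmax : (Ideal.span {(p : ℤ)}).IsMaximal :=
    PrincipalIdealRing.isMaximal_of_irreducible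
      (Nat.prime_iff_prime_int.1 hp).irreducible
  have hker : RingHom.ker (algebraMap ℤ Zbar) ≤ Ideal.span {(p : ℤ)} := by
    rw [(RingHom.injective_iff_ker_eq_bot _).1 (FaithfulSMul.algebraMap_injective ℤ Zbar)]
    exact bot_le
  obtain ⟨Q, hQmax, hQ⟩ := Ideal.exists_ideal_over_maximal_of_isIntegral
    (S := Zbar) (Ideal.span {(p : ℤ)}) hker
  haveI := hQmax
  letI : Field (Zbar ⧸ Q) := Ideal.Quotient.field Q
  have hmem : ∀ n : ℤ, (n : Zbar) ∈ Q ↔ (p : ℤ) ∣ n := by
    intro n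
    rw [← Ideal.mem_span_singleton, ← hQ, Ideal.mem_comap]
    rfl
  have hchar : CharP (Zbar ⧸ Q) p := by
    refine ⟨fun n => ?_⟩
    rw [← map_natCast (Ideal.Quotient.mk Q), Ideal.Quotient.eq_zero_iff_mem]
    have := hmem (n : ℤ)
    rw [Int.natCast_dvd_natCast] at this
    rw [← this]
    simp
  refine ⟨p, hp, Zbar ⧸ Q, inferInstance, hchar, Ideal.Quotient.mk Q, hpn₀, ?_⟩
  intro h0
  rw [Ideal.Quotient.eq_zero_iff_mem] at h0
  exact hpndvd ((hmem c).1 (Q.mem_of_dvd hxc h0))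

end Fermat.Agent.S35.ResidueMap
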