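import Mathlib
import Fermat.Agent.S29
import Fermat.Agent.S30.Density.Bridge
import Fermat.Agent.S30.Residual.Eigen
import Fermat.Agent.S31.Lucas
import Fermat.Agent.Lib.FrobeniusExists
import Fermat.Agent.S35.ResidueMap

/-!
# S35, slice (e), part A: strong multiplicity one for the good eigenvalues

Two normalised weight-2 eigenforms `f` (level `N`) and `g` (level `N'`) whose eigenvalues `a_ℓ`
agree for all primes `ℓ ∤ N N'` outside a FINITE set `S₀` have the same `a_ℓ` for ALL primes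
`ℓ ∤ N N'` (`strongMultOne`).

Proof.  Let `x := a_ℓ₀(f) - a_ℓ₀(g) ∈ ℤbar` and suppose `x ≠ 0`.  Pick a prime `p > ℓ₀` and a
residue map `φ : ℤbar →+* k`, `char k = p`, with `φ x ≠ 0` (`ResidueMap.exists_residue_map`).
The credited S29 attaches to `f` and to `g` residual representations `ρ_f`, `ρ_g` over `k` for
the SAME `φ`; both factor through a finite level `L`.  For a Frobenius element `σ` at `ℓ₀` the
density bridge of S30 gives a prime `ℓ'` outside `S₀ ∪ {p} ∪ primes(N N')`, a Frobenius element `τ`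
at `ℓ'` and `k j` with `τ = σ^k` and `(σ^k)^j = σ` on `L`; so `ρ(σ) = ρ(τ)^j` for both
representations, and the trace of the `j`-th power of a `2 × 2` matrix is the Lucas polynomial
`Q_j` of its trace and determinant (S31/Lucas).  As `ρ_f(τ)` and `ρ_g(τ)` have the same
characteristic polynomial, `tr ρ_f(σ) = tr ρ_g(σ)`, i.e. `φ (a_ℓ₀ f) = φ (a_ℓ₀ g)` : contradiction.
-/

set_option autoImplicit false
set_option linter.unusedSectionVars false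
set_option linter.style.haveILetI false

namespace Fermat.Agent.S35.StrongMultOne

open Polynomial CuspForm CongruenceSubgroup ModularFormClass

/-- `ℤbar`. -/
abbrev Zbar := integralClosure ℤ ℂ

/-- `ℚbar`. -/
abbrev Qb := AlgebraicClosure ℚ

section Residual

variable {k : Type} [Field k]

/-- a residual representation that is trivial on the automorphisms fixing `L` takes the same value
on two automorphisms agreeing on `L` -/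
theorem rho_eq_of_eqOn (ρ : ResidualGaloisRep k) (L : IntermediateField ℚ Qb)
    (hL : ∀ σ : Qb ≃ₐ[ℚ] Qb, (∀ x ∈ L, σ x = x) → ρ.ρ σ = 1)
    {σ τ : Qb ≃ₐ[ℚ] Qb} (h : ∀ x ∈ L, σ x = τ x) : ρ.ρ σ = ρ.ρ τ := by
  have h1 : ρ.ρ (τ⁻¹ * σ) = 1 := by
    apply hL
    intro x hx
    rw [AlgEquiv.mul_apply, h x hx]
    exact τ.symm_apply_apply x
  have h2 : σ = τ * (τ⁻¹ * σ) := by group
  rw [h2, map_mul, h1, mul_one]

/-- the trace of `ρ(σ)` from the density data -/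
theorem trace_eq_Q (ρ : ResidualGaloisRep k) (L : IntermediateField ℚ Qb)
    (hL : ∀ σ : Qb ≃ₐ[ℚ] Qb, (∀ x ∈ L, σ x = x) → ρ.ρ σ = 1)
    {σ τ : Qb ≃ₐ[ℚ] Qb} {m j : ℕ} (h1 : ∀ x ∈ L, τ x = (σ ^ m) x)
    (h2 : ∀ x ∈ L, ((σ ^ m) ^ j) x = σ x) {a d : k}
    (hτ : LinearMap.charpoly (ρ.ρ τ) = X ^ 2 - C a * X + C d) :
    LinearMap.trace k ρ.V (ρ.ρ σ) = Fermat.Agent.S31.Lucas.Q a d j := by
  have e1 : ρ.ρ τ = ρ.ρ (σ ^ m) := rho_eq_of_eqOn ρ L hL h1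
  have e2 : ρ.ρ ((σ ^ m) ^ j) = ρ.ρ σ := rho_eq_of_eqOn ρ L hL h2
  rw [← e2, map_pow, ← e1]
  exact Fermat.Agent.S31.Lucas.trace_pow ρ.finrank_eq hτ j

end Residual

/-- **Strong multiplicity one** (good eigenvalues, weight 2, trivial character). -/
theorem strongMultOne {N N' : ℕ} {f : CuspForm (Gamma0 N) 2} {g : CuspForm (Gamma0 N') 2}
    (hf : f.IsNormalizedEigenform) (hg : g.IsNormalizedEigenform) (S₀ : Finset ℕ)
    (h : ∀ ℓ : ℕ, ℓ.Prime → ℓ ∉ S₀ → ¬ ℓ ∣ N → ¬ ℓ ∣ N' → qCoeff f ℓ = qCoeff g ℓ)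
    {ℓ₀ : ℕ} (hℓ₀ : ℓ₀.Prime) (hℓ₀N : ¬ ℓ₀ ∣ N) (hℓ₀N' : ¬ ℓ₀ ∣ N') :
    qCoeff f ℓ₀ = qCoeff g ℓ₀ := by
  classical
  have hN0 : N ≠ 0 := by rintro rfl; exact hℓ₀N (dvd_zero _)
  have hN'0 : N' ≠ 0 := by rintro rfl; exact hℓ₀N' (dvd_zero _)
  haveI : NeZero N := ⟨hN0⟩
  haveI : NeZero N' := ⟨hN'0⟩
  -- the two eigenvalues as algebraic integers
  let af : Zbar := Fermat.Agent.S30.Residual.Eigen.eigenChar (∅ : Set ℕ) hf
    (CuspForm.heckeAlgebra.T hℓ₀ hℓ₀N (Set.notMem_empty _))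
  let ag : Zbar := Fermat.Agent.S30.Residual.Eigen.eigenChar (∅ : Set ℕ) hg
    (CuspForm.heckeAlgebra.T hℓ₀ hℓ₀N' (Set.notMem_empty _))
  have haf : (af : ℂ) = qCoeff f ℓ₀ := Fermat.Agent.S30.Residual.Eigen.eigenChar_T _ hf hℓ₀ hℓ₀N _
  have hag : (ag : ℂ) = qCoeff g ℓ₀ := Fermat.Agent.S30.Residual.Eigen.eigenChar_T _ hg hℓ₀ hℓ₀N' _
  by_contra hne
  have hx : af - ag ≠ 0 := by
    intro h0
    apply hne
    rw [← haf, ← hag, sub_eq_zero.1 h0]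
  obtain ⟨p, hp, k, _, _, φ, hpℓ₀, hφ⟩ := ResidueMap.exists_residue_map hx ℓ₀
  apply hφ
  -- the two residual representations
  obtain ⟨ρf, hρf, -⟩ := Fermat.Agent.S29.result hf hp φ
  obtain ⟨ρg, hρg, -⟩ := Fermat.Agent.S29.result hg hp φ
  obtain ⟨Lf, hLffin, hLf⟩ := ρf.factorsThroughFiniteLevel
  obtain ⟨Lg, hLgfin, hLg⟩ := ρg.factorsThroughFiniteLevel
  haveI := hLffin
  haveI := hLgfin
  let L : IntermediateField ℚ Qb := Lf ⊔ Lg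
  haveI : FiniteDimensional ℚ L := IntermediateField.finiteDimensional_sup Lf Lg
  have hLf' : ∀ σ : Qb ≃ₐ[ℚ] Qb, (∀ x ∈ L, σ x = x) → ρf.ρ σ = 1 := fun σ hσ =>
    hLf σ fun x hx => hσ x ((le_sup_left : Lf ≤ L) hx)
  have hLg' : ∀ σ : Qb ≃ₐ[ℚ] Qb, (∀ x ∈ L, σ x = x) → ρg.ρ σ = 1 := fun σ hσ =>
    hLg σ fun x hx => hσ x ((le_sup_right : Lg ≤ L) hx)
  -- a Frobenius element at `ℓ₀`
  obtain ⟨A₀, σ, hA₀, hσ⟩ :=
    Fermat.Agent.Lib.FrobeniusExists.exists_valuationSubring_isFrobeniusAt ℓ₀ hℓ₀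
  -- density
  let S : Finset ℕ := S₀ ∪ {p} ∪ N.primeFactors ∪ N'.primeFactors
  obtain ⟨ℓ', hℓ', hℓ'S, A, τ, m, j, hA, hτ, h1, h2⟩ :=
    Fermat.Agent.S30.Density.Bridge.frobenius_density_final L σ S
  have hℓ'S₀ : ℓ' ∉ S₀ := fun hmem => hℓ'S (by simp [S, hmem])
  have hℓ'p : ℓ' ≠ p := fun hmem => hℓ'S (by simp [S, hmem])
  have hℓ'N : ¬ ℓ' ∣ N := fun hdvd => hℓ'S (by
    have : ℓ' ∈ N.primeFactors := Nat.mem_primeFactors.2 ⟨hℓ', hdvd, hN0⟩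
    simp [S, this])
  have hℓ'N' : ¬ ℓ' ∣ N' := fun hdvd => hℓ'S (by
    have : ℓ' ∈ N'.primeFactors := Nat.mem_primeFactors.2 ⟨hℓ', hdvd, hN'0⟩
    simp [S, this])
  have hcast : ∀ {ℓ : ℕ}, ℓ.Prime → ℓ ≠ p → (ℓ : k) ≠ 0 := by
    intro ℓ hℓ hℓp h0
    rw [CharP.cast_eq_zero_iff k p] at h0
    exact hℓp ((Nat.prime_dvd_prime_iff_eq hp hℓ).1 h0).symm
  -- the characteristic polynomials at `ℓ'`
  obtain ⟨bf, hbf, hcf⟩ := hρf ℓ' hℓ' hℓ'N (hcast hℓ' hℓ'p) A hA τ hτ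
  obtain ⟨bg, hbg, hcg⟩ := hρg ℓ' hℓ' hℓ'N' (hcast hℓ' hℓ'p) A hA τ hτ
  have hb : bf = bg := Subtype.ext (by rw [hbf, hbg, h ℓ' hℓ' hℓ'S₀ hℓ'N hℓ'N'])
  -- the characteristic polynomials at `ℓ₀`
  have hℓ₀p : ℓ₀ ≠ p := hpℓ₀.ne
  obtain ⟨cf, hcf0, hcf1⟩ := hρf ℓ₀ hℓ₀ hℓ₀N (hcast hℓ₀ hℓ₀p) A₀ hA₀ σ hσ
  obtain ⟨cg, hcg0, hcg1⟩ := hρg ℓ₀ hℓ₀ hℓ₀N' (hcast hℓ₀ hℓ₀p) A₀ hA₀ σ hσ
  have hcfaf : cf = af := Subtype.ext (by rw [hcf0, haf])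
  have hcgag : cg = ag := Subtype.ext (by rw [hcg0, hag])
  -- traces
  have t1 : LinearMap.trace k ρf.V (ρf.ρ σ) = φ af := by
    rw [← hcfaf]
    exact Fermat.Agent.S31.Lucas.trace_eq_of_charpoly ρf.finrank_eq hcf1
  have t2 : LinearMap.trace k ρg.V (ρg.ρ σ) = φ ag := by
    rw [← hcgag]
    exact Fermat.Agent.S31.Lucas.trace_eq_of_charpoly ρg.finrank_eq hcg1
  have t3 := trace_eq_Q ρf L hLf' h1 h2 hcf
  have t4 := trace_eq_Q ρg L hLg' h1 h2 hcg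
  rw [map_sub, ← t1, ← t2, t3, t4, hb, sub_self]

end Fermat.Agent.S35.StrongMultOne
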