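import Mathlib
import Fermat.Prelude.Def_CuspForm_Newforms
import Fermat.Agent.S23.FinDim
import Fermat.Agent.S49.Eigenform
import Fermat.Agent.S30.Eigen.MultOne
import Fermat.Agent.S35.CommonEigen
import Fermat.Agent.S35.StrongMultOne

/-!
# S35, slice (e), part B1: an anemic eigenvector at level `M'` makes the good eigensystem occur

`g` a normalised eigenform of level `M`, `M' ∣ M`, `S` a finite set of primes.  If some nonzero
`h ∈ S₂(Γ₀(M'))` satisfies `T_ℓ h = a_ℓ(g) h` for all primes `ℓ ∤ M'` outside `S`, then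
`CuspForm.GoodEigensystemOccursAt g M'` (`goodEigensystemOccursAt_of_eigenvector`); hence for a
newform `g` of level `M` and a proper divisor `M'` of `M` there is no such `h`
(`anemicEigenspace_eq_bot_of_isNewform`).

Proof: the joint eigenspace `W` of the `T_ℓ` (`ℓ ∉ S`) is stable under the full commuting Hecke
family `Tr M' 2 r`; a common eigenvector `v ∈ W` of the full family normalises to a normalised
eigenform `g'` (S49/Eigenform) with `a_ℓ(g') = a_ℓ(g)` for `ℓ ∉ S`; strong multiplicity one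
(`StrongMultOne.strongMultOne`) upgrades this to all `ℓ ∤ M`.
-/

set_option autoImplicit false
set_option linter.unusedSectionVars false
set_option linter.style.haveILetI false

namespace Fermat.Agent.S35.OccursAt

open CuspForm CongruenceSubgroup ModularFormClass
open Fermat.Agent.S30.Eigen.MultOne

variable {M M' : ℕ} [NeZero M']

/-- the joint eigenspace of the `T_ℓ`, `ℓ ∤ M'`, `ℓ ∉ S`, for the eigenvalues `a ℓ` -/
def anemicEigenspace (M' : ℕ) [NeZero M'] (S : Set ℕ) (a : ℕ → ℂ) :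
    Submodule ℂ (CuspForm (Gamma0 M') 2) where
  carrier := {w | ∀ (ℓ : ℕ) (hℓ : ℓ.Prime) (hℓM' : ¬ ℓ ∣ M'), ℓ ∉ S →
    heckeTLin 2 hℓ hℓM' w = a ℓ • w}
  add_mem' := by
    intro x y hx hy ℓ hℓ hℓM' hℓS
    rw [map_add, hx ℓ hℓ hℓM' hℓS, hy ℓ hℓ hℓM' hℓS, smul_add]
  zero_mem' := by
    intro ℓ hℓ hℓM' _
    rw [map_zero, smul_zero]
  smul_mem' := by
    intro c x hx ℓ hℓ hℓM' hℓS
    rw [map_smul, hx ℓ hℓ hℓM' hℓS, smul_comm]

theorem mem_anemicEigenspace {S : Set ℕ} {a : ℕ → ℂ} {w : CuspForm (Gamma0 M') 2} :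
    w ∈ anemicEigenspace M' S a ↔ ∀ (ℓ : ℕ) (hℓ : ℓ.Prime) (hℓM' : ¬ ℓ ∣ M'), ℓ ∉ S →
      heckeTLin 2 hℓ hℓM' w = a ℓ • w := Iff.rfl

/-- the full Hecke family stabilises the anemic eigenspace -/
theorem Tr_mem_anemicEigenspace {S : Set ℕ} {a : ℕ → ℂ} (r : Nat.Primes)
    {w : CuspForm (Gamma0 M') 2} (hw : w ∈ anemicEigenspace M' S a) :
    Tr M' 2 r w ∈ anemicEigenspace M' S a := by
  intro ℓ hℓ hℓM' hℓS
  let r' : Nat.Primes := ⟨ℓ, hℓ⟩
  have h1 : heckeTLin 2 hℓ hℓM' = Tr M' 2 r' := (Tr_of_not_dvd M' 2 (r := r') hℓM').symm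
  have h2 : Tr M' 2 r' (Tr M' 2 r w) = (Tr M' 2 r' * Tr M' 2 r) w := rfl
  have h3 : (Tr M' 2 r * Tr M' 2 r') w = Tr M' 2 r (Tr M' 2 r' w) := rfl
  rw [h1, h2, Tr_comm M' 2 r' r, h3, ← h1, hw ℓ hℓ hℓM' hℓS, map_smul]

/-- a nonzero element of the anemic eigenspace gives a normalised eigenform of level `M'` with the
eigenvalues `a ℓ` outside `S` -/
theorem exists_normalizedEigenform_of_anemicEigenspace_ne_bot {S : Set ℕ} {a : ℕ → ℂ}
    (hW : anemicEigenspace M' S a ≠ ⊥) :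
    ∃ g' : CuspForm (Gamma0 M') 2, g'.IsNormalizedEigenform ∧
      ∀ ℓ : ℕ, ℓ.Prime → ¬ ℓ ∣ M' → ℓ ∉ S → qCoeff g' ℓ = a ℓ := by
  haveI : FiniteDimensional ℂ (CuspForm (Gamma0 M') 2) :=
    Fermat.Agent.S23.FinDim.finiteDimensional_cuspForm M' 2
  obtain ⟨v, hvW, hv0, hv⟩ := CommonEigen.exists_common_eigenvector (Tr M' 2) (Tr_comm M' 2)
    (anemicEigenspace M' S a) hW (fun r w hw => Tr_mem_anemicEigenspace r hw)
  have hT : ∀ (ℓ : ℕ) (hℓ : ℓ.Prime) (hℓN : ¬ ℓ ∣ M'), ∃ c : ℂ, heckeTLin 2 hℓ hℓN v = c • v := by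
    intro ℓ hℓ hℓN
    obtain ⟨c, hc⟩ := hv (⟨ℓ, hℓ⟩ : Nat.Primes)
    rw [Tr_of_not_dvd M' 2 (r := (⟨ℓ, hℓ⟩ : Nat.Primes)) hℓN] at hc
    exact ⟨c, hc⟩
  have hU : ∀ (q : ℕ) (_ : q.Prime) (hqN : q ∣ M'), ∃ c : ℂ, heckeULin 2 hqN v = c • v := by
    intro q hq hqN
    obtain ⟨c, hc⟩ := hv (⟨q, hq⟩ : Nat.Primes)
    rw [Tr_of_dvd M' 2 (r := (⟨q, hq⟩ : Nat.Primes)) hqN] at hc
    exact ⟨c, hc⟩
  obtain ⟨-, hnorm, hTv, -⟩ :=
    Fermat.Agent.S49.Eigenform.normalizedEigenform_of_eigenvector v hv0 hT hU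
  refine ⟨_, hnorm, fun ℓ hℓ hℓM' hℓS => ?_⟩
  have h1 := hTv ℓ hℓ hℓM'
  rw [hvW ℓ hℓ hℓM' hℓS] at h1
  exact (smul_left_injective ℂ hv0 h1).symm

/-- **an anemic eigenvector at level `M'` makes the good eigensystem of `g` occur at `M'`** -/
theorem goodEigensystemOccursAt_of_anemicEigenspace_ne_bot (hM : M' ∣ M)
    {g : CuspForm (Gamma0 M) 2} (hg : g.IsNormalizedEigenform) (S : Finset ℕ)
    (hW : anemicEigenspace M' (↑S : Set ℕ) (fun ℓ => qCoeff g ℓ) ≠ ⊥) :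
    CuspForm.GoodEigensystemOccursAt g M' := by
  obtain ⟨g', hg', hcoeff⟩ := exists_normalizedEigenform_of_anemicEigenspace_ne_bot hW
  refine ⟨g', hg', fun ℓ hℓ hℓM => ?_⟩
  have hℓM' : ¬ ℓ ∣ M' := fun h => hℓM (h.trans hM)
  exact StrongMultOne.strongMultOne hg' hg S
    (fun ℓ' hℓ' hℓ'S hℓ'M' _ => hcoeff ℓ' hℓ' hℓ'M' (by simpa using hℓ'S)) hℓ hℓM' hℓM

theorem goodEigensystemOccursAt_of_eigenvector (hM : M' ∣ M)
    {g : CuspForm (Gamma0 M) 2} (hg : g.IsNormalizedEigenform) (S : Finset ℕ)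
    {h : CuspForm (Gamma0 M') 2} (h0 : h ≠ 0)
    (hh : ∀ (ℓ : ℕ) (hℓ : ℓ.Prime) (hℓM' : ¬ ℓ ∣ M'), ℓ ∉ S →
      heckeTLin 2 hℓ hℓM' h = qCoeff g ℓ • h) :
    CuspForm.GoodEigensystemOccursAt g M' := by
  refine goodEigensystemOccursAt_of_anemicEigenspace_ne_bot hM hg S ?_
  intro hbot
  apply h0
  have hmem : h ∈ anemicEigenspace M' (↑S : Set ℕ) (fun ℓ => qCoeff g ℓ) :=
    fun ℓ hℓ hℓM' hℓS => hh ℓ hℓ hℓM' (by simpa using hℓS)
  rw [hbot] at hmem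
  exact hmem

/-- **for a newform of level `M`, the anemic eigenspace at a proper divisor level is zero** -/
theorem anemicEigenspace_eq_bot_of_isNewform
    {g : CuspForm (Gamma0 M) 2} (hg : g.IsNewform) (hM : M' ∣ M) (hne : M' ≠ M) (S : Finset ℕ) :
    anemicEigenspace M' (↑S : Set ℕ) (fun ℓ => qCoeff g ℓ) = ⊥ := by
  by_contra hW
  exact hg.2 M' hM hne (goodEigensystemOccursAt_of_anemicEigenspace_ne_bot hM hg.1 S hW)

end Fermat.Agent.S35.OccursAt
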