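/-
S35 (downstream of PROJECT U), layer (N2) of (NEW-σ), dictionary part (helper18).

THE FROBENIUS TWIN of `S34/CoreZOfPrincipal` + `S34/CoreZX0OfPrincipal` (helper6).

(N2) (helper19 #2231 (5)): for `σ` a Frobenius lift at `q` and `u ∈ ℚ̄(X₀(M q))^×` whose divisor is
divisible by `p ^ k` and which is a one-unit of both Gauss valuation rings `V1X0`, `V2X0`:
`σ (σ u) = c · h ^ (p ^ k) · u ^ (q ²)`.

The nodal core in its Frobenius form (`S35/GlueGNodalFrob.principal_of_frobenius`) concludes on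
DIVISORS: `g • D - Q • D` is principal.  This file is the (Prelude-only) dictionary:

* `eq_const_mul_pow_mul_pow_of_principal` : if `div u = n D` and `g • D - Q • D = div h`, then
  `g • u = c · h ^ n · u ^ Q`;
* `frobZ_of_principal` : the same with `KummerZ.Hn n u` as input;
* `FrobZHyp M q p` : (N2) in function language at `E = ℚ̄(X₀(M q))` (the shape consumed by
  `S35/NewSigma`);
* `FrobPrincipalHyp M q p` : (N2) in divisor language (the literal conclusion of
  `principal_of_frobenius` for `g = (σ_E)²`, `Q = q²`);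
* `frobZHyp_of_principalHyp : FrobPrincipalHyp M q p → FrobZHyp M q p`.
-/
import Fermat.Agent.S34.CoreZX0OfPrincipal

set_option autoImplicit false
set_option linter.unusedSectionVars false
set_option linter.style.haveILetI false

noncomputable section

namespace Fermat.Agent.S35.FrobZOfPrincipal

open AlgebraicCurve Fermat.Agent.S34.KummerZ Fermat.Agent.S34.CoreZOfPrincipal

section Abstract

variable {K F : Type*} [Field K] [Field F] [Algebra K F]

/-- **Dictionary.**  If `div u = n D` and `g • D - Q • D` is the divisor of `h`, then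
`g • u = c · h ^ n · u ^ Q` with `c` a nonzero constant. -/
theorem eq_const_mul_pow_mul_pow_of_principal
    (hconst : ∀ f : F, f ≠ 0 → (∀ w : Place K F, w.ord f = 0) →
      ∃ c : K, c ≠ 0 ∧ f = algebraMap K F c)
    (g : SemilinearAut K F) (n Q : ℕ) {u : F} (hu : u ≠ 0) {D : Divisor K F}
    (hD : ∀ w : Place K F, w.ord u = n * D w)
    {h : F} (hh : h ≠ 0) (hdiv : ∀ w : Place K F, (g • D - Q • D) w = w.ord h) :
    ∃ c : K, c ≠ 0 ∧ g • u = algebraMap K F c * h ^ n * u ^ Q := by
  have hgu : g • u ≠ 0 := by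
    intro h0
    apply hu
    have := congrArg (fun x => g⁻¹ • x) h0
    simpa using this
  have hden : h ^ n * u ^ Q ≠ 0 := mul_ne_zero (pow_ne_zero n hh) (pow_ne_zero Q hu)
  have hq : g • u / (h ^ n * u ^ Q) ≠ 0 := div_ne_zero hgu hden
  obtain ⟨c, hc, hcq⟩ := hconst (g • u / (h ^ n * u ^ Q)) hq (fun w => by
    rw [ord_div' w hgu hden, w.ord_mul (pow_ne_zero n hh) (pow_ne_zero Q hu), Fermat.Agent.S34.KummerZ.ord_pow,
      Fermat.Agent.S34.KummerZ.ord_pow, ← hdiv w, ord_smul_eq, hD, hD, Finsupp.sub_apply,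
      SemilinearAut.divisor_smul_apply, Finsupp.smul_apply, nsmul_eq_mul]
    ring)
  refine ⟨c, hc, ?_⟩
  rw [mul_assoc, ← hcq, div_mul_cancel₀ _ hden]

/-- **(N2) in function language from principal-ness of `g • D - Q • D`.** -/
theorem frobZ_of_principal [HasPrincipalDivisors K F]
    (hconst : ∀ f : F, f ≠ 0 → (∀ w : Place K F, w.ord f = 0) →
      ∃ c : K, c ≠ 0 ∧ f = algebraMap K F c)
    (g : SemilinearAut K F) (n : ℕ) (hn : n ≠ 0) (Q : ℕ) {u : F} (hu : Hn (K := K) n u)
    (hprin : ∀ D : Divisor K F, Divisor.degree D = 0 → (∀ w : Place K F, w.ord u = n * D w) →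
      g • D - Q • D ∈ Divisor.principal (K := K) (F := F)) :
    ∃ (c : K) (h : F), c ≠ 0 ∧ h ≠ 0 ∧ g • u = algebraMap K F c * h ^ n * u ^ Q := by
  obtain ⟨D, hD, hdeg⟩ := hu.exists_divisor hn
  obtain ⟨h, hh, hdiv⟩ := hprin D hdeg hD
  obtain ⟨c, hc, he⟩ := eq_const_mul_pow_mul_pow_of_principal hconst g n Q hu.1 hD hh hdiv
  exact ⟨c, h, hc, hh, he⟩

end Abstract

section X0

open ModularCurve
open Fermat.Agent.S34.Z1X0 Fermat.Agent.S34.Z1Abstract Fermat.Agent.S34.CoreZX0OfPrincipal

local notation "Kb" => AlgebraicClosure ℚ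

/-- **(N2) at level `M q`** in function language, for the concrete Gauss valuation rings `V1X0`,
`V2X0`: the square of a Frobenius lift at `q` acts as `q²` on the one-units of both Gauss rings,
modulo constants and `p ^ k`-th powers. -/
def FrobZHyp (M q p : ℕ) [NeZero M] [Fact q.Prime] [NeZero q] : Prop :=
  ∀ (A : ValuationSubring Kb) (hA : A.LiesOverPrime q) (hqM : ¬ q ∣ M),
    ∀ σ : Kb ≃ₐ[ℚ] Kb, A.IsFrobeniusAt σ q → ∀ k : ℕ,
      ∀ u : ↥(modularFunctionFieldBar (M * q)), Fermat.Agent.S34.KummerZ.Hn (K := Kb) (p ^ k) u →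
        IsOneUnit (V1X0 hA hqM) u → IsOneUnit (V2X0 hA hqM) u →
        ∃ (c : Kb) (h : ↥(modularFunctionFieldBar (M * q))), c ≠ 0 ∧ h ≠ 0 ∧
          arithmeticGalois (modularFunctionFieldFull (M * q)) σ •
              (arithmeticGalois (modularFunctionFieldFull (M * q)) σ • u) =
            algebraMap Kb ↥(modularFunctionFieldBar (M * q)) c * h ^ (p ^ k) * u ^ (q ^ 2)

/-- **(N2) in divisor language** at `E = ℚ̄(X₀(M q))`. -/
def FrobPrincipalHyp (M q p : ℕ) [NeZero M] [Fact q.Prime] [NeZero q] : Prop :=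
  ∀ (A : ValuationSubring Kb) (hA : A.LiesOverPrime q) (hqM : ¬ q ∣ M),
    ∀ σ : Kb ≃ₐ[ℚ] Kb, A.IsFrobeniusAt σ q → ∀ k : ℕ,
      ∀ (u : ↥(modularFunctionFieldBar (M * q)))
        (D : Divisor Kb ↥(modularFunctionFieldBar (M * q))), u ≠ 0 →
        IsOneUnit (V1X0 hA hqM) u → IsOneUnit (V2X0 hA hqM) u →
        Divisor.degree D = 0 →
        (∀ w : Place Kb ↥(modularFunctionFieldBar (M * q)), w.ord u = ((p ^ k : ℕ) : ℤ) * D w) →
        (arithmeticGalois (modularFunctionFieldFull (M * q)) σ *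
            arithmeticGalois (modularFunctionFieldFull (M * q)) σ) • D - (q ^ 2) • D ∈
          Divisor.principal (K := Kb) (F := ↥(modularFunctionFieldBar (M * q)))

/-- **`FrobZHyp` from principal-ness.** -/
theorem frobZHyp_of_principalHyp {M q p : ℕ} [NeZero M] [Fact q.Prime] [NeZero q] (hp : p ≠ 0)
    (h : FrobPrincipalHyp M q p) : FrobZHyp M q p := by
  intro A hA hqM σ hσ k u hu h1 h2
  haveI : NeZero (M * q) := ⟨Nat.mul_ne_zero (NeZero.ne M) (NeZero.ne q)⟩
  haveI := Fermat.Agent.S18.A.Instances.hasPrincipalDivisors_bar (M * q)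
  have := frobZ_of_principal (exists_const_of_ord_eq_zero (M * q))
    (arithmeticGalois (modularFunctionFieldFull (M * q)) σ *
      arithmeticGalois (modularFunctionFieldFull (M * q)) σ) (p ^ k) (pow_ne_zero k hp) (q ^ 2) hu
    (fun D hdeg hD => h A hA hqM σ hσ k u D hu.1 h1 h2 hdeg hD)
  rwa [mul_smul] at this

end X0

end Fermat.Agent.S35.FrobZOfPrincipal
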