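/-
S35 (downstream of PROJECT U), layer (L3) at one node, abstract (helper24).

`Fermat.Agent.S34.GlueG.NodeSetup.eval_eq_of_localGenerator` treats an automorphism `s` of the
function field which acts TRIVIALLY on the values at the node (an inertia element) and proves
GlueG(`s f / f`).  For the frozen S35 one needs the same statement for `s = σ²`, `σ` a Frobenius
lift at `q`: then `s` still preserves the node (the nodes are `𝔽_{q²}`-rational) but acts on the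
values at the node through the `Q`-th power map, `Q = q²`.  The conclusion becomes
GlueG(`s f / f ^ Q`): every `y ∈ Lam (s f / f ^ Q)` is regular at the node on both sides and takes
the same value there.  With the nodal core (injectivity of the gluing data on the toric part `Z`)
this gives `σ² = q²` on `Z`.

Also a two-node version (`s` maps the node `a` to the node `a'`), for whoever wants the single
Frobenius step `ζ_{σ a}(σ f) = ζ_a(f)^q` instead of `σ²`.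

Imports `S34/GlueG` only (Mathlib-only file).
-/
import Mathlib
import Fermat.Agent.S34.GlueG

set_option autoImplicit false

noncomputable section

namespace Fermat.Agent.S35.GlueGFrob

open Fermat.Agent.S34.GlueG

variable {F : Type*} [Field F] {k : Type*} [Field k]

section Basic

variable {n : ℕ} {V₁ V₂ : Subring F} {e₁ : V₁ →+* k} {e₂ : V₂ →+* k} {B : Subring F}
  {Lam : F → AddSubgroup F}

/-- `y ∈ Lam f ⟹ y ^ (m+1) ∈ Lam (f ^ (m+1))` -/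
theorem pow_succ_mem (S : NodeSetup n V₁ V₂ e₁ e₂ B Lam) {f y : F} (hy : y ∈ Lam f) (m : ℕ) :
    y ^ (m + 1) ∈ Lam (f ^ (m + 1)) := by
  induction m with
  | zero => simpa using hy
  | succ m ih =>
    rw [pow_succ y (m + 1), pow_succ f (m + 1)]
    exact S.mul_mem _ _ _ _ ih hy

/-- `y ∈ Lam f ⟹ y ^ Q ∈ Lam (f ^ Q)` for `Q ≥ 1` -/
theorem pow_mem (S : NodeSetup n V₁ V₂ e₁ e₂ B Lam) {f y : F} (hy : y ∈ Lam f) {Q : ℕ}
    (hQ : 0 < Q) : y ^ Q ∈ Lam (f ^ Q) := by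
  obtain ⟨m, rfl⟩ : ∃ m, Q = m + 1 := ⟨Q - 1, by omega⟩
  exact pow_succ_mem S hy m

theorem ev_inv_of_ev_eq_one {V : Subring F} {e : V →+* k} {f : F} (hf : f ∈ V)
    (hfi : f⁻¹ ∈ V) (hf1 : ev V e f = 1) : ev V e f⁻¹ = 1 := by
  have hf0 : f ≠ 0 := by
    rintro rfl
    rw [ev_zero] at hf1
    exact zero_ne_one hf1
  have := ev_mul (e := e) hf hfi
  rw [mul_inv_cancel₀ hf0, ev_one, hf1, one_mul] at this
  exact this.symm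

end Basic

section TwoNodes

variable {n : ℕ} {V₁ V₂ : Subring F} {e₁ : V₁ →+* k} {e₂ : V₂ →+* k}
  {V₁' V₂' : Subring F} {e₁' : V₁' →+* k} {e₂' : V₂' →+* k} {B : Subring F}
  {Lam : F → AddSubgroup F}

/-- **GlueG(`s f / f ^ Q`), two-node form.**  `s` maps the node `a = (V₁, V₂, e₁, e₂)` to the node
`a' = (V₁', V₂', e₁', e₂')` and acts on values through the `Q`-th power.  If `f` has value `1` at
BOTH nodes on both sides and `y₁ ∈ Lam f` is a local generator at `a`, then every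
`y ∈ Lam (s f / f ^ Q)` is regular at `a'` on both sides and its two values at `a'` are related to
the four values of `y₁` by the cross-multiplied identity below.  (For `a' = a` this is `e₁ y = e₂ y`,
see `eval_eq_of_localGenerator_pow`.) -/
theorem cross_eq_of_localGenerator (S : NodeSetup n V₁ V₂ e₁ e₂ B Lam)
    (S' : NodeSetup n V₁' V₂' e₁' e₂' B Lam) (hn : n ≠ 0) (s : F ≃+* F) {Q : ℕ} (hQ : 0 < Q)
    (hs₁ : ∀ y ∈ V₁, s y ∈ V₁' ∧ ev V₁' e₁' (s y) = ev V₁ e₁ y ^ Q)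
    (hs₂ : ∀ y ∈ V₂, s y ∈ V₂' ∧ ev V₂' e₂' (s y) = ev V₂ e₂ y ^ Q)
    (hsL : ∀ f y, y ∈ Lam f → s y ∈ Lam (s f))
    {f : F} (hf₁ : f ∈ V₁) (hf₂ : f ∈ V₂) (hf1 : ev V₁ e₁ f = 1) (hf2 : ev V₂ e₂ f = 1)
    (hf₁' : f ∈ V₁') (hf₂' : f ∈ V₂') (hf1' : ev V₁' e₁' f = 1) (hf2' : ev V₂' e₂' f = 1)
    {y₁ : F} (hy₁ : y₁ ∈ Lam f) (hne : ev V₁ e₁ y₁ ≠ 0)
    {y : F} (hy : y ∈ Lam (s f / f ^ Q)) :
    y ∈ V₁' ∧ y ∈ V₂' ∧
      ev V₂' e₂' y * ev V₂' e₂' y₁ ^ Q * ev V₁ e₁ y₁ ^ Q =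
        ev V₁' e₁' y * ev V₁' e₁' y₁ ^ Q * ev V₂ e₂ y₁ ^ Q := by
  have hf0 : f ≠ 0 := by
    rintro rfl
    rw [ev_zero] at hf1
    exact zero_ne_one hf1
  have hfQ0 : f ^ Q ≠ 0 := pow_ne_zero Q hf0
  -- `s f` has value one at `a'` on both sides
  obtain ⟨hsf₁, hsf1⟩ := hs₁ f hf₁
  obtain ⟨hsf₂, hsf2⟩ := hs₂ f hf₂
  rw [hf1, one_pow] at hsf1
  rw [hf2, one_pow] at hsf2
  -- `f ^ Q` and its inverse at `a'`
  have hfQ₁ : f ^ Q ∈ V₁' := V₁'.pow_mem hf₁' Q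
  have hfQ₂ : f ^ Q ∈ V₂' := V₂'.pow_mem hf₂' Q
  have hfQ1 : ev V₁' e₁' (f ^ Q) = 1 := by rw [ev_pow hf₁', hf1', one_pow]
  have hfQ2 : ev V₂' e₂' (f ^ Q) = 1 := by rw [ev_pow hf₂', hf2', one_pow]
  have hfi₁ : (f ^ Q)⁻¹ ∈ V₁' := S'.loc₁ _ hfQ₁ (by rw [hfQ1]; exact one_ne_zero)
  have hfi₂ : (f ^ Q)⁻¹ ∈ V₂' := S'.loc₂ _ hfQ₂ (by rw [hfQ2]; exact one_ne_zero)
  have hi1 : ev V₁' e₁' (f ^ Q)⁻¹ = 1 := ev_inv_of_ev_eq_one hfQ₁ hfi₁ hfQ1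
  have hi2 : ev V₂' e₂' (f ^ Q)⁻¹ = 1 := ev_inv_of_ev_eq_one hfQ₂ hfi₂ hfQ2
  have hq₁ : s f / f ^ Q ∈ V₁' := by rw [div_eq_mul_inv]; exact V₁'.mul_mem hsf₁ hfi₁
  have hq₂ : s f / f ^ Q ∈ V₂' := by rw [div_eq_mul_inv]; exact V₂'.mul_mem hsf₂ hfi₂
  have hq1 : ev V₁' e₁' (s f / f ^ Q) = 1 := by
    rw [div_eq_mul_inv, ev_mul hsf₁ hfi₁, hsf1, hi1, mul_one]
  have hq2 : ev V₂' e₂' (s f / f ^ Q) = 1 := by
    rw [div_eq_mul_inv, ev_mul hsf₂ hfi₂, hsf2, hi2, mul_one]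
  obtain ⟨b₁, b₂, -⟩ := S'.mem_and_pow_eq hq₁ hq₂ hq1 hq2 hy
  refine ⟨b₁, b₂, ?_⟩
  -- the local generator at `a` and at `a'`
  obtain ⟨a₁, a₂, -⟩ := S.mem_and_pow_eq hf₁ hf₂ hf1 hf2 hy₁
  obtain ⟨a₁', a₂', -⟩ := S'.mem_and_pow_eq hf₁' hf₂' hf1' hf2' hy₁
  -- two elements of `Lam (s f)`
  have hA : s y₁ ∈ Lam (s f) := hsL f y₁ hy₁
  have hB' : y * y₁ ^ Q ∈ Lam (s f) := by
    have := S'.mul_mem _ _ _ _ hy (pow_mem S' hy₁ hQ)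
    rwa [div_mul_cancel₀ _ hfQ0] at this
  have hne' : ev V₁' e₁' (s y₁) ≠ 0 := by
    rw [(hs₁ y₁ a₁).2]
    exact pow_ne_zero Q hne
  have key := S'.mul_eq_mul hn hsf₁ hsf₂ hsf1 hsf2 hA hB' hne'
  rw [(hs₁ y₁ a₁).2, (hs₂ y₁ a₂).2, ev_mul b₁ (V₁'.pow_mem a₁' Q),
    ev_mul b₂ (V₂'.pow_mem a₂' Q), ev_pow a₁', ev_pow a₂'] at key
  exact key

end TwoNodes

section OneNode

variable {n : ℕ} {V₁ V₂ : Subring F} {e₁ : V₁ →+* k} {e₂ : V₂ →+* k} {B : Subring F}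
  {Lam : F → AddSubgroup F}

/-- **GlueG(`s f / f ^ Q`).**  Let `s` be a ring automorphism of `F` preserving `V₁`, `V₂` and the
lattices, and acting on the values at the node through the `Q`-th power (`Q ≥ 1`).  If `f` has value
`1` at the node on both sides and `Lam f` has a local generator at the node, then every
`y ∈ Lam (s f / f ^ Q)` is regular at the node on both sides and takes the same value there. -/
theorem eval_eq_of_localGenerator_pow (S : NodeSetup n V₁ V₂ e₁ e₂ B Lam) (hn : n ≠ 0)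
    (s : F ≃+* F) {Q : ℕ} (hQ : 0 < Q)
    (hs₁ : ∀ y ∈ V₁, s y ∈ V₁ ∧ ev V₁ e₁ (s y) = ev V₁ e₁ y ^ Q)
    (hs₂ : ∀ y ∈ V₂, s y ∈ V₂ ∧ ev V₂ e₂ (s y) = ev V₂ e₂ y ^ Q)
    (hsL : ∀ f y, y ∈ Lam f → s y ∈ Lam (s f))
    {f : F} (hf₁ : f ∈ V₁) (hf₂ : f ∈ V₂) (hf1 : ev V₁ e₁ f = 1) (hf2 : ev V₂ e₂ f = 1)
    (hgen : ∃ y₁ ∈ Lam f, ev V₁ e₁ y₁ ≠ 0)
    {y : F} (hy : y ∈ Lam (s f / f ^ Q)) :
    y ∈ V₁ ∧ y ∈ V₂ ∧ ev V₁ e₁ y = ev V₂ e₂ y := by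
  obtain ⟨y₁, hy₁, hne⟩ := hgen
  obtain ⟨b₁, b₂, key⟩ := cross_eq_of_localGenerator S S hn s hQ hs₁ hs₂ hsL hf₁ hf₂ hf1 hf2
    hf₁ hf₂ hf1 hf2 hy₁ hne hy
  refine ⟨b₁, b₂, ?_⟩
  obtain ⟨-, -, hpow⟩ := S.mem_and_pow_eq hf₁ hf₂ hf1 hf2 hy₁
  have hne₂ : ev V₂ e₂ y₁ ≠ 0 := by
    intro h0
    rw [h0, zero_pow hn] at hpow
    exact hne ((pow_eq_zero_iff hn).mp hpow)
  have h3 : (ev V₂ e₂ y - ev V₁ e₁ y) * (ev V₁ e₁ y₁ ^ Q * ev V₂ e₂ y₁ ^ Q) = 0 := by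
    linear_combination key
  rcases mul_eq_zero.mp h3 with h4 | h4
  · exact (sub_eq_zero.mp h4).symm
  · exact absurd h4 (mul_ne_zero (pow_ne_zero Q hne) (pow_ne_zero Q hne₂))

/-- the inertia case `Q = 1` recovers `GlueG.NodeSetup.eval_eq_of_localGenerator` -/
theorem eval_eq_of_localGenerator_one (S : NodeSetup n V₁ V₂ e₁ e₂ B Lam) (hn : n ≠ 0)
    (s : F ≃+* F)
    (hs₁ : ∀ y ∈ V₁, s y ∈ V₁ ∧ ev V₁ e₁ (s y) = ev V₁ e₁ y)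
    (hs₂ : ∀ y ∈ V₂, s y ∈ V₂ ∧ ev V₂ e₂ (s y) = ev V₂ e₂ y)
    (hsL : ∀ f y, y ∈ Lam f → s y ∈ Lam (s f))
    {f : F} (hf₁ : f ∈ V₁) (hf₂ : f ∈ V₂) (hf1 : ev V₁ e₁ f = 1) (hf2 : ev V₂ e₂ f = 1)
    (hgen : ∃ y₁ ∈ Lam f, ev V₁ e₁ y₁ ≠ 0)
    {y : F} (hy : y ∈ Lam (s f / f)) :
    y ∈ V₁ ∧ y ∈ V₂ ∧ ev V₁ e₁ y = ev V₂ e₂ y := by
  have hy' : y ∈ Lam (s f / f ^ 1) := by rwa [pow_one]
  exact eval_eq_of_localGenerator_pow S hn s Nat.one_pos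
    (fun y h => ⟨(hs₁ y h).1, by rw [(hs₁ y h).2, pow_one]⟩)
    (fun y h => ⟨(hs₂ y h).1, by rw [(hs₂ y h).2, pow_one]⟩) hsL hf₁ hf₂ hf1 hf2 hgen hy'

end OneNode

end Fermat.Agent.S35.GlueGFrob
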