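/-
S35 (downstream of PROJECT U), layer (L3) of (NEW-σ) in the vocabulary of `S34/NodalDefs.lean`
(helper18).

THE FROBENIUS TWIN of `S34/GlueGNodal.glueG_of_inertia` (helper2) and of
`S34/CoreZOfNodal.principal_of_nodal` (helper6).

`GlueGNodal.glueG_of_inertia` treats an automorphism `s` of the function field `FL` which preserves
both Gauss rings and acts TRIVIALLY on the two reductions (an inertia element), and proves
`GlueG N D'` for `D' = div (s f / f) / p`.  For the frozen S35 one needs the same for `s = σ²`, `σ` a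
Frobenius lift at `q`: `s` still preserves both Gauss rings and every node (the nodes are
`𝔽_{q²}`-rational), but it acts on the VALUES at the nodes through the `Q`-th power map, `Q = q²`,
and it permutes the places of the two components.  The conclusion becomes `GlueG N D'` for
`D' = div (s f / f ^ Q) / p`, and with the nodal core: `s f / f ^ Q ∈ L^× · FL^{× p}`, i.e.
`σ² = q²` on the toric part `Z`.

* `map_mem_and_ev_pow`   : twin of `GlueG.ValueAt.map_mem_and_ev_eq` (values raised to the power `Q`);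
* `glueG_of_frobenius`   : twin of `glueG_of_inertia` (at every node helper24's
  `S35/GlueGFrob.eval_eq_of_localGenerator_pow` replaces `GlueG.eval_eq_of_localGenerator`);
* `principal_of_frobenius` : the nodal core applied to `f' = g u / u ^ Q`, `D' = g D - Q D` for a
  semilinear automorphism `g` of `FL / L`.
-/
import Mathlib
import Fermat.Agent.S34.GlueGNodal
import Fermat.Agent.S34.CoreZOfNodal
import Fermat.Agent.S35.GlueGFrob

set_option autoImplicit false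
set_option linter.unusedSectionVars false
set_option linter.unusedVariables false

namespace Fermat.Agent.S35.GlueGNodalFrob

open AlgebraicCurve Fermat.Agent.S24.Ord Fermat.Agent.S34.NodalDefs Fermat.Agent.S34.NodalDisc
  Fermat.Agent.S34.NodalCore Fermat.Agent.S34.GlueGNodal
open Fermat.Agent.S18.CoreDefs (RiemannGe)
open Fermat.Agent.S18.CoreOrd hiding coe_unit_ne_zero red_unit_ne_zero unitOfRed coe_unitOfRed constO
  coe_constO red_constO isUnit_iff_red_ne_zero exists_div_unit ord_red_nonneg le_ord_red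
  ord_red_eq_zero exists_unique_zero

section ValueAt

open Fermat.Agent.S34.GlueG Fermat.Agent.S34.GlueG.ValueAt

variable {k : Type*} [Field k] {Fk : Type*} [Field Fk] [Algebra k Fk]
variable {FL : Type*} [Field FL]
variable (O : ValuationSubring FL) (red : O →+* Fk) (hred : ∀ u : O, red u = 0 ↔ ¬ IsUnit u)
  (Q : Place k Fk)

/-- twin of `ValueAt.map_mem_and_ev_eq`: an automorphism which preserves `O` and raises the values
at `Q` of the reductions to the `n`-th power preserves the composite ring at `Q` and raises the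
evaluation to the `n`-th power. -/
theorem map_mem_and_ev_pow (hQ : Q.deg = 1) (s : FL ≃+* FL) (n : ℕ)
    (hs : ∀ (y : FL) (h : y ∈ O), ∃ h' : s y ∈ O, ∀ c : k,
      HasValue Q (red ⟨y, h⟩) c → HasValue Q (red ⟨s y, h'⟩) (c ^ n))
    (y : FL) (hy : y ∈ compVal O red hred Q) :
    s y ∈ compVal O red hred Q ∧
      ev (compVal O red hred Q).toSubring (compEval O red hred Q hQ) (s y) =
        ev (compVal O red hred Q).toSubring (compEval O red hred Q hQ) y ^ n := by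
  obtain ⟨h', hval⟩ := hs y hy.1
  have h1 : HasValue Q (red ⟨y, hy.1⟩)
      (ev (compVal O red hred Q).toSubring (compEval O red hred Q hQ) y) :=
    (mem_and_ev_eq_iff O red hred Q hQ hy.1 _).mp ⟨hy, rfl⟩
  exact (mem_and_ev_eq_iff O red hred Q hQ h' _).mpr (hval _ h1)

end ValueAt

variable {L : Type*} [Field L] {FL : Type*} [Field FL] [Algebra L FL]
variable {k : Type*} [Field k] {F1 : Type*} [Field F1] [Algebra k F1]
  {F2 : Type*} [Field F2] [Algebra k F2]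
variable {A : ValuationSubring L} {π : A →+* k} {ι : Type*}

open Fermat.Agent.S34.GlueG Fermat.Agent.S34.GlueG.ValueAt in
/-- **GlueG for `s f / f ^ Q`** (layer (L3) of (NEW-σ)).  `s` is an automorphism of `FL` which
preserves both Gauss rings, raises the values of the two reductions at every node to the `Q`-th
power (`Q ≥ 1`), and whose action `τ = s⁻¹` on places preserves the places lying over an admissible
pair of sets (the square of a Frobenius lift; `Q = q²`).  If `f ≡ 1` on both components and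
`div f = p D` with `deg D = 0`, then the divisor `D'` of `(s f / f ^ Q)^(1/p)` satisfies the gluing
hypothesis of the nodal core.  (`Q = 1` with trivial action on the reductions is
`GlueGNodal.glueG_of_inertia`.) -/
theorem glueG_of_frobenius [HasPrincipalDivisors L FL] [Fintype ι] [Nonempty ι]
    (N : GNodalDatum A π FL F1 F2 ι) (hdegL : ∀ P : Place L FL, P.deg = 1)
    (hdeg1 : ∀ e, (N.e1 e).deg = 1) (hdeg2 : ∀ e, (N.e2 e).deg = 1)
    (hadmfin : ∀ S1 S2, N.Adm S1 S2 → S1.Finite ∧ S2.Finite)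
    (hπ : Function.Surjective π) (p : ℕ) (hp : p ≠ 0)
    (x1 : N.R1.O)
    (hunram1 : {Q : Place k F1 | ¬ ∃ γ : k, Q.ord (N.R1.red x1 - algebraMap k F1 γ) = 1}.Finite)
    (x2 : N.R2.O)
    (hunram2 : {Q : Place k F2 | ¬ ∃ γ : k, Q.ord (N.R2.red x2 - algebraMap k F2 γ) = 1}.Finite)
    {g1 m2 : ℕ} (hR : RiemannGe L FL (g1 + m2)) (hG : NodalRigid k F1 F2 N.e2 g1 m2)
    (s : FL ≃+* FL) (τ : Place L FL → Place L FL)
    (hτ : ∀ (P : Place L FL) (y : FL),
      y ∈ (τ P).toValuationSubring ↔ s y ∈ P.toValuationSubring)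
    (Qn : ℕ) (hQn : 0 < Qn)
    (hs1 : ∀ (y : FL) (h : y ∈ N.R1.O), ∃ h' : s y ∈ N.R1.O, ∀ (e : ι) (c : k),
      HasValue (N.e1 e) (N.R1.red ⟨y, h⟩) c → HasValue (N.e1 e) (N.R1.red ⟨s y, h'⟩) (c ^ Qn))
    (hs1' : ∀ y : FL, s y ∈ N.R1.O → y ∈ N.R1.O)
    (hs2 : ∀ (y : FL) (h : y ∈ N.R2.O), ∃ h' : s y ∈ N.R2.O, ∀ (e : ι) (c : k),
      HasValue (N.e2 e) (N.R2.red ⟨y, h⟩) c → HasValue (N.e2 e) (N.R2.red ⟨s y, h'⟩) (c ^ Qn))
    (hs2' : ∀ y : FL, s y ∈ N.R2.O → y ∈ N.R2.O)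
    (hr1 : ∀ S1 S2, N.Adm S1 S2 → ∀ P : Place L FL,
      (∃ Q ∈ S1, N.R1.r (τ P) = some Q) → ∃ Q ∈ S1, N.R1.r P = some Q)
    (hr2 : ∀ S1 S2, N.Adm S1 S2 → ∀ P : Place L FL,
      (∃ Q ∈ S2, N.R2.r (τ P) = some Q) → ∃ Q ∈ S2, N.R2.r P = some Q)
    (D : Divisor L FL) (hD0 : Divisor.degree D = 0)
    (f1 : N.R1.Oˣ) (f2 : N.R2.Oˣ) (hf12 : ((f1 : N.R1.O) : FL) = ((f2 : N.R2.O) : FL))
    (hred1 : N.R1.red (f1 : N.R1.O) = 1) (hred2 : N.R2.red (f2 : N.R2.O) = 1)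
    (hfD : ∀ P : Place L FL, P.ord ((f1 : N.R1.O) : FL) = p * D P)
    (D' : Divisor L FL)
    (hD' : ∀ P : Place L FL,
      P.ord (s ((f1 : N.R1.O) : FL) / ((f1 : N.R1.O) : FL) ^ Qn) = p * D' P) :
    GlueG N D' := by
  classical
  have : NeZero p := ⟨hp⟩
  have hppos : (0 : ℤ) < p := by exact_mod_cast Nat.pos_of_ne_zero hp
  -- Step 0: rigid generic places and their lifts, as in `nodal_core`
  set Bad1 : Set (Place k F1) :=
    {Q : Place k F1 | ¬ ∃ γ : k, Q.ord (N.R1.red x1 - algebraMap k F1 γ) = 1} ∪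
      {Q : Place k F1 | ∃ P : Place L FL, P.ord ((x1 : N.R1.O) : FL) < 0 ∧ N.R1.r P = some Q} ∪
      (N.R1.good)ᶜ with hBad1
  set Bad2 : Set (Place k F2) :=
    {Q : Place k F2 | ¬ ∃ γ : k, Q.ord (N.R2.red x2 - algebraMap k F2 γ) = 1} ∪
      {Q : Place k F2 | ∃ P : Place L FL, P.ord ((x2 : N.R2.O) : FL) < 0 ∧ N.R2.r P = some Q} ∪
      (N.R2.good)ᶜ with hBad2
  have hBad1fin : Bad1.Finite :=
    (hunram1.union (finite_image_poles N.R1 _)).union N.finite_compl_good1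
  have hBad2fin : Bad2.Finite :=
    (hunram2.union (finite_image_poles N.R2 _)).union N.finite_compl_good2
  obtain ⟨Q1, Q2, hQ1, hQ2, hQ1Bad, hQ2Bad, hrig1, hrig2⟩ := hG Bad1 hBad1fin Bad2 hBad2fin
  have hQ1g : ∀ i, Q1 i ∈ N.R1.good := by
    intro i
    by_contra hcon
    exact hQ1Bad i (Or.inr hcon)
  have hQ2g : ∀ j, Q2 j ∈ N.R2.good := by
    intro j
    by_contra hcon
    exact hQ2Bad j (Or.inr hcon)
  have hpar1 : ∀ i, ∃ (T : N.R1.O) (P0 : Place L FL), (Q1 i).ord (N.R1.red T) = 1 ∧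
      (∀ P : Place L FL, N.R1.r P = some (Q1 i) → 0 ≤ P.ord ((T : N.R1.O) : FL)) ∧
      N.R1.r P0 = some (Q1 i) ∧ 0 < P0.ord ((T : N.R1.O) : FL) := by
    intro i
    refine exists_param N.R1 hπ x1 (Q1 i) (hQ1g i) ?_ ?_
    · by_contra hcon
      exact hQ1Bad i (Or.inl (Or.inl hcon))
    · intro P hP
      by_contra hcon
      rw [not_le] at hcon
      exact hQ1Bad i (Or.inl (Or.inr ⟨P, hcon, hP⟩))
  have hpar2 : ∀ j, ∃ (T : N.R2.O) (P0 : Place L FL), (Q2 j).ord (N.R2.red T) = 1 ∧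
      (∀ P : Place L FL, N.R2.r P = some (Q2 j) → 0 ≤ P.ord ((T : N.R2.O) : FL)) ∧
      N.R2.r P0 = some (Q2 j) ∧ 0 < P0.ord ((T : N.R2.O) : FL) := by
    intro j
    refine exists_param N.R2 hπ x2 (Q2 j) (hQ2g j) ?_ ?_
    · by_contra hcon
      exact hQ2Bad j (Or.inl (Or.inl hcon))
    · intro P hP
      by_contra hcon
      rw [not_le] at hcon
      exact hQ2Bad j (Or.inl (Or.inr ⟨P, hcon, hP⟩))
  choose T1 P01 hT1Q hT1reg hP01 hT10 using hpar1
  choose T2 P02 hT2Q hT2reg hP02 hT20 using hpar2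
  -- Step 1: the local generator
  obtain ⟨u1, u2, γ, hγ, hu12, hu1red, huD⟩ :=
    exists_localGenerator N hdegL p hp hR Q1 Q2 hQ1g hQ2g hrig1 hrig2 P01 P02 hP01 hP02 D hD0
      f1 f2 hf12 hred1 hred2 hfD
  -- Step 2: the data of `GlueG`
  intro S1 S2 hadm y1 y2 hy12 hy0 hpole e
  obtain ⟨hS1fin, hS2fin⟩ := hadmfin S1 S2 hadm
  obtain ⟨hS1g, hS2g⟩ := N.adm_subset_good S1 S2 hadm
  obtain ⟨T1', T2', hadm', hT1', hT2'⟩ := N.exists_adm (S1 ∪ Set.range Q1) (S2 ∪ Set.range Q2)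
    (hS1fin.union (Set.finite_range _)) (hS2fin.union (Set.finite_range _))
    (Set.union_subset hS1g (by rintro _ ⟨i, rfl⟩; exact hQ1g i))
    (Set.union_subset hS2g (by rintro _ ⟨j, rfl⟩; exact hQ2g j))
  -- the non-admissible places
  set isOver : Place L FL → Prop := fun P =>
    (∃ Q ∈ T1', N.R1.r P = some Q) ∨ (∃ Q ∈ T2', N.R2.r P = some Q) with hisOver
  set 𝒬 : Set (ValuationSubring FL) :=
    {V | V = N.R1.O ∨ V = N.R2.O ∨ ∃ P : Place L FL, ¬ isOver P ∧ V = P.toValuationSubring} with h𝒬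
  have hO1 : N.R1.O ∈ 𝒬 := Or.inl rfl
  have hO2 : N.R2.O ∈ 𝒬 := Or.inr (Or.inl rfl)
  have hPl : ∀ P : Place L FL, ¬ isOver P → P.toValuationSubring ∈ 𝒬 :=
    fun P hP => Or.inr (Or.inr ⟨P, hP, rfl⟩)
  -- membership in a place from the order
  have hmemP : ∀ (P : Place L FL) (z : FL), z ≠ 0 → 0 ≤ P.ord z → z ∈ P.toValuationSubring :=
    fun P z hz h => (mem_iff P z).mpr ((ord_nonneg_iff P hz).mp h)
  -- the node
  set V1 := compVal N.R1.O N.R1.red N.R1.red_eq_zero_iff (N.e1 e) with hV1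
  set V2 := compVal N.R2.O N.R2.red N.R2.red_eq_zero_iff (N.e2 e) with hV2
  set E1 := compEval N.R1.O N.R1.red N.R1.red_eq_zero_iff (N.e1 e) (hdeg1 e) with hE1
  set E2 := compEval N.R2.O N.R2.red N.R2.red_eq_zero_iff (N.e2 e) (hdeg2 e) with hE2
  have dict1 : ∀ (y : FL) (hy : y ∈ N.R1.O) (c : k),
      (y ∈ V1 ∧ ev V1.toSubring E1 y = c) ↔ HasValue (N.e1 e) (N.R1.red ⟨y, hy⟩) c :=
    fun y hy c => mem_and_ev_eq_iff N.R1.O N.R1.red N.R1.red_eq_zero_iff (N.e1 e) (hdeg1 e) hy c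
  have dict2 : ∀ (y : FL) (hy : y ∈ N.R2.O) (c : k),
      (y ∈ V2 ∧ ev V2.toSubring E2 y = c) ↔ HasValue (N.e2 e) (N.R2.red ⟨y, hy⟩) c :=
    fun y hy c => mem_and_ev_eq_iff N.R2.O N.R2.red N.R2.red_eq_zero_iff (N.e2 e) (hdeg2 e) hy c
  -- (G2) + (G3) at the node
  have hglue : ∀ h ∈ ringB 𝒬, h ∈ V1 ∧ h ∈ V2 ∧ ev V1.toSubring E1 h = ev V2.toSubring E2 h := by
    intro h hh
    have h1 : h ∈ N.R1.O := hh _ hO1
    have h2 : h ∈ N.R2.O := hh _ hO2
    have hpoles : ∀ P : Place L FL, P.ord ((⟨h, h1⟩ : N.R1.O) : FL) < 0 → isOver P := by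
      intro P hP
      by_contra hcon
      have hm : h ∈ P.toValuationSubring := hh _ (hPl P hcon)
      have h0 : h ≠ 0 := by
        rintro rfl
        simp at hP
      have := (ord_nonneg_iff P h0).mpr ((mem_iff P h).mp hm)
      exact absurd hP (not_lt.mpr this)
    obtain ⟨-, -, hgl⟩ := N.pcg T1' T2' hadm' ⟨h, h1⟩ ⟨h, h2⟩ rfl hpoles
    obtain ⟨c, hc1, hc2⟩ := hgl e
    obtain ⟨m1, v1⟩ := (dict1 h h1 c).mpr hc1
    obtain ⟨m2, v2⟩ := (dict2 h h2 c).mpr hc2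
    exact ⟨m1, m2, v1.trans v2.symm⟩
  have hchi : ∀ t : k, ∃ h ∈ ringB 𝒬, ev V1.toSubring E1 h = t := by
    intro t
    obtain ⟨a, rfl⟩ := hπ t
    refine ⟨algebraMap L FL (a : L), ?_, ?_⟩
    · rintro Q (rfl | rfl | ⟨P, -, rfl⟩)
      · exact N.R1.algebraMap_mem a
      · exact N.R2.algebraMap_mem a
      · exact P.algebraMap_mem' _
    · exact ((dict1 _ (N.R1.algebraMap_mem a) (π a)).mpr (Or.inl (N.R1.red_algebraMap a))).2
  have S : NodeSetup p V1.toSubring V2.toSubring E1 E2 (ringB 𝒬) (lam 𝒬 p) :=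
    nodeSetup_lam 𝒬 p V1 V2 E1 E2
      (inv_mem_of_ev_ne_zero N.R1.O N.R1.red N.R1.red_eq_zero_iff (N.e1 e) (hdeg1 e))
      (inv_mem_of_ev_ne_zero N.R2.O N.R2.red N.R2.red_eq_zero_iff (N.e2 e) (hdeg2 e))
      hglue hchi
  -- the automorphism
  have hs𝒬 : ∀ Q ∈ 𝒬, Q.comap (s : FL →+* FL) ∈ 𝒬 := by
    rintro Q (rfl | rfl | ⟨P, hP, rfl⟩)
    · have : N.R1.O.comap (s : FL →+* FL) = N.R1.O := by
        ext y
        rw [ValuationSubring.mem_comap]
        exact ⟨fun h => hs1' y h, fun h => (hs1 y h).1⟩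
      rw [this]
      exact hO1
    · have : N.R2.O.comap (s : FL →+* FL) = N.R2.O := by
        ext y
        rw [ValuationSubring.mem_comap]
        exact ⟨fun h => hs2' y h, fun h => (hs2 y h).1⟩
      rw [this]
      exact hO2
    · have : P.toValuationSubring.comap (s : FL →+* FL) = (τ P).toValuationSubring := by
        ext y
        rw [ValuationSubring.mem_comap]
        exact (hτ P y).symm
      rw [this]
      refine hPl (τ P) ?_
      rintro (h | h)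
      · exact hP (Or.inl (hr1 T1' T2' hadm' P h))
      · exact hP (Or.inr (hr2 T1' T2' hadm' P h))
  have hsV1 : ∀ y ∈ V1.toSubring, s y ∈ V1.toSubring ∧
      ev V1.toSubring E1 (s y) = ev V1.toSubring E1 y ^ Qn := fun y hy =>
    map_mem_and_ev_pow N.R1.O N.R1.red N.R1.red_eq_zero_iff (N.e1 e) (hdeg1 e) s Qn
      (fun y h => ⟨(hs1 y h).1, fun c hc => (hs1 y h).2 e c hc⟩) y hy
  have hsV2 : ∀ y ∈ V2.toSubring, s y ∈ V2.toSubring ∧
      ev V2.toSubring E2 (s y) = ev V2.toSubring E2 y ^ Qn := fun y hy =>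
    map_mem_and_ev_pow N.R2.O N.R2.red N.R2.red_eq_zero_iff (N.e2 e) (hdeg2 e) s Qn
      (fun y h => ⟨(hs2 y h).1, fun c hc => (hs2 y h).2 e c hc⟩) y hy
  have hsL : ∀ f y, y ∈ lam 𝒬 p f → s y ∈ lam 𝒬 p (s f) := fun f y hy =>
    map_mem_lam s hs𝒬 hy
  -- the function `f`
  set f : FL := ((f1 : N.R1.O) : FL) with hf
  have hf1mem : f ∈ N.R1.O := (f1 : N.R1.O).2
  have hf2mem : f ∈ N.R2.O := by rw [hf12]; exact (f2 : N.R2.O).2
  have hf0 : f ≠ 0 := coe_unit_ne_zero N.R1.toBranch f1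
  have hfV1 : f ∈ V1 ∧ ev V1.toSubring E1 f = 1 := by
    refine (dict1 f hf1mem 1).mpr (Or.inl ?_)
    rw [map_one]
    exact hred1
  have hfV2 : f ∈ V2 ∧ ev V2.toSubring E2 f = 1 := by
    refine (dict2 f hf2mem 1).mpr (Or.inl ?_)
    rw [map_one]
    have : (⟨f, hf2mem⟩ : N.R2.O) = (f2 : N.R2.O) := Subtype.ext hf12
    rw [this]
    exact hred2
  -- `B = ∑ P01 + ∑ P02` vanishes at the non-admissible places
  have hBzero : ∀ P : Place L FL, ¬ isOver P →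
      ((∑ i, Finsupp.single (P01 i) (1 : ℤ)) + ∑ j, Finsupp.single (P02 j) (1 : ℤ)) P = 0 := by
    intro P hP
    rw [Finsupp.add_apply, sum_single_apply_of_notMem' P01 P, sum_single_apply_of_notMem' P02 P,
      add_zero]
    · intro j hj
      exact hP (Or.inr ⟨Q2 j, hT2' (Or.inr ⟨j, rfl⟩), by rw [← hj]; exact hP02 j⟩)
    · intro i hi
      exact hP (Or.inl ⟨Q1 i, hT1' (Or.inr ⟨i, rfl⟩), by rw [← hi]; exact hP01 i⟩)
  -- the local generator lies in `lam f`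
  set w : FL := ((u1 : N.R1.O) : FL) with hw
  have hw0 : w ≠ 0 := coe_unit_ne_zero N.R1.toBranch u1
  have hw1mem : w ∈ N.R1.O := (u1 : N.R1.O).2
  have hw2mem : w ∈ N.R2.O := by rw [hu12]; exact (u2 : N.R2.O).2
  have hwlam : w ∈ lam 𝒬 p f := by
    rintro Q (rfl | rfl | ⟨P, hP, rfl⟩)
    · exact N.R1.O.mul_mem _ _ (N.R1.O.pow_mem hw1mem p) hf1mem
    · exact N.R2.O.mul_mem _ _ (N.R2.O.pow_mem hw2mem p) hf2mem
    · refine hmemP P _ (mul_ne_zero (pow_ne_zero _ hw0) hf0) ?_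
      rw [P.ord_mul (pow_ne_zero _ hw0) hf0, ord_pow, hfD]
      have h1 := huD P
      rw [hBzero P hP, add_zero] at h1
      nlinarith
  have hgen : ∃ y₁ ∈ lam 𝒬 p f, ev V1.toSubring E1 y₁ ≠ 0 := by
    refine ⟨w, hwlam, ?_⟩
    rw [((dict1 w hw1mem γ).mpr (Or.inl hu1red)).2]
    exact hγ
  -- the given function lies in `lam (s f / f)`
  set y : FL := ((y1 : N.R1.O) : FL) with hy
  have hy1mem : y ∈ N.R1.O := y1.2
  have hy2mem : y ∈ N.R2.O := by rw [hy12]; exact y2.2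
  have hsf0 : s f ≠ 0 := (map_ne_zero_iff s s.injective).mpr hf0
  have hfinv1 : f⁻¹ ∈ N.R1.O := by
    rw [hf, ← coe_inv_unit N.R1.toBranch f1]
    exact ((f1⁻¹ : N.R1.Oˣ) : N.R1.O).2
  have hfinv2 : f⁻¹ ∈ N.R2.O := by
    rw [hf12, ← coe_inv_unit N.R2.toBranch f2]
    exact ((f2⁻¹ : N.R2.Oˣ) : N.R2.O).2
  have hylam : y ∈ lam 𝒬 p (s f / f ^ Qn) := by
    rintro Q (rfl | rfl | ⟨P, hP, rfl⟩)
    · rw [div_eq_mul_inv, ← inv_pow]
      exact N.R1.O.mul_mem _ _ (N.R1.O.pow_mem hy1mem p)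
        (N.R1.O.mul_mem _ _ (hs1 f hf1mem).1 (N.R1.O.pow_mem hfinv1 Qn))
    · rw [div_eq_mul_inv, ← inv_pow]
      exact N.R2.O.mul_mem _ _ (N.R2.O.pow_mem hy2mem p)
        (N.R2.O.mul_mem _ _ (hs2 f hf2mem).1 (N.R2.O.pow_mem hfinv2 Qn))
    · have hq0 : s f / f ^ Qn ≠ 0 := div_ne_zero hsf0 (pow_ne_zero _ hf0)
      refine hmemP P _ (mul_ne_zero (pow_ne_zero _ hy0) hq0) ?_
      rw [P.ord_mul (pow_ne_zero _ hy0) hq0, ord_pow, hD']
      have h1 : ¬ (P.ord y + D' P < 0) := by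
        intro hcon
        rcases hpole P hcon with ⟨Q, hQ, hQr⟩ | ⟨Q, hQ, hQr⟩
        · exact hP (Or.inl ⟨Q, hT1' (Or.inl hQ), hQr⟩)
        · exact hP (Or.inr ⟨Q, hT2' (Or.inl hQ), hQr⟩)
      rw [not_lt] at h1
      nlinarith
  -- conclusion
  obtain ⟨m1, m2, hval⟩ := Fermat.Agent.S35.GlueGFrob.eval_eq_of_localGenerator_pow S hp s hQn
    hsV1 hsV2 hsL hfV1.1 hfV2.1 hfV1.2 hfV2.2 hgen hylam
  refine ⟨ev V1.toSubring E1 y, ?_, ?_⟩
  · exact (dict1 y hy1mem _).mp ⟨m1, rfl⟩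
  · have h2 := (dict2 y hy2mem _).mp ⟨m2, hval.symm⟩
    have : (⟨y, hy2mem⟩ : N.R2.O) = y2 := Subtype.ext hy12
    rw [this] at h2
    exact h2



open Fermat.Agent.S34.KummerZ Fermat.Agent.S34.CoreZOfPrincipal Fermat.Agent.S34.CoreZOfNodal in
/-- **The quotient `g u / u ^ Q` as a one-unit of a branch**, for `g` acting on the reduction
through a ring homomorphism `Ψ`. -/
theorem exists_unit_quotient_pow {Fk : Type*} [Field Fk] [Algebra k Fk]
    (R : Branch A π FL Fk) (g : SemilinearAut L FL) (Ψ : Fk →+* Fk)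
    (hg : ∀ y : R.O, ∃ h : g • ((y : R.O) : FL) ∈ R.O, R.red ⟨_, h⟩ = Ψ (R.red y)) (Qn : ℕ)
    {u : FL} (hu : u ∈ R.O) (hred : R.red ⟨u, hu⟩ = 1) :
    ∃ f : R.Oˣ, ((f : R.O) : FL) = g • u / u ^ Qn ∧ R.red (f : R.O) = 1 := by
  obtain ⟨hgu, hgred⟩ := hg ⟨u, hu⟩
  rw [hred, map_one] at hgred
  have h1 : IsUnit (⟨u, hu⟩ : R.O) := isUnit_of_red_eq_one R _ hred
  have h2 : IsUnit (⟨g • u, hgu⟩ : R.O) := isUnit_of_red_eq_one R _ hgred
  obtain ⟨v1, hv1⟩ := h1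
  obtain ⟨v2, hv2⟩ := h2
  refine ⟨v2 * (v1⁻¹) ^ Qn, ?_, ?_⟩
  · have e1 : ((v1 : R.O) : FL) = u := by rw [hv1]
    have e2 : ((v2 : R.O) : FL) = g • u := by rw [hv2]
    have hu0 : u ≠ 0 := by
      rintro rfl
      have hz : (⟨0, hu⟩ : R.O) = 0 := rfl
      rw [hz, map_zero] at hred
      exact zero_ne_one hred
    have hinv : ((↑(v1⁻¹) : R.O) : FL) = u⁻¹ := by
      have hm : ((v1 : R.O) : FL) * ((↑(v1⁻¹) : R.O) : FL) = 1 := by
        have h0 : ((v1 : R.O) * (↑(v1⁻¹) : R.O) : R.O) = 1 := Units.mul_inv v1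
        have h1 := congrArg (fun z : R.O => (z : FL)) h0
        exact h1
      rw [e1] at hm
      exact eq_inv_of_mul_eq_one_right hm
    rw [Units.val_mul, Units.val_pow_eq_pow_val, div_eq_mul_inv, ← inv_pow]
    show ((v2 : R.O) : FL) * (((↑(v1⁻¹) : R.O) ^ Qn : R.O) : FL) = g • u * u⁻¹ ^ Qn
    rw [e2, ← hinv]
    rfl
  · rw [Units.val_mul, Units.val_pow_eq_pow_val, map_mul, map_pow, hv2, hgred, one_mul]
    have hm : R.red (v1 : R.O) * R.red (↑(v1⁻¹) : R.O) = 1 := by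
      rw [← map_mul, Units.mul_inv, map_one]
    rw [hv1, hred, one_mul] at hm
    rw [hm, one_pow]

open Fermat.Agent.S34.KummerZ Fermat.Agent.S34.CoreZOfPrincipal Fermat.Agent.S34.CoreZOfNodal in
/-- **`σ² = q²` on the toric part** (layer (L3) of (NEW-σ)), nodal-core form.  Let `g` be a
semilinear automorphism of `FL / L` which preserves both Gauss rings, acts on the two residue
function fields through ring homomorphisms `Ψ₁`, `Ψ₂` raising the values at every node to the `Q`-th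
power, and whose action on places preserves the places over admissible sets.  If `u` is a one-unit of
both Gauss rings with `div u = n D`, `deg D = 0`, `n` invertible in `k`, then `g D - Q D` is
principal (so `g u / u ^ Q ∈ L^× · FL^{× n}`). -/
theorem principal_of_frobenius [HasPrincipalDivisors L FL] [HasPrincipalDivisors k F1]
    [HasPrincipalDivisors k F2] [Fintype ι] [Nonempty ι]
    (N : GNodalDatum A π FL F1 F2 ι) (hdegL : ∀ P : Place L FL, P.deg = 1)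
    (hdeg1 : ∀ e, (N.e1 e).deg = 1) (hdeg2 : ∀ e, (N.e2 e).deg = 1)
    (hadmfin : ∀ S1 S2, N.Adm S1 S2 → S1.Finite ∧ S2.Finite)
    (hπ : Function.Surjective π) (n : ℕ) (hnk : (n : k) ≠ 0)
    (x1 : N.R1.O)
    (hunram1 : {Q : Place k F1 | ¬ ∃ γ : k, Q.ord (N.R1.red x1 - algebraMap k F1 γ) = 1}.Finite)
    (x2 : N.R2.O)
    (hunram2 : {Q : Place k F2 | ¬ ∃ γ : k, Q.ord (N.R2.red x2 - algebraMap k F2 γ) = 1}.Finite)
    {g1 m2 : ℕ} (hR : RiemannGe L FL (g1 + m2)) (hG : NodalRigid k F1 F2 N.e2 g1 m2)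
    (Pstar : Place L FL) (Qstar : Place k F1) (hQstar : Qstar ∈ N.R1.good)
    (hstar : N.R1.r Pstar = some Qstar)
    (g : SemilinearAut L FL) (Qn : ℕ) (hQn : 0 < Qn)
    (Ψ1 : F1 →+* F1) (Ψ2 : F2 →+* F2)
    (hg1 : ∀ y : N.R1.O, ∃ h : g • ((y : N.R1.O) : FL) ∈ N.R1.O,
      N.R1.red ⟨_, h⟩ = Ψ1 (N.R1.red y))
    (hg1' : ∀ y : FL, g • y ∈ N.R1.O → y ∈ N.R1.O)
    (hg2 : ∀ y : N.R2.O, ∃ h : g • ((y : N.R2.O) : FL) ∈ N.R2.O,
      N.R2.red ⟨_, h⟩ = Ψ2 (N.R2.red y))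
    (hg2' : ∀ y : FL, g • y ∈ N.R2.O → y ∈ N.R2.O)
    (hΨ1 : ∀ (e : ι) (z : F1) (c : k), HasValue (N.e1 e) z c → HasValue (N.e1 e) (Ψ1 z) (c ^ Qn))
    (hΨ2 : ∀ (e : ι) (z : F2) (c : k), HasValue (N.e2 e) z c → HasValue (N.e2 e) (Ψ2 z) (c ^ Qn))
    (hr1 : ∀ S1 S2, N.Adm S1 S2 → ∀ P : Place L FL,
      (∃ Q ∈ S1, N.R1.r (g⁻¹ • P) = some Q) → ∃ Q ∈ S1, N.R1.r P = some Q)
    (hr2 : ∀ S1 S2, N.Adm S1 S2 → ∀ P : Place L FL,
      (∃ Q ∈ S2, N.R2.r (g⁻¹ • P) = some Q) → ∃ Q ∈ S2, N.R2.r P = some Q)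
    {u : FL} (hu1 : u ∈ N.R1.O) (hu2 : u ∈ N.R2.O)
    (hred1 : N.R1.red ⟨u, hu1⟩ = 1) (hred2 : N.R2.red ⟨u, hu2⟩ = 1)
    (D : Divisor L FL) (hD0 : Divisor.degree D = 0)
    (hD : ∀ P : Place L FL, P.ord u = n * D P) :
    g • D - Qn • D ∈ Divisor.principal (K := L) (F := FL) := by
  have hn0 : n ≠ 0 := by
    rintro rfl
    exact hnk (by simp)
  have hu0 : u ≠ 0 := by
    rintro rfl
    have hz : (⟨0, hu1⟩ : N.R1.O) = 0 := rfl
    rw [hz, map_zero] at hred1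
    exact zero_ne_one hred1
  have hgu : g • u ≠ 0 := by
    intro h0
    apply hu0
    have := congrArg (fun x => g⁻¹ • x) h0
    simpa using this
  -- `u` as a unit of both branches
  obtain ⟨v1, hv1⟩ := isUnit_of_red_eq_one N.R1.toBranch ⟨u, hu1⟩ hred1
  obtain ⟨v2, hv2⟩ := isUnit_of_red_eq_one N.R2.toBranch ⟨u, hu2⟩ hred2
  have e1 : ((v1 : N.R1.O) : FL) = u := by rw [hv1]
  have e2 : ((v2 : N.R2.O) : FL) = u := by rw [hv2]
  -- the quotient as a unit of both branches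
  obtain ⟨f1, hf1, hf1red⟩ := exists_unit_quotient_pow N.R1.toBranch g Ψ1 hg1 Qn hu1 hred1
  obtain ⟨f2, hf2, hf2red⟩ := exists_unit_quotient_pow N.R2.toBranch g Ψ2 hg2 Qn hu2 hred2
  have hord : ∀ P : Place L FL, P.ord (g • u / u ^ Qn) = n * (g • D - Qn • D) P := by
    intro P
    rw [ord_div' P hgu (pow_ne_zero _ hu0), ord_smul_eq, Fermat.Agent.S34.KummerZ.ord_pow, hD, hD, Finsupp.sub_apply,
      SemilinearAut.divisor_smul_apply, Finsupp.smul_apply, nsmul_eq_mul]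
    ring
  have hdeg0 : Divisor.degree (g • D - Qn • D) = 0 := by
    rw [map_sub, SemilinearAut.degree_smul, map_nsmul, hD0, smul_zero, sub_zero]
  have hglue : GlueG N (g • D - Qn • D) := by
    refine glueG_of_frobenius N hdegL hdeg1 hdeg2 hadmfin hπ n hn0 x1 hunram1 x2 hunram2 hR hG
      (SemilinearAut.toRingAut g) (fun P => g⁻¹ • P) (fun P y => ?_) Qn hQn ?_ hg1' ?_ hg2'
      hr1 hr2 D hD0 v1 v2 (e1.trans e2.symm) (by rw [hv1]; exact hred1) (by rw [hv2]; exact hred2)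
      (fun P => by rw [e1]; exact hD P) (g • D - Qn • D) (fun P => ?_)
    · rw [SemilinearAut.smul_toValuationSubring,
        ValuationSubring.mem_pointwise_smul_iff_inv_smul_mem, inv_inv]
      rfl
    · intro y h
      obtain ⟨h', hred⟩ := hg1 ⟨y, h⟩
      exact ⟨h', fun e c hc => by
        have := hΨ1 e _ c hc
        rw [← hred] at this
        exact this⟩
    · intro y h
      obtain ⟨h', hred⟩ := hg2 ⟨y, h⟩
      exact ⟨h', fun e c hc => by
        have := hΨ2 e _ c hc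
        rw [← hred] at this
        exact this⟩
    · rw [e1]
      exact hord P
  refine nodal_core N hdegL hπ n hnk x1 hunram1 x2 hunram2 hR hG Pstar Qstar hQstar hstar
    (g • D - Qn • D) hdeg0 f1 f2 (hf1.trans hf2.symm) hf1red hf2red (fun P => ?_) hglue
  rw [hf1]
  exact hord P

end Fermat.Agent.S35.GlueGNodalFrob
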