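/-
S35 (downstream of PROJECT U), layer (N2) of (NEW-σ) AT `E = ℚ̄(X₀(M q))` (helper18).

THE FROBENIUS TWIN of `S34/CoreZX0Datum.principalHyp_of_datum` (helper6).

`S34/CoreZX0Datum.X0Datum hA hqM` is the nodal datum of `E` built for S34.  For S35 one applies the
SAME datum to `g = (σ_E)²`, `σ` a Frobenius lift at `q`: `FrobDatum X σ` bundles what the
decomposition-group files (helper25 `DecompX0`, helper24 `FrobSp`) have to deliver on top of `X`:

* ring homomorphisms `Ψ₁ Ψ₂` of `κ = k(X₀(M))` with `red_i (g y) = Ψ_i (red_i y)`;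
* the value rule at the nodes: `Ψ_i` raises the values at every node to the power `q²`;
* stability of the places over admissible sets under `g⁻¹`.

`frobPrincipalHyp_of_datum` : (N2) in divisor language, `frobZHyp_of_datum` : (N2) in function
language (`S35/FrobZOfPrincipal.FrobZHyp`, the shape of helper19 #2231 (5)).
-/
import Fermat.Agent.S34.CoreZX0Datum
import Fermat.Agent.S35.GlueGNodalFrob
import Fermat.Agent.S35.FrobZOfPrincipal

set_option autoImplicit false
set_option linter.unusedSectionVars false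
set_option linter.style.haveILetI false
set_option synthInstance.maxHeartbeats 400000

noncomputable section

namespace Fermat.Agent.S35.FrobZX0Datum

open ModularCurve AlgebraicCurve IsLocalRing
open Fermat.Agent.S18.NonSpecial Fermat.Agent.S34.NodalDefs
open Fermat.Agent.S34.Z1X0 Fermat.Agent.S34.Z1Abstract
open Fermat.Agent.S34.CoreZX0Datum Fermat.Agent.S35.FrobZOfPrincipal

local notation "Kb" => AlgebraicClosure ℚ

/-! ### Branch lemma -/

section Branch

variable {L : Type*} [Field L] {k : Type*} [Field k] {A' : ValuationSubring L} {π : A' →+* k}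
variable {FL : Type*} [Field FL] [Algebra L FL] {Fk : Type*} [Field Fk] [Algebra k Fk]

/-- an automorphism which preserves a branch and acts on its reduction through a ring homomorphism
also reflects membership (twin of `GlueGSemilinear.mem_of_smul_mem`) -/
theorem mem_of_smul_mem_twist (R : Branch A' π FL Fk) (g : SemilinearAut L FL) (Ψ : Fk →+* Fk)
    (hg : ∀ y : R.O, ∃ h : g • ((y : R.O) : FL) ∈ R.O, R.red ⟨_, h⟩ = Ψ (R.red y))
    (y : FL) (hy : g • y ∈ R.O) : y ∈ R.O := by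
  by_contra hcon
  have hy0 : y ≠ 0 := fun h => hcon (h ▸ R.O.zero_mem)
  have hinv : y⁻¹ ∈ R.O := (R.O.mem_or_inv_mem y).resolve_left hcon
  have hnu : ¬ IsUnit (⟨y⁻¹, hinv⟩ : R.O) := by
    rintro ⟨v, hv⟩
    apply hcon
    have h1 : ((v : R.O) : FL) = y⁻¹ := by rw [hv]
    have h2 : ((v : R.O) : FL) * ((↑(v⁻¹) : R.O) : FL) = 1 := by
      have h0 : ((v : R.O) * (↑(v⁻¹) : R.O) : R.O) = 1 := Units.mul_inv v
      exact congrArg (fun z : R.O => (z : FL)) h0
    rw [h1] at h2
    have h3 : ((↑(v⁻¹) : R.O) : FL) = y := by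
      have := eq_inv_of_mul_eq_one_right h2
      rwa [inv_inv] at this
    rw [← h3]
    exact ((↑(v⁻¹) : R.O)).2
  obtain ⟨h', hred⟩ := hg ⟨y⁻¹, hinv⟩
  rw [(R.red_eq_zero_iff _).mpr hnu, map_zero] at hred
  have hnu' : ¬ IsUnit (⟨g • y⁻¹, h'⟩ : R.O) := (R.red_eq_zero_iff _).mp hred
  apply hnu'
  have hgy0 : g • y ≠ 0 := by
    intro h0
    apply hy0
    have := congrArg (fun x => g⁻¹ • x) h0
    simpa using this
  refine ⟨⟨⟨g • y⁻¹, h'⟩, ⟨g • y, hy⟩, ?_, ?_⟩, rfl⟩
  · apply Subtype.ext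
    show g • y⁻¹ * g • y = 1
    rw [← smul_mul', inv_mul_cancel₀ hy0, smul_one]
  · apply Subtype.ext
    show g • y * g • y⁻¹ = 1
    rw [← smul_mul', mul_inv_cancel₀ hy0, smul_one]

end Branch

variable {q : ℕ} [hq : Fact q.Prime] {M : ℕ} [NeZero M] {A : ValuationSubring Kb} [NeZero q]

set_option maxHeartbeats 1600000 in
/-- **What the decomposition-group files have to deliver** for one Frobenius lift `σ` at `A ∣ q`, on
top of the nodal datum `X` of S34; `g := σ_E * σ_E`. -/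
structure FrobDatum {hA : A.LiesOverPrime q} {hqM : ¬ q ∣ M} (X : X0Datum hA hqM)
    (σ : Kb ≃ₐ[ℚ] Kb) where
  /-- the action of `σ²` on the first residue function field -/
  Ψ1 : ↥(modularFunctionFieldFullC (ResidueField ↥A) M) →+*
    ↥(modularFunctionFieldFullC (ResidueField ↥A) M)
  /-- the action of `σ²` on the second residue function field -/
  Ψ2 : ↥(modularFunctionFieldFullC (ResidueField ↥A) M) →+*
    ↥(modularFunctionFieldFullC (ResidueField ↥A) M)
  red1_smul : ∀ y : X.N.R1.O,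
    ∃ h : (arithmeticGalois (modularFunctionFieldFull (M * q)) σ *
        arithmeticGalois (modularFunctionFieldFull (M * q)) σ) •
          ((y : X.N.R1.O) : ↥(modularFunctionFieldBar (M * q))) ∈ X.N.R1.O,
      X.N.R1.red ⟨_, h⟩ = Ψ1 (X.N.R1.red y)
  red2_smul : ∀ y : X.N.R2.O,
    ∃ h : (arithmeticGalois (modularFunctionFieldFull (M * q)) σ *
        arithmeticGalois (modularFunctionFieldFull (M * q)) σ) •
          ((y : X.N.R2.O) : ↥(modularFunctionFieldBar (M * q))) ∈ X.N.R2.O,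
      X.N.R2.red ⟨_, h⟩ = Ψ2 (X.N.R2.red y)
  /-- value rule at the nodes, first component -/
  val1 : ∀ (e : {b // b ∈ X.S}) (z : ↥(modularFunctionFieldFullC (ResidueField ↥A) M))
    (c : ResidueField ↥A), HasValue (X.N.e1 e) z c → HasValue (X.N.e1 e) (Ψ1 z) (c ^ (q ^ 2))
  /-- value rule at the nodes, second component -/
  val2 : ∀ (e : {b // b ∈ X.S}) (z : ↥(modularFunctionFieldFullC (ResidueField ↥A) M))
    (c : ResidueField ↥A), HasValue (X.N.e2 e) z c → HasValue (X.N.e2 e) (Ψ2 z) (c ^ (q ^ 2))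
  /-- places over an admissible set stay over it under `g⁻¹`, first component -/
  r1_stable : ∀ S1 S2, X.N.Adm S1 S2 → ∀ P : Place Kb ↥(modularFunctionFieldBar (M * q)),
    (∃ Q ∈ S1, X.N.R1.r ((arithmeticGalois (modularFunctionFieldFull (M * q)) σ *
      arithmeticGalois (modularFunctionFieldFull (M * q)) σ)⁻¹ • P) = some Q) →
    ∃ Q ∈ S1, X.N.R1.r P = some Q
  /-- places over an admissible set stay over it under `g⁻¹`, second component -/
  r2_stable : ∀ S1 S2, X.N.Adm S1 S2 → ∀ P : Place Kb ↥(modularFunctionFieldBar (M * q)),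
    (∃ Q ∈ S2, X.N.R2.r ((arithmeticGalois (modularFunctionFieldFull (M * q)) σ *
      arithmeticGalois (modularFunctionFieldFull (M * q)) σ)⁻¹ • P) = some Q) →
    ∃ Q ∈ S2, X.N.R2.r P = some Q

set_option maxHeartbeats 1600000 in
/-- **(N2) at `E = ℚ̄(X₀(M q))` in divisor language, from the nodal data and the Frobenius data.** -/
theorem frobPrincipalHyp_of_datum {p : ℕ} (hp : p.Prime) (hpq : p ≠ q)
    (H : ∀ (A : ValuationSubring Kb) (hA : A.LiesOverPrime q) (hqM : ¬ q ∣ M),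
      ∃ X : X0Datum (A := A) hA hqM, ∀ σ : Kb ≃ₐ[ℚ] Kb, A.IsFrobeniusAt σ q →
        Nonempty (FrobDatum X σ)) :
    FrobPrincipalHyp M q p := by
  intro A hA hqM σ hσ e u D hu0 h1 h2 hD0 hD
  obtain ⟨X, HX⟩ := H A hA hqM
  obtain ⟨Φ⟩ := HX σ hσ
  haveI : NeZero (M * q) := ⟨Nat.mul_ne_zero (NeZero.ne M) (NeZero.ne q)⟩
  haveI := Fermat.Agent.S18.A.Instances.hasPrincipalDivisors_bar (M * q)
  haveI := Fermat.Agent.S37.ReductionInputs.hasPrincipalDivisors_Fk A M
  have hNC' : (X.g : ℤ) + 1 ≤ X.gk + X.gk + Fintype.card {b // b ∈ X.S} := by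
    rw [Fintype.card_coe]
    exact X.hNC
  have hcard := Fermat.Agent.S34.NodalCoreX0.one_le_card_of_nc hA hqM X.HL X.Hk hNC'
  haveI : Nonempty {b // b ∈ X.S} := Fintype.card_pos_iff.mp (by omega)
  have hg : X.g ≤ X.gk + (X.gk + Fintype.card {b // b ∈ X.S} - 1) := by omega
  -- the one-unit `u`
  have h1' : IsOneUnit X.N.R1.O u := by rw [X.O1_eq]; exact h1
  have h2' : IsOneUnit X.N.R2.O u := by rw [X.O2_eq]; exact h2
  obtain ⟨hu1, hred1⟩ := red_eq_one_of_isOneUnit X.N.R1.toBranch h1'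
  obtain ⟨hu2, hred2⟩ := red_eq_one_of_isOneUnit X.N.R2.toBranch h2'
  have hq2 : 0 < q ^ 2 := pow_pos hq.out.pos 2
  have key := Fermat.Agent.S35.GlueGNodalFrob.principal_of_frobenius X.N
    (fun P => Fermat.Agent.S24.Ord.deg_eq_one (Fermat.Agent.S24.Degree.isFF (M * q)) P)
    (fun e => X.Hk.deg_one _) (fun e => X.Hk.deg_one _) X.adm_finite
    residue_surjective (p ^ e) (Fermat.Agent.S34.NodalCoreX0.natCast_pow_ne_zero hA hp hpq e)
    X.x1 (Fermat.Agent.S34.NodalCoreX0.finite_not_simple_of_eq_jk X.hx1)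
    X.x2 (Fermat.Agent.S34.NodalCoreX0.finite_not_simple_of_eq_jk X.hx2)
    (Fermat.Agent.S18.NonSpecialAdapter.riemannGe_of_riemannHyp X.HL hg)
    (Fermat.Agent.S34.NodalRigidOfRiemann.nodalRigid X.Hk X.Hk X.N.e2 X.e2_injective)
    X.Pstar X.Qstar X.hQstar X.hstar
    (arithmeticGalois (modularFunctionFieldFull (M * q)) σ *
      arithmeticGalois (modularFunctionFieldFull (M * q)) σ) (q ^ 2) hq2 Φ.Ψ1 Φ.Ψ2
    Φ.red1_smul (mem_of_smul_mem_twist X.N.R1.toBranch _ Φ.Ψ1 Φ.red1_smul)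
    Φ.red2_smul (mem_of_smul_mem_twist X.N.R2.toBranch _ Φ.Ψ2 Φ.red2_smul)
    Φ.val1 Φ.val2 Φ.r1_stable Φ.r2_stable hu1 hu2 hred1 hred2 D hD0 hD
  exact key

/-- **`FrobZHyp M q p` from the nodal data and the Frobenius data.** -/
theorem frobZHyp_of_datum {p : ℕ} (hp : p.Prime) (hpq : p ≠ q)
    (H : ∀ (A : ValuationSubring Kb) (hA : A.LiesOverPrime q) (hqM : ¬ q ∣ M),
      ∃ X : X0Datum (A := A) hA hqM, ∀ σ : Kb ≃ₐ[ℚ] Kb, A.IsFrobeniusAt σ q →
        Nonempty (FrobDatum X σ)) :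
    FrobZHyp M q p :=
  frobZHyp_of_principalHyp hp.ne_zero (frobPrincipalHyp_of_datum hp hpq H)

end Fermat.Agent.S35.FrobZX0Datum
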