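/-
S35, layer (N2) at `E = ℚ̄(X₀(M q))` (helper25): **`FrobZX0Datum.FrobDatum X σ` from the
decomposition-group files** `S34/DecompX0` (ring side: `red_i (σ_E² y) = frobSq (red_i y)`, value rule
at `Fr²`-fixed nodes) and the place side `r1_stable`, `r2_stable` (`S35/FrobSp.hr1_of_frobenius`,
`hr2_of_frobenius_comap`), for a nodal datum `X` whose first branch extends the level-`M` reduction
along `α` and whose second component is the `w_q`-transport of the first.

* `red1_smul`, `red2_smul`, `val1`, `val2` : the four ring-side fields, separately;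
* `frobDatumOfDecomp` : the structure.
-/
import Fermat.Agent.S34.DecompX0
import Fermat.Agent.S35.FrobZX0Datum

set_option autoImplicit false
set_option linter.unusedSectionVars false
set_option linter.style.haveILetI false
set_option synthInstance.maxHeartbeats 400000

noncomputable section

namespace Fermat.Agent.S35.FrobDatumOfDecomp

open ModularCurve AlgebraicCurve IsLocalRing
open Fermat.Agent.S34.NodalDefs Fermat.Agent.S34.Z1X0
open Fermat.Agent.S34.CoreZX0Datum Fermat.Agent.S35.FrobZX0Datum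
open Fermat.Agent.S34.DecompX0 Fermat.Agent.S34.FrobK
open Fermat.Agent.S34.Generic.SmoothRedOfGeneric Fermat.Agent.S34.WqGalois
open Fermat.Agent.S37.Gauss.Datum

local notation "Kb" => AlgebraicClosure ℚ

variable {q : ℕ} [hq : Fact q.Prime] {M : ℕ} [NeZero M] {A : ValuationSubring Kb} [NeZero q]
variable [CharP (ResidueField ↥A) q] [PerfectField (ResidueField ↥A)]
variable {hA : A.LiesOverPrime q} {hqM : ¬ q ∣ M} (X : X0Datum hA hqM)
variable {σ : Kb ≃ₐ[ℚ] Kb} (hσ : A.IsFrobeniusAt σ q)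

theorem mul_self_eq_sq (N : ℕ) (σ : Kb ≃ₐ[ℚ] Kb) :
    arithmeticGalois (L := Kb) (modularFunctionFieldFull N) σ *
        arithmeticGalois (modularFunctionFieldFull N) σ =
      arithmeticGalois (L := Kb) (modularFunctionFieldFull N) σ ^ 2 := (sq _).symm

include hσ in
/-- the field `red1_smul` of `FrobDatum`, with `Ψ₁ := frobSq` -/
theorem red1_smul
    (hα : ∀ c : ↥(gaussDatum M A hA hqM).O,
      heckeAlphaBar Kb M q (c : ↥(modularFunctionFieldBar M)) ∈ X.N.R1.O)
    (hredα : ∀ c : ↥(gaussDatum M A hA hqM).O,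
      X.N.R1.red ⟨heckeAlphaBar Kb M q (c : ↥(modularFunctionFieldBar M)), hα c⟩ =
        (gaussDatum M A hA hqM).red c)
    (y : X.N.R1.O) :
    ∃ h : (arithmeticGalois (modularFunctionFieldFull (M * q)) σ *
        arithmeticGalois (modularFunctionFieldFull (M * q)) σ) •
          ((y : X.N.R1.O) : ↥(modularFunctionFieldBar (M * q))) ∈ X.N.R1.O,
      X.N.R1.red ⟨_, h⟩ = frobSq (q := q) (X.N.R1.red y) := by
  rw [mul_self_eq_sq]
  exact branch_frobSq₁ hA hqM hσ X.N.R1.toBranch X.O1_eq hα hredα y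

include hσ in
/-- the field `red2_smul` of `FrobDatum`, with `Ψ₂ := frobSq`, when the second component is the
`w_q`-transport of the first -/
theorem red2_smul
    (hα : ∀ c : ↥(gaussDatum M A hA hqM).O,
      heckeAlphaBar Kb M q (c : ↥(modularFunctionFieldBar M)) ∈ X.N.R1.O)
    (hredα : ∀ c : ↥(gaussDatum M A hA hqM).O,
      X.N.R1.red ⟨heckeAlphaBar Kb M q (c : ↥(modularFunctionFieldBar M)), hα c⟩ =
        (gaussDatum M A hA hqM).red c)
    (hR2 : X.N.R2 = smoothRedComap X.N.R1 (wq M q hq.out hqM))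
    (y : X.N.R2.O) :
    ∃ h : (arithmeticGalois (modularFunctionFieldFull (M * q)) σ *
        arithmeticGalois (modularFunctionFieldFull (M * q)) σ) •
          ((y : X.N.R2.O) : ↥(modularFunctionFieldBar (M * q))) ∈ X.N.R2.O,
      X.N.R2.red ⟨_, h⟩ = frobSq (q := q) (X.N.R2.red y) := by
  have key : ∀ (R2 : SmoothRed A (residue ↥A) ↥(modularFunctionFieldBar (M * q))
      ↥(modularFunctionFieldFullC (ResidueField ↥A) M)),
      R2 = smoothRedComap X.N.R1 (wq M q hq.out hqM) → ∀ y : R2.O,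
      ∃ h : (arithmeticGalois (modularFunctionFieldFull (M * q)) σ *
          arithmeticGalois (modularFunctionFieldFull (M * q)) σ) •
            ((y : R2.O) : ↥(modularFunctionFieldBar (M * q))) ∈ R2.O,
        R2.red ⟨_, h⟩ = frobSq (q := q) (R2.red y) := by
    rintro _ rfl y
    rw [mul_self_eq_sq]
    exact branch_frobSq₂ hA hqM hσ X.N.R1.toBranch X.O1_eq hα hredα y
  exact key X.N.R2 hR2 y

/-- the field `val1` of `FrobDatum` (nodes fixed by `Fr²`) -/
theorem val1
    (hnode : ∀ e : {b // b ∈ X.S},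
      Fr (ResidueField ↥A) M q (Fr (ResidueField ↥A) M q (X.N.e1 e)) = X.N.e1 e)
    (e : {b // b ∈ X.S}) (z : ↥(modularFunctionFieldFullC (ResidueField ↥A) M))
    (c : ResidueField ↥A) (h : HasValue (X.N.e1 e) z c) :
    HasValue (X.N.e1 e) (frobSq (q := q) (M := M) (A := A) z) (c ^ (q ^ 2)) :=
  hasValue_frobSq (X.N.e1 e) (hnode e) z c h

/-- the field `val2` of `FrobDatum` (nodes fixed by `Fr²`) -/
theorem val2
    (hnode : ∀ e : {b // b ∈ X.S},
      Fr (ResidueField ↥A) M q (Fr (ResidueField ↥A) M q (X.N.e2 e)) = X.N.e2 e)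
    (e : {b // b ∈ X.S}) (z : ↥(modularFunctionFieldFullC (ResidueField ↥A) M))
    (c : ResidueField ↥A) (h : HasValue (X.N.e2 e) z c) :
    HasValue (X.N.e2 e) (frobSq (q := q) (M := M) (A := A) z) (c ^ (q ^ 2)) :=
  hasValue_frobSq (X.N.e2 e) (hnode e) z c h

/-- **`FrobDatum X σ` from the decomposition-group files**, for a Frobenius lift `σ` at `A ∣ q`. -/
def frobDatumOfDecomp
    (hα : ∀ c : ↥(gaussDatum M A hA hqM).O,
      heckeAlphaBar Kb M q (c : ↥(modularFunctionFieldBar M)) ∈ X.N.R1.O)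
    (hredα : ∀ c : ↥(gaussDatum M A hA hqM).O,
      X.N.R1.red ⟨heckeAlphaBar Kb M q (c : ↥(modularFunctionFieldBar M)), hα c⟩ =
        (gaussDatum M A hA hqM).red c)
    (hR2 : X.N.R2 = smoothRedComap X.N.R1 (wq M q hq.out hqM))
    (hnode1 : ∀ e : {b // b ∈ X.S},
      Fr (ResidueField ↥A) M q (Fr (ResidueField ↥A) M q (X.N.e1 e)) = X.N.e1 e)
    (hnode2 : ∀ e : {b // b ∈ X.S},
      Fr (ResidueField ↥A) M q (Fr (ResidueField ↥A) M q (X.N.e2 e)) = X.N.e2 e)
    (hr1 : ∀ S1 S2, X.N.Adm S1 S2 → ∀ P : Place Kb ↥(modularFunctionFieldBar (M * q)),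
      (∃ Q ∈ S1, X.N.R1.r ((arithmeticGalois (modularFunctionFieldFull (M * q)) σ *
        arithmeticGalois (modularFunctionFieldFull (M * q)) σ)⁻¹ • P) = some Q) →
      ∃ Q ∈ S1, X.N.R1.r P = some Q)
    (hr2 : ∀ S1 S2, X.N.Adm S1 S2 → ∀ P : Place Kb ↥(modularFunctionFieldBar (M * q)),
      (∃ Q ∈ S2, X.N.R2.r ((arithmeticGalois (modularFunctionFieldFull (M * q)) σ *
        arithmeticGalois (modularFunctionFieldFull (M * q)) σ)⁻¹ • P) = some Q) →
      ∃ Q ∈ S2, X.N.R2.r P = some Q) :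
    FrobDatum X σ where
  Ψ1 := frobSq (q := q) (M := M) (A := A)
  Ψ2 := frobSq (q := q) (M := M) (A := A)
  red1_smul := red1_smul X hσ hα hredα
  red2_smul := red2_smul X hσ hα hredα hR2
  val1 := val1 X hnode1
  val2 := val2 X hnode2
  r1_stable := hr1
  r2_stable := hr2

end Fermat.Agent.S35.FrobDatumOfDecomp
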