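/-
PROJECT S35, layer (N2) (helper24): **THE FROBENIUS TWIN OF `S34/Generic/InertiaSp`** = the
hypotheses `hr1`, `hr2` of `S35/GlueGNodalFrob.principal_of_frobenius` at `E = ℚ̄(X₀(M q))`.

`A` a valuation ring of `ℚ̄` over a prime `q ∤ M`, `k = κ(A)`, `κ = k(X₀(M))`, `r` a place reduction
of `F = ℚ̄(X₀(M))` along `A`, `res_α`, `res_β` the restrictions of places of `E` along the two
degeneracy maps, `Fr = FrobK.Fr k M q` the Frobenius on the places of `κ`
(`= coeffAut k M (frobAut k q) • ·`).

* `sp_smul_dec`, `sp_resAlpha_smul_dec`, `sp_resBeta_smul_dec` : for `g` in the decomposition group of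
  `A`, `r (res_α (g_E • P)) = coeffAut k M (resAut A g) • r (res_α P)` (and `β`);
* `sp_smul_frobenius`, `sp_resAlpha_smul_frobenius`, `sp_resBeta_smul_frobenius` : for a Frobenius
  element `σ` at `A`, `r (res_α (σ_E • P)) = Fr (r (res_α P))` (and `β`);
* `rOne_eq_map_of_res` (abstract), `rOne_smul_frobenius`, `rOne_swap_smul_frobenius` : the partial
  specialisation maps of the two components satisfy `r_i (σ_E • P) = Option.map Fr (r_i P)`, if `good`
  is `Fr`-stable;
* `exists_of_map`, `exists_of_map_inv` (abstract) and **`hr1_of_frobenius`, `hr2_of_frobenius`** : the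
  literal hypotheses `hr1`, `hr2` of `principal_of_frobenius` for `g = σ_E * σ_E`, for a nodal datum
  `N` with `N.R1.r = rOne r res_α res_β Fr good`, `N.R2.r = rOne r res_β res_α Fr good` (the second
  component of `smoothRedComap N.R1 w_q`, `smoothRedComap_r_eq_rOne_swap`) and `Fr`-stable
  admissible sets.
-/
import Mathlib
import Fermat.Agent.S34.Generic.InertiaSp
import Fermat.Agent.S34.Generic.SwapX0
import Fermat.Agent.S34.FrobK

set_option autoImplicit false
set_option linter.unusedSectionVars false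
set_option linter.style.haveILetI false

noncomputable section

namespace Fermat.Agent.S35.FrobSp

open AlgebraicCurve ModularCurve IsLocalRing
open Fermat.Agent.S34.NodalDefs Fermat.Agent.S34.Generic.Compat
open Fermat.Agent.S34.Generic.RestrAlong Fermat.Agent.S34.Generic.SmoothRedOfGeneric
open Fermat.Agent.S34.Generic.InertiaSp Fermat.Agent.S34.WqGalois

/-! ### Abstract part -/

section Abstract

variable {L : Type*} [Field L] {FM : Type*} [Field FM] [Algebra L FM]
variable {F : Type*} [Field F] [Algebra L F]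
variable {k : Type*} [Field k] {Fk : Type*} [Field Fk] [Algebra k Fk]
variable (r : Place L FM → Place k Fk)

/-- the partial specialisation map `rOne` is equivariant for a pair of maps of places
`P ↦ P'` upstairs and `c` downstairs, if `good` is `c`-stable and `Fr` commutes with `c` -/
theorem rOne_eq_map_of_res {a b : FM →+* F} (ra : Restr L a) (rb : Restr L b)
    (Fr : Place k Fk → Place k Fk) (good : Set (Place k Fk)) (c : Place k Fk → Place k Fk)
    (hc : Function.Injective c) (hgood : ∀ Q, c Q ∈ good ↔ Q ∈ good)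
    (hFr : ∀ Q, Fr (c Q) = c (Fr Q)) (P P' : Place L F)
    (h1 : r (ra.res P') = c (r (ra.res P))) (h2 : r (rb.res P') = c (r (rb.res P))) :
    rOne r ra rb Fr good P' = Option.map c (rOne r ra rb Fr good P) := by
  classical
  unfold rOne
  rw [h1, h2]
  by_cases h : r (ra.res P) ∈ good ∧ r (rb.res P) = Fr (r (ra.res P))
  · rw [if_pos h, if_pos ⟨(hgood _).mpr h.1, by rw [h.2, hFr]⟩]
    rfl
  · rw [if_neg h, if_neg]
    · rfl
    · rintro ⟨h3, h4⟩
      refine h ⟨(hgood _).mp h3, hc ?_⟩
      rw [h4, hFr]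

/-- if `ρ (τ P) = Option.map c (ρ P)` and `S` is `c`-stable, then `ρ P ∈ S` implies `ρ (τ P) ∈ S` -/
theorem exists_of_map {X Y : Type*} (ρ : X → Option Y) (τ : X → X) (c : Y → Y)
    (hτ : ∀ P, ρ (τ P) = Option.map c (ρ P)) (S : Set Y) (hS : ∀ Q ∈ S, c Q ∈ S) (P : X)
    (h : ∃ Q ∈ S, ρ P = some Q) : ∃ Q ∈ S, ρ (τ P) = some Q := by
  obtain ⟨Q, hQ, hP⟩ := h
  exact ⟨c Q, hS Q hQ, by rw [hτ, hP]; rfl⟩

/-- the shape of `hr1`, `hr2` of `principal_of_frobenius`: `ρ (g⁻¹ • P) ∈ S → ρ P ∈ S` -/
theorem exists_of_map_inv {G X Y : Type*} [Group G] [MulAction G X] (ρ : X → Option Y) (g : G)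
    (c : Y → Y) (hg : ∀ P, ρ (g • P) = Option.map c (ρ P)) (S : Set Y) (hS : ∀ Q ∈ S, c Q ∈ S)
    (P : X) (h : ∃ Q ∈ S, ρ (g⁻¹ • P) = some Q) : ∃ Q ∈ S, ρ P = some Q := by
  have h' := exists_of_map ρ (fun P => g • P) c hg S hS (g⁻¹ • P) h
  rwa [smul_inv_smul] at h'

/-- two steps: `ρ ((g * g) • P) = Option.map (c ∘ c) (ρ P)` -/
theorem map_mul_self {G X Y : Type*} [Group G] [MulAction G X] (ρ : X → Option Y) (g : G)
    (c : Y → Y) (hg : ∀ P, ρ (g • P) = Option.map c (ρ P)) (P : X) :
    ρ ((g * g) • P) = Option.map (fun Q => c (c Q)) (ρ P) := by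
  rw [mul_smul, hg, hg, Option.map_map]
  rfl

/-- the second component of `smoothRedComap R₁ w` in closed form -/
theorem smoothRedComap_r_eq_rOne_swap {A : ValuationSubring L} {π : A →+* k} (a b : FM →ₐ[L] F)
    (ha : a.toRingHom.IsIntegral) (hb : b.toRingHom.IsIntegral) (w : F ≃ₐ[L] F)
    (hwa : ∀ g : FM, w (a g) = b g) (hwb : ∀ g : FM, w (b g) = a g)
    (Fr : Place k Fk → Place k Fk) (good : Set (Place k Fk)) (R₁ : SmoothRed A π F Fk)
    (hR : R₁.r = rOne r (restrAlong a ha) (restrAlong b hb) Fr good) :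
    (smoothRedComap R₁ w).r = rOne r (restrAlong b hb) (restrAlong a ha) Fr good := by
  funext P
  rw [smoothRedComap_r, hR]
  exact Fermat.Agent.S34.Generic.SwapX0.rOne_smul r a b ha hb w hwa hwb Fr good P

end Abstract

/-! ### The decomposition group and Frobenius elements at `X₀(M q)` -/

section X0

local notation "Kb" => AlgebraicClosure ℚ

open Fermat.Agent.S37.Equivariance.GaussEquiv Fermat.Agent.S37.Equivariance.CoeffAut
open Fermat.Agent.S37.Equivariance.PlaceEquiv
open Fermat.Agent.S34.FrobK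

set_option synthInstance.maxHeartbeats 400000

/-- instance shortcut (as in `S37/Equivariance/PlaceEquiv`) -/
noncomputable local instance algShortcut (A : ValuationSubring Kb) (N : ℕ) [NeZero N] :
    Algebra (ResidueField A) ↥(modularFunctionFieldFullC (ResidueField A) N) :=
  SubalgebraClass.toAlgebra (modularFunctionFieldFullC (ResidueField A) N)

variable {q : ℕ} [hq : Fact q.Prime] {M : ℕ} [NeZero M] [NeZero q] {A : ValuationSubring Kb}
variable {r : Place Kb ↥(modularFunctionFieldBar M) →
  Place (ResidueField A) ↥(modularFunctionFieldFullC (ResidueField A) M)}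
variable (hA : A.LiesOverPrime q) (hqM : ¬ q ∣ M)
variable (hr : IsPlaceReductionAlong A (residue A) M r)
variable (hgen : PrincipalGeneratedByIntegral A (residue A) M)
variable (hα : (heckeAlphaBar Kb M q).toRingHom.IsIntegral)
variable (hβ : (heckeBetaBar Kb M q).toRingHom.IsIntegral)

include hA hqM hr hgen

/-! #### the decomposition group -/

/-- level `M`: the specialisation of places is equivariant for the decomposition group -/
theorem sp_smul_dec (g : A.decompositionSubgroup ℚ) (P : Place Kb ↥(modularFunctionFieldBar M)) :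
    r (arithmeticGalois (modularFunctionFieldFull M) (g : Kb ≃ₐ[ℚ] Kb) • P) =
      coeffAut (ResidueField A) M (resAut A g) • r P :=
  placeMap_smul hA hqM hr hgen g P

/-- `r (res_α (g_E • P)) = ḡ • r (res_α P)` for `g` in the decomposition group -/
theorem sp_resAlpha_smul_dec (g : A.decompositionSubgroup ℚ)
    (P : Place Kb ↥(modularFunctionFieldBar (M * q))) :
    r (resAlong (heckeAlphaBar Kb M q) hα
        (arithmeticGalois (modularFunctionFieldFull (M * q)) (g : Kb ≃ₐ[ℚ] Kb) • P)) =
      coeffAut (ResidueField A) M (resAut A g) • r (resAlong (heckeAlphaBar Kb M q) hα P) := by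
  rw [resAlpha_smul hα _ P, sp_smul_dec hA hqM hr hgen g]

/-- `r (res_β (g_E • P)) = ḡ • r (res_β P)` for `g` in the decomposition group -/
theorem sp_resBeta_smul_dec (g : A.decompositionSubgroup ℚ)
    (P : Place Kb ↥(modularFunctionFieldBar (M * q))) :
    r (resAlong (heckeBetaBar Kb M q) hβ
        (arithmeticGalois (modularFunctionFieldFull (M * q)) (g : Kb ≃ₐ[ℚ] Kb) • P)) =
      coeffAut (ResidueField A) M (resAut A g) • r (resAlong (heckeBetaBar Kb M q) hβ P) := by
  rw [resBeta_smul hβ _ P, sp_smul_dec hA hqM hr hgen g]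

/-! #### Frobenius elements -/

variable [CharP (ResidueField A) q] [PerfectField (ResidueField A)]
variable {σ : Kb ≃ₐ[ℚ] Kb} (hσ : A.IsFrobeniusAt σ q)

include hσ

/-- level `M`: a Frobenius element acts on the specialisation through `Fr` -/
theorem sp_smul_frobenius (P : Place Kb ↥(modularFunctionFieldBar M)) :
    r (arithmeticGalois (modularFunctionFieldFull M) σ • P) = Fr (ResidueField A) M q (r P) := by
  have h := sp_smul_dec hA hqM hr hgen ⟨σ, hσ.mem_decompositionSubgroup⟩ P
  rw [resAut_eq_frobAut A q hσ] at h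
  exact h

/-- `r (res_α (σ_E • P)) = Fr (r (res_α P))` for a Frobenius element `σ` -/
theorem sp_resAlpha_smul_frobenius (P : Place Kb ↥(modularFunctionFieldBar (M * q))) :
    r (resAlong (heckeAlphaBar Kb M q) hα
        (arithmeticGalois (modularFunctionFieldFull (M * q)) σ • P)) =
      Fr (ResidueField A) M q (r (resAlong (heckeAlphaBar Kb M q) hα P)) := by
  rw [resAlpha_smul hα σ P, sp_smul_frobenius hA hqM hr hgen hσ]

/-- `r (res_β (σ_E • P)) = Fr (r (res_β P))` for a Frobenius element `σ` -/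
theorem sp_resBeta_smul_frobenius (P : Place Kb ↥(modularFunctionFieldBar (M * q))) :
    r (resAlong (heckeBetaBar Kb M q) hβ
        (arithmeticGalois (modularFunctionFieldFull (M * q)) σ • P)) =
      Fr (ResidueField A) M q (r (resAlong (heckeBetaBar Kb M q) hβ P)) := by
  rw [resBeta_smul hβ σ P, sp_smul_frobenius hA hqM hr hgen hσ]

variable (good : Set (Place (ResidueField A) ↥(modularFunctionFieldFullC (ResidueField A) M)))
variable (hgood : ∀ Q, Fr (ResidueField A) M q Q ∈ good ↔ Q ∈ good)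

include hgood

/-- **first component**: `r₁ (σ_E • P) = Option.map Fr (r₁ P)` -/
theorem rOne_smul_frobenius (P : Place Kb ↥(modularFunctionFieldBar (M * q))) :
    rOne r (restrAlong (heckeAlphaBar Kb M q) hα) (restrAlong (heckeBetaBar Kb M q) hβ)
        (Fr (ResidueField A) M q) good
        (arithmeticGalois (modularFunctionFieldFull (M * q)) σ • P) =
      Option.map (Fr (ResidueField A) M q)
        (rOne r (restrAlong (heckeAlphaBar Kb M q) hα) (restrAlong (heckeBetaBar Kb M q) hβ)
          (Fr (ResidueField A) M q) good P) :=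
  rOne_eq_map_of_res r _ _ _ good _ (Fr (ResidueField A) M q).injective hgood (fun _ => rfl) P _
    (sp_resAlpha_smul_frobenius hA hqM hr hgen hα hσ P)
    (sp_resBeta_smul_frobenius hA hqM hr hgen hβ hσ P)

/-- **second component**: `r₂ (σ_E • P) = Option.map Fr (r₂ P)` -/
theorem rOne_swap_smul_frobenius (P : Place Kb ↥(modularFunctionFieldBar (M * q))) :
    rOne r (restrAlong (heckeBetaBar Kb M q) hβ) (restrAlong (heckeAlphaBar Kb M q) hα)
        (Fr (ResidueField A) M q) good
        (arithmeticGalois (modularFunctionFieldFull (M * q)) σ • P) =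
      Option.map (Fr (ResidueField A) M q)
        (rOne r (restrAlong (heckeBetaBar Kb M q) hβ) (restrAlong (heckeAlphaBar Kb M q) hα)
          (Fr (ResidueField A) M q) good P) :=
  rOne_eq_map_of_res r _ _ _ good _ (Fr (ResidueField A) M q).injective hgood (fun _ => rfl) P _
    (sp_resBeta_smul_frobenius hA hqM hr hgen hβ hσ P)
    (sp_resAlpha_smul_frobenius hA hqM hr hgen hα hσ P)

/-! #### the hypotheses `hr1`, `hr2` of `principal_of_frobenius` -/

variable {ι : Type*}
variable (N : GNodalDatum A (residue A) ↥(modularFunctionFieldBar (M * q))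
  ↥(modularFunctionFieldFullC (ResidueField A) M)
  ↥(modularFunctionFieldFullC (ResidueField A) M) ι)

/-- **`hr1` of `principal_of_frobenius`** for `g = σ_E * σ_E`. -/
theorem hr1_of_frobenius
    (hR1 : N.R1.r = rOne r (restrAlong (heckeAlphaBar Kb M q) hα)
      (restrAlong (heckeBetaBar Kb M q) hβ) (Fr (ResidueField A) M q) good)
    (hAdm : ∀ S1 S2, N.Adm S1 S2 → ∀ Q ∈ S1, Fr (ResidueField A) M q Q ∈ S1) :
    ∀ S1 S2, N.Adm S1 S2 → ∀ P : Place Kb ↥(modularFunctionFieldBar (M * q)),
      (∃ Q ∈ S1, N.R1.r ((arithmeticGalois (modularFunctionFieldFull (M * q)) σ *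
          arithmeticGalois (modularFunctionFieldFull (M * q)) σ)⁻¹ • P) = some Q) →
        ∃ Q ∈ S1, N.R1.r P = some Q := by
  intro S1 S2 hS P h
  refine exists_of_map_inv N.R1.r _ (fun Q => Fr (ResidueField A) M q (Fr (ResidueField A) M q Q))
    (fun P => map_mul_self N.R1.r _ (Fr (ResidueField A) M q) (fun P => ?_) P) S1
    (fun Q hQ => hAdm S1 S2 hS _ (hAdm S1 S2 hS Q hQ)) P h
  rw [hR1]
  exact rOne_smul_frobenius hA hqM hr hgen hα hβ hσ good hgood P

/-- **`hr2` of `principal_of_frobenius`** for `g = σ_E * σ_E`. -/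
theorem hr2_of_frobenius
    (hR2 : N.R2.r = rOne r (restrAlong (heckeBetaBar Kb M q) hβ)
      (restrAlong (heckeAlphaBar Kb M q) hα) (Fr (ResidueField A) M q) good)
    (hAdm : ∀ S1 S2, N.Adm S1 S2 → ∀ Q ∈ S2, Fr (ResidueField A) M q Q ∈ S2) :
    ∀ S1 S2, N.Adm S1 S2 → ∀ P : Place Kb ↥(modularFunctionFieldBar (M * q)),
      (∃ Q ∈ S2, N.R2.r ((arithmeticGalois (modularFunctionFieldFull (M * q)) σ *
          arithmeticGalois (modularFunctionFieldFull (M * q)) σ)⁻¹ • P) = some Q) →
        ∃ Q ∈ S2, N.R2.r P = some Q := by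
  intro S1 S2 hS P h
  refine exists_of_map_inv N.R2.r _ (fun Q => Fr (ResidueField A) M q (Fr (ResidueField A) M q Q))
    (fun P => map_mul_self N.R2.r _ (Fr (ResidueField A) M q) (fun P => ?_) P) S2
    (fun Q hQ => hAdm S1 S2 hS _ (hAdm S1 S2 hS Q hQ)) P h
  rw [hR2]
  exact rOne_swap_smul_frobenius hA hqM hr hgen hα hβ hσ good hgood P

/-- `hr2` when the second component is `smoothRedComap N.R1 w_q` -/
theorem hr2_of_frobenius_comap
    (hR1 : N.R1.r = rOne r (restrAlong (heckeAlphaBar Kb M q) hα)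
      (restrAlong (heckeBetaBar Kb M q) hβ) (Fr (ResidueField A) M q) good)
    (hR2 : N.R2 = smoothRedComap N.R1 (wq M q hq.out hqM))
    (hAdm : ∀ S1 S2, N.Adm S1 S2 → ∀ Q ∈ S2, Fr (ResidueField A) M q Q ∈ S2) :
    ∀ S1 S2, N.Adm S1 S2 → ∀ P : Place Kb ↥(modularFunctionFieldBar (M * q)),
      (∃ Q ∈ S2, N.R2.r ((arithmeticGalois (modularFunctionFieldFull (M * q)) σ *
          arithmeticGalois (modularFunctionFieldFull (M * q)) σ)⁻¹ • P) = some Q) →
        ∃ Q ∈ S2, N.R2.r P = some Q := by
  refine hr2_of_frobenius hA hqM hr hgen hα hβ hσ good hgood N ?_ hAdm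
  rw [hR2]
  exact smoothRedComap_r_eq_rOne_swap r (heckeAlphaBar Kb M q) (heckeBetaBar Kb M q) hα hβ
    (wq M q hq.out hqM) (fun g => wq_alpha hq.out hqM g) (fun g => wq_beta hq.out hqM g)
    (Fr (ResidueField A) M q) good N.R1 hR1

end X0

end Fermat.Agent.S35.FrobSp
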