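/-
S35, layer (N2) of (NEW-σ) AT `E = ℚ̄(X₀(M q))` (helper18): FROM THE STRUCTURAL FACTS `X0Ext D` OF THE
NODAL DATUM TO `FrobZHyp M q p`, AND THE STRUCTURAL FACTS FOR THE ASSEMBLY OF `S34/CoreZX0Assembly`.

* `frobDatum_of_ext` : `X0Ext D ⟹ FrobDatum D σ` for every Frobenius lift `σ`
  (ring side: helper25 `S35/FrobDatumOfDecomp`; place side: helper24 `S35/FrobSp`);
* `frobZHyp_of_ext` : `(∀ A ∣ q, ∃ D, Nonempty (X0Ext D)) ⟹ FrobZHyp M q p` (`p ≠ q` prime);
* `x0ExtOf` : the structural facts of helper6's explicit term `CoreZX0Build.x0DatumOf X Y`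
  (all `rfl` or fields of `Inputs` / `NodesC`), given the `Fr²`-fixedness of the nodes;
* `frobZHyp_of_inputsC` : the twin of `CoreZX0Build.principalHyp_of_inputsC`, same hypothesis plus
  the `Fr²`-fixedness of the nodes.
-/
import Fermat.Agent.S34.CoreZX0Ext
import Fermat.Agent.S34.CoreZX0Build
import Fermat.Agent.S35.FrobDatumOfDecomp
import Fermat.Agent.S35.FrobSp

set_option autoImplicit false
set_option linter.unusedSectionVars false
set_option linter.style.haveILetI false
set_option synthInstance.maxHeartbeats 400000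

noncomputable section

namespace Fermat.Agent.S35.FrobZX0

open ModularCurve AlgebraicCurve IsLocalRing
open Fermat.Agent.S18.NonSpecial
open Fermat.Agent.S34.NodalDefs Fermat.Agent.S34.CoreZX0Datum Fermat.Agent.S34.CoreZX0Ext
open Fermat.Agent.S34.Generic.RestrAlong Fermat.Agent.S34.Generic.SmoothRedOfGeneric
open Fermat.Agent.S34.WqGalois Fermat.Agent.S34.FrobK
open Fermat.Agent.S35.FrobZX0Datum Fermat.Agent.S35.FrobZOfPrincipal
open Fermat.Agent.S37.Gauss.Datum Fermat.Agent.S37.Deuring.Core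

local notation "Kb" => AlgebraicClosure ℚ

variable {q : ℕ} [hq : Fact q.Prime] {M : ℕ} [NeZero M] {A : ValuationSubring Kb} [NeZero q]

/-! ### from the structural facts to the Frobenius datum -/

section Ext

variable [CharP (ResidueField ↥A) q] [PerfectField (ResidueField ↥A)]

set_option maxHeartbeats 1600000 in
/-- **The Frobenius datum from the structural facts.** -/
def frobDatum_of_ext {hA : A.LiesOverPrime q} {hqM : ¬ q ∣ M} (D : X0Datum hA hqM)
    (E : X0Ext D) {σ : Kb ≃ₐ[ℚ] Kb} (hσ : A.IsFrobeniusAt σ q) : FrobDatum D σ :=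
  haveI := Fermat.Agent.S18.A.Instances.hasPrincipalDivisors_bar M
  Fermat.Agent.S35.FrobDatumOfDecomp.frobDatumOfDecomp D hσ E.alpha_mem E.red_alpha E.R2_eq
    E.e1_fix E.e2_fix
    (Fermat.Agent.S35.FrobSp.hr1_of_frobenius hA hqM E.hr
      (Fermat.Agent.S34.Generic.InertiaSp.principalGeneratedByIntegral_X0 hA hqM) E.hα E.hβ hσ
      E.good E.hgood D.N E.R1_r
      (fun S1 S2 hS Q hQ => ((E.adm S1 S2 hS).2.2.2 Q).mpr hQ))
    (Fermat.Agent.S35.FrobSp.hr2_of_frobenius_comap hA hqM E.hr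
      (Fermat.Agent.S34.Generic.InertiaSp.principalGeneratedByIntegral_X0 hA hqM) E.hα E.hβ hσ
      E.good E.hgood D.N E.R1_r E.R2_eq
      (fun S1 S2 hS Q hQ => by
        have hadm := E.adm S1 S2 hS
        rw [← hadm.1] at hQ ⊢
        exact (hadm.2.2.2 Q).mpr hQ))

end Ext

/-- **`FrobZHyp M q p` from the structural facts of the nodal data.** -/
theorem frobZHyp_of_ext {p : ℕ} (hp : p.Prime) (hpq : p ≠ q)
    (H : ∀ (A : ValuationSubring Kb) (hA : A.LiesOverPrime q) (hqM : ¬ q ∣ M)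
      [CharP (ResidueField ↥A) q] [PerfectField (ResidueField ↥A)],
      ∃ D : X0Datum (A := A) hA hqM, Nonempty (X0Ext D)) :
    FrobZHyp M q p := by
  refine frobZHyp_of_datum hp hpq fun A hA hqM => ?_
  haveI := Fermat.Agent.S18.ResidueBasics.charP_residueField A hA
  haveI : IsAlgClosed (ResidueField ↥A) :=
    Fermat.Agent.S18.ResidueBasics.isAlgClosed_residueField A
  obtain ⟨D, ⟨E⟩⟩ := H A hA hqM
  exact ⟨D, fun σ hσ => ⟨frobDatum_of_ext D E hσ⟩⟩

/-! ### the structural facts of `CoreZX0Build.x0DatumOf` -/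

section Build

open Fermat.Agent.S34.CoreZX0Assembly Fermat.Agent.S34.CoreZX0Build

variable {hA : A.LiesOverPrime q} {hqM : ¬ q ∣ M}
variable {gL gk : ℕ} {H : Hyp (gaussDatum M A hA hqM) gL gk}
variable [CharP (ResidueField ↥A) q] [PerfectField (ResidueField ↥A)]

set_option maxHeartbeats 1600000 in
/-- **The structural facts of the explicit nodal datum `x0DatumOf X Y`.** -/
def x0ExtOf (X : Inputs hA hqM H) (Y : NodesC X)
    (hfix : ∀ b ∈ Y.S, Fr (ResidueField ↥A) M q (Fr (ResidueField ↥A) M q b) = b) :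
    X0Ext (x0DatumOf X Y) :=
  haveI := Fermat.Agent.S18.A.Instances.hasPrincipalDivisors_bar M
  haveI := Fermat.Agent.S37.ReductionInputs.hasPrincipalDivisors_Fk A M
  haveI := Fermat.Agent.S37.ReductionInputs.infinite_residueField A
  { r := placeMap H
    hr := Fermat.Agent.S34.Generic.InertiaSp.isPlaceReductionAlong_placeMap hA hqM H
    hα := Fermat.Agent.S34.Generic.FibAlphaX0.isIntegral_alpha hqM
    hβ := Fermat.Agent.S34.Generic.FibBetaX0.isIntegral_beta M q
    good := X.good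
    hgood := X.Fr_mem_iff
    R1_r := R1_r X
    R2_eq := rfl
    adm := fun _ _ h => h
    alpha_mem := X.α_mem
    red_alpha := X.red_α
    e1_fix := fun e => congrArg (Fr (ResidueField ↥A) M q) (hfix e.1 e.2)
    e2_fix := fun e => hfix e.1 e.2 }

end Build

/-- **`FrobZHyp M q p` from the producers' outputs**: the twin of
`CoreZX0Build.principalHyp_of_inputsC`; the only extra input is that the nodes are fixed by `Fr²`. -/
theorem frobZHyp_of_inputsC {p : ℕ} (hp : p.Prime) (hpq : p ≠ q)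
    (HH : ∀ (A : ValuationSubring Kb) (hA : A.LiesOverPrime q) (hqM : ¬ q ∣ M)
      [CharP (ResidueField ↥A) q] [PerfectField (ResidueField ↥A)],
      ∃ (gL gk : ℕ) (H : Hyp (gaussDatum M A hA hqM) gL gk)
        (X : Fermat.Agent.S34.CoreZX0Assembly.Inputs hA hqM H)
        (Y : Fermat.Agent.S34.CoreZX0Build.NodesC X),
        ∀ b ∈ Y.S, Fr (ResidueField ↥A) M q (Fr (ResidueField ↥A) M q b) = b) :
    FrobZHyp M q p := by
  refine frobZHyp_of_ext hp hpq fun A hA hqM _ _ => ?_
  obtain ⟨gL, gk, H, X, Y, hfix⟩ := HH A hA hqM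
  exact ⟨Fermat.Agent.S34.CoreZX0Build.x0DatumOf X Y, ⟨x0ExtOf X Y hfix⟩⟩

end Fermat.Agent.S35.FrobZX0
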