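/-
S35, layer (N2) of (NEW-σ) (helper18): **`FrobZHyp M q p` from `GenericAt` at the good places** —
the exact twin of `S34/CoreZX0OfGeneric.principalHyp_of_generic` (helper6), SAME hypothesis `hgen`.

`FrobZX0.frobZHyp_of_inputsC` fed with helper6's two records `inputsX0 hgen`,
`CoreZX0Fix.exists_nodesX0_fix HM hgen` (nodes together with their `Fr²`-fixedness).
-/
import Fermat.Agent.S34.CoreZX0Fix
import Fermat.Agent.S35.FrobZX0

set_option autoImplicit false
set_option linter.unusedSectionVars false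
set_option linter.style.haveILetI false
set_option synthInstance.maxHeartbeats 400000

noncomputable section

namespace Fermat.Agent.S35.FrobZOfGeneric

open ModularCurve AlgebraicCurve IsLocalRing
open Fermat.Agent.S18.NonSpecial
open Fermat.Agent.S34.CoreZX0Assembly Fermat.Agent.S34.CoreZX0Build
open Fermat.Agent.S34.CoreZX0OfGeneric Fermat.Agent.S34.CoreZX0Fix
open Fermat.Agent.S35.FrobZOfPrincipal Fermat.Agent.S35.FrobZX0
open Fermat.Agent.S37.Deuring.Core Fermat.Agent.S37.Gauss.Datum

local notation "Kb" => AlgebraicClosure ℚ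

set_option maxHeartbeats 1600000 in
/-- **`FrobZHyp M q p` from `GenericAt` at the good places** (same hypothesis as
`CoreZX0OfGeneric.principalHyp_of_generic`). -/
theorem frobZHyp_of_generic {q : ℕ} [hq : Fact q.Prime] {M : ℕ} [NeZero M] [NeZero q] {p : ℕ}
    (hp : p.Prime) (hpq : p ≠ q)
    (hgen : ∀ (A : ValuationSubring Kb) (hA : A.LiesOverPrime q) (hqM : ¬ q ∣ M),
      haveI := Fermat.Agent.S18.ResidueBasics.charP_residueField A hA
      ∀ (gM : ℕ) (HM : RiemannHyp (ResidueField ↥A)
        ↥(modularFunctionFieldFullC (ResidueField ↥A) M) gM), GenericX0 hA hqM (HX0 hA hqM HM)) :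
    FrobZHyp M q p := by
  refine frobZHyp_of_inputsC hp hpq fun A hA hqM _ _ => ?_
  haveI : IsAlgClosed (ResidueField ↥A) :=
    Fermat.Agent.S18.ResidueBasics.isAlgClosed_residueField A
  obtain ⟨gM, HM⟩ := Fermat.Agent.S18.A.RiemannFk.exists_riemannHyp_Fk' (ResidueField ↥A) M
    (Fermat.Agent.S18.B.SeparableFk.isSeparable_jk (ResidueField ↥A) M)
  obtain ⟨Y, hfix⟩ := exists_nodesX0_fix HM (hgen A hA hqM gM HM)
  exact ⟨gM, gM, HX0 hA hqM HM, inputsX0 (hgen A hA hqM gM HM), Y, fun b hb => (hfix b hb).1⟩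

end Fermat.Agent.S35.FrobZOfGeneric
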