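import Mathlib
import Fermat.Agent.S34.OrthoNorm
import Fermat.Agent.S34.TwoExtRed

/-!
# S35, layer (L2): the norm commutes with reduction for the two extensions of a Gauss place

Abstract part (Mathlib + `S34/OrthoNorm` + `S34/TwoExt(Red)`), the X₀ instantiation is in
`S35/NormRedX0`.

* `algebraMap_norm_eq_pow_finrank` : for a finite extension `L/K` of fields of characteristic `q`
  with `L^q ⊆ K` (purely inseparable of exponent one), `N_{L/K} z = z ^ [L : K]`;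
* `red_norm₂` : `OrthoNorm.red_norm'` for TWO valuation rings `V₁`, `V₂` (no dependent families):
  `red (N_{F'/F} y) = N_{κ₁/κ} (ρ₁ y) * N_{κ₂/κ} (ρ₂ y)` for `y ∈ V₁ ∩ V₂`;
* `finrank_of_isExt` : in the setting of `TwoExt.Setup`, the residue field of the extension of
  type `G` is `κ[ρ t]` of degree `deg G` over the residue field `κ` of `O`;
* `red_norm_twoExt` : the norm formula in the setting of `TwoExt.Setup` (all numerical hypotheses
  of `red_norm₂` discharged);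
* `Via f` : the field `L` as an algebra over `K` along `f : K →+* L`;
* `red_norm_twoExt_frob` : the Frobenius form.  If `deg G₁ = 1`, `deg G₂ = q`, both reductions
  `ρ₁, ρ₂` take values in `κ`, `ρ₁ = red₀` on `O`, `ρ₂ = φ ∘ red₀` on `O` with `φ : κ →+* κ`
  such that every `q`-th power is in the image of `φ`, then
  `φ (red₀ (N y)) = φ (ρ₁ y) * (ρ₂ y) ^ q`.
-/

set_option autoImplicit false
set_option linter.unusedSectionVars false
set_option linter.style.haveILetI false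

noncomputable section

namespace Fermat.Agent.S35.NormRed

open Polynomial IntermediateField IsLocalRing
open Fermat.Agent.S34.WeakApprox Fermat.Agent.S34.OrthoMulti Fermat.Agent.S34.OrthoTrace
open Fermat.Agent.S34.OrthoNorm Fermat.Agent.S34.TwoExt

universe u

/-! ### the norm of a purely inseparable extension of exponent one -/

/-- **norm of a purely inseparable extension of exponent one**: if `L/K` is a finite extension of
fields of characteristic `q` with `L^q ⊆ K`, then `N_{L/K} z = z ^ [L : K]` (as elements of `L`). -/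
theorem algebraMap_norm_eq_pow_finrank {K L : Type*} [Field K] [Field L] [Algebra K L]
    [FiniteDimensional K L] (q : ℕ) [hq : Fact q.Prime] [CharP L q]
    (hpow : ∀ z : L, ∃ c : K, algebraMap K L c = z ^ q) (z : L) :
    algebraMap K L (Algebra.norm K z) = z ^ Module.finrank K L := by
  obtain ⟨c, hc⟩ := hpow z
  have hint : IsIntegral K z := Algebra.IsIntegral.isIntegral z
  -- the minimal polynomial divides `X^q - c`, which is `(X - z)^q` over `L`
  have hdvd : minpoly K z ∣ (X ^ q - C c : K[X]) := by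
    apply minpoly.dvd
    rw [map_sub, map_pow, aeval_X, aeval_C, hc, sub_self]
  have hmap : (X ^ q - C c : K[X]).map (algebraMap K L) = (X - C z) ^ q := by
    rw [Polynomial.map_sub, Polynomial.map_pow, map_X, map_C, hc, sub_pow_char, ← C_pow]
  have hdvd' : (minpoly K z).map (algebraMap K L) ∣ (X - C z) ^ q := by
    rw [← hmap]
    exact Polynomial.map_dvd _ hdvd
  have hsplit : ((minpoly K z).map (algebraMap K L)).Splits :=
    Polynomial.Splits.of_dvd ((Polynomial.Splits.X_sub_C z).pow q)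
      (pow_ne_zero _ (X_sub_C_ne_zero z)) hdvd'
  have hroots : ∀ y ∈ (minpoly K z).aroots L, y = z := by
    intro y hy
    have h1 : y ∈ ((X - C z) ^ q : L[X]).roots :=
      Multiset.mem_of_le (roots.le_of_dvd (pow_ne_zero _ (X_sub_C_ne_zero z)) hdvd') hy
    rw [roots_pow, roots_X_sub_C, Multiset.mem_nsmul] at h1
    exact Multiset.mem_singleton.mp h1.2
  have hcard : Multiset.card ((minpoly K z).aroots L) = (minpoly K z).natDegree := by
    rw [aroots, ← hsplit.natDegree_eq_card_roots, natDegree_map]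
  have hprod : ((minpoly K z).aroots L).prod = z ^ (minpoly K z).natDegree := by
    rw [Multiset.eq_replicate_of_mem hroots, Multiset.prod_replicate, hcard]
  rw [Algebra.norm_eq_prod_roots L hsplit, hprod, ← pow_mul,
    ← IntermediateField.adjoin.finrank hint, Module.finrank_mul_finrank]

/-! ### two valuation rings -/

section Two

variable {F F' : Type*} [Field F] [Field F'] [Algebra F F'] [Module.Finite F F']
variable {O : ValuationSubring F} {V₁ V₂ : ValuationSubring F'}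
variable {κ : Type*} [Field κ] {κ₁ κ₂ : Type u} [Field κ₁] [Field κ₂]
  [Algebra κ κ₁] [Algebra κ κ₂]

/-- the `Bool`-indexed family of the two valuation rings (`true ↦ V₁`, `false ↦ V₂`) -/
def fam (V₁ V₂ : ValuationSubring F') : Bool → ValuationSubring F' := fun b => bif b then V₁ else V₂

/-- the `Bool`-indexed family of the two residue fields -/
def famK (κ₁ κ₂ : Type u) : Bool → Type u := fun b => bif b then κ₁ else κ₂

instance famK_field : ∀ b, Field (famK κ₁ κ₂ b)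
  | true => inferInstanceAs (Field κ₁)
  | false => inferInstanceAs (Field κ₂)

instance famK_algebra : ∀ b, Algebra κ (famK κ₁ κ₂ b)
  | true => inferInstanceAs (Algebra κ κ₁)
  | false => inferInstanceAs (Algebra κ κ₂)

instance famK_finite [Module.Finite κ κ₁] [Module.Finite κ κ₂] :
    ∀ b, Module.Finite κ (famK κ₁ κ₂ b)
  | true => inferInstanceAs (Module.Finite κ κ₁)
  | false => inferInstanceAs (Module.Finite κ κ₂)

/-- the reduction data of two valuation rings over `O` -/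
def redData₂ (hV₁ : V₁.comap (algebraMap F F') = O) (hV₂ : V₂.comap (algebraMap F F') = O)
    (red : ↥O →+* κ) (ρ₁ : ↥V₁ →+* κ₁) (ρ₂ : ↥V₂ →+* κ₂)
    (hred : ∀ c : ↥O, red c = 0 ↔ (c : F) ∈ O.nonunits)
    (hρ₁ : ∀ y : ↥V₁, ρ₁ y = 0 ↔ (y : F') ∈ V₁.nonunits)
    (hρ₂ : ∀ y : ↥V₂, ρ₂ y = 0 ↔ (y : F') ∈ V₂.nonunits)
    (hc₁ : ∀ (c : ↥O) (h : algebraMap F F' (c : F) ∈ V₁),
      ρ₁ ⟨algebraMap F F' (c : F), h⟩ = algebraMap κ κ₁ (red c))
    (hc₂ : ∀ (c : ↥O) (h : algebraMap F F' (c : F) ∈ V₂),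
      ρ₂ ⟨algebraMap F F' (c : F), h⟩ = algebraMap κ κ₂ (red c)) :
    RedData O (fam V₁ V₂) κ (famK κ₁ κ₂) where
  comap := fun b => by cases b <;> assumption
  red := red
  red' := fun b => match b with
    | true => ρ₁
    | false => ρ₂
  red_eq_zero := hred
  red'_eq_zero := fun b => match b with
    | true => hρ₁
    | false => hρ₂
  compat := fun b => match b with
    | true => fun c => hc₁ c _
    | false => fun c => hc₂ c _

/-- **the norm commutes with reduction, two valuation rings** -/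
theorem red_norm₂ [Module.Finite κ κ₁] [Module.Finite κ κ₂]
    (hV₁ : V₁.comap (algebraMap F F') = O) (hV₂ : V₂.comap (algebraMap F F') = O)
    (red : ↥O →+* κ) (ρ₁ : ↥V₁ →+* κ₁) (ρ₂ : ↥V₂ →+* κ₂)
    (hred : ∀ c : ↥O, red c = 0 ↔ (c : F) ∈ O.nonunits)
    (hρ₁ : ∀ y : ↥V₁, ρ₁ y = 0 ↔ (y : F') ∈ V₁.nonunits)
    (hρ₂ : ∀ y : ↥V₂, ρ₂ y = 0 ↔ (y : F') ∈ V₂.nonunits)
    (hc₁ : ∀ (c : ↥O) (h : algebraMap F F' (c : F) ∈ V₁),
      ρ₁ ⟨algebraMap F F' (c : F), h⟩ = algebraMap κ κ₁ (red c))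
    (hc₂ : ∀ (c : ↥O) (h : algebraMap F F' (c : F) ∈ V₂),
      ρ₂ ⟨algebraMap F F' (c : F), h⟩ = algebraMap κ κ₂ (red c))
    (hs₁ : Function.Surjective ρ₁) (hs₂ : Function.Surjective ρ₂)
    (hA₁ : Arch V₁) (hA₂ : Arch V₂) (h12 : ¬ V₁ ≤ V₂) (h21 : ¬ V₂ ≤ V₁)
    (hdim : Module.finrank κ κ₁ + Module.finrank κ κ₂ = Module.finrank F F')
    {y : F'} (hy₁ : y ∈ V₁) (hy₂ : y ∈ V₂) :
    ∃ h : Algebra.norm F y ∈ O,
      red ⟨Algebra.norm F y, h⟩ =
        Algebra.norm κ (ρ₁ ⟨y, hy₁⟩) * Algebra.norm κ (ρ₂ ⟨y, hy₂⟩) := by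
  set D := redData₂ hV₁ hV₂ red ρ₁ ρ₂ hred hρ₁ hρ₂ hc₁ hc₂ with hD
  have hsurj : ∀ b, Function.Surjective (D.red' b) := fun b => by cases b <;> assumption
  have hA : ∀ b, Arch (fam V₁ V₂ b) := fun b => by cases b <;> assumption
  have hinc : ∀ b b', b ≠ b' → ¬ fam V₁ V₂ b ≤ fam V₁ V₂ b' := by
    intro b b' hbb
    cases b <;> cases b'
    · exact absurd rfl hbb
    · exact h21
    · exact h12
    · exact absurd rfl hbb
  have hdim' : ∑ b, Module.finrank κ (famK κ₁ κ₂ b) = Module.finrank F F' := by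
    rw [Fintype.sum_bool]
    exact hdim
  have hy : ∀ b, y ∈ fam V₁ V₂ b := fun b => by cases b <;> assumption
  have h := red_norm' D hsurj hA hinc hdim' hy
  rw [Fintype.prod_bool] at h
  exact ⟨norm_mem' D hsurj hA hinc hdim' hy, h⟩

end Two

/-! ### residue degrees in the setting of `TwoExt.Setup` -/

section Degree

variable {F : Type*} [Field F] {F' : Type*} [Field F'] [Algebra F F']
variable {O : ValuationSubring F} (S : Setup O F') {V : ValuationSubring F'}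
variable {κ κ' : Type*} [Field κ] [Field κ'] [Algebra κ κ']

/-- the residue field of `O` is `κ`, for a surjective `red₀ : O → κ` with kernel `𝔪_O` -/
def resEquivOf (red₀ : ↥O →+* κ) (hred₀ : ∀ c : ↥O, red₀ c = 0 ↔ (c : F) ∈ O.nonunits)
    (hsurj₀ : Function.Surjective red₀) : ResidueField ↥O ≃+* κ :=
  (Ideal.quotEquivOfEq (show maximalIdeal ↥O = RingHom.ker red₀ by
    ext x
    rw [RingHom.mem_ker, hred₀, ValuationSubring.coe_mem_nonunits_iff])).trans
    (RingHom.quotientKerEquivOfSurjective hsurj₀)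

theorem resEquivOf_residue (red₀ : ↥O →+* κ)
    (hred₀ : ∀ c : ↥O, red₀ c = 0 ↔ (c : F) ∈ O.nonunits)
    (hsurj₀ : Function.Surjective red₀) (x : ↥O) :
    resEquivOf red₀ hred₀ hsurj₀ (residue _ x) = red₀ x := rfl

theorem irreducible_map_of_red (red₀ : ↥O →+* κ)
    (hred₀ : ∀ c : ↥O, red₀ c = 0 ↔ (c : F) ∈ O.nonunits)
    (hsurj₀ : Function.Surjective red₀) {G : (↥O)[X]} (hirr : Irreducible (red O G)) :
    Irreducible (G.map red₀) := by
  have h1 : G.map red₀ = Polynomial.mapEquiv (resEquivOf red₀ hred₀ hsurj₀) (red O G) := by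
    rw [red_apply, Polynomial.mapEquiv_apply, Polynomial.map_map]
    congr 1
  rw [h1]
  exact (MulEquiv.irreducible_iff (Polynomial.mapEquiv (resEquivOf red₀ hred₀ hsurj₀))).mpr hirr

/-- `ρ (p(t)) = (red₀ p)(ρ t)` -/
theorem rho_evV (hV : V.comap (algebraMap F F') = O) (red₀ : ↥O →+* κ) (ρ : ↥V →+* κ')
    (hc : ∀ c : ↥O, ρ (Setup.incl hV c) = algebraMap κ κ' (red₀ c)) (p : (↥O)[X]) :
    ρ (S.evV hV p) = aeval (ρ ⟨S.t, S.t_mem hV⟩) (p.map red₀) := by
  have h : ρ.comp (S.evV hV) =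
      ((aeval (ρ ⟨S.t, S.t_mem hV⟩) : κ[X] →ₐ[κ] κ') : κ[X] →+* κ').comp (mapRingHom red₀) := by
    refine Polynomial.ringHom_ext (fun c => ?_) ?_
    · rw [RingHom.comp_apply, RingHom.comp_apply, Setup.evV, coe_eval₂RingHom, eval₂_C, hc,
        coe_mapRingHom, map_C]
      simp
    · rw [RingHom.comp_apply, RingHom.comp_apply, Setup.evV, coe_eval₂RingHom, eval₂_X,
        coe_mapRingHom, map_X]
      simp
  exact congrArg (fun f => f p) h

/-- **the residue degree of an extension `V` of type `G`**: if `ρ : V → κ'` is onto with kernel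
`𝔪_V` and restricts to the residue map `red₀ : O → κ` of `O`, then `κ' = κ[ρ t]`, the minimal
polynomial of `ρ t` is the reduction of `G`, and `[κ' : κ] = deg G`. -/
theorem finrank_of_isExt {G : (↥O)[X]} (hV : S.IsExt G V) (hG : G.Monic)
    (hirr : Irreducible (red O G))
    (hres : ∀ x : F', x ∈ V → ∃ r : (↥O)[X], V.valuation (x - S.ev r) < 1)
    (red₀ : ↥O →+* κ) (hred₀ : ∀ c : ↥O, red₀ c = 0 ↔ (c : F) ∈ O.nonunits)
    (hsurj₀ : Function.Surjective red₀)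
    (ρ : ↥V →+* κ') (hρ : ∀ y : ↥V, ρ y = 0 ↔ (y : F') ∈ V.nonunits)
    (hρs : Function.Surjective ρ)
    (hc : ∀ c : ↥O, ρ (Setup.incl hV.comap c) = algebraMap κ κ' (red₀ c)) :
    Module.Finite κ κ' ∧ Module.finrank κ κ' = G.natDegree := by
  set θ : κ' := ρ ⟨S.t, S.t_mem hV.comap⟩ with hθ
  have hgm : (G.map red₀).Monic := hG.map _
  have hgirr := irreducible_map_of_red red₀ hred₀ hsurj₀ hirr
  have hroot : aeval θ (G.map red₀) = 0 := by
    rw [hθ, ← rho_evV S hV.comap red₀ ρ hc, hρ, S.coe_evV, ValuationSubring.mem_nonunits_iff]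
    exact hV.lt
  have hint : IsIntegral κ θ := ⟨G.map red₀, hgm, by rw [← aeval_def]; exact hroot⟩
  have hmin : minpoly κ θ = G.map red₀ :=
    (minpoly.eq_of_irreducible_of_monic hgirr hroot hgm).symm
  have htop : IntermediateField.adjoin κ {θ} = ⊤ := by
    rw [eq_top_iff]
    intro y _
    obtain ⟨x, rfl⟩ := hρs y
    obtain ⟨r, hr⟩ := hres x x.2
    have h1 : ρ x = ρ (S.evV hV.comap r) := by
      rw [← sub_eq_zero, ← map_sub, hρ, ValuationSubring.mem_nonunits_iff]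
      push_cast
      rw [S.coe_evV]
      exact hr
    rw [h1, rho_evV S hV.comap red₀ ρ hc]
    exact IntermediateField.algebra_adjoin_le_adjoin κ {θ} (aeval_mem_adjoin_singleton κ θ)
  set pb := Setup.powerBasisOfAdjoinEqTop hint htop with hpb
  have hgen : pb.gen = θ := Setup.powerBasisOfAdjoinEqTop_gen hint htop
  refine ⟨pb.finite, ?_⟩
  rw [pb.finrank, ← pb.natDegree_minpoly, hgen, hmin, hG.natDegree_map]

end Degree

/-! ### the norm formula in the setting of `TwoExt.Setup` -/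

section TwoExtNorm

variable {F F' : Type*} [Field F] [Field F'] [Algebra F F'] [Module.Finite F F']
variable {O : ValuationSubring F} (S : Setup O F') {V₁ V₂ : ValuationSubring F'}
variable {κ : Type*} [Field κ] {κ₁ κ₂ : Type u} [Field κ₁] [Field κ₂]
  [Algebra κ κ₁] [Algebra κ κ₂]

include S in
theorem natDegree_add_natDegree (hG₁ : S.G₁.Monic) (hG₂ : S.G₂.Monic) :
    S.G₁.natDegree + S.G₂.natDegree = S.Φ.natDegree := by
  have h := congrArg natDegree S.red_Φ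
  rw [S.natDegree_red_Φ, natDegree_mul S.irr₁.ne_zero S.irr₂.ne_zero, red_apply, red_apply,
    hG₁.natDegree_map, hG₂.natDegree_map] at h
  exact h.symm

/-- **the norm commutes with reduction for the two extensions of a `TwoExt.Setup`** -/
theorem red_norm_twoExt (hfin : Module.finrank F F' = S.Φ.natDegree)
    (hG₁ : S.G₁.Monic) (hG₂ : S.G₂.Monic)
    (h₁ : S.IsExt S.G₁ V₁) (h₂ : S.IsExt S.G₂ V₂)
    (hA₁ : Arch V₁) (hA₂ : Arch V₂) (h12 : ¬ V₁ ≤ V₂) (h21 : ¬ V₂ ≤ V₁)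
    (red₀ : ↥O →+* κ) (hred₀ : ∀ c : ↥O, red₀ c = 0 ↔ (c : F) ∈ O.nonunits)
    (hsurj₀ : Function.Surjective red₀)
    (ρ₁ : ↥V₁ →+* κ₁) (ρ₂ : ↥V₂ →+* κ₂)
    (hρ₁ : ∀ y : ↥V₁, ρ₁ y = 0 ↔ (y : F') ∈ V₁.nonunits)
    (hρ₂ : ∀ y : ↥V₂, ρ₂ y = 0 ↔ (y : F') ∈ V₂.nonunits)
    (hs₁ : Function.Surjective ρ₁) (hs₂ : Function.Surjective ρ₂)
    (hc₁ : ∀ c : ↥O, ρ₁ (Setup.incl h₁.comap c) = algebraMap κ κ₁ (red₀ c))
    (hc₂ : ∀ c : ↥O, ρ₂ (Setup.incl h₂.comap c) = algebraMap κ κ₂ (red₀ c))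
    {y : F'} (hy₁ : y ∈ V₁) (hy₂ : y ∈ V₂) :
    (Module.Finite κ κ₁ ∧ Module.finrank κ κ₁ = S.G₁.natDegree) ∧
    (Module.Finite κ κ₂ ∧ Module.finrank κ κ₂ = S.G₂.natDegree) ∧
    ∃ h : Algebra.norm F y ∈ O,
      red₀ ⟨Algebra.norm F y, h⟩ =
        Algebra.norm κ (ρ₁ ⟨y, hy₁⟩) * Algebra.norm κ (ρ₂ ⟨y, hy₂⟩) := by
  have hd₁ := finrank_of_isExt S h₁ hG₁ S.irr₁ (fun x hx => S.exists_ev_sub_lt_one₁ h₁ h₂ hx)
    red₀ hred₀ hsurj₀ ρ₁ hρ₁ hs₁ hc₁
  have hd₂ := finrank_of_isExt S h₂ hG₂ S.irr₂ (fun x hx => S.exists_ev_sub_lt_one₂ h₁ h₂ hx)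
    red₀ hred₀ hsurj₀ ρ₂ hρ₂ hs₂ hc₂
  refine ⟨hd₁, hd₂, ?_⟩
  haveI := hd₁.1
  haveI := hd₂.1
  exact red_norm₂ h₁.comap h₂.comap red₀ ρ₁ ρ₂ hred₀ hρ₁ hρ₂ (fun c _ => hc₁ c)
    (fun c _ => hc₂ c) hs₁ hs₂ hA₁ hA₂ h12 h21
    (by rw [hd₁.2, hd₂.2, hfin, natDegree_add_natDegree S hG₁ hG₂]) hy₁ hy₂

end TwoExtNorm

/-! ### the Frobenius form -/

section Frob

/-- the field `L` as an algebra over `K` along `f : K →+* L` -/
def Via {K L : Type*} [Field K] [Field L] (_f : K →+* L) : Type _ := L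

instance Via.instField {K L : Type*} [Field K] [Field L] (f : K →+* L) : Field (Via f) :=
  inferInstanceAs (Field L)

instance Via.instAlgebra {K L : Type*} [Field K] [Field L] (f : K →+* L) : Algebra K (Via f) :=
  f.toAlgebra

theorem Via.algebraMap_apply {K L : Type*} [Field K] [Field L] (f : K →+* L) (c : K) :
    algebraMap K (Via f) c = f c := rfl

instance Via.instCharP {K L : Type*} [Field K] [Field L] (f : K →+* L) (q : ℕ) [CharP L q] :
    CharP (Via f) q :=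
  inferInstanceAs (CharP L q)

variable {F F' : Type*} [Field F] [Field F'] [Algebra F F'] [Module.Finite F F']
variable {O : ValuationSubring F} (S : Setup O F') {V₁ V₂ : ValuationSubring F'}
variable {κ : Type*} [Field κ]

/-- **the norm formula, Frobenius form**: both reductions take values in `κ`; `ρ₁` extends `red₀`,
`ρ₂` extends `φ ∘ red₀`, where `φ : κ →+* κ` has every `q`-th power in its image and the second
factor has degree `q`.  Then `φ (red₀ (N y)) = φ (ρ₁ y) * (ρ₂ y) ^ q`. -/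
theorem red_norm_twoExt_frob (q : ℕ) [hq : Fact q.Prime] [CharP κ q]
    (hfin : Module.finrank F F' = S.Φ.natDegree)
    (hG₁ : S.G₁.Monic) (hG₂ : S.G₂.Monic) (hdeg₂ : S.G₂.natDegree = q)
    (h₁ : S.IsExt S.G₁ V₁) (h₂ : S.IsExt S.G₂ V₂)
    (hA₁ : Arch V₁) (hA₂ : Arch V₂) (h12 : ¬ V₁ ≤ V₂) (h21 : ¬ V₂ ≤ V₁)
    (red₀ : ↥O →+* κ) (hred₀ : ∀ c : ↥O, red₀ c = 0 ↔ (c : F) ∈ O.nonunits)
    (hsurj₀ : Function.Surjective red₀)
    (φ : κ →+* κ) (hφ : ∀ z : κ, ∃ c : κ, φ c = z ^ q)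
    (ρ₁ : ↥V₁ →+* κ) (ρ₂ : ↥V₂ →+* κ)
    (hρ₁ : ∀ y : ↥V₁, ρ₁ y = 0 ↔ (y : F') ∈ V₁.nonunits)
    (hρ₂ : ∀ y : ↥V₂, ρ₂ y = 0 ↔ (y : F') ∈ V₂.nonunits)
    (hs₁ : Function.Surjective ρ₁) (hs₂ : Function.Surjective ρ₂)
    (hc₁ : ∀ c : ↥O, ρ₁ (Setup.incl h₁.comap c) = red₀ c)
    (hc₂ : ∀ c : ↥O, ρ₂ (Setup.incl h₂.comap c) = φ (red₀ c))
    {y : F'} (hy₁ : y ∈ V₁) (hy₂ : y ∈ V₂) :
    ∃ h : Algebra.norm F y ∈ O,
      φ (red₀ ⟨Algebra.norm F y, h⟩) = φ (ρ₁ ⟨y, hy₁⟩) * ρ₂ ⟨y, hy₂⟩ ^ q := by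
  obtain ⟨-, ⟨hfin₂, hrank₂⟩, h, hn⟩ :=
    red_norm_twoExt (κ₁ := κ) (κ₂ := Via φ) S hfin hG₁ hG₂ h₁ h₂ hA₁ hA₂ h12 h21 red₀ hred₀ hsurj₀
      ρ₁ ρ₂ hρ₁ hρ₂ hs₁ hs₂ hc₁ hc₂ hy₁ hy₂
  refine ⟨h, ?_⟩
  have h2 := algebraMap_norm_eq_pow_finrank (K := κ) (L := Via φ) q hφ (ρ₂ ⟨y, hy₂⟩)
  rw [hrank₂, hdeg₂, Via.algebraMap_apply] at h2
  rw [hn, map_mul, Algebra.norm_self, MonoidHom.id_apply]
  exact congrArg (fun w => φ (ρ₁ ⟨y, hy₁⟩) * w) h2

end Frob

end Fermat.Agent.S35.NormRed
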