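/-
S35, layer (N1) of (NEW-σ): the statements of `NewLayerNorm` / `NewLayerAssembly` for RAW Gauss data
`(O, red)` (only the four fields `algebraMap_mem`, `red_algebraMap`, `exists_const_mul_unit`,
`mem_of_algebraMap_mem` are used), and their specialisation to `S37.Deuring.Core.GaussDatum`
(the structure used at `X₀(M)` by PROJECT U).  (helper3)
-/
import Fermat.Agent.S37.Deuring.Core
import Fermat.Agent.S35.NewLayerAssembly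

set_option autoImplicit false

namespace Fermat.Agent.S35.NewLayerGauss

open AlgebraicCurve Fermat.Agent.S35.NewLayer Fermat.Agent.S35.NewLayerAssembly
open Fermat.Agent.S34.WeakApprox Fermat.Agent.S34.WeakApproxMul Fermat.Agent.S34.Z1Abstract

variable {L : Type*} [Field L] {FL : Type*} [Field FL] [Algebra L FL]
variable {k : Type*} [Field k] {Fk : Type*} [Field Fk] [Algebra k Fk]

/-- A Gauss unit of the form `c * g ^ n` (`c` constant) reduces to an `n`-th power, when the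
residue field of constants is algebraically closed. -/
theorem red_isPow_raw [IsAlgClosed k] {A : ValuationSubring L} {π : A →+* k}
    (O : ValuationSubring FL) (red : O →+* Fk)
    (hmem : ∀ a : A, algebraMap L FL (a : L) ∈ O)
    (hredc : ∀ a : A, red ⟨algebraMap L FL (a : L), hmem a⟩ = algebraMap k Fk (π a))
    (hcu : ∀ f : FL, f ≠ 0 →
      ∃ c : L, c ≠ 0 ∧ ∃ u : Oˣ, f = algebraMap L FL c * ((u : O) : FL))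
    (hOA : ∀ c : L, algebraMap L FL c ∈ O → c ∈ A) (n : ℕ) (hn : n ≠ 0)
    (x : FL) (hx : x ∈ O) (hne : red ⟨x, hx⟩ ≠ 0) (c : L) (g : FL)
    (hxg : x = algebraMap L FL c * g ^ n) : ∃ z : Fk, red ⟨x, hx⟩ = z ^ n := by
  have hx0 : x ≠ 0 := by
    rintro rfl
    apply hne
    have : (⟨0, hx⟩ : O) = 0 := rfl
    rw [this, map_zero]
  have hg0 : g ≠ 0 := by
    rintro rfl
    apply hx0
    rw [hxg, zero_pow hn, mul_zero]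
  obtain ⟨d, hd, u, hu⟩ := hcu g hg0
  -- `x = (c d^n) * u^n`
  have hx' : x = algebraMap L FL (c * d ^ n) * (((u : O) : FL)) ^ n := by
    rw [hxg, hu, mul_pow, map_mul, map_pow]; ring
  have hun : (((u ^ n : Oˣ) : O) : FL) = (((u : O) : FL)) ^ n := by
    simp
  have hinv : (((u ^ n : Oˣ)⁻¹ : Oˣ) : O) * ((u ^ n : Oˣ) : O) = 1 := by
    rw [Units.inv_mul]
  have hcdO : algebraMap L FL (c * d ^ n) ∈ O := by
    have h1 : algebraMap L FL (c * d ^ n)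
        = x * ((((u ^ n : Oˣ)⁻¹ : Oˣ) : O) : FL) := by
      have h2 := congrArg (fun v : O => (v : FL)) hinv
      simp only [MulMemClass.coe_mul, OneMemClass.coe_one] at h2
      rw [hx', mul_assoc, ← hun, mul_comm ((((u ^ n : Oˣ) : O)) : FL), h2, mul_one]
    rw [h1]
    exact O.mul_mem _ _ hx (Subtype.mem _)
  have hA : c * d ^ n ∈ A := hOA _ hcdO
  have hred : red ⟨x, hx⟩
      = algebraMap k Fk (π ⟨c * d ^ n, hA⟩) * red (u : O) ^ n := by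
    have : (⟨x, hx⟩ : O) = ⟨algebraMap L FL ((⟨c * d ^ n, hA⟩ : A) : L),
        hmem ⟨c * d ^ n, hA⟩⟩ * (u : O) ^ n := Subtype.ext (by
      simp only [MulMemClass.coe_mul, SubmonoidClass.coe_pow]
      exact hx')
    rw [this, map_mul, map_pow, hredc]
  obtain ⟨ζ, hζ⟩ := IsAlgClosed.exists_pow_nat_eq (π ⟨c * d ^ n, hA⟩) (Nat.pos_of_ne_zero hn)
  refine ⟨algebraMap k Fk ζ * red (u : O), ?_⟩
  rw [hred, mul_pow, ← map_pow (algebraMap k Fk), hζ]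

variable {E : Type*} [Field E]

/-- **Layer (M1) from the norm formulas.**  `E` is the function field of `X₀(Mq)`, `FL` that of
`X₀(M)` with Gauss datum `R`; `xa = N_α f` and `xb = N_β f` are the two norms of a function `f`
which is a unit at both Gauss rings `V₁`, `V₂` of `E`.  If both norms are of the form
`constant * n-th power` (i.e. the class of `f` in `J₀(Mq)[n]` dies under `α_*` and `β_*`) then
`s f / f` is an `n`-th power times a one-unit at both `V₁` and `V₂`. -/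
theorem exists_oneUnit_rep_raw [IsAlgClosed k] {A₀ : ValuationSubring L} {π : A₀ →+* k}
    (O : ValuationSubring FL) (red : O →+* Fk)
    (hmem : ∀ a : A₀, algebraMap L FL (a : L) ∈ O)
    (hredc : ∀ a : A₀, red ⟨algebraMap L FL (a : L), hmem a⟩ = algebraMap k Fk (π a))
    (hcu : ∀ f : FL, f ≠ 0 →
      ∃ c : L, c ≠ 0 ∧ ∃ u : Oˣ, f = algebraMap L FL c * ((u : O) : FL))
    (hOA : ∀ c : L, algebraMap L FL c ∈ O → c ∈ A₀)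
    (V₁ V₂ : ValuationSubring E) (r₁ : V₁ →+* Fk) (r₂ : V₂ →+* Fk)
    (hr₁ : ∀ u : V₁, r₁ u = 0 ↔ ¬ IsUnit u) (hr₂ : ∀ u : V₂, r₂ u = 0 ↔ ¬ IsUnit u)
    (A B : Fk ≃+* Fk) (s : E ≃+* E)
    (hs₁ : ∀ (u : E) (hu : u ∈ V₁), ∃ h : s u ∈ V₁, r₁ ⟨s u, h⟩ = A (B (r₁ ⟨u, hu⟩)))
    (hs₂ : ∀ (u : E) (hu : u ∈ V₂), ∃ h : s u ∈ V₂, r₂ ⟨s u, h⟩ = B (A (r₂ ⟨u, hu⟩)))
    (hsurj : ∀ a₁ a₂ : Fk, ∃ (h : E) (h₁ : h ∈ V₁) (h₂ : h ∈ V₂),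
      r₁ ⟨h, h₁⟩ = a₁ ∧ r₂ ⟨h, h₂⟩ = a₂)
    (n : ℕ) (hn : n ≠ 0) (f : E) (hf₁ : f ∈ V₁) (hf₂ : f ∈ V₂)
    (hf₁' : r₁ ⟨f, hf₁⟩ ≠ 0) (hf₂' : r₂ ⟨f, hf₂⟩ ≠ 0)
    (xa xb : FL) (hxa : xa ∈ O) (hxb : xb ∈ O)
    (hra : red ⟨xa, hxa⟩ = r₁ ⟨f, hf₁⟩ * A (r₂ ⟨f, hf₂⟩))
    (hrb : red ⟨xb, hxb⟩ = B (r₁ ⟨f, hf₁⟩) * r₂ ⟨f, hf₂⟩)
    (ca : L) (ga : FL) (hxa' : xa = algebraMap L FL ca * ga ^ n)
    (cb : L) (gb : FL) (hxb' : xb = algebraMap L FL cb * gb ^ n) :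
    ∃ h : E, h ≠ 0 ∧ ∃ (h₁ : s f / (f * h ^ n) ∈ V₁) (h₂ : s f / (f * h ^ n) ∈ V₂),
      r₁ ⟨s f / (f * h ^ n), h₁⟩ = 1 ∧ r₂ ⟨s f / (f * h ^ n), h₂⟩ = 1 := by
  have hnea : red ⟨xa, hxa⟩ ≠ 0 := by
    rw [hra]; exact mul_ne_zero hf₁' ((map_ne_zero A).2 hf₂')
  have hneb : red ⟨xb, hxb⟩ ≠ 0 := by
    rw [hrb]; exact mul_ne_zero ((map_ne_zero B).2 hf₁') hf₂'
  obtain ⟨za, hza⟩ := red_isPow_raw O red hmem hredc hcu hOA n hn xa hxa hnea ca ga hxa'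
  obtain ⟨zb, hzb⟩ := red_isPow_raw O red hmem hredc hcu hOA n hn xb hxb hneb cb gb hxb'
  exact exists_oneUnit_rep V₁ V₂ r₁ r₂ hr₁ hr₂ A B s hs₁ hs₂ hsurj n hn f hf₁ hf₂ hf₁' hf₂'
    ⟨za, hra ▸ hza⟩ ⟨zb, hrb ▸ hzb⟩

section Main

variable [Algebra L E]

/-- **Layer (N1), abstract assembly.** -/
theorem exists_oneUnit_decomposition_raw [IsAlgClosed k] {A₀ : ValuationSubring L} {π : A₀ →+* k}
    (O : ValuationSubring FL) (red : O →+* Fk)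
    (hmem : ∀ a : A₀, algebraMap L FL (a : L) ∈ O)
    (hredc : ∀ a : A₀, red ⟨algebraMap L FL (a : L), hmem a⟩ = algebraMap k Fk (π a))
    (hcu : ∀ f : FL, f ≠ 0 →
      ∃ c : L, c ≠ 0 ∧ ∃ u : Oˣ, f = algebraMap L FL c * ((u : O) : FL))
    (hOA : ∀ c : L, algebraMap L FL c ∈ O → c ∈ A₀)
    {V₁ V₂ : ValuationSubring E} (h₁ : Arch V₁) (h₂ : Arch V₂)
    (hne : V₁ ≠ V₂) (ht₁ : V₁ ≠ ⊤) (ht₂ : V₂ ≠ ⊤)
    (r₁ : V₁ →+* Fk) (r₂ : V₂ →+* Fk)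
    (hr₁ : ∀ u : V₁, r₁ u = 0 ↔ ¬ IsUnit u) (hr₂ : ∀ u : V₂, r₂ u = 0 ↔ ¬ IsUnit u)
    (hsj₁ : Function.Surjective r₁) (hsj₂ : Function.Surjective r₂)
    (hval₁ : ∀ f : E, f ≠ 0 → ∃ c : L, V₁.valuation f = V₁.valuation (algebraMap L E c))
    (hval₂ : ∀ f : E, f ≠ 0 → ∃ c : L, V₂.valuation f = V₂.valuation (algebraMap L E c))
    (n : ℕ) (hn : n ≠ 0) (hdiv : ∀ c : L, ∃ d : L, d ^ n = c)
    (A B : Fk ≃+* Fk) (s : E ≃+* E)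
    (hs₁ : ∀ (u : E) (hu : u ∈ V₁), ∃ h : s u ∈ V₁, r₁ ⟨s u, h⟩ = A (B (r₁ ⟨u, hu⟩)))
    (hs₂ : ∀ (u : E) (hu : u ∈ V₂), ∃ h : s u ∈ V₂, r₂ ⟨s u, h⟩ = B (A (r₂ ⟨u, hu⟩)))
    (Na Nb : E →* FL) (hNa0 : ∀ x : E, x ≠ 0 → Na x ≠ 0) (hNb0 : ∀ x : E, x ≠ 0 → Nb x ≠ 0)
    (hNa : ∀ (u : E) (m₁ : u ∈ V₁) (m₂ : u ∈ V₂), ∃ h : Na u ∈ O,
      red ⟨Na u, h⟩ = r₁ ⟨u, m₁⟩ * A (r₂ ⟨u, m₂⟩))
    (hNb : ∀ (u : E) (m₁ : u ∈ V₁) (m₂ : u ∈ V₂), ∃ h : Nb u ∈ O,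
      red ⟨Nb u, h⟩ = B (r₁ ⟨u, m₁⟩) * r₂ ⟨u, m₂⟩)
    (f : E) (hf : f ≠ 0)
    (hfa : ∃ (c : L) (g : FL), Na f = algebraMap L FL c * g ^ n)
    (hfb : ∃ (c : L) (g : FL), Nb f = algebraMap L FL c * g ^ n) :
    ∃ h u : E, h ≠ 0 ∧ u ≠ 0 ∧ IsOneUnit V₁ u ∧ IsOneUnit V₂ u ∧ s f = h ^ n * u * f := by
  obtain ⟨h₀, hh₀, hv₁, hv₂⟩ :=
    exists_normalisation (L := L) h₁ h₂ hne ht₁ ht₂ hval₁ hval₂ n hn hdiv f hf
  set f' : E := f / h₀ ^ n with hf'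
  have hpow0 : h₀ ^ n ≠ 0 := pow_ne_zero _ hh₀
  have hf'0 : f' ≠ 0 := div_ne_zero hf hpow0
  have hff' : f = f' * h₀ ^ n := by rw [hf', div_mul_cancel₀ _ hpow0]
  obtain ⟨m₁, hm₁⟩ := residue_ne_zero_of_valuation_eq_one r₁ hr₁ hv₁
  obtain ⟨m₂, hm₂⟩ := residue_ne_zero_of_valuation_eq_one r₂ hr₂ hv₂
  obtain ⟨hxa, hra⟩ := hNa f' m₁ m₂
  obtain ⟨hxb, hrb⟩ := hNb f' m₁ m₂
  obtain ⟨ca, ga, hca⟩ := hfa
  obtain ⟨cb, gb, hcb⟩ := hfb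
  have hxa' : Na f' = algebraMap L FL ca * (ga / Na h₀) ^ n := by
    have h1 : Na f = Na f' * Na h₀ ^ n := by rw [hff', map_mul, map_pow]
    have h2 : Na h₀ ^ n ≠ 0 := pow_ne_zero _ (hNa0 h₀ hh₀)
    rw [div_pow, ← mul_div_assoc, ← hca, h1, mul_div_assoc, div_self h2, mul_one]
  have hxb' : Nb f' = algebraMap L FL cb * (gb / Nb h₀) ^ n := by
    have h1 : Nb f = Nb f' * Nb h₀ ^ n := by rw [hff', map_mul, map_pow]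
    have h2 : Nb h₀ ^ n ≠ 0 := pow_ne_zero _ (hNb0 h₀ hh₀)
    rw [div_pow, ← mul_div_assoc, ← hcb, h1, mul_div_assoc, div_self h2, mul_one]
  obtain ⟨h, hh0, hw₁, hw₂, e₁, e₂⟩ := exists_oneUnit_rep_raw O red hmem hredc hcu hOA V₁ V₂ r₁ r₂ hr₁ hr₂ A B s
    hs₁ hs₂ (exists_residues h₁ h₂ hne ht₁ ht₂ r₁ r₂ hr₁ hr₂ hsj₁ hsj₂) n hn f' m₁ m₂ hm₁ hm₂
    (Na f') (Nb f') hxa hxb hra hrb ca _ hxa' cb _ hxb'
  have hsf'0 : s f' ≠ 0 := (map_ne_zero s).2 hf'0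
  have hhn0 : h ^ n ≠ 0 := pow_ne_zero _ hh0
  refine ⟨h * s h₀ / h₀, s f' / (f' * h ^ n), ?_, ?_, ?_, ?_, ?_⟩
  · exact div_ne_zero (mul_ne_zero hh0 ((map_ne_zero s).2 hh₀)) hh₀
  · exact div_ne_zero hsf'0 (mul_ne_zero hf'0 hhn0)
  · exact isOneUnit_of_residue_eq_one r₁ hr₁ hw₁ e₁
  · exact isOneUnit_of_residue_eq_one r₂ hr₂ hw₂ e₂
  · have h3 : s f = s f' * s h₀ ^ n := by
      conv_lhs => rw [hff']
      rw [map_mul, map_pow]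
    rw [h3]
    conv_rhs => rw [hff']
    have h4 : (h * s h₀ / h₀) ^ n * h₀ ^ n = s h₀ ^ n * h ^ n := by
      rw [← mul_pow, div_mul_cancel₀ _ hh₀, mul_pow, mul_comm]
    field_simp
    exact h4.symm

end Main

/-! ### The `GaussDatum` forms -/

open Fermat.Agent.S37.Deuring.Core

/-- `red_isPow_raw` for a `GaussDatum`. -/
theorem red_isPow_gauss [IsAlgClosed k] {A : ValuationSubring L} {π : A →+* k}
    (G : GaussDatum A π FL Fk) (n : ℕ) (hn : n ≠ 0)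
    (x : FL) (hx : x ∈ G.O) (hne : G.red ⟨x, hx⟩ ≠ 0) (c : L) (g : FL)
    (hxg : x = algebraMap L FL c * g ^ n) : ∃ z : Fk, G.red ⟨x, hx⟩ = z ^ n :=
  red_isPow_raw G.O G.red G.algebraMap_mem G.red_algebraMap G.exists_const_mul_unit
    G.mem_of_algebraMap_mem n hn x hx hne c g hxg

section MainG

variable [Algebra L E]

/-- **Layer (N1), abstract assembly, `GaussDatum` form.** -/
theorem exists_oneUnit_decomposition_gauss [IsAlgClosed k] {A₀ : ValuationSubring L}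
    {π : A₀ →+* k} (G : GaussDatum A₀ π FL Fk)
    {V₁ V₂ : ValuationSubring E} (h₁ : Arch V₁) (h₂ : Arch V₂)
    (hne : V₁ ≠ V₂) (ht₁ : V₁ ≠ ⊤) (ht₂ : V₂ ≠ ⊤)
    (r₁ : V₁ →+* Fk) (r₂ : V₂ →+* Fk)
    (hr₁ : ∀ u : V₁, r₁ u = 0 ↔ ¬ IsUnit u) (hr₂ : ∀ u : V₂, r₂ u = 0 ↔ ¬ IsUnit u)
    (hsj₁ : Function.Surjective r₁) (hsj₂ : Function.Surjective r₂)
    (hval₁ : ∀ f : E, f ≠ 0 → ∃ c : L, V₁.valuation f = V₁.valuation (algebraMap L E c))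
    (hval₂ : ∀ f : E, f ≠ 0 → ∃ c : L, V₂.valuation f = V₂.valuation (algebraMap L E c))
    (n : ℕ) (hn : n ≠ 0) (hdiv : ∀ c : L, ∃ d : L, d ^ n = c)
    (A B : Fk ≃+* Fk) (s : E ≃+* E)
    (hs₁ : ∀ (u : E) (hu : u ∈ V₁), ∃ h : s u ∈ V₁, r₁ ⟨s u, h⟩ = A (B (r₁ ⟨u, hu⟩)))
    (hs₂ : ∀ (u : E) (hu : u ∈ V₂), ∃ h : s u ∈ V₂, r₂ ⟨s u, h⟩ = B (A (r₂ ⟨u, hu⟩)))
    (Na Nb : E →* FL) (hNa0 : ∀ x : E, x ≠ 0 → Na x ≠ 0) (hNb0 : ∀ x : E, x ≠ 0 → Nb x ≠ 0)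
    (hNa : ∀ (u : E) (m₁ : u ∈ V₁) (m₂ : u ∈ V₂), ∃ h : Na u ∈ G.O,
      G.red ⟨Na u, h⟩ = r₁ ⟨u, m₁⟩ * A (r₂ ⟨u, m₂⟩))
    (hNb : ∀ (u : E) (m₁ : u ∈ V₁) (m₂ : u ∈ V₂), ∃ h : Nb u ∈ G.O,
      G.red ⟨Nb u, h⟩ = B (r₁ ⟨u, m₁⟩) * r₂ ⟨u, m₂⟩)
    (f : E) (hf : f ≠ 0)
    (hfa : ∃ (c : L) (g : FL), Na f = algebraMap L FL c * g ^ n)
    (hfb : ∃ (c : L) (g : FL), Nb f = algebraMap L FL c * g ^ n) :
    ∃ h u : E, h ≠ 0 ∧ u ≠ 0 ∧ IsOneUnit V₁ u ∧ IsOneUnit V₂ u ∧ s f = h ^ n * u * f :=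
  exists_oneUnit_decomposition_raw G.O G.red G.algebraMap_mem G.red_algebraMap
    G.exists_const_mul_unit G.mem_of_algebraMap_mem h₁ h₂ hne ht₁ ht₂ r₁ r₂ hr₁ hr₂ hsj₁ hsj₂
    hval₁ hval₂ n hn hdiv A B s hs₁ hs₂ Na Nb hNa0 hNb0 hNa hNb f hf hfa hfb

end MainG

end Fermat.Agent.S35.NewLayerGauss
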