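/-
S35 (downstream of PROJECT U), leaf 1 (helper19): pure linear algebra, Mathlib only.

`R` a domain of characteristic zero, `q ≥ 2` a natural number,
`frobPoly q = (X² - 1)² (X² - q²) ∈ R[X]`.

* `Mat.trace_sq_of_aeval` : a `2 × 2` matrix `M` over `R` with `det M = q` and
  `frobPoly q (M) = 0` has `(tr M)² = (q + 1)²`;
* `Mat.charpoly_of_aeval` / `charpoly_of_aeval` : hence its characteristic polynomial is
  `X² - (q+1) X + q` or `X² + (q+1) X + q`  (the two shapes allowed by the frozen S35 at a prime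
  `q ‖ M`);
* `scalar_charpoly_of_root` : the scalar twin: if `θ θ' = q` and `frobPoly q (θ) = 0` then
  `(X - θ)(X - θ')` is one of the same two polynomials.

Use: `M = ρ(σ)` for a Frobenius lift `σ` at `q`; the hypothesis says that `σ²` has eigenvalues in
`{1, q²}` on the `q`-new part of the Tate module (toric part: `q²`, its dual: `1`), and
`det ρ(σ) = q`.
-/
import Mathlib

set_option autoImplicit false

noncomputable section

namespace Fermat.Agent.S35.LinAlg

open Polynomial

variable {R : Type*} [CommRing R]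

/-- `(X² - 1)² (X² - q²)`. -/
def frobPoly (R : Type*) [CommRing R] (q : ℕ) : R[X] :=
  (X ^ 2 - 1) ^ 2 * (X ^ 2 - C ((q : R) ^ 2))

theorem frobPoly_map {S : Type*} [CommRing S] (φ : R →+* S) (q : ℕ) :
    (frobPoly R q).map φ = frobPoly S q := by
  simp [frobPoly]

theorem eval_frobPoly (q : ℕ) (x : R) :
    (frobPoly R q).eval x = (x ^ 2 - 1) ^ 2 * (x ^ 2 - (q : R) ^ 2) := by
  simp [frobPoly]

namespace Mat

/-- A matrix is scalar if it is of the form `c • 1`. -/
def IsScalar (M : Matrix (Fin 2) (Fin 2) R) : Prop :=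
  ∃ c : R, M = c • (1 : Matrix (Fin 2) (Fin 2) R)

theorem isScalar_iff (M : Matrix (Fin 2) (Fin 2) R) :
    IsScalar M ↔ M 0 1 = 0 ∧ M 1 0 = 0 ∧ M 0 0 = M 1 1 := by
  constructor
  · rintro ⟨c, rfl⟩
    simp
  · rintro ⟨h1, h2, h3⟩
    refine ⟨M 0 0, ?_⟩
    ext i j
    fin_cases i <;> fin_cases j <;> simp [h1, h2, h3]

/-- Cayley–Hamilton for `2 × 2` matrices. -/
theorem mul_self_eq (M : Matrix (Fin 2) (Fin 2) R) :
    M * M = M.trace • M - M.det • (1 : Matrix (Fin 2) (Fin 2) R) := by
  ext i j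
  fin_cases i <;> fin_cases j <;>
    simp [Matrix.mul_apply, Fin.sum_univ_two, Matrix.det_fin_two, Matrix.trace_fin_two] <;> ring

theorem trace_mul_self (M : Matrix (Fin 2) (Fin 2) R) :
    (M * M).trace = M.trace ^ 2 - 2 * M.det := by
  simp [Matrix.trace_fin_two, Matrix.mul_apply, Fin.sum_univ_two, Matrix.det_fin_two]
  ring

variable [IsDomain R]

/-- `1, M` are linearly independent when `M` is not scalar. -/
theorem eq_zero_of_smul_add_smul_one {M : Matrix (Fin 2) (Fin 2) R} (hM : ¬ IsScalar M) {u w : R}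
    (h : u • M + w • (1 : Matrix (Fin 2) (Fin 2) R) = 0) : u = 0 ∧ w = 0 := by
  have h00 := congrFun (congrFun h 0) 0
  have h01 := congrFun (congrFun h 0) 1
  have h10 := congrFun (congrFun h 1) 0
  have h11 := congrFun (congrFun h 1) 1
  simp at h00 h01 h10 h11
  have hu : u = 0 := by
    by_contra hu
    apply hM
    rw [isScalar_iff]
    refine ⟨h01.resolve_left hu, h10.resolve_left hu, ?_⟩
    have : u * (M 0 0 - M 1 1) = 0 := by linear_combination h00 - h11
    exact sub_eq_zero.1 ((mul_eq_zero.1 this).resolve_left hu)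
  refine ⟨hu, ?_⟩
  rw [hu] at h00
  simpa using h00

variable [CharZero R]

omit [IsDomain R] in
theorem natCast_sub_one_ne_zero {q : ℕ} (hq : 2 ≤ q) : (q : R) - 1 ≠ 0 := by
  intro h
  have h1 : (q : R) = ((1 : ℕ) : R) := by rw [Nat.cast_one]; exact sub_eq_zero.1 h
  have := Nat.cast_injective h1
  omega

omit [IsDomain R] in
theorem natCast_ne_zero' {q : ℕ} (hq : 2 ≤ q) : (q : R) ≠ 0 :=
  Nat.cast_ne_zero.2 (by omega)

omit [IsDomain R] in
theorem natCast_add_one_ne_zero (q : ℕ) : (q : R) + 1 ≠ 0 := by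
  have : ((q + 1 : ℕ) : R) ≠ 0 := Nat.cast_ne_zero.2 (Nat.succ_ne_zero q)
  simpa using this

omit [IsDomain R] [CharZero R] in
theorem aeval_frobPoly (M : Matrix (Fin 2) (Fin 2) R) (q : ℕ) :
    aeval M (frobPoly R q) =
      (M * M - 1) * (M * M - 1) * (M * M - ((q : R) ^ 2) • (1 : Matrix (Fin 2) (Fin 2) R)) := by
  rw [frobPoly, map_mul, map_pow, map_sub, map_sub, map_pow, aeval_X, map_one, aeval_C,
    Algebra.algebraMap_eq_smul_one, pow_two M, pow_two (M * M - 1)]

omit [CharZero R] in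
/-- the `(0,0)` entry of a product of three scalar matrices -/
theorem scalar_entry {a b c : R}
    (h : (a • (1 : Matrix (Fin 2) (Fin 2) R)) * (b • (1 : Matrix (Fin 2) (Fin 2) R)) *
      (c • (1 : Matrix (Fin 2) (Fin 2) R)) = 0) : a * b * c = 0 := by
  have h00 := congrFun (congrFun h 0) 0
  rw [smul_mul_smul_comm, smul_mul_smul_comm, mul_one, mul_one] at h00
  simpa using h00

omit [IsDomain R] [CharZero R] in
theorem smul_one_mul_self_sub (m c : R) :
    (m • (1 : Matrix (Fin 2) (Fin 2) R)) * (m • (1 : Matrix (Fin 2) (Fin 2) R)) -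
      c • (1 : Matrix (Fin 2) (Fin 2) R) = (m * m - c) • (1 : Matrix (Fin 2) (Fin 2) R) := by
  rw [smul_mul_smul_comm, mul_one, sub_smul]

theorem not_isScalar_of_aeval {M : Matrix (Fin 2) (Fin 2) R} {q : ℕ} (hq : 2 ≤ q)
    (hdet : M.det = (q : R)) (hP : aeval M (frobPoly R q) = 0) : ¬ IsScalar M := by
  rintro ⟨m, rfl⟩
  have hm : m * m = (q : R) := by
    rw [← hdet, Matrix.det_fin_two]; simp
  rw [aeval_frobPoly] at hP
  have e1 : (m • (1 : Matrix (Fin 2) (Fin 2) R)) * (m • (1 : Matrix (Fin 2) (Fin 2) R)) - 1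
      = (m * m - 1) • (1 : Matrix (Fin 2) (Fin 2) R) := by
    have := smul_one_mul_self_sub m (1 : R)
    rwa [one_smul] at this
  rw [e1, smul_one_mul_self_sub] at hP
  have h00 := scalar_entry hP
  rw [hm] at h00
  have h1 : ((q : R) - 1) ≠ 0 := natCast_sub_one_ne_zero hq
  have h2 : (q : R) ≠ 0 := natCast_ne_zero' hq
  have h4 : (q : R) - (q : R) ^ 2 ≠ 0 := by
    intro h
    have : (q : R) * ((q : R) - 1) = 0 := by linear_combination -h
    rcases mul_eq_zero.1 this with h' | h'
    · exact h2 h'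
    · exact h1 h'
  exact mul_ne_zero (mul_ne_zero h1 h1) h4 h00

/-- **Key computation**: `det M = q`, `frobPoly q (M) = 0` force `(tr M)² = (q+1)²`. -/
theorem trace_sq_of_aeval {M : Matrix (Fin 2) (Fin 2) R} {q : ℕ} (hq : 2 ≤ q)
    (hdet : M.det = (q : R)) (hP : aeval M (frobPoly R q) = 0) :
    M.trace ^ 2 = ((q : R) + 1) ^ 2 := by
  have hns := not_isScalar_of_aeval hq hdet hP
  have h2 : (q : R) ≠ 0 := natCast_ne_zero' hq
  have h3 : (q : R) + 1 ≠ 0 := natCast_add_one_ne_zero q
  rw [aeval_frobPoly] at hP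
  set t : R := M.trace with ht
  set g : Matrix (Fin 2) (Fin 2) R := M * M with hg
  have hgM : g = t • M - (q : R) • (1 : Matrix (Fin 2) (Fin 2) R) := by
    rw [hg, mul_self_eq, hdet]
  -- `g` is not scalar
  have hgns : ¬ IsScalar g := by
    rintro ⟨c, hc⟩
    have h0 : t • M + (-(q : R) - c) • (1 : Matrix (Fin 2) (Fin 2) R) = 0 := by
      rw [sub_smul, neg_smul, ← hc, hgM]; abel
    obtain ⟨-, hc0⟩ := eq_zero_of_smul_add_smul_one hns h0
    have hc' : c = -(q : R) := by linear_combination -hc0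
    have e1 : g - 1 = (-(q : R) - 1) • (1 : Matrix (Fin 2) (Fin 2) R) := by
      rw [hc, hc', sub_smul, one_smul]
    have e2 : g - ((q : R) ^ 2) • (1 : Matrix (Fin 2) (Fin 2) R) =
        (-(q : R) - (q : R) ^ 2) • (1 : Matrix (Fin 2) (Fin 2) R) := by
      rw [hc, hc', sub_smul]
    rw [e1, e2] at hP
    have h00 := scalar_entry hP
    have h5 : -(q : R) - 1 ≠ 0 := by
      intro h; exact h3 (by linear_combination -h)
    have h6 : -(q : R) - (q : R) ^ 2 ≠ 0 := by
      intro h
      have : (q : R) * ((q : R) + 1) = 0 := by linear_combination -h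
      rcases mul_eq_zero.1 this with h' | h'
      · exact h2 h'
      · exact h3 h'
    exact mul_ne_zero (mul_ne_zero h5 h5) h6 h00
  -- Cayley–Hamilton for `g`
  set τ : R := t ^ 2 - 2 * (q : R) with hτ
  have hgg : g * g = τ • g - ((q : R) ^ 2) • (1 : Matrix (Fin 2) (Fin 2) R) := by
    rw [mul_self_eq g, hg, trace_mul_self, Matrix.det_mul, hdet, ← ht, hτ, sq (q : R)]
  -- reduce the cubic in `g`
  have e1 : (g - 1) * (g - 1) =
      (τ - 2) • g + (1 - (q : R) ^ 2) • (1 : Matrix (Fin 2) (Fin 2) R) := by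
    have : (g - 1) * (g - 1) = g * g - g - g + 1 := by noncomm_ring
    rw [this, hgg]
    module
  have e2 : ((τ - 2) • g + (1 - (q : R) ^ 2) • (1 : Matrix (Fin 2) (Fin 2) R)) *
      (g - ((q : R) ^ 2) • (1 : Matrix (Fin 2) (Fin 2) R)) =
      ((τ - 1) * (τ - 1 - (q : R) ^ 2)) • g +
        (-((q : R) ^ 2 * (τ - 1 - (q : R) ^ 2))) • (1 : Matrix (Fin 2) (Fin 2) R) := by
    simp only [add_mul, mul_sub, smul_mul_assoc, mul_smul_comm, one_mul, mul_one, hgg]
    module
  have key : ((τ - 1) * (τ - 1 - (q : R) ^ 2)) • g +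
      (-((q : R) ^ 2 * (τ - 1 - (q : R) ^ 2))) • (1 : Matrix (Fin 2) (Fin 2) R) = 0 := by
    rw [← e2, ← e1]
    exact hP
  obtain ⟨-, hw⟩ := eq_zero_of_smul_add_smul_one hgns key
  have hτ' : τ - 1 - (q : R) ^ 2 = 0 := by
    have : (q : R) ^ 2 * (τ - 1 - (q : R) ^ 2) = 0 := by linear_combination -hw
    exact (mul_eq_zero.1 this).resolve_left (pow_ne_zero 2 h2)
  rw [hτ] at hτ'
  linear_combination hτ'

/-- **The characteristic polynomial** is `X² - (q+1) X + q` or `X² + (q+1) X + q`. -/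
theorem charpoly_of_aeval {M : Matrix (Fin 2) (Fin 2) R} {q : ℕ} (hq : 2 ≤ q)
    (hdet : M.det = (q : R)) (hP : aeval M (frobPoly R q) = 0) :
    M.charpoly = X ^ 2 - C ((q : R) + 1) * X + C (q : R) ∨
      M.charpoly = X ^ 2 + C ((q : R) + 1) * X + C (q : R) := by
  have h := trace_sq_of_aeval hq hdet hP
  rw [Matrix.charpoly_fin_two, hdet]
  rcases sq_eq_sq_iff_eq_or_eq_neg.1 h with h' | h'
  · left; rw [h']
  · right; rw [h', C_neg, neg_mul, sub_neg_eq_add]

end Mat

section EndVersion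

variable [IsDomain R] [CharZero R] {V : Type*} [AddCommGroup V] [Module R V]
  [Module.Free R V] [Module.Finite R V]

/-- **Endomorphism version**: `f` on a free module of rank two with `det f = q` and
`frobPoly q (f) = 0` has characteristic polynomial `X² ∓ (q+1) X + q`. -/
theorem charpoly_of_aeval (b : Module.Basis (Fin 2) R V) (f : Module.End R V) {q : ℕ}
    (hq : 2 ≤ q) (hdet : LinearMap.det f = (q : R)) (hP : aeval f (frobPoly R q) = 0) :
    LinearMap.charpoly f = X ^ 2 - C ((q : R) + 1) * X + C (q : R) ∨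
      LinearMap.charpoly f = X ^ 2 + C ((q : R) + 1) * X + C (q : R) := by
  rw [← LinearMap.charpoly_toMatrix f b]
  apply Mat.charpoly_of_aeval hq
  · rw [LinearMap.det_toMatrix, hdet]
  · have h := congrArg (LinearMap.toMatrixAlgEquiv b) hP
    rw [map_zero, ← Polynomial.aeval_algHom_apply] at h
    exact h

/-- The same from a basis-free rank hypothesis. -/
theorem charpoly_of_aeval' (hV : Module.finrank R V = 2) (f : Module.End R V) {q : ℕ}
    (hq : 2 ≤ q) (hdet : LinearMap.det f = (q : R)) (hP : aeval f (frobPoly R q) = 0) :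
    LinearMap.charpoly f = X ^ 2 - C ((q : R) + 1) * X + C (q : R) ∨
      LinearMap.charpoly f = X ^ 2 + C ((q : R) + 1) * X + C (q : R) :=
  charpoly_of_aeval (Module.finBasisOfFinrankEq R V hV) f hq hdet hP

end EndVersion

section Scalar

variable [IsDomain R] [CharZero R]

/-- **Scalar twin**: if `a b = q` and `a` is a root of `frobPoly q` then `a + b = ± (q + 1)`
(so `(X - a)(X - b) = X² ∓ (q+1) X + q`). -/
theorem add_eq_of_root {a b : R} {q : ℕ} (hq : 2 ≤ q) (hab : a * b = (q : R))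
    (ha : (frobPoly R q).eval a = 0) :
    a + b = (q : R) + 1 ∨ a + b = -((q : R) + 1) := by
  have h2 : (q : R) ≠ 0 := Mat.natCast_ne_zero' hq
  rw [eval_frobPoly] at ha
  rcases mul_eq_zero.1 ha with h | h
  · -- `a² = 1`
    have h1 : a ^ 2 = 1 := by
      have := pow_eq_zero_iff (two_ne_zero) |>.1 h
      linear_combination this
    have hb : b = a * (q : R) := by
      have : a ^ 2 * b = a * (q : R) := by rw [← hab]; ring
      rw [h1, one_mul] at this
      exact this
    rcases sq_eq_one_iff.1 h1 with h' | h'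
    · left; rw [hb, h']; ring
    · right; rw [hb, h']; ring
  · -- `a² = q²`
    have h1 : a ^ 2 = (q : R) ^ 2 := by linear_combination h
    rcases sq_eq_sq_iff_eq_or_eq_neg.1 h1 with h' | h'
    · left
      have hb : b = 1 := by
        rw [h'] at hab
        have : (q : R) * b = (q : R) * 1 := by rw [hab, mul_one]
        exact mul_left_cancel₀ h2 this
      rw [h', hb]
    · right
      have hb : b = -1 := by
        rw [h'] at hab
        have : (q : R) * b = (q : R) * (-1) := by linear_combination -hab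
        exact mul_left_cancel₀ h2 this
      rw [h', hb]; ring

end Scalar

end Fermat.Agent.S35.LinAlg
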