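/-
S35 input [S35-d], abstract part (helper8): push-forward / pull-back of divisors in towers and in a
linearly disjoint square of function fields.

All fields are function fields over `K` in the Prelude language (`AlgebraicCurve.Place`,
`Divisor.pullback`, `Divisor.pushforward`).  Inertia degrees are assumed to be one (algebraically
closed constants) wherever they would enter.

* `restrict_restrict`, `ramificationIndex_tower` : towers of places;
* `pushforward_pushforward`, `pullback_pullback` : functoriality in towers;
* `pushforward_pullback` : `π_* π^* = [F' : F]`;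
* `norm_algebraMap_of_basis` : the norm commutes with a base change along which a basis stays a
  basis;
* `exists_uniformizer_avoiding` : a function with a simple zero at one place and no zero or pole at
  finitely many others (weak approximation);
* `ramificationIndex_eq_sum` and `pullback_pushforward_eq` : **base change** for a square
  `F0 → F1, F0 → F2, F1 → F3, F2 → F3` in which an `F0`-basis of `F2` stays an `F1`-basis of `F3`:
  `pullback F1 ∘ pushforward F0 = pushforward F1 ∘ pullback F3` on `Divisor K F2`.
-/
import Mathlib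
import Fermat.Prelude.Def_AlgebraicCurve_Correspondence
import Fermat.Agent.S18.CoreOrd
import Fermat.Agent.S18.A.RiemannBasic
import Fermat.Agent.S34.WeakApproxMul

set_option autoImplicit false
set_option linter.unusedSectionVars false

noncomputable section

namespace Fermat.Agent.S35.BaseChange

open AlgebraicCurve

/-! ### Towers of places -/

section Tower

variable {K F0 F1 F3 : Type*} [Field K] [Field F0] [Field F1] [Field F3]
  [Algebra K F0] [Algebra K F1] [Algebra K F3]
  [Algebra F0 F1] [Algebra F1 F3] [Algebra F0 F3]
  [IsScalarTower K F0 F1] [IsScalarTower K F1 F3] [IsScalarTower K F0 F3]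
  [IsScalarTower F0 F1 F3]
  [Algebra.IsIntegral F0 F1] [Algebra.IsIntegral F1 F3] [Algebra.IsIntegral F0 F3]

theorem restrict_restrict (w : Place K F3) : (w.restrict F1).restrict F0 = w.restrict F0 := by
  apply Place.ext
  ext x
  simp only [Place.restrict_toValuationSubring, ValuationSubring.mem_comap]
  rw [← IsScalarTower.algebraMap_apply]

theorem ramificationIndex_tower (w : Place K F3) :
    w.ramificationIndex F0 = w.ramificationIndex F1 * (w.restrict F1).ramificationIndex F0 := by
  obtain ⟨t, ht0, ht⟩ := Fermat.Agent.S18.A.Riemann.exists_uniformizer (w.restrict F0)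
  have h1 := w.ord_restrict (F := F0) t
  have h2 := w.ord_restrict (F := F1) (algebraMap F0 F1 t)
  have h3 := (w.restrict F1).ord_restrict (F := F0) t
  rw [restrict_restrict, ht, mul_one] at h3
  rw [ht, mul_one, IsScalarTower.algebraMap_apply F0 F1 F3, h2, h3] at h1
  exact_mod_cast h1.symm

end Tower

/-! ### Functoriality of push-forward and pull-back -/

section Functoriality

variable {K F0 F1 F3 : Type*} [Field K] [Field F0] [Field F1] [Field F3]
  [Algebra K F0] [Algebra K F1] [Algebra K F3]
  [Algebra F0 F1] [Algebra F1 F3] [Algebra F0 F3]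
  [IsScalarTower K F0 F1] [IsScalarTower K F1 F3] [IsScalarTower K F0 F3]
  [IsScalarTower F0 F1 F3]
  [Algebra.IsIntegral F0 F1] [Algebra.IsIntegral F1 F3] [Algebra.IsIntegral F0 F3]

theorem pushforward_pushforward
    (h31 : ∀ w : Place K F3, w.inertiaDeg F1 = 1) (h10 : ∀ w : Place K F1, w.inertiaDeg F0 = 1)
    (h30 : ∀ w : Place K F3, w.inertiaDeg F0 = 1) (D : Divisor K F3) :
    Divisor.pushforward F0 (Divisor.pushforward F1 D) = Divisor.pushforward F0 D := by
  induction D using Finsupp.induction with
  | zero => simp
  | single_add w n D _ _ ih =>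
    rw [map_add, map_add, map_add, ih]
    congr 1
    rw [Divisor.pushforward_single, Divisor.pushforward_single, Divisor.pushforward_single,
      restrict_restrict, h31, h10, h30]
    simp

variable [HasPrincipalDivisors K F1] [HasPrincipalDivisors K F3]

theorem pullback_pullback (D : Divisor K F0) :
    Divisor.pullback F3 (Divisor.pullback F1 D) = Divisor.pullback F3 D := by
  ext w
  have h1 : Divisor.pullback F3 (Divisor.pullback F1 D) w
      = (w.ramificationIndex F1 : ℤ) * (((w.restrict F1).ramificationIndex F0 : ℤ)
          * D ((w.restrict F1).restrict F0)) := by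
    rw [Divisor.pullback_apply, Divisor.pullback_apply]
  have h2 : Divisor.pullback F3 D w = (w.ramificationIndex F0 : ℤ) * D (w.restrict F0) :=
    Divisor.pullback_apply D w
  have h3 : (w.ramificationIndex F0 : ℤ)
      = (w.ramificationIndex F1 : ℤ) * ((w.restrict F1).ramificationIndex F0 : ℤ) := by
    exact_mod_cast ramificationIndex_tower (F0 := F0) (F1 := F1) w
  rw [h1, h2, h3, restrict_restrict]
  ring

end Functoriality

/-! ### `π_* π^* = deg π` -/

section PushPull

variable {K F F' : Type*} [Field K] [Field F] [Field F']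
  [Algebra K F] [Algebra K F'] [Algebra F F'] [IsScalarTower K F F']
  [Algebra.IsIntegral F F'] [HasPrincipalDivisors K F']

theorem pushforward_pullback
    (hf : ∀ w : Place K F', w.inertiaDeg F = 1)
    (hsum : ∀ v : Place K F,
      ∑ w ∈ v.fiber F', (w.ramificationIndex F : ℤ) = (Module.finrank F F' : ℤ))
    (D : Divisor K F) :
    Divisor.pushforward F (Divisor.pullback F' D) = (Module.finrank F F' : ℤ) • D := by
  induction D using Finsupp.induction with
  | zero => simp
  | single_add v n D _ _ ih =>
    rw [map_add, map_add, ih, smul_add]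
    congr 1
    rw [Divisor.pullback_single, map_sum]
    have h1 : ∀ w ∈ v.fiber F',
        Divisor.pushforward F (Finsupp.single w (n * (w.ramificationIndex F : ℤ)))
          = Finsupp.single v (n * (w.ramificationIndex F : ℤ)) := by
      intro w hw
      rw [Divisor.pushforward_single, Place.mem_fiber.mp hw, hf]
      simp
    rw [Finset.sum_congr rfl h1, ← Finsupp.single_finsetSum, ← Finset.mul_sum, hsum,
      Finsupp.smul_single, smul_eq_mul, mul_comm]

end PushPull

/-! ### The norm in a base change -/

section Norm

variable {F0 F1 F2 F3 : Type*} [Field F0] [Field F1] [Field F2] [Field F3]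
  [Algebra F0 F1] [Algebra F0 F2] [Algebra F1 F3] [Algebra F2 F3] [Algebra F0 F3]
  [IsScalarTower F0 F1 F3] [IsScalarTower F0 F2 F3]

theorem norm_algebraMap_of_basis {ι : Type*} [Fintype ι] [DecidableEq ι]
    (b : Module.Basis ι F0 F2) (b' : Module.Basis ι F1 F3)
    (hb : ∀ i, b' i = algebraMap F2 F3 (b i)) (u : F2) :
    Algebra.norm F1 (algebraMap F2 F3 u) = algebraMap F0 F1 (Algebra.norm F0 u) := by
  rw [Algebra.norm_eq_matrix_det b', Algebra.norm_eq_matrix_det b, RingHom.map_det]
  congr 1
  ext i j
  rw [Algebra.leftMulMatrix_eq_repr_mul, RingHom.mapMatrix_apply, Matrix.map_apply,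
    Algebra.leftMulMatrix_eq_repr_mul]
  have h1 : algebraMap F2 F3 u * b' j
      = ∑ l, algebraMap F0 F1 (b.repr (u * b j) l) • b' l := by
    rw [hb, ← map_mul]
    conv_lhs => rw [← b.sum_repr (u * b j)]
    rw [map_sum]
    refine Finset.sum_congr rfl fun l _ => ?_
    rw [Algebra.smul_def, map_mul, hb, Algebra.smul_def, ← IsScalarTower.algebraMap_apply,
      ← IsScalarTower.algebraMap_apply]
  rw [h1, b'.repr_sum_self]

end Norm

/-! ### Weak approximation at finitely many places -/

section Approx

variable {K F : Type*} [Field K] [Field F] [Algebra K F]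

open Fermat.Agent.S34.WeakApprox Fermat.Agent.S24.Ord

theorem arch_place (v : Place K F) : Arch v.toValuationSubring := by
  intro a c hc hc0
  rcases eq_or_ne a 0 with rfl | ha
  · exact ⟨0, by simp⟩
  have hcv : v.toValuationSubring.valuation c < 1 :=
    v.toValuationSubring.mem_nonunits_iff.mp hc
  have hcmem : c ∈ v.toValuationSubring :=
    (v.toValuationSubring.valuation_le_one_iff c).mp hcv.le
  have hcinv : c⁻¹ ∉ v.toValuationSubring := by
    intro h
    have h2 := (v.toValuationSubring.valuation_le_one_iff _).mpr h
    rw [map_inv₀] at h2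
    have h3 : v.toValuationSubring.valuation c ≠ 0 := (Valuation.ne_zero_iff _).mpr hc0
    have h4 : 1 ≤ v.toValuationSubring.valuation c := by
      rwa [inv_le_one₀ (zero_lt_iff.mpr h3)] at h2
    exact absurd hcv (not_lt.mpr h4)
  have hordc : 0 < v.ord c := by
    have h1 : ¬ (0 ≤ v.ord c⁻¹) := by
      rw [ord_nonneg_iff v (inv_ne_zero hc0), ← mem_iff]
      exact hcinv
    rw [v.ord_inv] at h1
    omega
  refine ⟨(-(v.ord a)).toNat, ?_⟩
  rw [mem_iff, ← ord_nonneg_iff v (mul_ne_zero ha (pow_ne_zero _ hc0)),
    v.ord_mul ha (pow_ne_zero _ hc0), Fermat.Agent.S18.CoreOrd.ord_pow]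
  have h5 : (-(v.ord a)) ≤ ((-(v.ord a)).toNat : ℤ) := Int.self_le_toNat _
  nlinarith

theorem not_le_of_ne {v w : Place K F} (h : v ≠ w) :
    ¬ v.toValuationSubring ≤ w.toValuationSubring := by
  intro hle
  apply h
  apply Place.ext
  exact le_antisymm hle ((arch_place v).le_of_le hle w.ne_top')

/-- A function with a simple zero at `w` and neither zero nor pole at the other places of the
finite set `T`. -/
theorem exists_uniformizer_avoiding (T : Finset (Place K F)) (w : Place K F) (hw : w ∈ T) :
    ∃ u : F, u ≠ 0 ∧ w.ord u = 1 ∧ ∀ w' ∈ T, w' ≠ w → w'.ord u = 0 := by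
  classical
  obtain ⟨t, ht0, ht⟩ := Fermat.Agent.S18.A.Riemann.exists_uniformizer w
  let O : T → ValuationSubring F := fun i => (i : Place K F).toValuationSubring
  let a : T → F := fun i => if (i : Place K F) = w then t else 1
  have ha : ∀ i, a i ≠ 0 := by
    intro i
    by_cases hi : (i : Place K F) = w
    · simp only [a, if_pos hi]; exact ht0
    · simp only [a, if_neg hi]; exact one_ne_zero
  obtain ⟨y, hy0, hy⟩ := Fermat.Agent.S34.WeakApproxMul.exists_approx_mul' O
    (fun i => arch_place (i : Place K F))
    (fun i j hij => not_le_of_ne (fun h => hij (Subtype.ext h))) a ha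
  have hord : ∀ i : T, (i : Place K F).ord y = (i : Place K F).ord (a i) := by
    intro i
    have h1 : y / a i - 1 ∈ (O i).nonunits := (hy i).1
    have h2 : (i : Place K F).ord (y / a i) = 0 := by
      by_cases h3 : y / a i - 1 = 0
      · rw [sub_eq_zero.mp h3, Place.ord_one]
      · have h4 : 0 < (i : Place K F).ord (y / a i - 1) := by
          by_contra hcon
          have hinv : (y / a i - 1)⁻¹ ∈ (i : Place K F).toValuationSubring := by
            rw [mem_iff, ← ord_nonneg_iff _ (inv_ne_zero h3), Place.ord_inv]
            omega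
          have hval := (O i).mem_nonunits_iff.mp h1
          have h5 := ((O i).valuation_le_one_iff _).mpr hinv
          rw [map_inv₀] at h5
          have h6 : (O i).valuation (y / a i - 1) ≠ 0 := (Valuation.ne_zero_iff _).mpr h3
          have h7 : 1 ≤ (O i).valuation (y / a i - 1) := by
            rwa [inv_le_one₀ (zero_lt_iff.mpr h6)] at h5
          exact absurd hval (not_lt.mpr h7)
        have h8 : y / a i = 1 + (y / a i - 1) := by ring
        rw [h8, Fermat.Agent.S18.CoreOrd.ord_add_eq_of_lt _ one_ne_zero h3
          (by rw [Place.ord_one]; exact h4), Place.ord_one]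
    have h10 : y / a i ≠ 0 := div_ne_zero hy0 (ha i)
    calc (i : Place K F).ord y = (i : Place K F).ord ((y / a i) * a i) := by
          rw [div_mul_cancel₀ _ (ha i)]
      _ = (i : Place K F).ord (a i) := by
          rw [Place.ord_mul _ h10 (ha i), h2, zero_add]
  refine ⟨y, hy0, ?_, ?_⟩
  · have := hord ⟨w, hw⟩
    simpa [a, ht] using this
  · intro w' hw' hne
    have := hord ⟨w', hw'⟩
    simpa [a, hne] using this

end Approx

/-! ### Base change in a linearly disjoint square -/

section Square

variable {K F0 F1 F2 F3 : Type*} [Field K] [Field F0] [Field F1] [Field F2] [Field F3]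
  [Algebra K F0] [Algebra K F1] [Algebra K F2] [Algebra K F3]
  [Algebra F0 F1] [Algebra F0 F2] [Algebra F1 F3] [Algebra F2 F3] [Algebra F0 F3]
  [IsScalarTower K F0 F1] [IsScalarTower K F0 F2] [IsScalarTower K F1 F3]
  [IsScalarTower K F2 F3] [IsScalarTower K F0 F3]
  [IsScalarTower F0 F1 F3] [IsScalarTower F0 F2 F3]
  [Algebra.IsIntegral F0 F1] [Algebra.IsIntegral F0 F2] [Algebra.IsIntegral F1 F3]
  [Algebra.IsIntegral F2 F3] [Algebra.IsIntegral F0 F3]
  [HasPrincipalDivisors K F1] [HasPrincipalDivisors K F2] [HasPrincipalDivisors K F3]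

open Classical in
/-- **Local form of base change**: for a place `v'` of `F1` and a place `w` of `F2` over the same
place of `F0`, `e(v' | F0) = ∑ e(w' | w)` over the places `w'` of `F3` above both. -/
theorem ramificationIndex_eq_sum
    (hN20 : ∀ (v : Place K F0) (f : F2), f ≠ 0 →
      ∑ w ∈ v.fiber F2, w.ord f = v.ord (Algebra.norm F0 f))
    (hN31 : ∀ (v : Place K F1) (f : F3), f ≠ 0 →
      ∑ w ∈ v.fiber F3, w.ord f = v.ord (Algebra.norm F1 f))
    (hnorm : ∀ u : F2, Algebra.norm F1 (algebraMap F2 F3 u)
      = algebraMap F0 F1 (Algebra.norm F0 u))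
    (v' : Place K F1) (w : Place K F2) (h : v'.restrict F0 = w.restrict F0) :
    (v'.ramificationIndex F0 : ℤ)
      = ∑ w' ∈ v'.fiber F3, if w'.restrict F2 = w then (w'.ramificationIndex F2 : ℤ) else 0 := by
  classical
  set v : Place K F0 := w.restrict F0 with hv
  obtain ⟨u, hu0, huw, hu⟩ := exists_uniformizer_avoiding (v.fiber F2) w
    (Place.mem_fiber.mpr rfl)
  -- the norm of `u` has a simple zero at `v`
  have h1 : v.ord (Algebra.norm F0 u) = 1 := by
    rw [← hN20 v u hu0, Finset.sum_eq_single_of_mem w (Place.mem_fiber.mpr rfl)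
      (fun w'' hw'' hne => hu w'' hw'' hne), huw]
  -- compute `ord_{v'}` of the norm in two ways
  have h2 : v'.ord (algebraMap F0 F1 (Algebra.norm F0 u)) = (v'.ramificationIndex F0 : ℤ) := by
    rw [v'.ord_restrict, h, h1, mul_one]
  have hu3 : algebraMap F2 F3 u ≠ 0 := by simpa using hu0
  rw [← h2, ← hnorm u, ← hN31 v' _ hu3]
  refine Finset.sum_congr rfl fun w' hw' => ?_
  rw [w'.ord_restrict]
  have hw'v : (w'.restrict F2).restrict F0 = v := by
    rw [restrict_restrict, ← restrict_restrict (F1 := F1), Place.mem_fiber.mp hw', h]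
  by_cases hww : w'.restrict F2 = w
  · rw [if_pos hww, hww, huw, mul_one]
  · rw [if_neg hww, hu _ (Place.mem_fiber.mpr hw'v) hww, mul_zero]

/-- **Base change** for a square of function fields in which the norm commutes with the base
change (e.g. an `F0`-basis of `F2` stays an `F1`-basis of `F3`):
`π₁^* ∘ (π₂)_* = (π₁')_* ∘ (π₂')^*` on `Divisor K F2`. -/
theorem pullback_pushforward_eq
    (h20 : ∀ w : Place K F2, w.inertiaDeg F0 = 1) (h31 : ∀ w : Place K F3, w.inertiaDeg F1 = 1)
    (hN20 : ∀ (v : Place K F0) (f : F2), f ≠ 0 →
      ∑ w ∈ v.fiber F2, w.ord f = v.ord (Algebra.norm F0 f))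
    (hN31 : ∀ (v : Place K F1) (f : F3), f ≠ 0 →
      ∑ w ∈ v.fiber F3, w.ord f = v.ord (Algebra.norm F1 f))
    (hnorm : ∀ u : F2, Algebra.norm F1 (algebraMap F2 F3 u)
      = algebraMap F0 F1 (Algebra.norm F0 u))
    (D : Divisor K F2) :
    Divisor.pullback F1 (Divisor.pushforward F0 D)
      = Divisor.pushforward F1 (Divisor.pullback F3 D) := by
  classical
  induction D using Finsupp.induction with
  | zero => simp
  | single_add w n D _ _ ih =>
    rw [map_add, map_add, map_add, map_add, ih]
    congr 1
    ext v'
    rw [Divisor.pushforward_single, h20, Nat.cast_one, mul_one, Divisor.pullback_apply,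
      Divisor.pullback_single, map_sum, Finset.sum_apply']
    have h1 : ∀ w' ∈ w.fiber F3,
        Divisor.pushforward F1 (Finsupp.single w' (n * (w'.ramificationIndex F2 : ℤ))) v'
          = if w'.restrict F1 = v' then n * (w'.ramificationIndex F2 : ℤ) else 0 := by
      intro w' _
      rw [Divisor.pushforward_single, h31, Nat.cast_one, mul_one, Finsupp.single_apply]
    rw [Finset.sum_congr rfl h1]
    by_cases hv : v'.restrict F0 = w.restrict F0
    · rw [hv, Finsupp.single_eq_same,
        ramificationIndex_eq_sum hN20 hN31 hnorm v' w hv, Finset.sum_mul]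
      -- both sides are sums over the places above `v'` and `w`
      have h2 : ∀ i ∈ v'.fiber F3,
          (if i.restrict F2 = w then (i.ramificationIndex F2 : ℤ) else 0) * n
            = if i.restrict F2 = w then n * (i.ramificationIndex F2 : ℤ) else 0 := by
        intro i _
        split_ifs
        · ring
        · ring
      rw [Finset.sum_congr rfl h2, ← Finset.sum_filter, ← Finset.sum_filter]
      refine Finset.sum_bij (fun w' _ => w') ?_ ?_ ?_ ?_
      · intro w' hw'
        rw [Finset.mem_filter, Place.mem_fiber] at hw' ⊢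
        exact ⟨hw'.2, hw'.1⟩
      · intro a _ b _ hab
        exact hab
      · intro w' hw'
        rw [Finset.mem_filter, Place.mem_fiber] at hw'
        exact ⟨w', by rw [Finset.mem_filter, Place.mem_fiber]; exact ⟨hw'.2, hw'.1⟩, rfl⟩
      · intro w' _
        rfl
    · rw [Finsupp.single_eq_of_ne hv, mul_zero]
      symm
      refine Finset.sum_eq_zero fun w' hw' => ?_
      rw [if_neg]
      intro hw'v
      apply hv
      rw [← hw'v, restrict_restrict, ← Place.mem_fiber.mp hw', restrict_restrict]

end Square

end Fermat.Agent.S35.BaseChange
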