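/-
S35 input [S35-d] (helper8): the results of `S35/BaseChange.lean` for homomorphisms of function
fields over an algebraically closed field of characteristic zero, in the `…Along` vocabulary of the
Prelude (`Divisor.pullbackAlong`, `Divisor.pushforwardAlong`).

* `pushforwardAlong_comp`, `pullbackAlong_comp` : functoriality;
* `pushforwardAlong_pullbackAlong` : `φ_* φ^* = [F' : φ F]`, in particular `= id` for an isomorphism;
* `pullbackAlong_pushforwardAlong_eq` : base change in a commuting square in which an `F0`-basis of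
  `F2` stays an `F1`-basis of `F3`.
-/
import Mathlib
import Fermat.Agent.S35.BaseChange
import Fermat.Agent.S37.Hecke.Tower

set_option autoImplicit false
set_option linter.unusedSectionVars false
set_option linter.style.haveILetI false

noncomputable section

namespace Fermat.Agent.S35.BaseChangeAlong

open AlgebraicCurve Fermat.Agent.S24.FF Fermat.Agent.S35.BaseChange

variable {K : Type*} [Field K] [IsAlgClosed K] [CharZero K]

/-- inertia degrees are one over an algebraically closed field of constants -/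
theorem inertiaDeg_eq_one {F F' : Type*} [Field F] [Field F'] [Algebra K F] [Algebra K F']
    [Algebra F F'] [IsScalarTower K F F'] [Algebra.IsIntegral F F']
    {x : F} (hx : IsFF K x) {x' : F'} (hx' : IsFF K x') (w : Place K F') :
    w.inertiaDeg F = 1 := by
  have h := w.deg_restrict_mul_inertiaDeg (F := F)
  rwa [Fermat.Agent.S24.Ord.deg_eq_one hx, Fermat.Agent.S24.Ord.deg_eq_one hx', one_mul] at h

section Comp

variable {F F' F'' : Type*} [Field F] [Field F'] [Field F'']
  [Algebra K F] [Algebra K F'] [Algebra K F'']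

theorem pushforwardAlong_comp (φ : F →ₐ[K] F') (ψ : F' →ₐ[K] F'') (χ : F →ₐ[K] F'')
    (hχ : ∀ x, χ x = ψ (φ x))
    (hφ : φ.toRingHom.IsIntegral) (hψ : ψ.toRingHom.IsIntegral) (hχi : χ.toRingHom.IsIntegral)
    {x : F} (hx : IsFF K x) {x' : F'} (hx' : IsFF K x') {x'' : F''} (hx'' : IsFF K x'')
    (D : Divisor K F'') :
    Divisor.pushforwardAlong φ hφ (Divisor.pushforwardAlong ψ hψ D)
      = Divisor.pushforwardAlong χ hχi D := by
  letI a1 := algebraAlong φ
  letI a2 := algebraAlong ψ
  letI a3 := algebraAlong χ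
  haveI := isScalarTower_along φ
  haveI := isScalarTower_along ψ
  haveI := isScalarTower_along χ
  haveI := isIntegral_along φ hφ
  haveI := isIntegral_along ψ hψ
  haveI := isIntegral_along χ hχi
  haveI : IsScalarTower F F' F'' := IsScalarTower.of_algebraMap_eq fun x => hχ x
  exact pushforward_pushforward (F0 := F) (F1 := F') (F3 := F'')
    (inertiaDeg_eq_one hx' hx'') (inertiaDeg_eq_one hx hx') (inertiaDeg_eq_one hx hx'') D

theorem pullbackAlong_comp [HasPrincipalDivisors K F'] [HasPrincipalDivisors K F'']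
    (φ : F →ₐ[K] F') (ψ : F' →ₐ[K] F'') (χ : F →ₐ[K] F'')
    (hχ : ∀ x, χ x = ψ (φ x))
    (hφ : φ.toRingHom.IsIntegral) (hψ : ψ.toRingHom.IsIntegral) (hχi : χ.toRingHom.IsIntegral)
    (D : Divisor K F) :
    Divisor.pullbackAlong ψ hψ (Divisor.pullbackAlong φ hφ D)
      = Divisor.pullbackAlong χ hχi D := by
  letI a1 := algebraAlong φ
  letI a2 := algebraAlong ψ
  letI a3 := algebraAlong χ
  haveI := isScalarTower_along φ
  haveI := isScalarTower_along ψ
  haveI := isScalarTower_along χ
  haveI := isIntegral_along φ hφ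
  haveI := isIntegral_along ψ hψ
  haveI := isIntegral_along χ hχi
  haveI : IsScalarTower F F' F'' := IsScalarTower.of_algebraMap_eq fun x => hχ x
  exact pullback_pullback (F0 := F) (F1 := F') (F3 := F'') D

end Comp

section PushPull

variable {F F' : Type*} [Field F] [Field F'] [Algebra K F] [Algebra K F']
  [HasPrincipalDivisors K F']

theorem pushforwardAlong_pullbackAlong (φ : F →ₐ[K] F') (hφ : φ.toRingHom.IsIntegral)
    (hfin : FiniteAlong K φ) {x : F} (hx : IsFF K x) {x' : F'} (hx' : IsFF K x')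
    (D : Divisor K F) :
    Divisor.pushforwardAlong φ hφ (Divisor.pullbackAlong φ hφ D)
      = (finrankAlong K φ : ℤ) • D := by
  letI a1 := algebraAlong φ
  haveI := isScalarTower_along φ
  haveI := isIntegral_along φ hφ
  haveI : FiniteDimensional F F' := hfin
  exact pushforward_pullback (F := F) (F' := F') (inertiaDeg_eq_one hx hx')
    (fun v => Fermat.Agent.S37.Hecke.Tower.sum_fiber hx hx' v) D

/-- For a bijective `φ`, `φ_* φ^* = id`. -/
theorem pushforwardAlong_pullbackAlong_of_bijective (φ : F →ₐ[K] F')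
    (hφ : φ.toRingHom.IsIntegral) (hbij : Function.Bijective φ)
    {x : F} (hx : IsFF K x) {x' : F'} (hx' : IsFF K x') (D : Divisor K F) :
    Divisor.pushforwardAlong φ hφ (Divisor.pullbackAlong φ hφ D) = D := by
  letI a1 := algebraAlong φ
  have hfr : Module.finrank F F' = 1 := by
    rw [finrank_eq_one_iff_of_nonzero' (1 : F') one_ne_zero]
    intro w
    obtain ⟨c, rfl⟩ := hbij.2 w
    exact ⟨c, by rw [Algebra.smul_def, mul_one]; rfl⟩
  have hfin : FiniteAlong K φ := Module.finite_of_finrank_pos (by rw [hfr]; exact one_pos)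
  rw [pushforwardAlong_pullbackAlong φ hφ hfin hx hx' D]
  have : finrankAlong K φ = 1 := hfr
  rw [this]
  simp

end PushPull

section Square

variable {F0 F1 F2 F3 : Type*} [Field F0] [Field F1] [Field F2] [Field F3]
  [Algebra K F0] [Algebra K F1] [Algebra K F2] [Algebra K F3]
  [HasPrincipalDivisors K F1] [HasPrincipalDivisors K F2] [HasPrincipalDivisors K F3]

/-- **Base change** for a commuting square `ψ₁ ∘ φ₁ = ψ₂ ∘ φ₂` of function fields in which an
`F0`-basis of `F2` (along `φ₂`) is mapped by `ψ₂` to an `F1`-basis of `F3` (along `ψ₁`). -/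
theorem pullbackAlong_pushforwardAlong_eq
    (φ₁ : F0 →ₐ[K] F1) (φ₂ : F0 →ₐ[K] F2) (ψ₁ : F1 →ₐ[K] F3) (ψ₂ : F2 →ₐ[K] F3)
    (hcomm : ∀ x, ψ₁ (φ₁ x) = ψ₂ (φ₂ x))
    (hφ₁ : φ₁.toRingHom.IsIntegral) (hφ₂ : φ₂.toRingHom.IsIntegral)
    (hψ₁ : ψ₁.toRingHom.IsIntegral) (hψ₂ : ψ₂.toRingHom.IsIntegral)
    (hfin₂ : FiniteAlong K φ₂) (hfin₁ : FiniteAlong K ψ₁)
    {x0 : F0} (hx0 : IsFF K x0) {x1 : F1} (hx1 : IsFF K x1) {x2 : F2} (hx2 : IsFF K x2)
    {x3 : F3} (hx3 : IsFF K x3)
    {ι : Type*} [Fintype ι]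
    (b : letI := algebraAlong φ₂; Module.Basis ι F0 F2)
    (b' : letI := algebraAlong ψ₁; Module.Basis ι F1 F3)
    (hb : ∀ i, b' i = ψ₂ (b i))
    (D : Divisor K F2) :
    Divisor.pullbackAlong φ₁ hφ₁ (Divisor.pushforwardAlong φ₂ hφ₂ D)
      = Divisor.pushforwardAlong ψ₁ hψ₁ (Divisor.pullbackAlong ψ₂ hψ₂ D) := by
  classical
  letI a01 := algebraAlong φ₁
  letI a02 := algebraAlong φ₂
  letI a13 := algebraAlong ψ₁
  letI a23 := algebraAlong ψ₂
  letI a03 := algebraAlong (ψ₁.comp φ₁)
  haveI := isScalarTower_along φ₁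
  haveI := isScalarTower_along φ₂
  haveI := isScalarTower_along ψ₁
  haveI := isScalarTower_along ψ₂
  haveI := isScalarTower_along (ψ₁.comp φ₁)
  haveI := isIntegral_along φ₁ hφ₁
  haveI := isIntegral_along φ₂ hφ₂
  haveI := isIntegral_along ψ₁ hψ₁
  haveI := isIntegral_along ψ₂ hψ₂
  haveI : IsScalarTower F0 F1 F3 := IsScalarTower.of_algebraMap_eq fun x => rfl
  haveI : IsScalarTower F0 F2 F3 := IsScalarTower.of_algebraMap_eq fun x => hcomm x
  haveI : Algebra.IsIntegral F0 F3 := Algebra.IsIntegral.trans F1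
  haveI : FiniteDimensional F0 F2 := hfin₂
  haveI : FiniteDimensional F1 F3 := hfin₁
  exact pullback_pushforward_eq (F0 := F0) (F1 := F1) (F2 := F2) (F3 := F3)
    (inertiaDeg_eq_one hx0 hx2) (inertiaDeg_eq_one hx1 hx3)
    (fun v f hf => Fermat.Agent.S37.Hecke.Tower.sum_ord_fiber hx0 hx2 v hf)
    (fun v f hf => Fermat.Agent.S37.Hecke.Tower.sum_ord_fiber hx1 hx3 v hf)
    (fun u => norm_algebraMap_of_basis b b' hb u) D

end Square

end Fermat.Agent.S35.BaseChangeAlong
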