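/-
S35 input [S35-d] (helper8): maps between the function fields `E N = ℚ̄(X₀(N))` of different levels
(inclusions and dilations `g(t) ↦ g(t^ℓ)`), and power bases of `E N'` over `E N` (`N' = N ℓ`, `ℓ` a
prime not dividing `N`) stated with the larger level as a *variable* `N'` together with an equation
`N' = N * ℓ`, so that they apply to levels such as `M q r = (M r) q` without casts.

* `IsIncl φ`, `IsDil ℓ φ` : `φ` is the identity resp. `t ↦ t^ℓ` on `q`-expansions;
* `incl`, `dil` : such maps;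
* `exists_basis_pow_of_isIncl` : `1, y, …, y^ℓ`, `y = j(t^ℓ)`, is a basis of `E N'` over `E N`
  along an inclusion;
* `exists_basis_pow_of_isDil` : `1, j, …, j^ℓ` is a basis of `E N'` over `E N` along a dilation by
  `ℓ` (from the first statement by the Atkin-Lehner involution).
-/
import Mathlib
import Fermat.Agent.S34.PowerBasisX0
import Fermat.Agent.S37.Hecke.Inputs

set_option autoImplicit false
set_option linter.unusedSectionVars false
set_option linter.style.haveILetI false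

noncomputable section

namespace Fermat.Agent.S35.LevelMaps

open Polynomial ModularCurve AlgebraicCurve IntermediateField
open Fermat.Agent.S24.DegreeAlg Fermat.Agent.S24.FF Fermat.Agent.S18.A.Instances
open Fermat.Agent.S37.Hecke.Integral

local notation "Kb" => AlgebraicClosure ℚ

/-- `E N = ℚ̄(X₀(N))` -/
abbrev E (N : ℕ) : Type := ↥(modularFunctionFieldBar N)

/-! ### A basis of powers -/

theorem exists_basis_pow {F E' : Type*} [Field F] [Field E'] [Algebra F E'] (y : E') (n : ℕ)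
    (hfr : Module.finrank F E' = n + 1)
    (hli : LinearIndependent F (fun i : Fin (n + 1) => y ^ (i : ℕ))) :
    ∃ b : Module.Basis (Fin (n + 1)) F E', ∀ i, b i = y ^ (i : ℕ) := by
  refine ⟨basisOfLinearIndependentOfCardEqFinrank hli (by simp [hfr]), fun i => ?_⟩
  rw [coe_basisOfLinearIndependentOfCardEqFinrank]

/-- instance-free form of the linear independence of the members of a basis of powers -/
theorem indep_of_basis_pow {F E' : Type*} [Field F] [Field E'] [Algebra F E'] {y : E'} {n : ℕ}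
    (b : Module.Basis (Fin n) F E') (hb : ∀ i, b i = y ^ (i : ℕ)) (g : Fin n → F)
    (hg : ∑ i, algebraMap F E' (g i) * y ^ (i : ℕ) = 0) : ∀ i, g i = 0 := by
  have h := b.linearIndependent
  rw [Fintype.linearIndependent_iff] at h
  refine h g ?_
  rw [← hg]
  refine Finset.sum_congr rfl fun i _ => ?_
  rw [hb i, Algebra.smul_def]

theorem linearIndependent_pow_of_natDegree {F E' : Type*} [Field F] [Field E'] [Algebra F E']
    (y : E') (n : ℕ) (hn : (minpoly F y).natDegree = n) :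
    LinearIndependent F (fun i : Fin n => y ^ (i : ℕ)) := by
  subst hn
  exact linearIndependent_pow y

/-! ### Inclusions and dilations -/

variable {N N' : ℕ} [NeZero N] [NeZero N']

/-- `φ` is the identity on `q`-expansions -/
def IsIncl (φ : E N →ₐ[Kb] E N') : Prop := ∀ x : E N, ((φ x : E N') : LaurentSeries Kb) = x

/-- `φ` is `g(t) ↦ g(t^ℓ)` on `q`-expansions -/
def IsDil (ℓ : ℕ) [NeZero ℓ] (φ : E N →ₐ[Kb] E N') : Prop :=
  ∀ x : E N, ((φ x : E N') : LaurentSeries Kb) = qExpand Kb ℓ (x : LaurentSeries Kb)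

theorem isIncl_alpha (N ℓ : ℕ) [NeZero N] [NeZero ℓ] : IsIncl (heckeAlphaBar Kb N ℓ) :=
  fun x => coe_heckeAlphaBar N ℓ x

theorem isDil_beta (N ℓ : ℕ) [NeZero N] [NeZero ℓ] : IsDil ℓ (heckeBetaBar Kb N ℓ) :=
  fun x => coe_heckeBetaBar N ℓ x

theorem bar_le_of_dvd (h : N ∣ N') : modularFunctionFieldBar N ≤ modularFunctionFieldBar N' := by
  obtain ⟨d, rfl⟩ := h
  haveI : NeZero d := ⟨fun h0 => by subst h0; exact (NeZero.ne (N * 0)) (mul_zero N)⟩
  exact Fermat.Agent.S37.ES.DegreeBeta.bar_le_bar N d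

/-- the inclusion `E N → E N'` for `N ∣ N'` -/
def incl (h : N ∣ N') : E N →ₐ[Kb] E N' := IntermediateField.inclusion (bar_le_of_dvd h)

theorem isIncl_incl (h : N ∣ N') : IsIncl (incl h) := fun x =>
  IntermediateField.coe_inclusion _ x

/-- the dilation `g(t) ↦ g(t^ℓ)`, `E N → E N'`, for `N ℓ ∣ N'` -/
def dil (ℓ : ℕ) [NeZero ℓ] (h : N * ℓ ∣ N') : E N →ₐ[Kb] E N' :=
  haveI : NeZero (N * ℓ) := ⟨Nat.mul_ne_zero (NeZero.ne N) (NeZero.ne ℓ)⟩
  (incl h).comp (heckeBetaBar Kb N ℓ)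

theorem isDil_dil (ℓ : ℕ) [NeZero ℓ] (h : N * ℓ ∣ N') : IsDil ℓ (dil ℓ h) := fun x => by
  haveI : NeZero (N * ℓ) := ⟨Nat.mul_ne_zero (NeZero.ne N) (NeZero.ne ℓ)⟩
  show (((incl h) (heckeBetaBar Kb N ℓ x) : E N') : LaurentSeries Kb) = _
  rw [isIncl_incl h, coe_heckeBetaBar]

theorem algHom_ext_coe {φ ψ : E N →ₐ[Kb] E N'}
    (h : ∀ x, ((φ x : E N') : LaurentSeries Kb) = ψ x) : φ = ψ :=
  AlgHom.ext fun x => Subtype.ext (h x)

/-- every homomorphism between the `E N` is integral -/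
theorem isIntegral_hom (φ : E N →ₐ[Kb] E N') : φ.toRingHom.IsIntegral :=
  isIntegral_of_isFF φ (transcendental_jN N) (isFF_jgen N')

theorem finiteAlong_hom (φ : E N →ₐ[Kb] E N') : FiniteAlong Kb φ :=
  finiteAlong_of_isFF φ (transcendental_jN N) (isFF_jgen N')

/-! ### Power bases -/

/-- Along an inclusion `E N → E N'`, `N' = N ℓ`: the powers of `y = j(t^ℓ)` form a basis. -/
theorem exists_basis_pow_of_isIncl {ℓ : ℕ} [NeZero ℓ] (hℓ : ℓ.Prime) (hℓN : ¬ ℓ ∣ N)
    (hN' : N' = N * ℓ) (φ : E N →ₐ[Kb] E N') (hφ : IsIncl φ) (y : E N')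
    (hy : (y : LaurentSeries Kb) = qExpand Kb ℓ (jqModC Kb)) :
    letI := algebraAlong φ
    ∃ b : Module.Basis (Fin (ℓ + 1)) (E N) (E N'), ∀ i, b i = y ^ (i : ℕ) := by
  subst hN'
  obtain rfl : φ = heckeAlphaBar Kb N ℓ := algHom_ext_coe fun x => by
    rw [hφ x, coe_heckeAlphaBar]
  obtain rfl : y = Fermat.Agent.S34.PowerBasisX0.jl N ℓ :=
    Subtype.ext (by rw [hy, Fermat.Agent.S34.PowerBasisX0.coe_jl])
  letI := algebraAlong (heckeAlphaBar Kb N ℓ)
  exact exists_basis_pow _ ℓ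
    (Fermat.Agent.S37.ES.DegreeBeta.finrankAlong_alpha N hℓ hℓN)
    (linearIndependent_pow_of_natDegree _ _
      (Fermat.Agent.S34.PowerBasisX0.natDegree_minpoly_jl hℓ hℓN))

/-- instance-free form: the powers of `j(t^ℓ)` are independent over `α (E N)` -/
theorem indep_alpha {N ℓ : ℕ} [NeZero N] [NeZero ℓ] (hℓ : ℓ.Prime) (hℓN : ¬ ℓ ∣ N)
    (g : Fin (ℓ + 1) → E N)
    (hg : ∑ i, heckeAlphaBar Kb N ℓ (g i) * (Fermat.Agent.S34.PowerBasisX0.jl N ℓ) ^ (i : ℕ) = 0) :
    ∀ i, g i = 0 := by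
  obtain ⟨bα, hbα⟩ := exists_basis_pow_of_isIncl hℓ hℓN rfl (heckeAlphaBar Kb N ℓ)
    (isIncl_alpha N ℓ) (Fermat.Agent.S34.PowerBasisX0.jl N ℓ)
    (Fermat.Agent.S34.PowerBasisX0.coe_jl)
  letI := algebraAlong (heckeAlphaBar Kb N ℓ)
  exact indep_of_basis_pow bα hbα g hg

/-- Along a dilation `E N → E N'` by `ℓ`, `N' = N ℓ`: the powers of `y = j` form a basis. -/
theorem exists_basis_pow_of_isDil {ℓ : ℕ} [NeZero ℓ] (hℓ : ℓ.Prime) (hℓN : ¬ ℓ ∣ N)
    (hN' : N' = N * ℓ) (φ : E N →ₐ[Kb] E N') (hφ : IsDil ℓ φ) (y : E N')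
    (hy : (y : LaurentSeries Kb) = jqModC Kb) :
    letI := algebraAlong φ
    ∃ b : Module.Basis (Fin (ℓ + 1)) (E N) (E N'), ∀ i, b i = y ^ (i : ℕ) := by
  subst hN'
  obtain rfl : φ = heckeBetaBar Kb N ℓ := algHom_ext_coe fun x => by
    rw [hφ x, coe_heckeBetaBar]
  -- the Atkin-Lehner involution
  obtain ⟨w, hwα, hwβ, hww, -⟩ := Fermat.Agent.S34.AtkinLehner.exists_wq (N := N) hℓ hℓN
  have hyα : y = heckeAlphaBar Kb N ℓ (jgen N) :=
    Subtype.ext (by rw [hy, coe_heckeAlphaBar, Fermat.Agent.S18.B.Basic.coe_jgen_eq])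
  have hwy : w y = Fermat.Agent.S34.PowerBasisX0.jl N ℓ := by
    rw [hyα, hwα]; rfl
  -- linear independence along `α`
  have hindep := indep_alpha hℓ hℓN
  letI aβ := algebraAlong (heckeBetaBar Kb N ℓ)
  refine exists_basis_pow y ℓ
    (Fermat.Agent.S37.ES.DegreeBeta.finrankAlong_beta N hℓ hℓN) ?_
  rw [Fintype.linearIndependent_iff]
  intro g hg
  have hg' : ∑ i : Fin (ℓ + 1), heckeBetaBar Kb N ℓ (g i) * y ^ (i : ℕ) = 0 := by
    rw [← hg]
    refine Finset.sum_congr rfl fun i _ => ?_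
    rw [Algebra.smul_def]
    rfl
  have h2 := congrArg w hg'
  rw [map_sum, map_zero] at h2
  have h3 : ∑ i : Fin (ℓ + 1),
      heckeAlphaBar Kb N ℓ (g i) * (Fermat.Agent.S34.PowerBasisX0.jl N ℓ) ^ (i : ℕ) = 0 := by
    rw [← h2]
    refine Finset.sum_congr rfl fun i _ => ?_
    rw [map_mul, map_pow, hwβ, hwy]
  exact hindep g h3

end Fermat.Agent.S35.LevelMaps
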