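/-
S35 input [S35-d] (helper8): **the degeneracy push-forwards commute with the Hecke operators.**

For `M` a level, `q ≠ r` primes with `q ∤ M`, `r ∤ M q`:
`(α_q)_* ∘ T_r = T_r ∘ (α_q)_*` and `(β_q)_* ∘ T_r = T_r ∘ (β_q)_*` as maps
`Div ℚ̄(X₀(M q)) → Div ℚ̄(X₀(M))`, and on `J₀(M q) → J₀(M)`.

Ingredients: functoriality of `φ_*`, `φ^*`; `T_r = α_* β^* = β_* α^*` (Atkin-Lehner); base change
(`S35/BaseChangeAlong`) in the two squares `(α_r, α_q)` and `(α_r, β_q)`, whose linear disjointness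
comes from the power bases of `S35/LevelMaps`.
-/
import Mathlib
import Fermat.Agent.S35.BaseChangeAlong
import Fermat.Agent.S35.LevelMaps

set_option autoImplicit false
set_option linter.unusedSectionVars false
set_option linter.style.haveILetI false

noncomputable section

namespace Fermat.Agent.S35.DegeneracyHecke

open ModularCurve AlgebraicCurve
open Fermat.Agent.S24.DegreeAlg Fermat.Agent.S24.FF Fermat.Agent.S18.A.Instances
open Fermat.Agent.S37.Hecke.Integral Fermat.Agent.S35.LevelMaps Fermat.Agent.S35.BaseChangeAlong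

local notation "Kb" => AlgebraicClosure ℚ

/-! ### Push-forward and pull-back between levels -/

section PushPull

variable {N N' N'' : ℕ} [NeZero N] [NeZero N'] [NeZero N'']

/-- push-forward of divisors along a homomorphism of function fields of modular curves -/
def push (φ : E N →ₐ[Kb] E N') : Divisor Kb (E N') →+ Divisor Kb (E N) :=
  Divisor.pushforwardAlong φ (isIntegral_hom φ)

/-- pull-back of divisors along a homomorphism of function fields of modular curves -/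
def pull (φ : E N →ₐ[Kb] E N') : Divisor Kb (E N) →+ Divisor Kb (E N') :=
  haveI := hasPrincipalDivisors_bar N'
  Divisor.pullbackAlong φ (isIntegral_hom φ)

theorem push_push (φ : E N →ₐ[Kb] E N') (ψ : E N' →ₐ[Kb] E N'') (χ : E N →ₐ[Kb] E N'')
    (hχ : ∀ x, χ x = ψ (φ x)) (D : Divisor Kb (E N'')) :
    push φ (push ψ D) = push χ D :=
  pushforwardAlong_comp φ ψ χ hχ _ _ _ (isFF_jgen N) (isFF_jgen N') (isFF_jgen N'') D

theorem pull_pull (φ : E N →ₐ[Kb] E N') (ψ : E N' →ₐ[Kb] E N'') (χ : E N →ₐ[Kb] E N'')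
    (hχ : ∀ x, χ x = ψ (φ x)) (D : Divisor Kb (E N)) :
    pull ψ (pull φ D) = pull χ D := by
  haveI := hasPrincipalDivisors_bar N'
  haveI := hasPrincipalDivisors_bar N''
  exact pullbackAlong_comp φ ψ χ hχ _ _ _ D

theorem push_pull_of_bijective (φ : E N →ₐ[Kb] E N') (hbij : Function.Bijective φ)
    (D : Divisor Kb (E N)) : push φ (pull φ D) = D := by
  haveI := hasPrincipalDivisors_bar N'
  exact pushforwardAlong_pullbackAlong_of_bijective φ _ hbij (isFF_jgen N) (isFF_jgen N') D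

end PushPull

/-! ### The Hecke correspondence and its transpose -/

section Hecke

variable (N : ℕ) [NeZero N] (r : ℕ) [NeZero r]

/-- `T_r = (α_r)_* (β_r)^*` on divisors (the Prelude's `heckeDivBar`). -/
def heckeDiv : Divisor Kb (E N) →+ Divisor Kb (E N) :=
  haveI : NeZero (N * r) := ⟨Nat.mul_ne_zero (NeZero.ne N) (NeZero.ne r)⟩
  (push (heckeAlphaBar Kb N r)).comp (pull (heckeBetaBar Kb N r))

theorem heckeDiv_eq_heckeDivBar :
    haveI := hasPrincipalDivisors_level N r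
    heckeDiv N r = heckeDivBar (alphaIntegral N r) (betaIntegral N r) := rfl

/-- **`T_r` is its own transpose**: `(α_r)_* (β_r)^* = (β_r)_* (α_r)^*`. -/
theorem heckeDiv_eq_transpose (hr : r.Prime) (hrN : ¬ r ∣ N) (D : Divisor Kb (E N)) :
    haveI : NeZero (N * r) := ⟨Nat.mul_ne_zero (NeZero.ne N) (NeZero.ne r)⟩
    heckeDiv N r D = push (heckeBetaBar Kb N r) (pull (heckeAlphaBar Kb N r) D) := by
  haveI : NeZero (N * r) := ⟨Nat.mul_ne_zero (NeZero.ne N) (NeZero.ne r)⟩
  obtain ⟨w, hwα, hwβ, hww, -⟩ := Fermat.Agent.S34.AtkinLehner.exists_wq (N := N) hr hrN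
  have hbij : Function.Bijective (w : E (N * r) →ₐ[Kb] E (N * r)) := w.bijective
  -- `β = w ∘ α`, `α = w ∘ β`
  have h1 : push (heckeBetaBar Kb N r) (pull (heckeAlphaBar Kb N r) D)
      = push (heckeAlphaBar Kb N r) (push (w : E (N * r) →ₐ[Kb] E (N * r))
          (pull (w : E (N * r) →ₐ[Kb] E (N * r)) (pull (heckeBetaBar Kb N r) D))) := by
    rw [push_push (heckeAlphaBar Kb N r) (w : E (N * r) →ₐ[Kb] E (N * r)) (heckeBetaBar Kb N r)
        (fun x => (hwα x).symm),
      pull_pull (heckeBetaBar Kb N r) (w : E (N * r) →ₐ[Kb] E (N * r)) (heckeAlphaBar Kb N r)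
        (fun x => (hwβ x).symm)]
  rw [h1, push_pull_of_bijective _ hbij]
  rfl

end Hecke

/-! ### The two base change squares -/

section Squares

variable (M : ℕ) [NeZero M] (q r : ℕ) [NeZero q] [NeZero r]
  [NeZero (M * q)] [NeZero (M * r)] [NeZero (M * q * r)]

theorem dvd_levels : M * r ∣ M * q * r := ⟨q, by ring⟩

theorem dvd_levels' : M * r * q ∣ M * q * r := ⟨1, by ring⟩

/-- the inclusion `E (M r) → E (M q r)` -/
def inclR : E (M * r) →ₐ[Kb] E (M * q * r) := incl (dvd_levels M q r)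

/-- the dilation by `q`, `E (M r) → E (M q r)` -/
def dilR : E (M * r) →ₐ[Kb] E (M * q * r) := dil q (dvd_levels' M q r)

theorem coe_inclR (x : E (M * r)) : ((inclR M q r x : E (M * q * r)) : LaurentSeries Kb) = x :=
  isIncl_incl _ x

theorem coe_dilR (x : E (M * r)) :
    ((dilR M q r x : E (M * q * r)) : LaurentSeries Kb) = qExpand Kb q (x : LaurentSeries Kb) :=
  isDil_dil q _ x

variable {M q r}

/-- **Base change in the square `(α_r, α_q)`**: `(α_r)^* (α_q)_* = (incl)_* (α_r)^*`. -/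
theorem pull_alpha_push_alpha (hq : q.Prime) (hqM : ¬ q ∣ M) (hqr : q ≠ r) (hr : r.Prime)
    (D : Divisor Kb (E (M * q))) :
    pull (heckeAlphaBar Kb M r) (push (heckeAlphaBar Kb M q) D)
      = push (inclR M q r) (pull (heckeAlphaBar Kb (M * q) r) D) := by
  haveI := hasPrincipalDivisors_bar (M * r)
  haveI := hasPrincipalDivisors_bar (M * q)
  haveI := hasPrincipalDivisors_bar (M * q * r)
  have hqMr : ¬ q ∣ M * r := fun h => by
    rcases (Nat.Prime.dvd_mul hq).mp h with h | h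
    · exact hqM h
    · exact hqr ((Nat.prime_dvd_prime_iff_eq hq hr).mp h)
  obtain ⟨b, hb⟩ := exists_basis_pow_of_isIncl hq hqM rfl (heckeAlphaBar Kb M q)
    (isIncl_alpha M q) (Fermat.Agent.S34.PowerBasisX0.jl M q)
    Fermat.Agent.S34.PowerBasisX0.coe_jl
  obtain ⟨b', hb'⟩ := exists_basis_pow_of_isIncl (N := M * r) (N' := M * q * r) hq hqMr
    (by ring) (inclR M q r) (isIncl_incl _)
    (heckeAlphaBar Kb (M * q) r (Fermat.Agent.S34.PowerBasisX0.jl M q))
    (by rw [coe_heckeAlphaBar, Fermat.Agent.S34.PowerBasisX0.coe_jl])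
  exact pullbackAlong_pushforwardAlong_eq (heckeAlphaBar Kb M r) (heckeAlphaBar Kb M q)
    (inclR M q r) (heckeAlphaBar Kb (M * q) r)
    (fun x => Subtype.ext (by rw [coe_inclR, coe_heckeAlphaBar, coe_heckeAlphaBar,
      coe_heckeAlphaBar]))
    (isIntegral_hom _) (isIntegral_hom _) (isIntegral_hom _) (isIntegral_hom _)
    (finiteAlong_hom _) (finiteAlong_hom _)
    (isFF_jgen M) (isFF_jgen (M * r)) (isFF_jgen (M * q)) (isFF_jgen (M * q * r))
    b b' (fun i => by rw [hb', hb, map_pow]) D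

/-- **Base change in the square `(α_r, β_q)`**: `(α_r)^* (β_q)_* = (dil_q)_* (α_r)^*`. -/
theorem pull_alpha_push_beta (hq : q.Prime) (hqM : ¬ q ∣ M) (hqr : q ≠ r) (hr : r.Prime)
    (D : Divisor Kb (E (M * q))) :
    pull (heckeAlphaBar Kb M r) (push (heckeBetaBar Kb M q) D)
      = push (dilR M q r) (pull (heckeAlphaBar Kb (M * q) r) D) := by
  haveI := hasPrincipalDivisors_bar (M * r)
  haveI := hasPrincipalDivisors_bar (M * q)
  haveI := hasPrincipalDivisors_bar (M * q * r)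
  have hqMr : ¬ q ∣ M * r := fun h => by
    rcases (Nat.Prime.dvd_mul hq).mp h with h | h
    · exact hqM h
    · exact hqr ((Nat.prime_dvd_prime_iff_eq hq hr).mp h)
  obtain ⟨b, hb⟩ := exists_basis_pow_of_isDil hq hqM rfl (heckeBetaBar Kb M q)
    (isDil_beta M q) (jgen (M * q)) (Fermat.Agent.S18.B.Basic.coe_jgen_eq (M * q))
  obtain ⟨b', hb'⟩ := exists_basis_pow_of_isDil (N := M * r) (N' := M * q * r) hq hqMr
    (by ring) (dilR M q r) (isDil_dil q _)
    (heckeAlphaBar Kb (M * q) r (jgen (M * q)))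
    (by rw [coe_heckeAlphaBar, Fermat.Agent.S18.B.Basic.coe_jgen_eq])
  exact pullbackAlong_pushforwardAlong_eq (heckeAlphaBar Kb M r) (heckeBetaBar Kb M q)
    (dilR M q r) (heckeAlphaBar Kb (M * q) r)
    (fun x => Subtype.ext (by rw [coe_dilR, coe_heckeAlphaBar, coe_heckeAlphaBar,
      coe_heckeBetaBar]))
    (isIntegral_hom _) (isIntegral_hom _) (isIntegral_hom _) (isIntegral_hom _)
    (finiteAlong_hom _) (finiteAlong_hom _)
    (isFF_jgen M) (isFF_jgen (M * r)) (isFF_jgen (M * q)) (isFF_jgen (M * q * r))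
    b b' (fun i => by rw [hb', hb, map_pow]) D

/-! ### The degeneracy push-forwards commute with `T_r` -/

/-- **`(α_q)_* ∘ T_r = T_r ∘ (α_q)_*`** on divisors. -/
theorem push_alpha_heckeDiv (hq : q.Prime) (hqM : ¬ q ∣ M) (hqr : q ≠ r) (hr : r.Prime)
    (hrM : ¬ r ∣ M) (D : Divisor Kb (E (M * q))) :
    push (heckeAlphaBar Kb M q) (heckeDiv (M * q) r D)
      = heckeDiv M r (push (heckeAlphaBar Kb M q) D) := by
  have hrMq : ¬ r ∣ M * q := fun h => by
    rcases (Nat.Prime.dvd_mul hr).mp h with h | h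
    · exact hrM h
    · exact hqr ((Nat.prime_dvd_prime_iff_eq hr hq).mp h).symm
  rw [heckeDiv_eq_transpose (M * q) r hr hrMq, heckeDiv_eq_transpose M r hr hrM,
    pull_alpha_push_alpha hq hqM hqr hr,
    push_push (heckeAlphaBar Kb M q) (heckeBetaBar Kb (M * q) r)
      ((heckeBetaBar Kb (M * q) r).comp (heckeAlphaBar Kb M q)) (fun _ => rfl),
    push_push (heckeBetaBar Kb M r) (inclR M q r)
      ((heckeBetaBar Kb (M * q) r).comp (heckeAlphaBar Kb M q))
      (fun x => Subtype.ext (by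
        rw [AlgHom.comp_apply, coe_heckeBetaBar, coe_heckeAlphaBar, coe_inclR,
          coe_heckeBetaBar]))]

/-- **`(β_q)_* ∘ T_r = T_r ∘ (β_q)_*`** on divisors. -/
theorem push_beta_heckeDiv (hq : q.Prime) (hqM : ¬ q ∣ M) (hqr : q ≠ r) (hr : r.Prime)
    (hrM : ¬ r ∣ M) (D : Divisor Kb (E (M * q))) :
    push (heckeBetaBar Kb M q) (heckeDiv (M * q) r D)
      = heckeDiv M r (push (heckeBetaBar Kb M q) D) := by
  have hrMq : ¬ r ∣ M * q := fun h => by
    rcases (Nat.Prime.dvd_mul hr).mp h with h | h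
    · exact hrM h
    · exact hqr ((Nat.prime_dvd_prime_iff_eq hr hq).mp h).symm
  rw [heckeDiv_eq_transpose (M * q) r hr hrMq, heckeDiv_eq_transpose M r hr hrM,
    pull_alpha_push_beta hq hqM hqr hr,
    push_push (heckeBetaBar Kb M q) (heckeBetaBar Kb (M * q) r)
      ((heckeBetaBar Kb (M * q) r).comp (heckeBetaBar Kb M q)) (fun _ => rfl),
    push_push (heckeBetaBar Kb M r) (dilR M q r)
      ((heckeBetaBar Kb (M * q) r).comp (heckeBetaBar Kb M q))
      (fun x => Subtype.ext (by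
        rw [AlgHom.comp_apply, coe_heckeBetaBar, coe_heckeBetaBar, coe_dilR,
          coe_heckeBetaBar, qExpand_qExpand, qExpand_qExpand]
        exact qExpand_congr (mul_comm r q) _))]

end Squares

/-! ### On `J₀` -/

section Jac

variable {N N' : ℕ} [NeZero N] [NeZero N']

/-- the norm formula along any homomorphism between the `E N` -/
theorem normFormula_hom (φ : E N →ₐ[Kb] E N') : NormFormulaAlong Kb φ (finiteAlong_hom φ) :=
  haveI := hasPrincipalDivisors_bar N'
  Fermat.Agent.S37.Hecke.Inputs.normFormulaAlong φ (finiteAlong_hom φ) (isFF_jgen N)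
    (isFF_jgen N')

/-- push-forward `J₀(N') → J₀(N)` along a homomorphism `ℚ̄(X₀(N)) → ℚ̄(X₀(N'))` -/
def pushJ (φ : E N →ₐ[Kb] E N') : JZero N' →+ JZero N :=
  letI := algebraAlong φ
  haveI := isScalarTower_along φ
  haveI := isIntegral_along φ (isIntegral_hom φ)
  haveI := hasPrincipalDivisors_bar N'
  haveI : Module.Finite (E N) (E N') := finiteAlong_hom φ
  Pic0.pushforwardHom Kb (E N) (E N') (normFormula_hom φ)

theorem coe_degZero_of_pushJ_mk (φ : E N →ₐ[Kb] E N')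
    (D : Divisor.degZero (K := Kb) (F := E N')) :
    ∃ D' : Divisor.degZero (K := Kb) (F := E N),
      pushJ φ (Pic0.mk D) = Pic0.mk D' ∧ (D' : Divisor Kb (E N)) = push φ (D : Divisor Kb (E N')) := by
  letI := algebraAlong φ
  haveI := isScalarTower_along φ
  haveI := isIntegral_along φ (isIntegral_hom φ)
  haveI := hasPrincipalDivisors_bar N'
  haveI : Module.Finite (E N) (E N') := finiteAlong_hom φ
  exact ⟨Pic0.pushforwardDegZeroHom (E N) D, rfl, rfl⟩

theorem coe_degZero_of_hecke_mk (r : Nat.Primes) (D : Divisor.degZero (K := Kb) (F := E N)) :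
    haveI : NeZero (r : ℕ) := ⟨r.2.ne_zero⟩
    ∃ D' : Divisor.degZero (K := Kb) (F := E N),
      heckeOperatorBar N r (Pic0.mk D) = Pic0.mk D' ∧
        (D' : Divisor Kb (E N)) = heckeDiv N r (D : Divisor Kb (E N)) := by
  haveI : NeZero (r : ℕ) := ⟨r.2.ne_zero⟩
  haveI := hasPrincipalDivisors_level N r
  exact ⟨_, Fermat.Agent.S37.Hecke.Inputs.heckeOperatorBar_mk N r D, rfl⟩

end Jac

section Main

variable {M : ℕ} [NeZero M] {q : ℕ} [NeZero q] [NeZero (M * q)]

/-- `(α_q)_* : J₀(M q) → J₀(M)` -/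
def alphaPush (M q : ℕ) [NeZero M] [NeZero q] [NeZero (M * q)] : JZero (M * q) →+ JZero M :=
  pushJ (heckeAlphaBar Kb M q)

/-- `(β_q)_* : J₀(M q) → J₀(M)` -/
def betaPush (M q : ℕ) [NeZero M] [NeZero q] [NeZero (M * q)] : JZero (M * q) →+ JZero M :=
  pushJ (heckeBetaBar Kb M q)

/-- **`(α_q)_*` commutes with `T_r`**, `r ∤ M q`. -/
theorem alphaPush_hecke (hq : q.Prime) (hqM : ¬ q ∣ M) (r : Nat.Primes) (hqr : q ≠ r)
    (hrM : ¬ (r : ℕ) ∣ M) (y : JZero (M * q)) :
    alphaPush M q (heckeOperatorBar (M * q) r y) = heckeOperatorBar M r (alphaPush M q y) := by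
  haveI : NeZero (r : ℕ) := ⟨r.2.ne_zero⟩
  haveI : NeZero (M * r) := ⟨Nat.mul_ne_zero (NeZero.ne M) (NeZero.ne (r : ℕ))⟩
  haveI : NeZero (M * q * r) := ⟨Nat.mul_ne_zero (NeZero.ne (M * q)) (NeZero.ne (r : ℕ))⟩
  obtain ⟨D, rfl⟩ := Pic0.mk_surjective y
  obtain ⟨D1, h1, h1'⟩ := coe_degZero_of_hecke_mk (N := M * q) r D
  obtain ⟨D2, h2, h2'⟩ := coe_degZero_of_pushJ_mk (heckeAlphaBar Kb M q) D1
  obtain ⟨D3, h3, h3'⟩ := coe_degZero_of_pushJ_mk (heckeAlphaBar Kb M q) D
  obtain ⟨D4, h4, h4'⟩ := coe_degZero_of_hecke_mk (N := M) r D3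
  rw [alphaPush, h1, h2, h3, h4]
  congr 1
  apply Subtype.ext
  rw [h2', h1', h4', h3']
  exact push_alpha_heckeDiv hq hqM hqr r.2 hrM _

/-- **`(β_q)_*` commutes with `T_r`**, `r ∤ M q`. -/
theorem betaPush_hecke (hq : q.Prime) (hqM : ¬ q ∣ M) (r : Nat.Primes) (hqr : q ≠ r)
    (hrM : ¬ (r : ℕ) ∣ M) (y : JZero (M * q)) :
    betaPush M q (heckeOperatorBar (M * q) r y) = heckeOperatorBar M r (betaPush M q y) := by
  haveI : NeZero (r : ℕ) := ⟨r.2.ne_zero⟩
  haveI : NeZero (M * r) := ⟨Nat.mul_ne_zero (NeZero.ne M) (NeZero.ne (r : ℕ))⟩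
  haveI : NeZero (M * q * r) := ⟨Nat.mul_ne_zero (NeZero.ne (M * q)) (NeZero.ne (r : ℕ))⟩
  obtain ⟨D, rfl⟩ := Pic0.mk_surjective y
  obtain ⟨D1, h1, h1'⟩ := coe_degZero_of_hecke_mk (N := M * q) r D
  obtain ⟨D2, h2, h2'⟩ := coe_degZero_of_pushJ_mk (heckeBetaBar Kb M q) D1
  obtain ⟨D3, h3, h3'⟩ := coe_degZero_of_pushJ_mk (heckeBetaBar Kb M q) D
  obtain ⟨D4, h4, h4'⟩ := coe_degZero_of_hecke_mk (N := M) r D3
  rw [betaPush, h1, h2, h3, h4]
  congr 1
  apply Subtype.ext
  rw [h2', h1', h4', h3']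
  exact push_beta_heckeDiv hq hqM hqr r.2 hrM _

end Main

end Fermat.Agent.S35.DegeneracyHecke
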