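/-
S35 input [S35-d], third part (helper8): the degeneracy push-forwards
`(α_q)_*, (β_q)_* : J₀(M q) → J₀(M)` are defined over `ℚ`, i.e. they commute with the action of
`G_ℚ = Gal(ℚ̄/ℚ)` on the `ℚ̄`-points.

* `pushJ_smul`       : `pushJ φ (σ • y) = σ • pushJ φ y` for any `φ : E N →ₐ[ℚ̄] E N'` commuting with
  the coefficientwise action of `σ` on `q`-expansions;
* `intertwines_of_isIncl`, `intertwines_of_isDil` : inclusions and dilations `t ↦ t^ℓ` do;
* `alphaPush_smul`, `betaPush_smul` : the two degeneracy maps are `G_ℚ`-equivariant;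
* `degPair M q : J₀(M q) →+ J₀(M) × J₀(M)`, `y ↦ ((α_q)_* y, (β_q)_* y)`, with
  `degPair_hecke` (it intertwines `T_r` with the diagonal `T_r`, `r ∤ M q`), `degPair_smul`
  (it is `G_ℚ`-equivariant), `smul_mem_ker_degPair` (its kernel is `G_ℚ`-stable);
* `Tp_map_galoisHom` : the Tate-module form of equivariance; `map_polyEnd`, `polyEnd_mem_ker` :
  an equivariant homomorphism commutes with integer polynomials in `σ`, so its kernel is stable
  under them (`degPair_polyEnd`, `polyEnd_mem_ker_degPair` for `(α_*, β_*)`).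
-/
import Mathlib
import Fermat.Agent.S35.DegeneracyHecke
import Fermat.Agent.S30.Arith.HeckeGalois
import Fermat.Agent.S30.Padic.TateModule
import Fermat.Agent.S35.Chain

set_option autoImplicit false
set_option linter.unusedSectionVars false
set_option linter.style.haveILetI false

noncomputable section

namespace Fermat.Agent.S35.DegeneracyGalois

open ModularCurve AlgebraicCurve
open Fermat.Agent.S24.DegreeAlg Fermat.Agent.S24.FF Fermat.Agent.S18.A.Instances
open Fermat.Agent.S37.Hecke.Integral Fermat.Agent.S35.LevelMaps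
open Fermat.Agent.S35.DegeneracyHecke Fermat.Agent.S30.Arith.CorrEquivariant

local notation "Kb" => AlgebraicClosure ℚ
local notation "GQ" => (AlgebraicClosure ℚ ≃ₐ[ℚ] AlgebraicClosure ℚ)

/-! ### Push-forward along an equivariant homomorphism -/

section Push

variable {N N' : ℕ} [NeZero N] [NeZero N']

/-- `φ` commutes with the coefficientwise action of `σ` -/
def Equivariant (φ : E N →ₐ[Kb] E N') (σ : GQ) : Prop :=
  SemilinearAut.IntertwinesAlong ((φ : E N →ₐ[Kb] E N') : E N →+* E N')
    (arithmeticGalois (modularFunctionFieldFull N) σ)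
    (arithmeticGalois (modularFunctionFieldFull N') σ)

theorem equivariant_of_isIncl {φ : E N →ₐ[Kb] E N'} (hφ : IsIncl φ) (σ : GQ) :
    Equivariant φ σ := by
  intro x
  apply Subtype.ext
  rw [coe_arithmeticGalois_smul]
  show coeffMap (σ : Kb →+* Kb) ((φ x : E N') : LaurentSeries Kb)
    = ((φ (arithmeticGalois (modularFunctionFieldFull N) σ • x) : E N') : LaurentSeries Kb)
  rw [hφ, hφ, coe_arithmeticGalois_smul]

theorem equivariant_of_isDil {ℓ : ℕ} [NeZero ℓ] {φ : E N →ₐ[Kb] E N'} (hφ : IsDil ℓ φ) (σ : GQ) :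
    Equivariant φ σ := by
  intro x
  apply Subtype.ext
  rw [coe_arithmeticGalois_smul]
  show coeffMap (σ : Kb →+* Kb) ((φ x : E N') : LaurentSeries Kb)
    = ((φ (arithmeticGalois (modularFunctionFieldFull N) σ • x) : E N') : LaurentSeries Kb)
  rw [hφ, hφ, coe_arithmeticGalois_smul, coeffMap_qExpand]

/-- push-forward of divisors along an equivariant homomorphism is equivariant -/
theorem push_smul {φ : E N →ₐ[Kb] E N'} {σ : GQ} (h : Equivariant φ σ)
    (D : Divisor Kb (E N')) :
    push φ (arithmeticGalois (modularFunctionFieldFull N') σ • D)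
      = arithmeticGalois (modularFunctionFieldFull N) σ • push φ D :=
  pushforwardAlong_smul φ (isIntegral_hom φ) h D

/-- pull-back of divisors along an equivariant homomorphism is equivariant -/
theorem pull_smul {φ : E N →ₐ[Kb] E N'} {σ : GQ} (h : Equivariant φ σ)
    (D : Divisor Kb (E N)) :
    pull φ (arithmeticGalois (modularFunctionFieldFull N) σ • D)
      = arithmeticGalois (modularFunctionFieldFull N') σ • pull φ D := by
  haveI := hasPrincipalDivisors_bar N'
  exact pullbackAlong_smul φ (isIntegral_hom φ) h D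

/-- **push-forward `J₀(N') → J₀(N)` along an equivariant homomorphism is `G_ℚ`-equivariant** -/
theorem pushJ_smul {φ : E N →ₐ[Kb] E N'} {σ : GQ} (h : Equivariant φ σ) (y : JZero N') :
    pushJ φ (σ • y) = σ • pushJ φ y := by
  obtain ⟨D, rfl⟩ := Pic0.mk_surjective y
  rw [galois_smul_pic0_def, SemilinearAut.pic0_smul_mk]
  obtain ⟨D1, h1, h1'⟩ := coe_degZero_of_pushJ_mk φ
    (SemilinearAut.degZeroSMulHom (arithmeticGalois (modularFunctionFieldFull N') σ) D)
  obtain ⟨D2, h2, h2'⟩ := coe_degZero_of_pushJ_mk φ D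
  rw [h1, h2, galois_smul_pic0_def, SemilinearAut.pic0_smul_mk]
  congr 1
  apply Subtype.ext
  rw [h1', SemilinearAut.coe_degZeroSMulHom, SemilinearAut.coe_degZeroSMulHom, h2']
  exact push_smul h _

end Push

/-! ### The degeneracy maps -/

section Main

variable {M : ℕ} [NeZero M] {q : ℕ} [NeZero q] [NeZero (M * q)]

/-- **`(α_q)_* : J₀(M q) → J₀(M)` is `G_ℚ`-equivariant.** -/
theorem alphaPush_smul (σ : GQ) (y : JZero (M * q)) :
    alphaPush M q (σ • y) = σ • alphaPush M q y :=
  pushJ_smul (equivariant_of_isIncl (isIncl_alpha M q) σ) y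

/-- **`(β_q)_* : J₀(M q) → J₀(M)` is `G_ℚ`-equivariant.** -/
theorem betaPush_smul (σ : GQ) (y : JZero (M * q)) :
    betaPush M q (σ • y) = σ • betaPush M q y :=
  pushJ_smul (equivariant_of_isDil (isDil_beta M q) σ) y

/-- the pair of degeneracy maps `J₀(M q) → J₀(M) × J₀(M)` -/
def degPair (M q : ℕ) [NeZero M] [NeZero q] [NeZero (M * q)] :
    JZero (M * q) →+ JZero M × JZero M :=
  (alphaPush M q).prod (betaPush M q)

@[simp]
theorem degPair_apply (y : JZero (M * q)) :
    degPair M q y = (alphaPush M q y, betaPush M q y) := rfl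

theorem degPair_eq_zero_iff (y : JZero (M * q)) :
    degPair M q y = 0 ↔ alphaPush M q y = 0 ∧ betaPush M q y = 0 := by
  rw [degPair_apply, Prod.mk_eq_zero]

/-- `(α_*, β_*)` intertwines `T_r` with the diagonal `T_r`, `r ∤ M q` -/
theorem degPair_hecke (hq : q.Prime) (hqM : ¬ q ∣ M) (r : Nat.Primes) (hqr : q ≠ r)
    (hrM : ¬ (r : ℕ) ∣ M) (y : JZero (M * q)) :
    degPair M q (heckeOperatorBar (M * q) r y)
      = (heckeOperatorBar M r (degPair M q y).1, heckeOperatorBar M r (degPair M q y).2) := by
  rw [degPair_apply, degPair_apply, alphaPush_hecke hq hqM r hqr hrM,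
    betaPush_hecke hq hqM r hqr hrM]

/-- `(α_*, β_*)` is `G_ℚ`-equivariant -/
theorem degPair_smul (σ : GQ) (y : JZero (M * q)) :
    degPair M q (σ • y) = σ • degPair M q y := by
  rw [degPair_apply, degPair_apply, alphaPush_smul, betaPush_smul, Prod.smul_mk]

/-- the kernel of `(α_*, β_*)` is `G_ℚ`-stable -/
theorem smul_mem_ker_degPair (σ : GQ) {y : JZero (M * q)} (hy : degPair M q y = 0) :
    degPair M q (σ • y) = 0 := by
  rw [degPair_smul, hy]
  refine Prod.ext ?_ ?_
  · exact smul_zero (A := JZero M) σ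
  · exact smul_zero (A := JZero M) σ

end Main

/-! ### Abstract consequences of equivariance -/

section Abstract

open Fermat.Agent.S30.Padic.TateModule

variable {J J' : Type*} [AddCommGroup J] [AddCommGroup J'] {G : Type*} [Monoid G]
  [DistribMulAction G J] [DistribMulAction G J']

/-- the Tate-module form of equivariance -/
theorem Tp_map_galoisHom (p : ℕ) [Fact p.Prime] (f : J →+ J')
    (hf : ∀ (σ : G) (y : J), f (σ • y) = σ • f y) (σ : G) (x : Tp p J) :
    Tp.map f (Tp.galoisHom G σ x) = Tp.galoisHom G σ (Tp.map f x) := by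
  apply Tp.ext
  intro k
  rw [Tp.coe_map_apply, Tp.coe_galoisHom_apply, Tp.coe_galoisHom_apply, Tp.coe_map_apply, hf]

/-- an equivariant homomorphism commutes with integer polynomials in `σ` -/
theorem map_polyEnd {G : Type*} [Group G] [DistribMulAction G J] [DistribMulAction G J']
    (f : J →+ J') (hf : ∀ (σ : G) (y : J), f (σ • y) = σ • f y) (σ : G) (P : Polynomial ℤ)
    (y : J) :
    f (Fermat.Agent.S35.Chain.polyEnd σ P y) = Fermat.Agent.S35.Chain.polyEnd σ P (f y) := by
  unfold Fermat.Agent.S35.Chain.polyEnd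
  have hpow : ∀ (n : ℕ) (z : J), f ((DistribMulAction.toAddMonoidEnd G J σ ^ n) z)
      = (DistribMulAction.toAddMonoidEnd G J' σ ^ n) (f z) := by
    intro n
    induction n with
    | zero =>
      intro z
      rw [pow_zero, pow_zero, AddMonoid.End.coe_one, AddMonoid.End.coe_one, id, id]
    | succ n ih =>
      intro z
      rw [pow_succ, pow_succ, AddMonoid.End.coe_mul, AddMonoid.End.coe_mul,
        Function.comp_apply, Function.comp_apply, ih]
      exact congrArg _ (hf σ z)
  induction P using Polynomial.induction_on' generalizing y with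
  | add P Q hP hQ =>
    rw [map_add, map_add]
    show f (Polynomial.aeval (DistribMulAction.toAddMonoidEnd G J σ) P y
        + Polynomial.aeval (DistribMulAction.toAddMonoidEnd G J σ) Q y)
      = Polynomial.aeval (DistribMulAction.toAddMonoidEnd G J' σ) P (f y)
        + Polynomial.aeval (DistribMulAction.toAddMonoidEnd G J' σ) Q (f y)
    rw [map_add, hP, hQ]
  | monomial n a =>
    rw [Polynomial.aeval_monomial, Polynomial.aeval_monomial, AddMonoid.End.coe_mul,
      AddMonoid.End.coe_mul, Function.comp_apply, Function.comp_apply, ← hpow]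
    simp only [algebraMap_int_eq, eq_intCast, AddMonoid.End.intCast_apply, map_zsmul]

/-- the kernel of an equivariant homomorphism is stable under integer polynomials in `σ` -/
theorem polyEnd_mem_ker {G : Type*} [Group G] [DistribMulAction G J] [DistribMulAction G J']
    (f : J →+ J') (hf : ∀ (σ : G) (y : J), f (σ • y) = σ • f y) (σ : G) (P : Polynomial ℤ)
    {y : J} (hy : f y = 0) : f (Fermat.Agent.S35.Chain.polyEnd σ P y) = 0 := by
  rw [map_polyEnd f hf, hy, map_zero]

end Abstract

section Final

variable {M : ℕ} [NeZero M] {q : ℕ} [NeZero q] [NeZero (M * q)]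

/-- `(α_*, β_*)` commutes with integer polynomials in `σ` -/
theorem degPair_polyEnd (σ : GQ) (P : Polynomial ℤ) (y : JZero (M * q)) :
    degPair M q (Fermat.Agent.S35.Chain.polyEnd σ P y)
      = Fermat.Agent.S35.Chain.polyEnd σ P (degPair M q y) :=
  map_polyEnd (degPair M q) (fun σ y => degPair_smul σ y) σ P y

/-- the kernel of `(α_*, β_*)` is stable under integer polynomials in `σ` -/
theorem polyEnd_mem_ker_degPair (σ : GQ) (P : Polynomial ℤ) {y : JZero (M * q)}
    (hy : degPair M q y = 0) : degPair M q (Fermat.Agent.S35.Chain.polyEnd σ P y) = 0 :=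
  polyEnd_mem_ker (degPair M q) (fun σ y => degPair_smul σ y) σ P hy

end Final

end Fermat.Agent.S35.DegeneracyGalois
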