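/-
S35 input (helper8): the Kummer dictionary for push-forwards between modular curves.

For a homomorphism `φ : E N →ₐ[ℚ̄] E N'` of function fields of modular curves (e.g. the two
degeneracy maps `α, β : E M → E (M q)`) and the norm `N_φ : E N' → E N`:

* `ord_norm`   : `div (N_φ f) = φ_* (div f)`;
* `exists_norm_eq_const_mul_pow` : if `n D = div f` and `φ_* [D] = 0` in `J₀(N)`, then
  `N_φ f = c g ^ n` for a constant `c ≠ 0` and a function `g ≠ 0` with `div g = φ_* D`;
* `exists_kummer_of_torsion` : every `y ∈ J₀(N')[n]` with `φ_* y = 0` has such a presentation;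
* `exists_norms_of_degPair_eq_zero` : the two statements at once for `(α_*, β_*) y = 0`.
-/
import Mathlib
import Fermat.Agent.S35.DegeneracyGalois
import Fermat.Agent.S34.CoreZX0OfPrincipal

set_option autoImplicit false
set_option linter.unusedSectionVars false
set_option linter.style.haveILetI false

noncomputable section

namespace Fermat.Agent.S35.PushKummer

open ModularCurve AlgebraicCurve
open Fermat.Agent.S24.DegreeAlg Fermat.Agent.S24.FF Fermat.Agent.S18.A.Instances
open Fermat.Agent.S37.Hecke.Integral Fermat.Agent.S35.LevelMaps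
open Fermat.Agent.S35.DegeneracyHecke Fermat.Agent.S35.DegeneracyGalois

local notation "Kb" => AlgebraicClosure ℚ

section Norm

variable {N N' : ℕ} [NeZero N] [NeZero N']

/-- the norm `E N' → E N` along a homomorphism `φ : E N → E N'` -/
def normAlong (φ : E N →ₐ[Kb] E N') : E N' →* E N :=
  letI := algebraAlong φ
  Algebra.norm (E N)

theorem normAlong_def (φ : E N →ₐ[Kb] E N') (f : E N') :
    normAlong φ f = (letI := algebraAlong φ; Algebra.norm (E N) f) := rfl

theorem normAlong_ne_zero (φ : E N →ₐ[Kb] E N') {f : E N'} (hf : f ≠ 0) :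
    normAlong φ f ≠ 0 := by
  letI := algebraAlong φ
  haveI := isScalarTower_along φ
  haveI := isIntegral_along φ (isIntegral_hom φ)
  haveI : Module.Finite (E N) (E N') := finiteAlong_hom φ
  haveI : Module.Free (E N) (E N') := Module.Free.of_divisionRing (E N) (E N')
  exact (Algebra.norm_ne_zero_iff (R := E N)).mpr hf

/-- **`div (N_φ f) = φ_* (div f)`** -/
theorem ord_norm (φ : E N →ₐ[Kb] E N') {f : E N'} (hf : f ≠ 0) (D : Divisor Kb (E N'))
    (hD : ∀ w : Place Kb (E N'), D w = w.ord f) (v : Place Kb (E N)) :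
    v.ord (normAlong φ f) = push φ D v := by
  letI := algebraAlong φ
  haveI := isScalarTower_along φ
  haveI := isIntegral_along φ (isIntegral_hom φ)
  haveI : Module.Finite (E N) (E N') := finiteAlong_hom φ
  exact ((normFormula_hom φ) f hf D hD v).symm

/-- `φ_*` of a multiple -/
theorem push_zsmul (φ : E N →ₐ[Kb] E N') (n : ℤ) (D : Divisor Kb (E N')) :
    push φ (n • D) = n • push φ D := map_zsmul (push φ) n D

/-- **The Kummer dictionary for `φ_*`.**  If `n D = div f` and `φ_* [D] = 0`, the norm of `f` is a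
constant times an `n`-th power. -/
theorem exists_norm_eq_const_mul_pow (φ : E N →ₐ[Kb] E N')
    (D : Divisor.degZero (K := Kb) (F := E N')) {f : E N'} (hf : f ≠ 0) (n : ℕ)
    (hfD : ∀ w : Place Kb (E N'), w.ord f = (n : ℤ) * (D : Divisor Kb (E N')) w)
    (h0 : pushJ φ (Pic0.mk D) = 0) :
    ∃ (g : E N) (c : Kb), g ≠ 0 ∧ c ≠ 0 ∧
      normAlong φ f = algebraMap Kb (E N) c * g ^ n ∧
      ∀ v : Place Kb (E N), v.ord g = push φ (D : Divisor Kb (E N')) v := by
  obtain ⟨D', h1, h1'⟩ := coe_degZero_of_pushJ_mk φ D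
  rw [h1] at h0
  have h2 : D' ∈ (Divisor.principal (K := Kb) (F := E N)).addSubgroupOf
      (Divisor.degZero (K := Kb) (F := E N)) := (QuotientAddGroup.eq_zero_iff _).mp h0
  rw [AddSubgroup.mem_addSubgroupOf] at h2
  obtain ⟨g, hg, hgD⟩ := h2
  have hgD' : ∀ v : Place Kb (E N), v.ord g = push φ (D : Divisor Kb (E N')) v := fun v => by
    rw [← h1', hgD v]
  -- the divisor of the norm
  have hN : ∀ v : Place Kb (E N), v.ord (normAlong φ f)
      = (n : ℤ) * push φ (D : Divisor Kb (E N')) v := fun v => by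
    rw [ord_norm φ hf ((n : ℤ) • (D : Divisor Kb (E N'))) (fun w => by
      rw [Finsupp.smul_apply, smul_eq_mul, hfD w]) v, push_zsmul, Finsupp.smul_apply, smul_eq_mul]
  have hNf : normAlong φ f ≠ 0 := normAlong_ne_zero φ hf
  have hgn : g ^ n ≠ 0 := pow_ne_zero n hg
  have hquot : normAlong φ f / g ^ n ≠ 0 := div_ne_zero hNf hgn
  obtain ⟨c, hc, hcq⟩ := Fermat.Agent.S34.CoreZX0OfPrincipal.exists_const_of_ord_eq_zero N
    (normAlong φ f / g ^ n) hquot (fun v => by
      rw [Fermat.Agent.S34.CoreZOfPrincipal.ord_div' v hNf hgn, hN v,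
        Fermat.Agent.S34.KummerZ.ord_pow, hgD' v]
      ring)
  refine ⟨g, c, hg, hc, ?_, hgD'⟩
  rw [← hcq, div_mul_cancel₀ _ hgn]

/-- every `n`-torsion class killed by `φ_*` has a Kummer presentation whose norm is a constant
times an `n`-th power -/
theorem exists_kummer_of_torsion (φ : E N →ₐ[Kb] E N') (n : ℕ) {y : JZero N'}
    (hy : (n : ℤ) • y = 0) (h0 : pushJ φ y = 0) :
    ∃ (D : Divisor.degZero (K := Kb) (F := E N')) (f : E N'), y = Pic0.mk D ∧ f ≠ 0 ∧
      (∀ w : Place Kb (E N'), w.ord f = (n : ℤ) * (D : Divisor Kb (E N')) w) ∧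
      ∃ (g : E N) (c : Kb), g ≠ 0 ∧ c ≠ 0 ∧ normAlong φ f = algebraMap Kb (E N) c * g ^ n ∧
        ∀ v : Place Kb (E N), v.ord g = push φ (D : Divisor Kb (E N')) v := by
  obtain ⟨D, f, rfl, hf, hfD⟩ := Fermat.Agent.S34.KummerZ.exists_mk_of_zsmul_eq_zero hy
  exact ⟨D, f, rfl, hf, hfD, exists_norm_eq_const_mul_pow φ D hf n hfD h0⟩

end Norm

section Main

variable {M : ℕ} [NeZero M] {q : ℕ} [NeZero q] [NeZero (M * q)]

/-- **the Kummer form of `(α_*, β_*) y = 0`**: for ANY Kummer presentation `n D = div f` of `y`,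
both norms `N_α f`, `N_β f` are constants times `n`-th powers. -/
theorem exists_norms_of_degPair_eq_zero (D : Divisor.degZero (K := Kb) (F := E (M * q)))
    {f : E (M * q)} (hf : f ≠ 0) (n : ℕ)
    (hfD : ∀ w : Place Kb (E (M * q)), w.ord f = (n : ℤ) * (D : Divisor Kb (E (M * q))) w)
    (h0 : degPair M q (Pic0.mk D) = 0) :
    (∃ (g : E M) (c : Kb), g ≠ 0 ∧ c ≠ 0 ∧
      normAlong (heckeAlphaBar Kb M q) f = algebraMap Kb (E M) c * g ^ n) ∧
    (∃ (g : E M) (c : Kb), g ≠ 0 ∧ c ≠ 0 ∧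
      normAlong (heckeBetaBar Kb M q) f = algebraMap Kb (E M) c * g ^ n) := by
  rw [degPair_eq_zero_iff] at h0
  obtain ⟨g1, c1, hg1, hc1, h1, -⟩ :=
    exists_norm_eq_const_mul_pow (heckeAlphaBar Kb M q) D hf n hfD h0.1
  obtain ⟨g2, c2, hg2, hc2, h2, -⟩ :=
    exists_norm_eq_const_mul_pow (heckeBetaBar Kb M q) D hf n hfD h0.2
  exact ⟨⟨g1, c1, hg1, hc1, h1⟩, ⟨g2, c2, hg2, hc2, h2⟩⟩

end Main

end Fermat.Agent.S35.PushKummer
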