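/-
S35, layer (N1) of (NEW-σ) AT `E = ℚ̄(X₀(M q))` (helper8).

`helper3`'s abstract assembly `NewLayerGauss.exists_oneUnit_decomposition_gauss` instantiated at the
two concrete Gauss data `(V₁, red₁)`, `(V₂, red₂)` of `S34/GaussPairX0` over the Gauss datum of
`ℚ̄(X₀(M))`:

* `n1_of_norms` : the instantiation with the Frobenius rules `hs₁ hs₂` and the two norm formulas
  `hNa hNb` as hypotheses, for arbitrary ring automorphisms `A B` of `κ = k(X₀(M))` and an arbitrary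
  ring automorphism `s` of `E`;
* `frobSq_V₁`, `frobSq_V₂` : for a Frobenius lift `σ` at `q`, `σ_E ^ 2` preserves `V₁`, `V₂` and
  acts on the reductions through the coefficientwise `q²`-Frobenius `Ψ²`, `Ψ = ψ⁻¹` (from
  `S34/DecompX0`);
* `n1_X0` : **(N1)**: if `y = [D]`, `n D = div f` and `(α_*, β_*) y = 0`, then
  `σ_E ^ 2 • f = h ^ n * u * f` with `u` a one-unit of both `V1X0`, `V2X0`, GIVEN the two norm formulas
  `red_M (N_α u) = red₁ u * Ψ (red₂ u)`, `red_M (N_β u) = Ψ (red₁ u) * red₂ u`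
  (`S35/NormRedX0`).
-/
import Mathlib
import Fermat.Agent.S35.NewLayerGauss
import Fermat.Agent.S35.PushKummer
import Fermat.Agent.S34.GaussPairBridge
import Fermat.Agent.S34.DecompX0
import Fermat.Agent.S34.BranchAux

set_option autoImplicit false
set_option linter.unusedSectionVars false
set_option linter.style.haveILetI false

noncomputable section

namespace Fermat.Agent.S35.NewLayerX0

open ModularCurve AlgebraicCurve IsLocalRing
open Fermat.Agent.S37.Gauss.Datum Fermat.Agent.S37.Equivariance.CoeffAut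
open Fermat.Agent.S34.TwoGaussX0 Fermat.Agent.S34.Z1X0 Fermat.Agent.S34.Z1Abstract
open Fermat.Agent.S34.GaussPairX0 Fermat.Agent.S34.WeakApprox Fermat.Agent.S34.FrobK
open Fermat.Agent.S35.LevelMaps Fermat.Agent.S35.DegeneracyHecke Fermat.Agent.S35.DegeneracyGalois
open Fermat.Agent.S35.PushKummer

local notation "Kb" => AlgebraicClosure ℚ

variable {q : ℕ} [hq : Fact q.Prime] {M : ℕ} [NeZero M] {A : ValuationSubring Kb}
variable (hA : A.LiesOverPrime q) (hqM : ¬ q ∣ M) [NeZero q]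

attribute [local instance] algFE

set_option synthInstance.maxHeartbeats 400000

/-! ### The instantiation, Frobenius rules and norm formulas as hypotheses -/

set_option maxHeartbeats 1600000 in
/-- (N1) at `X₀(M q)` from the Frobenius rules and the norm formulas. -/
theorem n1_of_norms [NeZero (M * q)] (n : ℕ) (hn : n ≠ 0)
    (A' B' : ↥(modularFunctionFieldFullC (ResidueField ↥A) M) ≃+*
      ↥(modularFunctionFieldFullC (ResidueField ↥A) M))
    (s : ↥(modularFunctionFieldBar (M * q)) ≃+* ↥(modularFunctionFieldBar (M * q)))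
    (hs₁ : ∀ (u : ↥(modularFunctionFieldBar (M * q))) (hu : u ∈ V₁ hA hqM),
      ∃ h : s u ∈ V₁ hA hqM, red₁ hA hqM ⟨s u, h⟩ = A' (B' (red₁ hA hqM ⟨u, hu⟩)))
    (hs₂ : ∀ (u : ↥(modularFunctionFieldBar (M * q))) (hu : u ∈ V₂ hA hqM),
      ∃ h : s u ∈ V₂ hA hqM, red₂ hA hqM ⟨s u, h⟩ = B' (A' (red₂ hA hqM ⟨u, hu⟩)))
    (hNa : ∀ (u : ↥(modularFunctionFieldBar (M * q))) (m₁ : u ∈ V₁ hA hqM) (m₂ : u ∈ V₂ hA hqM),
      ∃ h : normAlong (heckeAlphaBar Kb M q) u ∈ (gaussDatum M A hA hqM).O,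
        (gaussDatum M A hA hqM).red ⟨_, h⟩ = red₁ hA hqM ⟨u, m₁⟩ * A' (red₂ hA hqM ⟨u, m₂⟩))
    (hNb : ∀ (u : ↥(modularFunctionFieldBar (M * q))) (m₁ : u ∈ V₁ hA hqM) (m₂ : u ∈ V₂ hA hqM),
      ∃ h : normAlong (heckeBetaBar Kb M q) u ∈ (gaussDatum M A hA hqM).O,
        (gaussDatum M A hA hqM).red ⟨_, h⟩ = B' (red₁ hA hqM ⟨u, m₁⟩) * red₂ hA hqM ⟨u, m₂⟩)
    (D : Divisor.degZero (K := Kb) (F := ↥(modularFunctionFieldBar (M * q))))
    (f : ↥(modularFunctionFieldBar (M * q))) (hf : f ≠ 0)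
    (hfD : ∀ w : Place Kb ↥(modularFunctionFieldBar (M * q)),
      w.ord f = (n : ℤ) * (D : Divisor Kb ↥(modularFunctionFieldBar (M * q))) w)
    (h0 : degPair M q (Pic0.mk D) = 0) :
    ∃ h u : ↥(modularFunctionFieldBar (M * q)), h ≠ 0 ∧ u ≠ 0 ∧
      IsOneUnit (V1X0 hA hqM) u ∧ IsOneUnit (V2X0 hA hqM) u ∧ s f = h ^ n * u * f := by
  haveI : IsAlgClosed (ResidueField ↥A) :=
    Fermat.Agent.S18.ResidueBasics.isAlgClosed_residueField A
  obtain ⟨⟨ga, ca, -, -, hNa'⟩, ⟨gb, cb, -, -, hNb'⟩⟩ :=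
    exists_norms_of_degPair_eq_zero D hf n hfD h0
  have h1 : V₁ hA hqM = V1X0 hA hqM := (Fermat.Agent.S34.GaussPairBridge.V1X0_eq hA hqM).symm
  have h2 : V₂ hA hqM = V2X0 hA hqM := (Fermat.Agent.S34.GaussPairBridge.V2X0_eq hA hqM).symm
  obtain ⟨h, u, hh, hu, hu1, hu2, he⟩ :=
    Fermat.Agent.S35.NewLayerGauss.exists_oneUnit_decomposition_gauss
      (L := Kb) (E := ↥(modularFunctionFieldBar (M * q)))
      (gaussDatum M A hA hqM)
      (V₁ := V₁ hA hqM) (V₂ := V₂ hA hqM)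
      (by rw [h1]; exact arch_VX0 hA hqM 0) (by rw [h2]; exact arch_VX0 hA hqM 1)
      (V₁_ne_V₂ hA hqM)
      (by rw [h1]; exact V_ne_top hA hqM (comap_VX0 hA hqM 0))
      (by rw [h2]; exact V_ne_top hA hqM (comap_VX0 hA hqM 1))
      (red₁ hA hqM) (red₂ hA hqM) (red₁_eq_zero_iff hA hqM) (red₂_eq_zero_iff hA hqM)
      (red₁_surjective hA hqM) (red₂_surjective hA hqM)
      (by rw [h1]; exact hval_VX0 hA hqM 0) (by rw [h2]; exact hval_VX0 hA hqM 1)
      n hn (fun c => IsAlgClosed.exists_pow_nat_eq c (Nat.pos_of_ne_zero hn))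
      A' B' s hs₁ hs₂
      (normAlong (heckeAlphaBar Kb M q)) (normAlong (heckeBetaBar Kb M q))
      (fun x hx => normAlong_ne_zero _ hx) (fun x hx => normAlong_ne_zero _ hx)
      hNa hNb f hf ⟨ca, ga, hNa'⟩ ⟨cb, gb, hNb'⟩
  refine ⟨h, u, hh, hu, ?_, ?_, he⟩
  · rw [← h1]; exact hu1
  · rw [← h2]; exact hu2

/-! ### The Frobenius rules -/

section Frob

variable [CharP (ResidueField ↥A) q] [PerfectField (ResidueField ↥A)]

/-- the coefficientwise `q`-Frobenius of `κ = k(X₀(M))`, `Ψ = ψ⁻¹` -/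
def Psi : ↥(modularFunctionFieldFullC (ResidueField ↥A) M) ≃+*
    ↥(modularFunctionFieldFullC (ResidueField ↥A) M) :=
  (psi (ResidueField ↥A) M q).symm

theorem Psi_apply (z : ↥(modularFunctionFieldFullC (ResidueField ↥A) M)) :
    Psi (q := q) (M := M) (A := A) z
      = coeffRingAut (ResidueField ↥A) M (frobAut (ResidueField ↥A) q) z := by
  have h := frob_psi (ResidueField ↥A) M q (Psi (q := q) (M := M) (A := A) z)
  rw [Psi, RingEquiv.apply_symm_apply] at h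
  exact h.symm

theorem Psi_Psi (z : ↥(modularFunctionFieldFullC (ResidueField ↥A) M)) :
    Psi (q := q) (M := M) (A := A) (Psi (q := q) (M := M) (A := A) z)
      = Fermat.Agent.S34.DecompX0.frobSq (q := q) (M := M) (A := A) z := by
  rw [Psi_apply, Psi_apply, Fermat.Agent.S34.DecompX0.frobSq_apply]
  apply Subtype.ext
  rw [coe_coeffRingAut_apply, coe_coeffRingAut_apply, coe_coeffRingAut_apply, coeffMap_coeffMap]
  exact coeffMap_congr (RingHom.ext fun _ => rfl) _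

/-- `φ (Ψ b) = b ^ q` for the `k`-linear Frobenius pull-back `φ = FrobK.phi` -/
theorem phi_Psi (b : ↥(modularFunctionFieldFullC (ResidueField ↥A) M)) :
    phi (ResidueField ↥A) M q (Psi (q := q) b) = b ^ q := by
  rw [phi_eq_pow, Psi, RingEquiv.apply_symm_apply]

/-- from the Frobenius form of the norm formula along `α` to the `Ψ`-form -/
theorem eq_mul_Psi_of_phi_eq {x a b : ↥(modularFunctionFieldFullC (ResidueField ↥A) M)}
    (h : phi (ResidueField ↥A) M q x = phi (ResidueField ↥A) M q a * b ^ q) :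
    x = a * Psi (q := q) b := by
  apply phi_injective (ResidueField ↥A) M q
  rw [h, map_mul, phi_Psi]

/-- from the Frobenius form of the norm formula along `β` to the `Ψ`-form -/
theorem eq_Psi_mul_of_phi_eq {x a b : ↥(modularFunctionFieldFullC (ResidueField ↥A) M)}
    (h : phi (ResidueField ↥A) M q x = phi (ResidueField ↥A) M q b * a ^ q) :
    x = Psi (q := q) a * b := by
  apply phi_injective (ResidueField ↥A) M q
  rw [h, map_mul, phi_Psi, mul_comm]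

variable {σ : Kb ≃ₐ[ℚ] Kb} (hσ : A.IsFrobeniusAt σ q)

/-- the ring automorphism `σ_E ^ 2` of `E` -/
def sigmaSq (M q : ℕ) [NeZero M] [NeZero q] (σ : Kb ≃ₐ[ℚ] Kb) :
    ↥(modularFunctionFieldBar (M * q)) ≃+* ↥(modularFunctionFieldBar (M * q)) :=
  SemilinearAut.toRingAut (arithmeticGalois (modularFunctionFieldFull (M * q)) σ ^ 2)

theorem sigmaSq_apply (x : ↥(modularFunctionFieldBar (M * q))) :
    sigmaSq M q σ x = (arithmeticGalois (modularFunctionFieldFull (M * q)) σ ^ 2) • x := rfl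

theorem sigmaSq_apply' (x : ↥(modularFunctionFieldBar (M * q))) :
    sigmaSq M q σ x = arithmeticGalois (modularFunctionFieldFull (M * q)) σ •
      (arithmeticGalois (modularFunctionFieldFull (M * q)) σ • x) := by
  rw [sigmaSq_apply, sq, mul_smul]

/-- `σ_E ^ 2` commutes with `w_q` -/
theorem sigmaSq_wq (x : ↥(modularFunctionFieldBar (M * q))) :
    sigmaSq M q σ (wq hqM x) = wq hqM (sigmaSq M q σ x) := by
  rw [sigmaSq_apply', sigmaSq_apply', Fermat.Agent.S34.GaussPairBridge.wq_eq hqM,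
    Fermat.Agent.S34.WqGalois.smul_wq, Fermat.Agent.S34.WqGalois.smul_wq]

include hσ in
/-- **`hs₁`**: `σ_E ^ 2` preserves `V₁` and acts on `red₁` through `Ψ²`. -/
theorem frobSq_V₁ (u : ↥(modularFunctionFieldBar (M * q))) (hu : u ∈ V₁ hA hqM) :
    ∃ h : sigmaSq M q σ u ∈ V₁ hA hqM,
      red₁ hA hqM ⟨sigmaSq M q σ u, h⟩ = Psi (q := q) (Psi (q := q) (red₁ hA hqM ⟨u, hu⟩)) := by
  obtain ⟨h, hred⟩ := Fermat.Agent.S34.DecompX0.branch_frobSq₁ hA hqM hσ
    (Fermat.Agent.S34.BranchAux.Branch.ofGaussDatum (gaussDatumV₁ hA hqM))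
    (Fermat.Agent.S34.GaussPairBridge.V1X0_eq hA hqM).symm
    (fun c => (alpha_mem_V₁_iff hA hqM c).mpr c.2) (fun c => red₁_alpha hA hqM c) ⟨u, hu⟩
  refine ⟨h, ?_⟩
  rw [Psi_Psi]
  exact hred

include hσ in
/-- **`hs₂`**: `σ_E ^ 2` preserves `V₂` and acts on `red₂` through `Ψ²`. -/
theorem frobSq_V₂ (u : ↥(modularFunctionFieldBar (M * q))) (hu : u ∈ V₂ hA hqM) :
    ∃ h : sigmaSq M q σ u ∈ V₂ hA hqM,
      red₂ hA hqM ⟨sigmaSq M q σ u, h⟩ = Psi (q := q) (Psi (q := q) (red₂ hA hqM ⟨u, hu⟩)) := by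
  have hu' : wq hqM u ∈ V₁ hA hqM := hu
  obtain ⟨h, hred⟩ := frobSq_V₁ hA hqM hσ (wq hqM u) hu'
  have hmem : sigmaSq M q σ u ∈ V₂ hA hqM := by
    rw [mem_V₂_iff, ← sigmaSq_wq]
    exact h
  refine ⟨hmem, ?_⟩
  rw [red₂_apply, red₂_apply]
  have e1 : wqV hA hqM ⟨u, hu⟩ = ⟨wq hqM u, hu'⟩ := rfl
  have e2 : wqV hA hqM ⟨sigmaSq M q σ u, hmem⟩ = ⟨sigmaSq M q σ (wq hqM u), h⟩ :=
    Subtype.ext (sigmaSq_wq hqM u).symm
  rw [e1, e2, hred]

include hσ in
/-- **(N1) at `X₀(M q)`**, given the two norm formulas: for a Kummer presentation `n D = div f` of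
a class killed by `α_*` and `β_*`, `σ_E² f = h ^ n * u * f` with `u` a one-unit of both Gauss
valuation rings. -/
theorem n1_X0 [NeZero (M * q)] (n : ℕ) (hn : n ≠ 0)
    (hNa : ∀ (u : ↥(modularFunctionFieldBar (M * q))) (m₁ : u ∈ V₁ hA hqM) (m₂ : u ∈ V₂ hA hqM),
      ∃ h : normAlong (heckeAlphaBar Kb M q) u ∈ (gaussDatum M A hA hqM).O,
        (gaussDatum M A hA hqM).red ⟨_, h⟩
          = red₁ hA hqM ⟨u, m₁⟩ * Psi (q := q) (red₂ hA hqM ⟨u, m₂⟩))
    (hNb : ∀ (u : ↥(modularFunctionFieldBar (M * q))) (m₁ : u ∈ V₁ hA hqM) (m₂ : u ∈ V₂ hA hqM),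
      ∃ h : normAlong (heckeBetaBar Kb M q) u ∈ (gaussDatum M A hA hqM).O,
        (gaussDatum M A hA hqM).red ⟨_, h⟩
          = Psi (q := q) (red₁ hA hqM ⟨u, m₁⟩) * red₂ hA hqM ⟨u, m₂⟩)
    (D : Divisor.degZero (K := Kb) (F := ↥(modularFunctionFieldBar (M * q))))
    (f : ↥(modularFunctionFieldBar (M * q))) (hf : f ≠ 0)
    (hfD : ∀ w : Place Kb ↥(modularFunctionFieldBar (M * q)),
      w.ord f = (n : ℤ) * (D : Divisor Kb ↥(modularFunctionFieldBar (M * q))) w)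
    (h0 : degPair M q (Pic0.mk D) = 0) :
    ∃ h u : ↥(modularFunctionFieldBar (M * q)), h ≠ 0 ∧ u ≠ 0 ∧
      IsOneUnit (V1X0 hA hqM) u ∧ IsOneUnit (V2X0 hA hqM) u ∧
      arithmeticGalois (modularFunctionFieldFull (M * q)) σ •
        (arithmeticGalois (modularFunctionFieldFull (M * q)) σ • f) = h ^ n * u * f := by
  obtain ⟨h, u, hh, hu, hu1, hu2, he⟩ := n1_of_norms hA hqM n hn (Psi (q := q)) (Psi (q := q))
    (sigmaSq M q σ) (frobSq_V₁ hA hqM hσ) (frobSq_V₂ hA hqM hσ) hNa hNb D f hf hfD h0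
  exact ⟨h, u, hh, hu, hu1, hu2, by rw [← sigmaSq_apply']; exact he⟩

include hσ in
/-- **(N1) at `X₀(M q)`**, the norm formulas in the Frobenius form of `S35/NormRed`
(`φ (red (N_α u)) = φ (red₁ u) * (red₂ u) ^ q`, `φ (red (N_β u)) = φ (red₂ u) * (red₁ u) ^ q`). -/
theorem n1_X0_of_frob [NeZero (M * q)] (n : ℕ) (hn : n ≠ 0)
    (hNa : ∀ (u : ↥(modularFunctionFieldBar (M * q))) (m₁ : u ∈ V₁ hA hqM) (m₂ : u ∈ V₂ hA hqM),
      ∃ h : normAlong (heckeAlphaBar Kb M q) u ∈ (gaussDatum M A hA hqM).O,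
        phi (ResidueField ↥A) M q ((gaussDatum M A hA hqM).red ⟨_, h⟩)
          = phi (ResidueField ↥A) M q (red₁ hA hqM ⟨u, m₁⟩) * red₂ hA hqM ⟨u, m₂⟩ ^ q)
    (hNb : ∀ (u : ↥(modularFunctionFieldBar (M * q))) (m₁ : u ∈ V₁ hA hqM) (m₂ : u ∈ V₂ hA hqM),
      ∃ h : normAlong (heckeBetaBar Kb M q) u ∈ (gaussDatum M A hA hqM).O,
        phi (ResidueField ↥A) M q ((gaussDatum M A hA hqM).red ⟨_, h⟩)
          = phi (ResidueField ↥A) M q (red₂ hA hqM ⟨u, m₂⟩) * red₁ hA hqM ⟨u, m₁⟩ ^ q)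
    (D : Divisor.degZero (K := Kb) (F := ↥(modularFunctionFieldBar (M * q))))
    (f : ↥(modularFunctionFieldBar (M * q))) (hf : f ≠ 0)
    (hfD : ∀ w : Place Kb ↥(modularFunctionFieldBar (M * q)),
      w.ord f = (n : ℤ) * (D : Divisor Kb ↥(modularFunctionFieldBar (M * q))) w)
    (h0 : degPair M q (Pic0.mk D) = 0) :
    ∃ h u : ↥(modularFunctionFieldBar (M * q)), h ≠ 0 ∧ u ≠ 0 ∧
      IsOneUnit (V1X0 hA hqM) u ∧ IsOneUnit (V2X0 hA hqM) u ∧
      arithmeticGalois (modularFunctionFieldFull (M * q)) σ •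
        (arithmeticGalois (modularFunctionFieldFull (M * q)) σ • f) = h ^ n * u * f :=
  n1_X0 hA hqM hσ n hn
    (fun u m₁ m₂ => by
      obtain ⟨h, hh⟩ := hNa u m₁ m₂
      exact ⟨h, eq_mul_Psi_of_phi_eq hh⟩)
    (fun u m₁ m₂ => by
      obtain ⟨h, hh⟩ := hNb u m₁ m₂
      exact ⟨h, eq_Psi_mul_of_phi_eq hh⟩)
    D f hf hfD h0

end Frob

end Fermat.Agent.S35.NewLayerX0
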