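/-
S35, layer (N1) at `X₀(M q)` (helper8): the norm along `β` is the norm along `α` after the
Atkin–Lehner involution, `N_β u = N_α (w_q u)`; hence the `β` norm formula follows from the `α` one.

* `norm_eq_norm_of_ringEquiv` : abstract form (two algebra structures related by a ring isomorphism);
* `normAlong_beta_eq` : `N_β u = N_α (w_q u)`;
* `hNb_of_hNa` : the `β` norm formula of `NewLayerX0.n1_X0` from the `α` one;
* `n1_X0_of_alpha` : **(N1) at `X₀(M q)` from the `α` norm formula alone.**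
-/
import Mathlib
import Fermat.Agent.S35.NewLayerX0

set_option autoImplicit false
set_option linter.unusedSectionVars false
set_option linter.style.haveILetI false

noncomputable section

namespace Fermat.Agent.S35.NormSwapX0

open ModularCurve AlgebraicCurve IsLocalRing
open Fermat.Agent.S37.Gauss.Datum
open Fermat.Agent.S34.TwoGaussX0 Fermat.Agent.S34.Z1X0 Fermat.Agent.S34.Z1Abstract
open Fermat.Agent.S34.GaussPairX0 Fermat.Agent.S34.FrobK
open Fermat.Agent.S35.LevelMaps Fermat.Agent.S35.DegeneracyHecke Fermat.Agent.S35.DegeneracyGalois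
open Fermat.Agent.S35.PushKummer Fermat.Agent.S35.NewLayerX0

local notation "Kb" => AlgebraicClosure ℚ

/-- two algebra structures related by a ring isomorphism of the top field have the same norm -/
theorem norm_eq_norm_of_ringEquiv {F E₁ E₂ : Type*} [Field F] [Field E₁] [Field E₂]
    [Algebra F E₁] [Algebra F E₂] (w : E₁ ≃+* E₂)
    (hw : ∀ g : F, w (algebraMap F E₁ g) = algebraMap F E₂ g) (u : E₁) :
    Algebra.norm F u = Algebra.norm F (w u) := by
  have h := Algebra.norm_eq_of_equiv_equiv (RingEquiv.refl F) w (RingHom.ext fun g => by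
    simp only [RingHom.coe_comp, RingHom.coe_coe, Function.comp_apply, RingEquiv.refl_apply]
    exact (hw g).symm) u
  simpa using h

variable {q : ℕ} [hq : Fact q.Prime] {M : ℕ} [NeZero M] {A : ValuationSubring Kb}
variable (hA : A.LiesOverPrime q) (hqM : ¬ q ∣ M) [NeZero q]

/-- **`N_β u = N_α (w_q u)`** -/
theorem normAlong_beta_eq (u : ↥(modularFunctionFieldBar (M * q))) :
    normAlong (heckeBetaBar Kb M q) u = normAlong (heckeAlphaBar Kb M q) (wq hqM u) :=
  @norm_eq_norm_of_ringEquiv ↥(modularFunctionFieldBar M) ↥(modularFunctionFieldBar (M * q))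
    ↥(modularFunctionFieldBar (M * q)) _ _ _ (algebraAlong (heckeBetaBar Kb M q))
    (algebraAlong (heckeAlphaBar Kb M q))
    ((wq hqM : ↥(modularFunctionFieldBar (M * q)) ≃ₐ[Kb] ↥(modularFunctionFieldBar (M * q))) :
      ↥(modularFunctionFieldBar (M * q)) ≃+* ↥(modularFunctionFieldBar (M * q)))
    (fun g => wq_beta hqM g) u

attribute [local instance] algFE

set_option synthInstance.maxHeartbeats 400000

section Frob

variable [CharP (ResidueField ↥A) q] [PerfectField (ResidueField ↥A)]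

/-- the `β` norm formula follows from the `α` norm formula -/
theorem hNb_of_hNa
    (hNa : ∀ (u : ↥(modularFunctionFieldBar (M * q))) (m₁ : u ∈ V₁ hA hqM) (m₂ : u ∈ V₂ hA hqM),
      ∃ h : normAlong (heckeAlphaBar Kb M q) u ∈ (gaussDatum M A hA hqM).O,
        (gaussDatum M A hA hqM).red ⟨_, h⟩
          = red₁ hA hqM ⟨u, m₁⟩ * Psi (q := q) (red₂ hA hqM ⟨u, m₂⟩))
    (u : ↥(modularFunctionFieldBar (M * q))) (m₁ : u ∈ V₁ hA hqM) (m₂ : u ∈ V₂ hA hqM) :
    ∃ h : normAlong (heckeBetaBar Kb M q) u ∈ (gaussDatum M A hA hqM).O,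
      (gaussDatum M A hA hqM).red ⟨_, h⟩
        = Psi (q := q) (red₁ hA hqM ⟨u, m₁⟩) * red₂ hA hqM ⟨u, m₂⟩ := by
  have m₁' : wq hqM u ∈ V₁ hA hqM := m₂
  have m₂' : wq hqM u ∈ V₂ hA hqM := (wq_mem_V₂_iff hA hqM).mpr m₁
  obtain ⟨h, hh⟩ := hNa (wq hqM u) m₁' m₂'
  have e : normAlong (heckeBetaBar Kb M q) u = normAlong (heckeAlphaBar Kb M q) (wq hqM u) :=
    normAlong_beta_eq hqM u
  have h' : normAlong (heckeBetaBar Kb M q) u ∈ (gaussDatum M A hA hqM).O := by rw [e]; exact h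
  refine ⟨h', ?_⟩
  have e1 : (⟨normAlong (heckeBetaBar Kb M q) u, h'⟩ : ↥(gaussDatum M A hA hqM).O)
      = ⟨normAlong (heckeAlphaBar Kb M q) (wq hqM u), h⟩ := Subtype.ext e
  have e2 : red₁ hA hqM ⟨wq hqM u, m₁'⟩ = red₂ hA hqM ⟨u, m₂⟩ := rfl
  have e3 : red₂ hA hqM ⟨wq hqM u, m₂'⟩ = red₁ hA hqM ⟨u, m₁⟩ := by
    rw [red₂_apply]
    congr 1
    exact Subtype.ext (wq_wq hqM u)
  rw [e1, hh, e2, e3, mul_comm]

variable {σ : Kb ≃ₐ[ℚ] Kb} (hσ : A.IsFrobeniusAt σ q)

include hσ in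
/-- **(N1) at `X₀(M q)` from the `α` norm formula alone.** -/
theorem n1_X0_of_alpha [NeZero (M * q)] (n : ℕ) (hn : n ≠ 0)
    (hNa : ∀ (u : ↥(modularFunctionFieldBar (M * q))) (m₁ : u ∈ V₁ hA hqM) (m₂ : u ∈ V₂ hA hqM),
      ∃ h : normAlong (heckeAlphaBar Kb M q) u ∈ (gaussDatum M A hA hqM).O,
        (gaussDatum M A hA hqM).red ⟨_, h⟩
          = red₁ hA hqM ⟨u, m₁⟩ * Psi (q := q) (red₂ hA hqM ⟨u, m₂⟩))
    (D : Divisor.degZero (K := Kb) (F := ↥(modularFunctionFieldBar (M * q))))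
    (f : ↥(modularFunctionFieldBar (M * q))) (hf : f ≠ 0)
    (hfD : ∀ w : Place Kb ↥(modularFunctionFieldBar (M * q)),
      w.ord f = (n : ℤ) * (D : Divisor Kb ↥(modularFunctionFieldBar (M * q))) w)
    (h0 : degPair M q (Pic0.mk D) = 0) :
    ∃ h u : ↥(modularFunctionFieldBar (M * q)), h ≠ 0 ∧ u ≠ 0 ∧
      IsOneUnit (V1X0 hA hqM) u ∧ IsOneUnit (V2X0 hA hqM) u ∧
      arithmeticGalois (modularFunctionFieldFull (M * q)) σ •
        (arithmeticGalois (modularFunctionFieldFull (M * q)) σ • f) = h ^ n * u * f :=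
  n1_X0 hA hqM hσ n hn hNa (hNb_of_hNa hA hqM hNa) D f hf hfD h0

end Frob

end Fermat.Agent.S35.NormSwapX0
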