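/-
S35, layer (N1) of (NEW-σ) AT `E = ℚ̄(X₀(M q))`, FINAL FORM (helper8).

* `norm_alpha_X0` : the norm formula along `α`: for `u ∈ V₁ ∩ V₂`, `N_α u` is integral for the
  Gauss ring of `ℚ̄(X₀(M))` and `red_M (N_α u) = red₁ u * Ψ (red₂ u)`, `Ψ` the coefficientwise
  `q`-Frobenius of `κ = k(X₀(M))` (from `S35/NormRed.red_norm_twoExt_frob` at the Dedekind–Kummer
  setup `TwoGaussX0.setupX0`);
* `norm_beta_X0` : the same along `β` (`S35/NormSwapX0`);
* `n1` : **(N1)**: for `σ` a Frobenius lift at `q`, a class `y = [D] ∈ J₀(M q)` with `n D = div f`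
  killed by both degeneracy push-forwards satisfies `σ_E (σ_E f) = h ^ n * u * f` with `u` a
  one-unit of both Gauss valuation rings `V1X0`, `V2X0`.  No hypothesis left.
* `n1_of_torsion` : the same for `y` with `n • y = 0`, `α_* y = 0`, `β_* y = 0`.
-/
import Mathlib
import Fermat.Agent.S35.NormRed
import Fermat.Agent.S35.NormSwapX0
import Fermat.Agent.S18.ResidueBasics

set_option autoImplicit false
set_option linter.unusedSectionVars false
set_option linter.style.haveILetI false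

noncomputable section

namespace Fermat.Agent.S35.N1X0

open ModularCurve AlgebraicCurve IsLocalRing
open Fermat.Agent.S37.Gauss.Datum
open Fermat.Agent.S34.TwoGaussX0 Fermat.Agent.S34.Z1X0 Fermat.Agent.S34.Z1Abstract
open Fermat.Agent.S34.GaussPairX0 Fermat.Agent.S34.FrobK Fermat.Agent.S34.WeakApprox
open Fermat.Agent.S35.LevelMaps Fermat.Agent.S35.DegeneracyHecke Fermat.Agent.S35.DegeneracyGalois
open Fermat.Agent.S35.PushKummer Fermat.Agent.S35.NewLayerX0

local notation "Kb" => AlgebraicClosure ℚ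

variable {q : ℕ} [hq : Fact q.Prime] {M : ℕ} [NeZero M] {A : ValuationSubring Kb}
variable (hA : A.LiesOverPrime q) (hqM : ¬ q ∣ M) [NeZero q]

attribute [local instance] algFE

set_option synthInstance.maxHeartbeats 400000

section Norms

variable [CharP (ResidueField ↥A) q] [PerfectField (ResidueField ↥A)]

set_option maxHeartbeats 1600000 in
/-- **the `α` norm formula at `X₀(M q)`** -/
theorem norm_alpha_X0 (u : ↥(modularFunctionFieldBar (M * q))) (m₁ : u ∈ V₁ hA hqM)
    (m₂ : u ∈ V₂ hA hqM) :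
    ∃ h : normAlong (heckeAlphaBar Kb M q) u ∈ (gaussDatum M A hA hqM).O,
      (gaussDatum M A hA hqM).red ⟨_, h⟩
        = red₁ hA hqM ⟨u, m₁⟩ * Psi (q := q) (red₂ hA hqM ⟨u, m₂⟩) := by
  haveI : Module.Finite ↥(modularFunctionFieldBar M) ↥(modularFunctionFieldBar (M * q)) :=
    finite_FE (q := q) hqM
  have h1 : V₁ hA hqM = V1X0 hA hqM := (Fermat.Agent.S34.GaussPairBridge.V1X0_eq hA hqM).symm
  have h2 : V₂ hA hqM = V2X0 hA hqM := (Fermat.Agent.S34.GaussPairBridge.V2X0_eq hA hqM).symm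
  haveI : CharP ↥(modularFunctionFieldFullC (ResidueField ↥A) M) q :=
    charP_of_injective_algebraMap
      (algebraMap (ResidueField ↥A) ↥(modularFunctionFieldFullC (ResidueField ↥A) M)).injective q
  obtain ⟨h, hh⟩ := Fermat.Agent.S35.NormRed.red_norm_twoExt_frob (setupX0 hA hqM) q
    (by rw [finrank_FE hqM, setupX0_Φ, natDegree_PhiO hA hqM modPolyZ_monic, natDegree_modPolyZ])
    (G1O_monic hA hqM) (G2O_monic hA hqM) (natDegree_G2O hA hqM)
    (isExt_V₁ hA hqM) (isExt_V₂ hA hqM)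
    (by rw [h1]; exact arch_VX0 hA hqM 0) (by rw [h2]; exact arch_VX0 hA hqM 1)
    (by rw [h1, h2]; exact not_le_VX0 hA hqM 0 1 (by decide))
    (by rw [h1, h2]; exact not_le_VX0 hA hqM 1 0 (by decide))
    (gaussDatum M A hA hqM).red
    (fun c => by
      rw [(gaussDatum M A hA hqM).red_eq_zero_iff, ValuationSubring.coe_mem_nonunits_iff,
        mem_maximalIdeal, mem_nonunits_iff])
    (red_surjective hA hqM)
    ((phi (ResidueField ↥A) M q : _ →ₐ[ResidueField ↥A] _) : _ →+* _)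
    (fun z => ⟨Psi (q := q) z, phi_Psi z⟩)
    (red₁ hA hqM) (red₂ hA hqM)
    (red₁_eq_zero_iff_mem_nonunits hA hqM) (red₂_eq_zero_iff_mem_nonunits hA hqM)
    (red₁_surjective hA hqM) (red₂_surjective hA hqM)
    (fun c => red₁_alpha hA hqM c)
    (fun c => by
      apply Subtype.ext
      rw [RingHom.coe_coe, coe_phi]
      exact coe_red₂_alpha hA hqM c)
    m₁ m₂
  exact ⟨h, eq_mul_Psi_of_phi_eq hh⟩

/-- **the `β` norm formula at `X₀(M q)`** -/
theorem norm_beta_X0 (u : ↥(modularFunctionFieldBar (M * q))) (m₁ : u ∈ V₁ hA hqM)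
    (m₂ : u ∈ V₂ hA hqM) :
    ∃ h : normAlong (heckeBetaBar Kb M q) u ∈ (gaussDatum M A hA hqM).O,
      (gaussDatum M A hA hqM).red ⟨_, h⟩
        = Psi (q := q) (red₁ hA hqM ⟨u, m₁⟩) * red₂ hA hqM ⟨u, m₂⟩ :=
  Fermat.Agent.S35.NormSwapX0.hNb_of_hNa hA hqM (norm_alpha_X0 hA hqM) u m₁ m₂

end Norms

/-! ### (N1) -/

variable {σ : Kb ≃ₐ[ℚ] Kb} (hσ : A.IsFrobeniusAt σ q)

include hσ in
/-- **(N1) at `X₀(M q)`.**  For a Frobenius lift `σ` at `q` and a Kummer presentation `n D = div f`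
of a class killed by `α_*` and `β_*`: `σ_E (σ_E f) = h ^ n * u * f` with `u` a one-unit of both
Gauss valuation rings. -/
theorem n1 [NeZero (M * q)] (n : ℕ) (hn : n ≠ 0)
    (D : Divisor.degZero (K := Kb) (F := ↥(modularFunctionFieldBar (M * q))))
    (f : ↥(modularFunctionFieldBar (M * q))) (hf : f ≠ 0)
    (hfD : ∀ w : Place Kb ↥(modularFunctionFieldBar (M * q)),
      w.ord f = (n : ℤ) * (D : Divisor Kb ↥(modularFunctionFieldBar (M * q))) w)
    (h0 : degPair M q (Pic0.mk D) = 0) :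
    ∃ h u : ↥(modularFunctionFieldBar (M * q)), h ≠ 0 ∧ u ≠ 0 ∧
      IsOneUnit (V1X0 hA hqM) u ∧ IsOneUnit (V2X0 hA hqM) u ∧
      arithmeticGalois (modularFunctionFieldFull (M * q)) σ •
        (arithmeticGalois (modularFunctionFieldFull (M * q)) σ • f) = h ^ n * u * f := by
  haveI : CharP (ResidueField ↥A) q := Fermat.Agent.S18.ResidueBasics.charP_residueField A hA
  haveI : IsAlgClosed (ResidueField ↥A) :=
    Fermat.Agent.S18.ResidueBasics.isAlgClosed_residueField A
  haveI : PerfectField (ResidueField ↥A) := inferInstance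
  exact Fermat.Agent.S35.NormSwapX0.n1_X0_of_alpha hA hqM hσ n hn (norm_alpha_X0 hA hqM)
    D f hf hfD h0

include hσ in
/-- **(N1) for torsion classes.**  Every `y ∈ J₀(M q)[n]` with `α_* y = 0 = β_* y` has a Kummer
presentation `(D, f)` with `σ_E (σ_E f) = h ^ n * u * f`, `u` a one-unit of both Gauss rings. -/
theorem n1_of_torsion [NeZero (M * q)] (n : ℕ) (hn : n ≠ 0) {y : JZero (M * q)}
    (hy : (n : ℤ) • y = 0) (ha : alphaPush M q y = 0) (hb : betaPush M q y = 0) :
    ∃ (D : Divisor.degZero (K := Kb) (F := ↥(modularFunctionFieldBar (M * q))))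
      (f : ↥(modularFunctionFieldBar (M * q))), y = Pic0.mk D ∧ f ≠ 0 ∧
      (∀ w : Place Kb ↥(modularFunctionFieldBar (M * q)),
        w.ord f = (n : ℤ) * (D : Divisor Kb ↥(modularFunctionFieldBar (M * q))) w) ∧
      ∃ h u : ↥(modularFunctionFieldBar (M * q)), h ≠ 0 ∧ u ≠ 0 ∧
        IsOneUnit (V1X0 hA hqM) u ∧ IsOneUnit (V2X0 hA hqM) u ∧
        arithmeticGalois (modularFunctionFieldFull (M * q)) σ •
          (arithmeticGalois (modularFunctionFieldFull (M * q)) σ • f) = h ^ n * u * f := by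
  obtain ⟨D, f, rfl, hf, hfD⟩ := Fermat.Agent.S34.KummerZ.exists_mk_of_zsmul_eq_zero hy
  exact ⟨D, f, rfl, hf, hfD,
    n1 hA hqM hσ n hn D f hf hfD ((degPair_eq_zero_iff _).mpr ⟨ha, hb⟩)⟩

end Fermat.Agent.S35.N1X0
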