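/-
S35 (downstream of PROJECT U), the chain with GOOD primes only (helper19).

`S35/Chain.s35_of_inputs` asks the homomorphism `φ : J₀(N) → J'` to intertwine the Hecke operators
at ALL primes, which fails for the degeneracy maps `(α_*, β_*) : J₀(M q) → J₀(M)²` at the primes
dividing the level.  This file restates the chain so that only the primes outside `S` are used
on the side of `J'`:

* `poly_rhoV_apply_eq_zero` : the abstract transfer with an index map `incl : ι₀ → ι`;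
* `s35_of_eigen` : the frozen S35 conclusion from `(H1)`–`(H4)` and the abstract hypothesis
  "`(σ² - 1)² (σ² - q²)` kills the `χ`-eigen-lattice of `R ⊗ Tp J₀(N)`" (for all coefficient
  rings `R`);
* `s35_of_inputs_good` : the same from `(φ, t')` intertwining at the primes outside `S`, `(E0)`
  for the primes outside `S`, and `(NEW-σ)`.
-/
import Fermat.Agent.S35.Chain

set_option autoImplicit false
set_option linter.unusedSectionVars false

noncomputable section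

namespace Fermat.Agent.S35.ChainGood

open IsLocalRing TensorProduct Polynomial
open Fermat.Agent.S30.Padic.TateModule Fermat.Agent.S30.Padic.EigenLattice
open Fermat.Agent.S30.Padic Fermat.Agent.S30.Padic.Assembly
open Fermat.Agent.S35.Chain

local notation "GQ" => (AlgebraicClosure ℚ ≃ₐ[ℚ] AlgebraicClosure ℚ)

/-! ### Part 1: abstract transfer along an index map -/

section Transfer

variable (p : ℕ) [hp : Fact p.Prime]
variable (R : Type*) [CommRing R] [Algebra ℤ_[p] R] [Module.Flat ℤ_[p] R]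
variable {J : Type*} [AddCommGroup J] {G : Type*} [Group G] [DistribMulAction G J]
  {J' : Type*} [AddCommGroup J']

/-- If the eigen-lattice of `J'` (for the operators indexed by `ι₀`) vanishes, every integer
polynomial `P` with `P(σ) = 0` on the `p`-power torsion of `ker φ` satisfies `P(ρ(σ)) v = 0` for
every `v` in the eigen-lattice of `J` (for the operators indexed by `ι`). -/
theorem poly_rhoV_apply_eq_zero {ι ι₀ : Type*} (incl : ι₀ → ι) (t : ι → AddMonoid.End J)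
    (c : ι → R) (φ : J →+ J') (t' : ι₀ → AddMonoid.End J')
    (hφ : ∀ (i : ι₀) (y : J), φ (t (incl i) y) = t' i (φ y))
    (hE : eigenLattice (fun i => opVHom p R J' (t' i)) (fun i => c (incl i)) = ⊥)
    (σ : G) (P : ℤ[X])
    (hP : ∀ y : J, (∃ n : ℕ, p ^ n • y = 0) → φ y = 0 → polyEnd σ P y = 0)
    (v : R ⊗[ℤ_[p]] Tp p J) (hv : v ∈ eigenLattice (fun i => opVHom p R J (t i)) c) :
    aeval (rhoV p R J σ) P v = 0 := by
  rw [← opVHom_polyEnd]
  have hv0 : v ∈ eigenLattice (fun i : ι₀ => opVHom p R J (t (incl i))) (fun i => c (incl i)) := by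
    rw [mem_eigenLattice] at hv ⊢
    exact fun i => hv (incl i)
  have hv1 : (Tp.map (p := p) φ).baseChange R v = 0 := by
    have := baseChange_map_mem_eigenLattice p R φ (fun i => t (incl i)) t' hφ
      (fun i => c (incl i)) hv0
    rw [hE] at this
    exact (Submodule.mem_bot R).1 this
  exact opVHom_apply_eq_zero_of_ker p R φ (polyEnd σ P) hP v hv1

end Transfer

/-! ### Polynomial relations on the representation carried by the eigen-lattice -/

section Rep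

variable (p : ℕ) [hp : Fact p.Prime]
variable {R : Type} [CommRing R] [Algebra ℤ_[p] R] [IsDomain R] [IsPrincipalIdealRing R]
  [IsLocalRing R]
variable {J : Type} [AddCommGroup J] [DistribMulAction GQ J]

/-- An integer polynomial `P` with `P(ρ(σ)) v = 0` for every `v` in the eigen-lattice satisfies
`P(ρ(σ)) = 0` on the eigen-lattice representation. -/
theorem aeval_galoisRep_eq_zero_of_apply [Module.Free R (R ⊗[ℤ_[p]] Tp p J)]
    [Module.Finite R (R ⊗[ℤ_[p]] Tp p J)]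
    {ι : Type*} (t : ι → AddMonoid.End J) (c : ι → R)
    (hcomm : ∀ (σ : GQ) (i : ι), Commute (rhoV p R J σ) (opVHom p R J (t i)))
    (hcont : GaloisActionIsAdicContinuous R (rhoV p R J (G := GQ)))
    (h2 : Module.finrank R (eigenLattice (fun i => opVHom p R J (t i)) c) = 2)
    (σ : GQ) (P : ℤ[X])
    (hP : ∀ v ∈ eigenLattice (fun i => opVHom p R J (t i)) c, aeval (rhoV p R J σ) P v = 0) :
    aeval ((galoisRep (fun i => opVHom p R J (t i)) c (rhoV p R J) hcomm hcont h2).ρ σ) P = 0 := by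
  refine LinearMap.ext fun (v : eigenLattice (fun i => opVHom p R J (t i)) c) => ?_
  apply Subtype.ext
  have h1 := aeval_restrict_apply (rhoV p R J σ)
    (eigenLattice (fun i => opVHom p R J (t i)) c)
    (fun _ hv => map_mem_eigenLattice (hcomm σ) hv) P v
  refine h1.trans ?_
  rw [hP v.1 v.2]
  rfl

end Rep

/-! ### Part 2: the chain -/

section Main

open Fermat.Agent.S30.Arith Fermat.Agent.S30.Algebra Fermat.Agent.S30.Final.Chain
open Fermat.Agent.S30 ModularCurve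
open Fermat.Agent.S35.LinAlg

set_option linter.style.haveILetI false

set_option maxHeartbeats 400000 in
/-- **The S35 chain, abstract form.**  The conclusion of the frozen statement S35 (for `M = N`,
`lam = p` and a ring homomorphism `χ` of the Hecke algebra into `𝒪'`) from the inputs `(H1)`–`(H4)`
of the S30 chain and the hypothesis that, for every prime `q ‖ N`, `q ≠ p`, and every Frobenius
lift `σ` at `q`, the operator `(σ² - 1)² (σ² - q²)` kills the `χ`-eigen-lattice of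
`R ⊗ Tp J₀(N)`, for every coefficient ring `R`. -/
theorem s35_of_eigen (p : ℕ) [Fact p.Prime] (N : ℕ) [NeZero N] (S : Finset ℕ)
    (hpS : p ∈ S) (hNS : ∀ q : ℕ, q.Prime → q ∣ N → q ∈ S)
    (𝒪' : Type) [CommRing 𝒪'] [IsDomain 𝒪'] [IsDiscreteValuationRing 𝒪']
    [IsAdicComplete (IsLocalRing.maximalIdeal 𝒪') 𝒪'] [Finite (IsLocalRing.ResidueField 𝒪')]
    [CharZero 𝒪'] (hp𝒪' : (p : 𝒪') ∈ IsLocalRing.maximalIdeal 𝒪')
    (χ : CuspForm.heckeAlgebra N 2 (↑S : Set ℕ) →+* 𝒪')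
    (H1 : Torsion.HasReductionAll N p)
    (H2 : {y : JZero N | p • y = 0}.Finite)
    (M : Type) [AddCommGroup M] (τ : Nat.Primes → Module.End ℤ M)
    (e : Tp p (JZero N) ≃ₗ[ℤ_[p]] ℤ_[p] ⊗[ℤ] M)
    (H3 : ∀ (r : Nat.Primes) (x : Tp p (JZero N)),
      e (Tp.mapEnd (heckeEnd N r) x) = (τ r).baseChange ℤ_[p] (e x))
    (H4 : ∃ (L : Type) (_ : Field L) (_ : Algebra (FractionRing 𝒪') L) (_ : Algebra 𝒪' L)
      (_ : IsScalarTower 𝒪' (FractionRing 𝒪') L) (_ : FiniteDimensional (FractionRing 𝒪') L)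
      (c : Nat.Primes → L), (∀ r, IsIntegral 𝒪' (c r)) ∧
      (∀ (ℓ : ℕ) (hℓ : ℓ.Prime) (hℓN : ¬ ℓ ∣ N) (hℓS : ℓ ∉ (↑S : Set ℕ)),
        c ⟨ℓ, hℓ⟩ = algebraMap 𝒪' L (χ (CuspForm.heckeAlgebra.T hℓ hℓN hℓS))) ∧
      Module.finrank L (eigenLattice (fun r => (τ r).baseChange L) c) = 2)
    (Hnew : ∀ q : ℕ, q.Prime → q ≠ p → q ∣ N → ¬ q ^ 2 ∣ N →
      ∀ A : ValuationSubring (AlgebraicClosure ℚ), A.LiesOverPrime q →
        ∀ σ : GQ, A.IsFrobeniusAt σ q →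
          ∀ (R : Type) [CommRing R] [IsDomain R] [CharZero R] [Algebra ℤ_[p] R] [Algebra 𝒪' R],
            Function.Injective (algebraMap 𝒪' R) → ∀ (c : Nat.Primes → R),
            (∀ (ℓ : ℕ) (hℓ : ℓ.Prime) (hℓN : ¬ ℓ ∣ N) (hℓS : ℓ ∉ (↑S : Set ℕ)),
              c ⟨ℓ, hℓ⟩ = algebraMap 𝒪' R (χ (CuspForm.heckeAlgebra.T hℓ hℓN hℓS))) →
            ∀ v ∈ eigenLattice (fun r => opVHom p R (JZero N) (heckeEnd N r)) c,
              aeval (rhoV p R (JZero N) σ) (frobPolyZ q) v = 0) :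
    ∃ (𝒪'' : Type) (_ : CommRing 𝒪'') (_ : IsDomain 𝒪'') (_ : IsDiscreteValuationRing 𝒪'')
      (_ : IsAdicComplete (IsLocalRing.maximalIdeal 𝒪'') 𝒪'')
      (_ : Finite (IsLocalRing.ResidueField 𝒪'')) (_ : CharZero 𝒪'')
      (_ : Algebra 𝒪' 𝒪'') (_ : Module.Finite 𝒪' 𝒪'') (_ : IsLocalHom (algebraMap 𝒪' 𝒪'')),
      Function.Injective (algebraMap 𝒪' 𝒪'') ∧
      ∃ ρ : GaloisRepAdic 𝒪'',
        (∀ (ℓ : ℕ) (hℓ : ℓ.Prime) (hℓN : ¬ ℓ ∣ N) (hℓS : ℓ ∉ (↑S : Set ℕ)),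
          ∀ A : ValuationSubring (AlgebraicClosure ℚ), A.LiesOverPrime ℓ →
            ∀ σ : AlgebraicClosure ℚ ≃ₐ[ℚ] AlgebraicClosure ℚ, A.IsFrobeniusAt σ ℓ →
              LinearMap.charpoly (ρ.ρ σ) =
                X ^ 2 - C (algebraMap 𝒪' 𝒪'' (χ (CuspForm.heckeAlgebra.T hℓ hℓN hℓS))) * X
                  + C ((ℓ : 𝒪''))) ∧
        (∀ q : ℕ, q.Prime → q ≠ p → q ∣ N → ¬ q ^ 2 ∣ N →
          ∀ A : ValuationSubring (AlgebraicClosure ℚ), A.LiesOverPrime q →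
            ∀ σ : AlgebraicClosure ℚ ≃ₐ[ℚ] AlgebraicClosure ℚ, A.IsFrobeniusAt σ q →
              LinearMap.charpoly (ρ.ρ σ) = X ^ 2 - C ((q : 𝒪'') + 1) * X + C ((q : 𝒪'')) ∨
              LinearMap.charpoly (ρ.ρ σ) = X ^ 2 + C ((q : 𝒪'') + 1) * X + C ((q : 𝒪''))) := by
  classical
  have hp : p.Prime := Fact.out
  obtain ⟨L, _, _, _, _, _, c, hcint, hcχ, hdim⟩ := H4
  obtain ⟨𝒪'', _, _, _, _, _, _, _, _, _, _, _, _, hinj, hlift⟩ :=
    CompleteDVRExt.exists_completeDVR_ext 𝒪' (FractionRing 𝒪') L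
  refine ⟨𝒪'', inferInstance, inferInstance, inferInstance, inferInstance, inferInstance,
    inferInstance, inferInstance, inferInstance, inferInstance, hinj, ?_⟩
  -- integral eigenvalues
  choose c'' hc'' using fun r => hlift (c r) (hcint r)
  have hinjL : Function.Injective (algebraMap 𝒪'' L) := IsFractionRing.injective 𝒪'' L
  -- `p` is in the maximal ideal of `𝒪''`
  have hp'' : (p : 𝒪'') ∈ maximalIdeal 𝒪'' := by
    rw [mem_maximalIdeal, mem_nonunits_iff] at hp𝒪' ⊢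
    intro hu
    apply hp𝒪'
    have : IsUnit (algebraMap 𝒪' 𝒪'' (p : 𝒪')) := by rwa [map_natCast]
    exact (isUnit_map_iff (algebraMap 𝒪' 𝒪'') _).1 this
  letI : Algebra ℤ_[p] 𝒪'' := ZpAlgebra.zpAlgebra p (maximalIdeal 𝒪'') hp''
  haveI : Module.Flat ℤ_[p] 𝒪'' := flat_padicInt p 𝒪''
  -- the Tate module
  haveI : Module.Finite ℤ_[p] (Tp p (JZero N)) := Tp.finite_of_finite H2
  haveI : Module.Free ℤ_[p] (Tp p (JZero N)) := Tp.free_of_finite H2
  -- the rank of the eigen-lattice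
  have h2 : Module.finrank 𝒪'' (eigenLattice
      (fun r => Assembly.opVHom p 𝒪'' (JZero N) (heckeEnd N r)) c'') = 2 := by
    refine (EigenCompare.finrank_eigenLattice_of_equiv (L := L)
      (fun r => Assembly.opVHom p 𝒪'' (JZero N) (heckeEnd N r)) c'' τ (compareEquiv p 𝒪'' e)
      (fun r v => compareEquiv_intertwines p 𝒪'' e _ (τ r) (H3 r) v)).trans ?_
    have : (fun r => algebraMap 𝒪'' L (c'' r)) = c := funext hc''
    rw [this]
    exact hdim
  -- open stabilisers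
  have hC : ∀ n : ℕ, ∃ E : IntermediateField ℚ (AlgebraicClosure ℚ), FiniteDimensional ℚ E ∧
      ∀ σ : GQ, (∀ x ∈ E, σ x = x) → ∀ y : JZero N, p ^ n • y = 0 → σ • y = y := fun n =>
    Smooth.exists_finite_fixing_torsion N (p ^ n) (finite_torsion_pow p H2 n)
  -- the representation on the eigen-lattice, explicitly
  have hcomm : ∀ (σ : GQ) (r : Nat.Primes), Commute (rhoV p 𝒪'' (JZero N) σ)
      (opVHom p 𝒪'' (JZero N) (heckeEnd N r)) := fun σ r =>
    commute_rhoV_opVHom p 𝒪'' σ (heckeEnd N r)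
      (fun y => HeckeGalois.heckeOperatorBar_smul N r σ y)
  have hcont := isAdicContinuous_rhoV p (R := 𝒪'') (J := JZero N) hp'' hC
  let ρ : GaloisRepAdic 𝒪'' :=
    galoisRep (fun r => opVHom p 𝒪'' (JZero N) (heckeEnd N r)) c''
      (rhoV p 𝒪'' (JZero N)) hcomm hcont h2
  have hρq : ∀ (σ : GQ) (r : Nat.Primes) (b : ℤ),
      (∀ y : JZero N, (∃ n : ℕ, p ^ n • y = 0) →
        σ • σ • y - heckeEnd N r (σ • y) + b • y = 0) →
      ρ.ρ σ * ρ.ρ σ - c'' r • ρ.ρ σ + (b : 𝒪'') • (1 : Module.End 𝒪'' ρ.V) = 0 := by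
    intro σ r b h
    exact galoisRep_quadratic (t := fun r => opVHom p 𝒪'' (JZero N) (heckeEnd N r)) r (b : 𝒪'')
      (rhoV_quadratic p 𝒪'' σ (heckeEnd N r) b h)
  have hρ1 : ∀ σ : GQ, (∀ y : JZero N, (∃ n : ℕ, p ^ n • y = 0) → σ • y = y) → ρ.ρ σ = 1 := by
    intro σ h
    exact galoisRep_eq_one (rhoV_eq_one p 𝒪'' σ h)
  -- eigenvalues at the good primes
  have hc''χ : ∀ (ℓ : ℕ) (hℓ : ℓ.Prime) (hℓN : ¬ ℓ ∣ N) (hℓS : ℓ ∉ (↑S : Set ℕ)),
      c'' ⟨ℓ, hℓ⟩ = algebraMap 𝒪' 𝒪'' (χ (CuspForm.heckeAlgebra.T hℓ hℓN hℓS)) := by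
    intro ℓ hℓ hℓN hℓS
    apply hinjL
    exact (hc'' ⟨ℓ, hℓ⟩).trans ((hcχ ℓ hℓ hℓN hℓS).trans
      (IsScalarTower.algebraMap_apply 𝒪' 𝒪'' L _))
  -- NEW: the polynomial relation at Frobenius lifts at `q ‖ N`
  have hρP : ∀ q : ℕ, q.Prime → q ≠ p → q ∣ N → ¬ q ^ 2 ∣ N →
      ∀ A : ValuationSubring (AlgebraicClosure ℚ), A.LiesOverPrime q →
        ∀ σ : GQ, A.IsFrobeniusAt σ q → aeval (ρ.ρ σ) (frobPoly 𝒪'' q) = 0 := by
    intro q hq hqp hqN hq2 A hA σ hσ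
    apply aeval_frobPoly_of_int
    exact aeval_galoisRep_eq_zero_of_apply p (fun r => heckeEnd N r) c'' hcomm hcont h2 σ
      (frobPolyZ q) (Hnew q hq hqp hqN hq2 A hA σ hσ 𝒪'' hinj c'' hc''χ)
  -- the Frobenius relation and unramifiedness
  let a : ℕ → 𝒪'' := fun ℓ => if h : ℓ.Prime then c'' ⟨ℓ, h⟩ else 0
  have hNS' : ∀ ℓ : ℕ, ℓ.Prime → ℓ ∉ S → ¬ ℓ ∣ N := fun ℓ hℓ hℓS hdvd => hℓS (hNS ℓ hℓ hdvd)
  have hrel : DetGalois.FrobRelation ρ S a := by
    intro ℓ hℓ hℓS A hA σ hσ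
    have hℓp : ℓ ≠ p := fun h => hℓS (h ▸ hpS)
    have h := hρq σ ⟨ℓ, hℓ⟩ (ℓ : ℤ) (fun y hy => by
      rw [natCast_zsmul]
      exact Torsion.frobenius_relation H1 hp hℓ (hNS' ℓ hℓ hℓS) hℓp A hA hσ hy)
    simp only [a, dif_pos hℓ]
    rw [Int.cast_natCast] at h
    exact h
  have hdens : DetGalois.Density S := fun E hE σ =>
    haveI := hE
    Density.Bridge.frobenius_density_final E σ S
  have ha : ∀ (ℓ : ℕ) (hℓ : ℓ.Prime) (hℓN : ¬ ℓ ∣ N) (hℓS : ℓ ∉ (↑S : Set ℕ)),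
      a ℓ = algebraMap 𝒪' 𝒪'' (χ (CuspForm.heckeAlgebra.T hℓ hℓN hℓS)) := by
    intro ℓ hℓ hℓN hℓS
    simp only [a, dif_pos hℓ]
    exact hc''χ ℓ hℓ hℓN hℓS
  -- the scalar / non-scalar alternative of `DetGalois.exists_rep_charpoly`, with the new output
  obtain ⟨ι⟩ := Cyclotomic.exists_ringHom p (maximalIdeal 𝒪'') hp''
  let b := Module.finBasisOfFinrankEq 𝒪'' ρ.V ρ.finrank_eq
  by_cases hsc : ∀ σ : GQ, DetLemma.End.IsScalar (ρ.ρ σ)
  · -- the scalar-valued case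
    choose θf hθf using hsc
    have inj : ∀ {x x' : 𝒪''}, x • (1 : Module.End 𝒪'' ρ.V) = x' • (1 : Module.End 𝒪'' ρ.V) →
        x = x' := fun h => DetGalois.smul_one_injective ρ.V b h
    let θ : GQ →* 𝒪'' :=
      { toFun := θf
        map_one' := inj (by rw [← hθf 1, map_one, one_smul])
        map_mul' := fun σ τ => inj (by
          rw [← hθf (σ * τ), map_mul, hθf σ, hθf τ, smul_mul_smul_comm, mul_one]) }
    have hθ : ∀ σ, ρ.ρ σ = θ σ • (1 : Module.End 𝒪'' ρ.V) := hθf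
    have hθc : CharSum.IsAdicContinuousChar 𝒪'' θ := by
      intro n
      obtain ⟨E, hE, h⟩ := ρ.isAdicContinuous n
      refine ⟨E, hE, fun σ hσ => ?_⟩
      have h1 := DetLemma.End.repr_mem_of_mem_smul_top b _ _ (h σ hσ (b 0)) 0
      rw [hθ σ] at h1
      simpa [sub_mul] using h1
    have hεc : CharSum.IsAdicContinuousChar 𝒪'' (Cyclotomic.cycChar p ι) :=
      Cyclotomic.cycChar_continuous p ι (maximalIdeal 𝒪'') hp''
    have h2c : CharSum.IsAdicContinuousChar 𝒪'' (Cyclotomic.cycChar p ι * CharSum.invChar θ) :=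
      hεc.mul hθc.inv
    refine ⟨CharSum.ofChars θ (Cyclotomic.cycChar p ι * CharSum.invChar θ) hθc h2c, ?_, ?_⟩
    · intro ℓ hℓ hℓN hℓS A hA τ' hτ'
      have hℓS' : ℓ ∉ S := fun h => hℓS (Finset.mem_coe.2 h)
      have hℓp : ℓ ≠ p := fun h => hℓS' (h ▸ hpS)
      have hετ := Cyclotomic.cycChar_isFrobeniusAt p ι hℓ hℓp A hA τ' hτ'
      have hr := hrel ℓ hℓ hℓS' A hA τ' hτ'
      rw [hθ τ', smul_mul_smul_comm, mul_one, smul_smul, ← sub_smul, ← add_smul] at hr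
      have hr' : θ τ' * θ τ' - a ℓ * θ τ' + (ℓ : 𝒪'') = 0 :=
        inj (by rw [hr, zero_smul])
      have hu : CharSum.invChar θ τ' * θ τ' = 1 := CharSum.invChar_mul_self θ τ'
      rw [CharSum.ofChars_charpoly, MonoidHom.mul_apply, hετ, ← ha ℓ hℓ hℓN hℓS]
      have e1 : θ τ' + (ℓ : 𝒪'') * CharSum.invChar θ τ' = a ℓ := by
        linear_combination (CharSum.invChar θ τ') * hr' + (a ℓ - θ τ') * hu
      have e2 : θ τ' * ((ℓ : 𝒪'') * CharSum.invChar θ τ') = (ℓ : 𝒪'') := by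
        linear_combination (ℓ : 𝒪'') * hu
      rw [e1, e2]
    · intro q hq hqp hqN hq2 A hA σ hσ
      have hετ := Cyclotomic.cycChar_isFrobeniusAt p ι hq hqp A hA σ hσ
      have hu : CharSum.invChar θ σ * θ σ = 1 := CharSum.invChar_mul_self θ σ
      have hP := hρP q hq hqp hqN hq2 A hA σ hσ
      rw [hθ σ] at hP
      have hroot : (frobPoly 𝒪'' q).eval (θ σ) = 0 := eval_eq_zero_of_aeval_smul_one b _ _ hP
      have hab : θ σ * ((q : 𝒪'') * CharSum.invChar θ σ) = (q : 𝒪'') := by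
        linear_combination (q : 𝒪'') * hu
      rw [CharSum.ofChars_charpoly, MonoidHom.mul_apply, hετ, hab]
      rcases add_eq_of_root hq.two_le hab hroot with h | h
      · left; rw [h]
      · right; rw [h, C_neg, neg_mul, sub_neg_eq_add]
  · -- the non-scalar case
    push Not at hsc
    refine ⟨ρ, ?_, ?_⟩
    · intro ℓ hℓ hℓN hℓS A hA τ' hτ'
      have hℓS' : ℓ ∉ S := fun h => hℓS (Finset.mem_coe.2 h)
      have hℓp : ℓ ≠ p := fun h => hℓS' (h ▸ hpS)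
      have hdet : LinearMap.det (ρ.ρ τ') = (ℓ : 𝒪'') := by
        rw [DetGalois.det_eq_cycChar p hp'' ι S hpS a ρ hrel hdens hsc τ',
          Cyclotomic.cycChar_isFrobeniusAt p ι hℓ hℓp A hA τ' hτ']
      rw [← ha ℓ hℓ hℓN hℓS]
      exact DetLemma.End.charpoly_of_relation_of_det b (ρ.ρ τ') (a ℓ) ℓ
        (hrel ℓ hℓ hℓS' A hA τ' hτ') hdet (Nat.cast_ne_zero.2 hℓ.ne_zero)
    · intro q hq hqp hqN hq2 A hA σ hσ
      have hdet : LinearMap.det (ρ.ρ σ) = (q : 𝒪'') := by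
        rw [DetGalois.det_eq_cycChar p hp'' ι S hpS a ρ hrel hdens hsc σ,
          Cyclotomic.cycChar_isFrobeniusAt p ι hq hqp A hA σ hσ]
      exact charpoly_of_aeval b (ρ.ρ σ) hq.two_le hdet (hρP q hq hqp hqN hq2 A hA σ hσ)

set_option maxHeartbeats 400000 in
/-- **The S35 chain, good primes only.**  The conclusion of the frozen statement S35 from the
inputs `(H1)`–`(H4)` of the S30 chain and, for every prime `q ‖ N`, `q ≠ p`, a homomorphism
`φ : J₀(N) → J'` intertwining the Hecke operators AT THE PRIMES OUTSIDE `S` such that `(E0)` the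
`χ`-eigen-lattice of `J'` (for the primes outside `S`) vanishes and `(NEW-σ)` every Frobenius lift
`σ` at `q` satisfies `(σ² - 1)² (σ² - q²) = 0` on the `p`-power torsion of `ker φ`. -/
theorem s35_of_inputs_good (p : ℕ) [Fact p.Prime] (N : ℕ) [NeZero N] (S : Finset ℕ)
    (hpS : p ∈ S) (hNS : ∀ q : ℕ, q.Prime → q ∣ N → q ∈ S)
    (𝒪' : Type) [CommRing 𝒪'] [IsDomain 𝒪'] [IsDiscreteValuationRing 𝒪']
    [IsAdicComplete (IsLocalRing.maximalIdeal 𝒪') 𝒪'] [Finite (IsLocalRing.ResidueField 𝒪')]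
    [CharZero 𝒪'] (hp𝒪' : (p : 𝒪') ∈ IsLocalRing.maximalIdeal 𝒪')
    (χ : CuspForm.heckeAlgebra N 2 (↑S : Set ℕ) →+* 𝒪')
    (H1 : Torsion.HasReductionAll N p)
    (H2 : {y : JZero N | p • y = 0}.Finite)
    (M : Type) [AddCommGroup M] (τ : Nat.Primes → Module.End ℤ M)
    (e : Tp p (JZero N) ≃ₗ[ℤ_[p]] ℤ_[p] ⊗[ℤ] M)
    (H3 : ∀ (r : Nat.Primes) (x : Tp p (JZero N)),
      e (Tp.mapEnd (heckeEnd N r) x) = (τ r).baseChange ℤ_[p] (e x))
    (H4 : ∃ (L : Type) (_ : Field L) (_ : Algebra (FractionRing 𝒪') L) (_ : Algebra 𝒪' L)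
      (_ : IsScalarTower 𝒪' (FractionRing 𝒪') L) (_ : FiniteDimensional (FractionRing 𝒪') L)
      (c : Nat.Primes → L), (∀ r, IsIntegral 𝒪' (c r)) ∧
      (∀ (ℓ : ℕ) (hℓ : ℓ.Prime) (hℓN : ¬ ℓ ∣ N) (hℓS : ℓ ∉ (↑S : Set ℕ)),
        c ⟨ℓ, hℓ⟩ = algebraMap 𝒪' L (χ (CuspForm.heckeAlgebra.T hℓ hℓN hℓS))) ∧
      Module.finrank L (eigenLattice (fun r => (τ r).baseChange L) c) = 2)
    (Hnew : ∀ q : ℕ, q.Prime → q ≠ p → q ∣ N → ¬ q ^ 2 ∣ N →
      ∃ (J' : Type) (_ : AddCommGroup J') (φ : JZero N →+ J')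
        (t' : Nat.Primes → AddMonoid.End J'),
        (∀ (r : Nat.Primes), (r : ℕ) ∉ S → ∀ y : JZero N, φ (heckeEnd N r y) = t' r (φ y)) ∧
        (∀ (R : Type) [CommRing R] [IsDomain R] [CharZero R] [Algebra ℤ_[p] R] [Algebra 𝒪' R],
          Function.Injective (algebraMap 𝒪' R) → ∀ (c : Nat.Primes → R),
          (∀ (ℓ : ℕ) (hℓ : ℓ.Prime) (hℓN : ¬ ℓ ∣ N) (hℓS : ℓ ∉ (↑S : Set ℕ)),
            c ⟨ℓ, hℓ⟩ = algebraMap 𝒪' R (χ (CuspForm.heckeAlgebra.T hℓ hℓN hℓS))) →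
          eigenLattice (fun r : {r : Nat.Primes // (r : ℕ) ∉ S} => opVHom p R J' (t' r.1))
            (fun r => c r.1) = ⊥) ∧
        (∀ A : ValuationSubring (AlgebraicClosure ℚ), A.LiesOverPrime q →
          ∀ σ : GQ, A.IsFrobeniusAt σ q →
            ∀ y : JZero N, (∃ n : ℕ, p ^ n • y = 0) → φ y = 0 →
              polyEnd σ (frobPolyZ q) y = 0)) :
    ∃ (𝒪'' : Type) (_ : CommRing 𝒪'') (_ : IsDomain 𝒪'') (_ : IsDiscreteValuationRing 𝒪'')
      (_ : IsAdicComplete (IsLocalRing.maximalIdeal 𝒪'') 𝒪'')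
      (_ : Finite (IsLocalRing.ResidueField 𝒪'')) (_ : CharZero 𝒪'')
      (_ : Algebra 𝒪' 𝒪'') (_ : Module.Finite 𝒪' 𝒪'') (_ : IsLocalHom (algebraMap 𝒪' 𝒪'')),
      Function.Injective (algebraMap 𝒪' 𝒪'') ∧
      ∃ ρ : GaloisRepAdic 𝒪'',
        (∀ (ℓ : ℕ) (hℓ : ℓ.Prime) (hℓN : ¬ ℓ ∣ N) (hℓS : ℓ ∉ (↑S : Set ℕ)),
          ∀ A : ValuationSubring (AlgebraicClosure ℚ), A.LiesOverPrime ℓ →
            ∀ σ : AlgebraicClosure ℚ ≃ₐ[ℚ] AlgebraicClosure ℚ, A.IsFrobeniusAt σ ℓ →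
              LinearMap.charpoly (ρ.ρ σ) =
                X ^ 2 - C (algebraMap 𝒪' 𝒪'' (χ (CuspForm.heckeAlgebra.T hℓ hℓN hℓS))) * X
                  + C ((ℓ : 𝒪''))) ∧
        (∀ q : ℕ, q.Prime → q ≠ p → q ∣ N → ¬ q ^ 2 ∣ N →
          ∀ A : ValuationSubring (AlgebraicClosure ℚ), A.LiesOverPrime q →
            ∀ σ : AlgebraicClosure ℚ ≃ₐ[ℚ] AlgebraicClosure ℚ, A.IsFrobeniusAt σ q →
              LinearMap.charpoly (ρ.ρ σ) = X ^ 2 - C ((q : 𝒪'') + 1) * X + C ((q : 𝒪'')) ∨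
              LinearMap.charpoly (ρ.ρ σ) = X ^ 2 + C ((q : 𝒪'') + 1) * X + C ((q : 𝒪''))) := by
  refine s35_of_eigen p N S hpS hNS 𝒪' hp𝒪' χ H1 H2 M τ e H3 H4 ?_
  intro q hq hqp hqN hq2 A hA σ hσ R _ _ _ _ _ hinj c hc v hv
  obtain ⟨J', _, φ, t', hφ, hE0, hnew⟩ := Hnew q hq hqp hqN hq2
  haveI : Module.Flat ℤ_[p] R := flat_padicInt p R
  exact poly_rhoV_apply_eq_zero p R (fun r : {r : Nat.Primes // (r : ℕ) ∉ S} => r.1)
    (fun r => heckeEnd N r) c φ (fun r => t' r.1) (fun r y => hφ r.1 r.2 y)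
    (hE0 R hinj c hc) σ (frobPolyZ q) (hnew A hA σ hσ) v hv

end Main

end Fermat.Agent.S35.ChainGood
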