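import Mathlib
import Fermat.Agent.S30.Eigen.Transfer
import Fermat.Agent.S30.Eigen.H4Final
import Fermat.Agent.S35.OccursAt
import Fermat.Agent.S22

/-!
# S35, slice (e), part B3: the `λ`-adic anemic eigenlattice at a proper divisor level is zero

* `injective_of_isIntegral` : a ring homomorphism from a domain integral over `ℤ` to a field of
  characteristic zero is injective (so the `iota : chig.range →+* O'` of the frozen S35 is
  injective).
* `eigen_eq_bot_of_complex` (pure algebra): `M₀` a finite `ℤ`-module with endomorphisms `τ i`,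
  `R₀ ⊆ ℂ` a subring of algebraic integers, `a i ∈ R₀`, `j : R₀ →+* L` with `L` a field of
  characteristic `0`.  If the joint eigenspace of the `τ i ⊗ ℂ` for the eigenvalues `a i` in
  `ℂ ⊗ M₀` is zero, so is the joint eigenspace of the `τ i ⊗ L` for the eigenvalues `j (a i)` in
  `L ⊗ M₀`  [both have the dimension of the eigenspace over `Frac R₀`,
  `Transfer.finrank_eigen_baseChange_tower`].
* `eigen_eq_bot_of_isNewform` : `g` a newform of level `M`, `M'` a proper divisor of `M`, `S'` a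
  finite set of primes; for ANY lattice `M₀` with operators `τ r` and
  a Hecke-equivariant `e : ℂ ⊗ M₀ ≃ S₂(Γ₀(M')) × S₂(Γ₀(M'))` (the hypotheses of
  `H4.h4_of_intertwine`), the joint eigenspace in `L ⊗ M₀` of the `τ r`, `r ∉ S'`, for the
  eigenvalues `j (a_r(g))` is zero.
* `eigen_tauPar_eq_bot_of_isNewform` : the same for the Eichler–Shimura lattice
  `parabolicHoms ℤ (Gamma0 M') ℤ` with `tauPar`, the lattice used by the S30 chain.
-/

set_option autoImplicit false
set_option linter.unusedSectionVars false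
set_option linter.style.haveILetI false

open scoped TensorProduct

namespace Fermat.Agent.S35.EigenLatticeBot

open CuspForm CongruenceSubgroup ModularFormClass
open Fermat.Agent.S30.Eigen.Transfer Fermat.Agent.S30.Eigen.MultOne

/-- a ring homomorphism from a domain integral over `ℤ` to a field of characteristic zero is
injective -/
theorem injective_of_isIntegral {R₀ : Type*} [CommRing R₀] [IsDomain R₀]
    [Algebra.IsIntegral ℤ R₀] {L : Type*} [Field L] [CharZero L] (j : R₀ →+* L) :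
    Function.Injective j := by
  rw [RingHom.injective_iff_ker_eq_bot]
  apply Ideal.eq_bot_of_comap_eq_bot (R := ℤ)
  rw [eq_bot_iff]
  intro n hn
  rw [Ideal.mem_comap, RingHom.mem_ker, eq_intCast (algebraMap ℤ R₀), map_intCast] at hn
  rw [Ideal.mem_bot]
  exact_mod_cast hn

section Abstract

variable {M₀ : Type*} [AddCommGroup M₀] [Module.Finite ℤ M₀] {ι : Type*}
  (τ : ι → Module.End ℤ M₀)

/-- **transfer of the vanishing of a joint eigenspace from `ℂ` to any field of characteristic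
zero receiving the eigenvalues** -/
theorem eigen_eq_bot_of_complex (R₀ : Subring ℂ) (hint : ∀ x : R₀, IsIntegral ℤ (x : ℂ))
    (a : ι → R₀) {L : Type*} [Field L] [CharZero L] (j : R₀ →+* L)
    (hC : eigen (fun i => (τ i).baseChange ℂ) (fun i => ((a i : R₀) : ℂ)) = ⊥) :
    eigen (fun i => (τ i).baseChange L) (fun i => j (a i)) = ⊥ := by
  classical
  haveI : Algebra.IsIntegral ℤ R₀ := ⟨fun x => by
    have h := hint x
    exact (isIntegral_algebraMap_iff (B := ℂ) (Subtype.val_injective :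
      Function.Injective (algebraMap R₀ ℂ))).1 h⟩
  have hj : Function.Injective j := injective_of_isIntegral j
  have hsub : Function.Injective (R₀.subtype : R₀ →+* ℂ) := Subtype.val_injective
  let jK : (FractionRing R₀) →+* L := IsFractionRing.lift (K := (FractionRing R₀)) hj
  let iK : (FractionRing R₀) →+* ℂ := IsFractionRing.lift (K := (FractionRing R₀)) hsub
  have hjK : ∀ x : R₀, jK (algebraMap R₀ (FractionRing R₀) x) = j x := fun x => IsFractionRing.lift_algebraMap hj x
  have hiK : ∀ x : R₀, iK (algebraMap R₀ (FractionRing R₀) x) = (x : ℂ) := fun x =>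
    IsFractionRing.lift_algebraMap hsub x
  let c₀ : ι → (FractionRing R₀) := fun i => algebraMap R₀ (FractionRing R₀) (a i)
  -- over `L`
  have hL : Module.finrank L (eigen (fun i => (τ i).baseChange L) (fun i => j (a i))) =
      Module.finrank (FractionRing R₀) (eigen (fun i => (τ i).baseChange (FractionRing R₀)) c₀) := by
    letI : Algebra (FractionRing R₀) L := jK.toAlgebra
    haveI : @IsScalarTower ℤ (FractionRing R₀) L Algebra.toSMul Algebra.toSMul Algebra.toSMul :=
      IsScalarTower.of_algebraMap_eq fun n => by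
        rw [eq_intCast (algebraMap ℤ L), eq_intCast (algebraMap ℤ (FractionRing R₀)), map_intCast]
    have h := finrank_eigen_baseChange_tower (R := ℤ) (F₀ := (FractionRing R₀)) (F := L) τ c₀
    have hc : (fun i => algebraMap (FractionRing R₀) L (c₀ i)) = fun i => j (a i) := funext fun i => hjK (a i)
    rw [hc] at h
    exact h
  -- over `ℂ`
  have hCC : Module.finrank ℂ (eigen (fun i => (τ i).baseChange ℂ) (fun i => ((a i : R₀) : ℂ))) =
      Module.finrank (FractionRing R₀) (eigen (fun i => (τ i).baseChange (FractionRing R₀)) c₀) := by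
    letI : Algebra (FractionRing R₀) ℂ := iK.toAlgebra
    haveI : @IsScalarTower ℤ (FractionRing R₀) ℂ Algebra.toSMul Algebra.toSMul Algebra.toSMul :=
      IsScalarTower.of_algebraMap_eq fun n => by
        rw [eq_intCast (algebraMap ℤ ℂ), eq_intCast (algebraMap ℤ (FractionRing R₀)), map_intCast]
    have h := finrank_eigen_baseChange_tower (R := ℤ) (F₀ := (FractionRing R₀)) (F := ℂ) τ c₀
    have hc : (fun i => algebraMap (FractionRing R₀) ℂ (c₀ i)) = fun i => ((a i : R₀) : ℂ) :=
      funext fun i => hiK (a i)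
    rw [hc] at h
    exact h
  rw [hC, finrank_bot] at hCC
  rw [← hCC] at hL
  exact Submodule.finrank_eq_zero.1 hL

end Abstract

section Newform

variable {M M' : ℕ} [NeZero M']

/-- the complex joint eigenspace at level `M'` for the good eigenvalues of a newform of level `M`,
in any lattice with an Eichler–Shimura isomorphism, is zero -/
theorem eigen_complex_eq_bot_of_isNewform {g : CuspForm (Gamma0 M) 2} (hg : g.IsNewform)
    (hM : M' ∣ M) (hne : M' ≠ M) (S' : Finset ℕ)
    {M₀ : Type*} [AddCommGroup M₀] (τ : Nat.Primes → Module.End ℤ M₀)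
    (e : ℂ ⊗[ℤ] M₀ ≃ₗ[ℂ] CuspForm (Gamma0 M') 2 × CuspForm (Gamma0 M') 2)
    (he : ∀ r x, e ((τ r).baseChange ℂ x) = Prod.map (Tr M' 2 r) (Tr M' 2 r) (e x)) :
    eigen (fun r : {r : Nat.Primes // (r : ℕ) ∉ S'} => (τ r.1).baseChange ℂ)
      (fun r => qCoeff g (r.1 : ℕ)) = ⊥ := by
  rw [eq_bot_iff]
  intro x hx
  rw [mem_eigen] at hx
  have hW := OccursAt.anemicEigenspace_eq_bot_of_isNewform hg hM hne S'
  have hmem : ∀ u : CuspForm (Gamma0 M') 2,
      (∀ r : {r : Nat.Primes // (r : ℕ) ∉ S'}, Tr M' 2 r.1 u = qCoeff g (r.1 : ℕ) • u) →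
      u = 0 := by
    intro u hu
    have : u ∈ OccursAt.anemicEigenspace M' (↑S' : Set ℕ) (fun ℓ => qCoeff g ℓ) := by
      intro ℓ hℓ hℓM' hℓS
      have h1 := hu ⟨⟨ℓ, hℓ⟩, by simpa using hℓS⟩
      rw [Tr_of_not_dvd M' 2 (r := (⟨ℓ, hℓ⟩ : Nat.Primes)) hℓM'] at h1
      exact h1
    rw [hW] at this
    exact this
  have hex : ∀ r : {r : Nat.Primes // (r : ℕ) ∉ S'},
      Prod.map (Tr M' 2 r.1) (Tr M' 2 r.1) (e x) = qCoeff g (r.1 : ℕ) • e x := by
    intro r
    rw [← he, hx r, map_smul]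
  have h1 : (e x).1 = 0 := hmem _ fun r => congrArg Prod.fst (hex r)
  have h2 : (e x).2 = 0 := hmem _ fun r => congrArg Prod.snd (hex r)
  have h3 : e x = 0 := Prod.ext h1 h2
  rw [Submodule.mem_bot]
  exact e.map_eq_zero_iff.1 h3

/-- **(E0), abstract lattice form.** -/
theorem eigen_eq_bot_of_isNewform {g : CuspForm (Gamma0 M) 2} (hg : g.IsNewform)
    (hM : M' ∣ M) (hne : M' ≠ M) (S' : Finset ℕ)
    {M₀ : Type*} [AddCommGroup M₀] [Module.Finite ℤ M₀] (τ : Nat.Primes → Module.End ℤ M₀)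
    (e : ℂ ⊗[ℤ] M₀ ≃ₗ[ℂ] CuspForm (Gamma0 M') 2 × CuspForm (Gamma0 M') 2)
    (he : ∀ r x, e ((τ r).baseChange ℂ x) = Prod.map (Tr M' 2 r) (Tr M' 2 r) (e x))
    (R₀ : Subring ℂ) (hint : ∀ x : R₀, IsIntegral ℤ (x : ℂ))
    (a : {r : Nat.Primes // (r : ℕ) ∉ S'} → R₀)
    (ha : ∀ r, ((a r : R₀) : ℂ) = qCoeff g (r.1 : ℕ))
    {L : Type*} [Field L] [CharZero L] (j : R₀ →+* L) :
    eigen (fun r : {r : Nat.Primes // (r : ℕ) ∉ S'} => (τ r.1).baseChange L)
      (fun r => j (a r)) = ⊥ := by
  refine eigen_eq_bot_of_complex (fun r : {r : Nat.Primes // (r : ℕ) ∉ S'} => τ r.1) R₀ hint a j ?_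
  have h := eigen_complex_eq_bot_of_isNewform hg hM hne S' τ e he
  have hc : (fun r : {r : Nat.Primes // (r : ℕ) ∉ S'} => ((a r : R₀) : ℂ)) =
      fun r => qCoeff g (r.1 : ℕ) := funext ha
  rw [hc]
  exact h

/-- **(E0) for the Eichler–Shimura lattice** `parabolicHoms ℤ (Gamma0 M') ℤ` with the operators
`tauPar` (the lattice of the S30 chain). -/
theorem eigen_tauPar_eq_bot_of_isNewform {g : CuspForm (Gamma0 M) 2} (hg : g.IsNewform)
    (hM : M' ∣ M) (hne : M' ≠ M) (S' : Finset ℕ)
    (R₀ : Subring ℂ) (hint : ∀ x : R₀, IsIntegral ℤ (x : ℂ))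
    (a : {r : Nat.Primes // (r : ℕ) ∉ S'} → R₀)
    (ha : ∀ r, ((a r : R₀) : ℂ) = qCoeff g (r.1 : ℕ))
    {L : Type*} [Field L] [CharZero L] (j : R₀ →+* L) :
    eigen (fun r : {r : Nat.Primes // (r : ℕ) ∉ S'} =>
        (Fermat.Agent.S30.Hecke.Parabolic.tauPar ℤ ℤ M' r.1 r.1.2).baseChange L)
      (fun r => j (a r)) = ⊥ :=
  eigen_eq_bot_of_isNewform hg hM hne S'
    (fun r : Nat.Primes => Fermat.Agent.S30.Hecke.Parabolic.tauPar ℤ ℤ M' r r.2)
    (Fermat.Agent.S30.Eigen.EichlerShimura.latticeEquiv M')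
    (Fermat.Agent.S30.Eigen.H4Final.latticeEquiv_tauPar M') R₀ hint a ha j

/-- the values of a character of the Hecke algebra are algebraic integers -/
theorem isIntegral_range [NeZero M] {S : Set ℕ} (chig : CuspForm.heckeAlgebra M 2 S →+* ℂ)
    (x : chig.range) : IsIntegral ℤ (x : ℂ) := by
  obtain ⟨t, ht⟩ := x.2
  haveI : Module.Finite ℤ (CuspForm.heckeAlgebra M 2 S) := Fermat.Agent.S22.result M 2 S
  have hT : IsIntegral ℤ t := Algebra.IsIntegral.isIntegral t
  rw [← ht]
  exact hT.map chig.toIntAlgHom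

/-- **(E0) in the vocabulary of the frozen S35**: `chig` the character of `g` on the Hecke algebra
away from `S ⊇ primes(M)`, `j` any ring homomorphism from `chig.range` to a field of characteristic
zero (e.g. `algebraMap O'' L ∘ algebraMap O' O'' ∘ iota`). -/
theorem eigen_tauPar_eq_bot_of_chig [NeZero M] {g : CuspForm (Gamma0 M) 2} (hg : g.IsNewform)
    (hM : M' ∣ M) (hne : M' ≠ M) (S : Finset ℕ) (hMS : ∀ q : ℕ, q.Prime → q ∣ M → q ∈ S)
    (chig : CuspForm.heckeAlgebra M 2 (↑S : Set ℕ) →+* ℂ)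
    (hchig : ∀ (ℓ : ℕ) (hℓ : ℓ.Prime) (hℓM : ¬ ℓ ∣ M) (hℓS : ℓ ∉ (↑S : Set ℕ)),
      chig (CuspForm.heckeAlgebra.T hℓ hℓM hℓS) = qCoeff g ℓ)
    {L : Type*} [Field L] [CharZero L] (j : chig.range →+* L) :
    eigen (fun r : {r : Nat.Primes // (r : ℕ) ∉ S} =>
        (Fermat.Agent.S30.Hecke.Parabolic.tauPar ℤ ℤ M' r.1 r.1.2).baseChange L)
      (fun r => j (chig.rangeRestrict (CuspForm.heckeAlgebra.T r.1.2
        (fun hdvd => r.2 (hMS _ r.1.2 hdvd)) (by simpa using r.2)))) = ⊥ :=
  eigen_tauPar_eq_bot_of_isNewform hg hM hne S chig.range (isIntegral_range chig)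
    (fun r => chig.rangeRestrict (CuspForm.heckeAlgebra.T r.1.2
        (fun hdvd => r.2 (hMS _ r.1.2 hdvd)) (by simpa using r.2)))
    (fun r => hchig _ r.1.2 _ _) j

end Newform

end Fermat.Agent.S35.EigenLatticeBot
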