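import Fermat.Agent.S30
import Fermat.Agent.S35.Chain
import Fermat.Agent.S35.EigenLatticeBot

/-!
# S35: the input `(E0)` of `Chain.s35_of_inputs`, for `J' = J₀(M') × J₀(M')`

`g` a newform of level `M`, `M'` a proper divisor of `M` (`M' = M / q`), `S ⊇ primes(M)`, `chig` the
character of `g` on the Hecke algebra away from `S`, `j : chig.range →+* R` with `R` a domain of
characteristic zero that is a `ℤ_[p]`-algebra.

* `exists_tateLattice N p` : the Hecke-equivariant comparison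
  `Tp p (JZero N) ≃ ℤ_[p] ⊗ parabolicHoms ℤ (Gamma0 N) ℤ` at ANY level (the `(H3)` of the S30 chain,
  from the dictionary `PhiDictThm.phiDict` and the Fricke twist, as in `S30.lean`);
* `eigenLattice_JZero_eq_bot` : the anemic `chig`-eigen-lattice of `R ⊗ Tp p (JZero M')` is zero;
* `eigenLattice_prod_eq_bot` : the same for `JZero M' × JZero M'` and any family `t'` acting
  diagonally through `heckeEnd M' r` at the primes `r ∉ S`;
* **`e0`** : clause (E0) of `Chain.s35_of_inputs`, verbatim (full family `c : Nat.Primes → R`,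
  `χ = iota ∘ chig.rangeRestrict`).
-/

set_option autoImplicit false
set_option linter.unusedSectionVars false
set_option linter.style.haveILetI false

open scoped TensorProduct

noncomputable section

namespace Fermat.Agent.S35.E0

open CuspForm CongruenceSubgroup ModularFormClass ModularCurve ModularCurve.Period
open Fermat.Agent.S30.Padic.TateModule Fermat.Agent.S30.Padic.EigenLattice
open Fermat.Agent.S30.Padic Fermat.Agent.S30.Padic.Assembly
open Fermat.Agent.S30.Final.Chain Fermat.Agent.S30.Final.TateCompare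
open Fermat.Agent.S30.Padic.TateChar Fermat.Agent.S30.Hecke.Parabolic
open Fermat.Agent.S30.Spec

/-- **`(H3)` at any level**: the Hecke-equivariant comparison of the Tate module of `J₀(N)` with the
Eichler–Shimura lattice. -/
theorem exists_tateLattice (N : ℕ) [NeZero N] (p : ℕ) [Fact p.Prime] :
    ∃ e : Tp p (JZero N) ≃ₗ[ℤ_[p]] ℤ_[p] ⊗[ℤ] parabolicHoms ℤ (Gamma0 N) ℤ,
      ∀ (r : Nat.Primes) (x : Tp p (JZero N)),
        e (Tp.mapEnd (heckeEnd N r) x) = (tauPar ℤ ℤ N r r.2).baseChange ℤ_[p] (e x) := by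
  obtain ⟨ι⟩ := Fermat.Agent.S30.Descent.PhiDictThm.nonempty_ringHom
  have h : PhiDict N ι := Fermat.Agent.S30.Descent.PhiDictThm.phiDict N ι
  exact h3_of_phiDict h p (Fermat.Agent.S30.frickeChar N) (fun r => tauChar N r r.2)
    (Fermat.Agent.S30.frickeChar_hecke N h) (fun r => tauPar ℤ ℤ N r r.2) (tateLattice N p)
    (fun r x => tateLattice_tauChar p N r r.2 x)

section ToFrac

variable (R : Type*) [CommRing R] [IsDomain R] (L : Type*) [Field L] [Algebra R L]
  [IsFractionRing R L] (M₀ : Type*) [AddCommGroup M₀] [Module.Free ℤ M₀]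

/-- `R ⊗ M₀ → Frac R ⊗ M₀` is injective for a free `ℤ`-module `M₀` -/
theorem toFrac_injective : Function.Injective (EigenCompare.toFrac R L M₀) := by
  rw [← LinearMap.ker_eq_bot, LinearMap.ker_eq_bot']
  intro x hx
  obtain ⟨c, hc⟩ := (IsLocalizedModule.eq_zero_iff (nonZeroDivisors R)
    (EigenCompare.toFrac R L M₀)).1 hx
  haveI : Module.Free R (R ⊗[ℤ] M₀) := inferInstance
  have hc0 : (c : R) ≠ 0 := nonZeroDivisors.coe_ne_zero c
  exact (smul_eq_zero.1 hc).resolve_left hc0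

end ToFrac

section Newform

variable {M M' : ℕ} [NeZero M] [NeZero M']

/-- the good eigenvalues, as elements of `chig.range`, indexed by the primes outside `S` -/
def aGood {S : Finset ℕ} (hMS : ∀ q : ℕ, q.Prime → q ∣ M → q ∈ S)
    (chig : CuspForm.heckeAlgebra M 2 (↑S : Set ℕ) →+* ℂ)
    (r : {r : Nat.Primes // (r : ℕ) ∉ S}) : chig.range :=
  chig.rangeRestrict (CuspForm.heckeAlgebra.T r.1.2
    (fun hdvd => r.2 (hMS _ r.1.2 hdvd)) (by simpa using r.2))

theorem aGood_eq {S : Finset ℕ} (hMS : ∀ q : ℕ, q.Prime → q ∣ M → q ∈ S)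
    (chig : CuspForm.heckeAlgebra M 2 (↑S : Set ℕ) →+* ℂ)
    {ℓ : ℕ} (hℓ : ℓ.Prime) (hℓM : ¬ ℓ ∣ M) (hℓS : ℓ ∉ (↑S : Set ℕ)) :
    aGood hMS chig ⟨⟨ℓ, hℓ⟩, by simpa using hℓS⟩ =
      chig.rangeRestrict (CuspForm.heckeAlgebra.T hℓ hℓM hℓS) := rfl

/-- **the anemic eigen-lattice of `R ⊗ Tp p (JZero M')` for the good eigenvalues of a newform of
level `M` is zero** (`M'` a proper divisor of `M`). -/
theorem eigenLattice_JZero_eq_bot_aux {g : CuspForm (Gamma0 M) 2} (hg : g.IsNewform)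
    (hM : M' ∣ M) (hne : M' ≠ M) (p : ℕ) [Fact p.Prime]
    (S : Finset ℕ) (hMS : ∀ q : ℕ, q.Prime → q ∣ M → q ∈ S)
    (chig : CuspForm.heckeAlgebra M 2 (↑S : Set ℕ) →+* ℂ)
    (hchig : ∀ (ℓ : ℕ) (hℓ : ℓ.Prime) (hℓM : ¬ ℓ ∣ M) (hℓS : ℓ ∉ (↑S : Set ℕ)),
      chig (CuspForm.heckeAlgebra.T hℓ hℓM hℓS) = qCoeff g ℓ)
    (R : Type*) [CommRing R] [IsDomain R] [CharZero R] [Algebra ℤ_[p] R]
    (L : Type*) [Field L] [Algebra R L] [IsFractionRing R L]
    (j : chig.range →+* R) :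
    eigenLattice (fun r : {r : Nat.Primes // (r : ℕ) ∉ S} =>
        opVHom p R (JZero M') (heckeEnd M' r.1))
      (fun r => j (aGood hMS chig r)) = ⊥ := by
  classical
  obtain ⟨e, he⟩ := exists_tateLattice M' p
  haveI : CharZero L := charZero_of_injective_algebraMap (IsFractionRing.injective R L)
  have hbot : Fermat.Agent.S30.Eigen.Transfer.eigen
      (fun r : {r : Nat.Primes // (r : ℕ) ∉ S} => (tauPar ℤ ℤ M' r.1 r.1.2).baseChange L)
      (fun r => ((algebraMap R L).comp j) (aGood hMS chig r)) = ⊥ :=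
    EigenLatticeBot.eigen_tauPar_eq_bot_of_chig (M' := M') hg hM hne S hMS chig hchig
      ((algebraMap R L).comp j)
  -- hide the eigenvalues behind an opaque family
  generalize aGood hMS chig = a at hbot ⊢
  rw [eq_bot_iff]
  intro v hv
  rw [mem_eigenLattice] at hv
  rw [Submodule.mem_bot]
  -- the image of `v` in `L ⊗ M₀`
  let Ψ : R ⊗[ℤ_[p]] Tp p (JZero M') →ₗ[R] L ⊗[ℤ] parabolicHoms ℤ (Gamma0 M') ℤ :=
    (EigenCompare.toFrac R L (parabolicHoms ℤ (Gamma0 M') ℤ)).comp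
      (compareEquiv p R e).toLinearMap
  have hΨinj : Function.Injective Ψ :=
    (toFrac_injective R L (parabolicHoms ℤ (Gamma0 M') ℤ)).comp (compareEquiv p R e).injective
  have hΨ : ∀ (r : Nat.Primes) (x : R ⊗[ℤ_[p]] Tp p (JZero M')),
      Ψ (opVHom p R (JZero M') (heckeEnd M' r) x) = (tauPar ℤ ℤ M' r r.2).baseChange L (Ψ x) := by
    intro r x
    have h1 : compareEquiv p R e (opVHom p R (JZero M') (heckeEnd M' r) x) =
        (tauPar ℤ ℤ M' r r.2).baseChange R (compareEquiv p R e x) :=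
      compareEquiv_intertwines p R e (Tp.mapEnd (heckeEnd M' r)) (tauPar ℤ ℤ M' r r.2) (he r) x
    exact (congrArg (EigenCompare.toFrac R L (parabolicHoms ℤ (Gamma0 M') ℤ)) h1).trans
      (EigenCompare.baseChange_toFrac R L (parabolicHoms ℤ (Gamma0 M') ℤ) (tauPar ℤ ℤ M' r r.2)
        (compareEquiv p R e x)).symm
  have hmem : Ψ v ∈ Fermat.Agent.S30.Eigen.Transfer.eigen
      (fun r : {r : Nat.Primes // (r : ℕ) ∉ S} => (tauPar ℤ ℤ M' r.1 r.1.2).baseChange L)
      (fun r => ((algebraMap R L).comp j) (a r)) := by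
    rw [Fermat.Agent.S30.Eigen.Transfer.mem_eigen]
    intro r
    exact (hΨ r.1 v).symm.trans ((congrArg Ψ (hv r)).trans
      ((Ψ.map_smul _ _).trans (algebraMap_smul L _ (Ψ v)).symm))
  rw [hbot] at hmem
  exact hΨinj (by rw [(Submodule.mem_bot L).1 hmem, map_zero])

/-- the version with `L = FractionRing R` -/
theorem eigenLattice_JZero_eq_bot {g : CuspForm (Gamma0 M) 2} (hg : g.IsNewform)
    (hM : M' ∣ M) (hne : M' ≠ M) (p : ℕ) [Fact p.Prime]
    (S : Finset ℕ) (hMS : ∀ q : ℕ, q.Prime → q ∣ M → q ∈ S)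
    (chig : CuspForm.heckeAlgebra M 2 (↑S : Set ℕ) →+* ℂ)
    (hchig : ∀ (ℓ : ℕ) (hℓ : ℓ.Prime) (hℓM : ¬ ℓ ∣ M) (hℓS : ℓ ∉ (↑S : Set ℕ)),
      chig (CuspForm.heckeAlgebra.T hℓ hℓM hℓS) = qCoeff g ℓ)
    (R : Type*) [CommRing R] [IsDomain R] [CharZero R] [Algebra ℤ_[p] R]
    (j : chig.range →+* R) :
    eigenLattice (fun r : {r : Nat.Primes // (r : ℕ) ∉ S} =>
        opVHom p R (JZero M') (heckeEnd M' r.1))
      (fun r => j (aGood hMS chig r)) = ⊥ :=
  eigenLattice_JZero_eq_bot_aux hg hM hne p S hMS chig hchig R (FractionRing R) j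

/-- `R ⊗ Tp p (J × J)` is detected by the two projections -/
theorem eq_zero_of_fst_snd (p : ℕ) [Fact p.Prime] (R : Type*) [CommRing R] [Algebra ℤ_[p] R]
    (J : Type*) [AddCommGroup J] (v : R ⊗[ℤ_[p]] Tp p (J × J))
    (h1 : (Tp.map (p := p) (AddMonoidHom.fst J J)).baseChange R v = 0)
    (h2 : (Tp.map (p := p) (AddMonoidHom.snd J J)).baseChange R v = 0) : v = 0 := by
  have hid : (AddMonoidHom.inl J J).comp (AddMonoidHom.fst J J) +
      (AddMonoidHom.inr J J).comp (AddMonoidHom.snd J J) = AddMonoidHom.id (J × J) := by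
    ext y <;> simp
  have h3 : (Tp.map (p := p) (AddMonoidHom.id (J × J))).baseChange R v = v := by
    rw [Tp.map_id, LinearMap.baseChange_id, LinearMap.id_apply]
  rw [← h3, ← hid, Tp.map_add_hom, Tp.map_comp, Tp.map_comp, LinearMap.baseChange_add,
    LinearMap.baseChange_comp, LinearMap.baseChange_comp, LinearMap.add_apply,
    LinearMap.comp_apply, LinearMap.comp_apply, h1, h2, map_zero, map_zero, add_zero]

/-- abstract form: if the eigen-lattice of `J` vanishes, so does the eigen-lattice of `J × J` for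
any family acting diagonally -/
theorem eigenLattice_prod_eq_bot_abs (p : ℕ) [Fact p.Prime] (R : Type*) [CommRing R]
    [Algebra ℤ_[p] R] (J : Type*) [AddCommGroup J] {ι : Type*} (t : ι → AddMonoid.End J)
    (t' : ι → AddMonoid.End (J × J)) (ht' : ∀ (i : ι) (y : J × J), t' i y = (t i y.1, t i y.2))
    (c : ι → R) (hbot : eigenLattice (fun i => opVHom p R J (t i)) c = ⊥) :
    eigenLattice (fun i => opVHom p R (J × J) (t' i)) c = ⊥ := by
  rw [eq_bot_iff]
  intro v hv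
  rw [Submodule.mem_bot]
  have h1 := Chain.baseChange_map_mem_eigenLattice p R (AddMonoidHom.fst J J) t' t
    (fun i y => by rw [ht' i y]; rfl) c hv
  have h2 := Chain.baseChange_map_mem_eigenLattice p R (AddMonoidHom.snd J J) t' t
    (fun i y => by rw [ht' i y]; rfl) c hv
  rw [hbot, Submodule.mem_bot] at h1 h2
  exact eq_zero_of_fst_snd p R J v h1 h2

/-- restriction of the index set enlarges the eigen-lattice -/
theorem eigenLattice_comp_le {R : Type*} [CommRing R] {V : Type*} [AddCommGroup V] [Module R V]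
    {ι ι' : Type*} (f : ι → Module.End R V) (c : ι → R) (π : ι' → ι) :
    eigenLattice f c ≤ eigenLattice (fun i => f (π i)) (fun i => c (π i)) := by
  intro v hv
  rw [mem_eigenLattice] at hv ⊢
  exact fun i => hv (π i)

/-- **the eigen-lattice of `JZero M' × JZero M'`** for any family acting diagonally through
`heckeEnd M' r` at the primes `r ∉ S` and eigenvalues extending the good eigenvalues of the newform
`g` is zero. -/
theorem eigenLattice_prod_eq_bot {g : CuspForm (Gamma0 M) 2} (hg : g.IsNewform)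
    (hM : M' ∣ M) (hne : M' ≠ M) (p : ℕ) [Fact p.Prime]
    (S : Finset ℕ) (hMS : ∀ q : ℕ, q.Prime → q ∣ M → q ∈ S)
    (chig : CuspForm.heckeAlgebra M 2 (↑S : Set ℕ) →+* ℂ)
    (hchig : ∀ (ℓ : ℕ) (hℓ : ℓ.Prime) (hℓM : ¬ ℓ ∣ M) (hℓS : ℓ ∉ (↑S : Set ℕ)),
      chig (CuspForm.heckeAlgebra.T hℓ hℓM hℓS) = qCoeff g ℓ)
    (t' : Nat.Primes → AddMonoid.End (JZero M' × JZero M'))
    (ht' : ∀ r : Nat.Primes, (r : ℕ) ∉ S → ∀ y : JZero M' × JZero M',
      t' r y = (heckeEnd M' r y.1, heckeEnd M' r y.2))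
    (R : Type*) [CommRing R] [IsDomain R] [CharZero R] [Algebra ℤ_[p] R]
    (j : chig.range →+* R) (c : Nat.Primes → R)
    (hc : ∀ r : {r : Nat.Primes // (r : ℕ) ∉ S}, c r.1 = j (aGood hMS chig r)) :
    eigenLattice (fun r => opVHom p R (JZero M' × JZero M') (t' r)) c = ⊥ := by
  have hbot := eigenLattice_JZero_eq_bot (M' := M') hg hM hne p S hMS chig hchig R j
  have hc' : (fun r : {r : Nat.Primes // (r : ℕ) ∉ S} => j (aGood hMS chig r)) =
      fun r => c r.1 := funext fun r => (hc r).symm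
  rw [hc'] at hbot
  have h := eigenLattice_prod_eq_bot_abs p R (JZero M')
    (fun r : {r : Nat.Primes // (r : ℕ) ∉ S} => heckeEnd M' r.1)
    (fun r => t' r.1) (fun r y => ht' r.1 r.2 y) (fun r => c r.1) hbot
  rw [eq_bot_iff]
  refine le_trans (eigenLattice_comp_le (fun r => opVHom p R (JZero M' × JZero M') (t' r)) c
    (fun r : {r : Nat.Primes // (r : ℕ) ∉ S} => r.1)) ?_
  rw [h]

/-- **Clause (E0) of `Chain.s35_of_inputs`, verbatim**, for `J' = JZero M' × JZero M'`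
(`M' = M / q`), `χ = iota ∘ chig.rangeRestrict`. -/
theorem e0 {g : CuspForm (Gamma0 M) 2} (hg : g.IsNewform)
    (hM : M' ∣ M) (hne : M' ≠ M) (p : ℕ) [Fact p.Prime]
    (S : Finset ℕ) (hMS : ∀ q : ℕ, q.Prime → q ∣ M → q ∈ S)
    (chig : CuspForm.heckeAlgebra M 2 (↑S : Set ℕ) →+* ℂ)
    (hchig : ∀ (ℓ : ℕ) (hℓ : ℓ.Prime) (hℓM : ¬ ℓ ∣ M) (hℓS : ℓ ∉ (↑S : Set ℕ)),
      chig (CuspForm.heckeAlgebra.T hℓ hℓM hℓS) = qCoeff g ℓ)
    (𝒪' : Type) [CommRing 𝒪'] (iota : chig.range →+* 𝒪')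
    (t' : Nat.Primes → AddMonoid.End (JZero M' × JZero M'))
    (ht' : ∀ r : Nat.Primes, (r : ℕ) ∉ S → ∀ y : JZero M' × JZero M',
      t' r y = (heckeEnd M' r y.1, heckeEnd M' r y.2)) :
    ∀ (R : Type) [CommRing R] [IsDomain R] [CharZero R] [Algebra ℤ_[p] R] [Algebra 𝒪' R]
      (c : Nat.Primes → R),
      (∀ (ℓ : ℕ) (hℓ : ℓ.Prime) (hℓN : ¬ ℓ ∣ M) (hℓS : ℓ ∉ (↑S : Set ℕ)),
        c ⟨ℓ, hℓ⟩ = algebraMap 𝒪' R ((iota.comp chig.rangeRestrict)
          (CuspForm.heckeAlgebra.T hℓ hℓN hℓS))) →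
      eigenLattice (fun r => opVHom p R (JZero M' × JZero M') (t' r)) c = ⊥ := by
  intro R _ _ _ _ _ c hc
  refine eigenLattice_prod_eq_bot hg hM hne p S hMS chig hchig t' ht' R
    ((algebraMap 𝒪' R).comp iota) c ?_
  rintro ⟨⟨ℓ, hℓ⟩, hℓS⟩
  exact hc ℓ hℓ (fun hdvd => hℓS (hMS _ hℓ hdvd)) (by simpa using hℓS)

end Newform

end Fermat.Agent.S35.E0
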