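/-
S35 (downstream of PROJECT U): **the frozen statement S35 from the single geometric input
`(NEW-σ)`** (helper19).

* `NewSigmaHyp M' q p` : for every Frobenius lift `σ` at `q` (`q ∤ M'`, `q ≠ p`), the operator
  `(σ² - 1)² (σ² - q²)` kills the `p`-power torsion of
  `ker (α_*) ∩ ker (β_*) ⊆ J₀(M' q)` (`α_*, β_* : J₀(M' q) → J₀(M')` = `DegeneracyHecke.alphaPush`,
  `betaPush`).
* `s35_of_newSigma` : the frozen statement S35 (verbatim) from `NewSigmaHyp` at all levels.

Everything else is discharged: `(H1)` by `S30/Final/H1`, `(H2)`–`(H3)` by the dictionary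
(`E0.exists_tateLattice`, `PhiMap.finite_torsion`), `(H4)` by `Eigen/H4Final.h4`, the Hecke
intertwining of `(α_*, β_*)` by `DegeneracyHecke` (helper8), `(E0)` by `S35/E0` (helper3).
-/
import Fermat.Agent.S35.ChainGood
import Fermat.Agent.S35.E0
import Fermat.Agent.S35.DegeneracyHecke

set_option autoImplicit false
set_option linter.unusedSectionVars false
set_option linter.style.haveILetI false

noncomputable section

namespace Fermat.Agent.S35.OfDict

open Polynomial CuspForm CongruenceSubgroup ModularCurve TensorProduct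
open Fermat.Agent.S30.Padic.TateModule Fermat.Agent.S30.Padic.EigenLattice
open Fermat.Agent.S30.Padic Fermat.Agent.S30.Padic.Assembly
open Fermat.Agent.S30.Final.Chain Fermat.Agent.S30.Spec
open Fermat.Agent.S35.Chain Fermat.Agent.S35.ChainGood Fermat.Agent.S35.DegeneracyHecke

local notation "GQ" => (AlgebraicClosure ℚ ≃ₐ[ℚ] AlgebraicClosure ℚ)

/-- **(NEW-σ) at level `M' q`**: every Frobenius lift `σ` at `q` satisfies
`(σ² - 1)² (σ² - q²) = 0` on the `p`-power torsion of `ker α_* ∩ ker β_*`. -/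
def NewSigmaHyp (M' q p : ℕ) [NeZero M'] [NeZero q] [NeZero (M' * q)] : Prop :=
  ∀ A : ValuationSubring (AlgebraicClosure ℚ), A.LiesOverPrime q →
    ∀ σ : GQ, A.IsFrobeniusAt σ q →
      ∀ y : JZero (M' * q), (∃ n : ℕ, p ^ n • y = 0) →
        alphaPush M' q y = 0 → betaPush M' q y = 0 → polyEnd σ (frobPolyZ q) y = 0

/-- the pair `(α_*, β_*) : J₀(M' q) → J₀(M') × J₀(M')` -/
def degPair (M' q : ℕ) [NeZero M'] [NeZero q] [NeZero (M' * q)] :
    JZero (M' * q) →+ JZero M' × JZero M' :=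
  (alphaPush M' q).prod (betaPush M' q)

theorem degPair_apply (M' q : ℕ) [NeZero M'] [NeZero q] [NeZero (M' * q)] (y : JZero (M' * q)) :
    degPair M' q y = (alphaPush M' q y, betaPush M' q y) := rfl

/-- the diagonal Hecke operator on `J₀(M') × J₀(M')` -/
def heckePair (M' : ℕ) [NeZero M'] (r : Nat.Primes) : AddMonoid.End (JZero M' × JZero M') :=
  AddMonoidHom.prodMap (heckeEnd M' r) (heckeEnd M' r)

theorem heckePair_apply (M' : ℕ) [NeZero M'] (r : Nat.Primes) (y : JZero M' × JZero M') :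
    heckePair M' r y = (heckeEnd M' r y.1, heckeEnd M' r y.2) := rfl

set_option maxHeartbeats 400000 in
/-- **The frozen statement S35 from `(NEW-σ)`.** -/
theorem s35_of_newSigma
    (Hσ : ∀ (M' q p : ℕ) [NeZero M'] [NeZero q] [NeZero (M' * q)], q.Prime → p.Prime →
      ¬ q ∣ M' → q ≠ p → NewSigmaHyp M' q p)
    {M : ℕ} [NeZero M] {g : CuspForm (CongruenceSubgroup.Gamma0 M) 2} (hg : g.IsNewform)
    (lam : ℕ) [Fact lam.Prime]
    (S : Finset ℕ)
    (O' : Type) [CommRing O'] [IsDomain O'] [IsDiscreteValuationRing O']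
    [IsAdicComplete (IsLocalRing.maximalIdeal O') O'] [Finite (IsLocalRing.ResidueField O')]
    [CharZero O'] (hlamO' : (lam : O') ∈ IsLocalRing.maximalIdeal O')
    (chig : CuspForm.heckeAlgebra M 2 (↑S : Set ℕ) →+* ℂ)
    (hchig : ∀ (ℓ : ℕ) (hℓ : ℓ.Prime) (hℓM : ¬ ℓ ∣ M) (hℓS : ℓ ∉ (↑S : Set ℕ)),
      chig (CuspForm.heckeAlgebra.T hℓ hℓM hℓS) = ModularFormClass.qCoeff g ℓ)
    (iota : chig.range →+* O')
    (hlamS : lam ∈ S) (hMS : ∀ q : ℕ, q.Prime → q ∣ M → q ∈ S) :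
    ∃ (O'' : Type) (_ : CommRing O'') (_ : IsDomain O'') (_ : IsDiscreteValuationRing O'')
      (_ : IsAdicComplete (IsLocalRing.maximalIdeal O'') O'') (_ : Finite (IsLocalRing.ResidueField O''))
      (_ : CharZero O'') (_ : Algebra O' O'') (_ : Module.Finite O' O'') (_ : IsLocalHom (algebraMap O' O'')),
      Function.Injective (algebraMap O' O'') ∧
      ∃ ρ : GaloisRepAdic O'',
        (∀ (ℓ : ℕ) (hℓ : ℓ.Prime) (hℓM : ¬ ℓ ∣ M) (hℓS : ℓ ∉ (↑S : Set ℕ)),
          ∀ A : ValuationSubring (AlgebraicClosure ℚ), A.LiesOverPrime ℓ →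
            ∀ σ : AlgebraicClosure ℚ ≃ₐ[ℚ] AlgebraicClosure ℚ, A.IsFrobeniusAt σ ℓ →
              LinearMap.charpoly (ρ.ρ σ) =
                X ^ 2 - C (algebraMap O' O'' ((iota.comp chig.rangeRestrict) (CuspForm.heckeAlgebra.T hℓ hℓM hℓS))) * X
                  + C ((ℓ : O''))) ∧
        (∀ q : ℕ, q.Prime → q ≠ lam → q ∣ M → ¬ q ^ 2 ∣ M →
          ∀ A : ValuationSubring (AlgebraicClosure ℚ), A.LiesOverPrime q →
            ∀ σ : AlgebraicClosure ℚ ≃ₐ[ℚ] AlgebraicClosure ℚ, A.IsFrobeniusAt σ q →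
              LinearMap.charpoly (ρ.ρ σ) = X ^ 2 - C ((q : O'') + 1) * X + C ((q : O'')) ∨
              LinearMap.charpoly (ρ.ρ σ) = X ^ 2 + C ((q : O'') + 1) * X + C ((q : O''))) := by
  have hlam : lam.Prime := Fact.out
  obtain ⟨ι⟩ := Fermat.Agent.S30.Descent.PhiDictThm.nonempty_ringHom
  have hdict : PhiDict M ι := Fermat.Agent.S30.Descent.PhiDictThm.phiDict M ι
  obtain ⟨e, he⟩ := Fermat.Agent.S35.E0.exists_tateLattice M lam
  refine s35_of_inputs_good lam M S hlamS hMS O' hlamO' (iota.comp chig.rangeRestrict)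
    (Fermat.Agent.S30.Final.H1.hasReductionAll M lam)
    (Fermat.Agent.S30.Final.PhiMap.finite_torsion hdict hlam.ne_zero)
    _ (fun r => Fermat.Agent.S30.Hecke.Parabolic.tauPar ℤ ℤ M r r.2) e he
    (Fermat.Agent.S30.Eigen.H4Final.h4 M S O' (iota.comp chig.rangeRestrict)) ?_
  -- the new input at `q ‖ M`
  intro q hq hqlam hqM hq2
  obtain ⟨M', rfl⟩ : ∃ M', M = M' * q := ⟨M / q, (Nat.div_mul_cancel hqM).symm⟩
  have hM'0 : M' ≠ 0 := fun h => NeZero.ne (M' * q) (by rw [h, zero_mul])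
  haveI : NeZero M' := ⟨hM'0⟩
  haveI : NeZero q := ⟨hq.ne_zero⟩
  have hqM' : ¬ q ∣ M' := by
    intro hd
    apply hq2
    rw [pow_two]
    exact Nat.mul_dvd_mul_right hd q
  have hM'dvd : M' ∣ M' * q := Dvd.intro _ rfl
  have hM'ne : M' ≠ M' * q := by
    intro h
    have h1 : M' * 1 = M' * q := by rw [mul_one]; exact h
    exact hq.one_lt.ne (Nat.eq_of_mul_eq_mul_left (Nat.pos_of_ne_zero hM'0) h1)
  refine ⟨JZero M' × JZero M', inferInstance, degPair M' q, heckePair M', ?_, ?_, ?_⟩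
  · -- intertwining at the primes outside `S`
    intro r hrS y
    have hqr : q ≠ (r : ℕ) := by
      rintro rfl
      exact hrS (hMS _ hq (Dvd.intro_left _ rfl))
    have hrM' : ¬ (r : ℕ) ∣ M' := fun hd => hrS (hMS _ r.2 (hd.trans hM'dvd))
    rw [degPair_apply, heckePair_apply, degPair_apply]
    exact Prod.ext (alphaPush_hecke hq hqM' r hqr hrM' y) (betaPush_hecke hq hqM' r hqr hrM' y)
  · -- (E0)
    intro R _ _ _ _ _ _ c hc
    have hbot := Fermat.Agent.S35.E0.eigenLattice_JZero_eq_bot (M' := M') hg hM'dvd hM'ne lam S hMS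
      chig hchig R ((algebraMap O' R).comp iota)
    have hc' : (fun r : {r : Nat.Primes // (r : ℕ) ∉ S} =>
        ((algebraMap O' R).comp iota) (Fermat.Agent.S35.E0.aGood hMS chig r)) = fun r => c r.1 := by
      funext r
      obtain ⟨⟨ℓ, hℓ⟩, hℓS⟩ := r
      exact (hc ℓ hℓ (fun hdvd => hℓS (hMS _ hℓ hdvd)) (by simpa using hℓS)).symm
    rw [hc'] at hbot
    exact Fermat.Agent.S35.E0.eigenLattice_prod_eq_bot_abs lam R (JZero M')
      (fun r : {r : Nat.Primes // (r : ℕ) ∉ S} => heckeEnd M' r.1)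
      (fun r => heckePair M' r.1) (fun r y => heckePair_apply M' r.1 y) (fun r => c r.1) hbot
  · -- (NEW-σ)
    intro A hA σ hσ y hy hφ
    rw [degPair_apply, Prod.mk_eq_zero] at hφ
    exact Hσ M' q lam hq hlam hqM' hqlam A hA σ hσ y hy hφ.1 hφ.2

end Fermat.Agent.S35.OfDict
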