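/-
S35: `(NEW-σ)` FROM THE TWO LAYERS (N1) AND (N2) (helper8).

* `kummer_glue` (abstract): if `n D = div f`, `g f = h ^ n * u * f` and `g u = c * h' ^ n * u ^ Q`,
  then `g (g y) + Q y = (Q + 1) (g y)` for `y = [D]` in `Pic⁰`, i.e. `(g - Q)(g - 1) y = 0`;
* `polyEnd_frobPolyZ_eq_zero` : if `σ⁴ y + q² y = (q² + 1) σ² y` then `(σ² - 1)² (σ² - q²) y = 0`;
* `newSigmaHyp_of_frobZHyp` : `OfDict.NewSigmaHyp M q p` from (N2) `FrobZOfPrincipal.FrobZHyp M q p`
  (with (N1) = `N1X0.n1_of_torsion`).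
-/
import Mathlib
import Fermat.Agent.S35.N1X0
import Fermat.Agent.S35.OfDict
import Fermat.Agent.S35.FrobZOfPrincipal

set_option autoImplicit false
set_option linter.unusedSectionVars false
set_option linter.style.haveILetI false

noncomputable section

namespace Fermat.Agent.S35.NewSigmaX0

open ModularCurve AlgebraicCurve Polynomial
open Fermat.Agent.S34.KummerZ Fermat.Agent.S34.CoreZOfPrincipal

/-! ### The abstract Kummer glue -/

section Abstract

variable {K F : Type*} [Field K] [Field F] [Algebra K F]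

/-- from (N1), the new unit `u` has divisor divisible by `n` -/
theorem hn_of_layer (g : SemilinearAut K F) (n : ℕ)
    (D : Divisor.degZero (K := K) (F := F)) {f : F} (hf : f ≠ 0)
    (hfD : ∀ w : Place K F, w.ord f = (n : ℤ) * (D : Divisor K F) w)
    {h u : F} (hh : h ≠ 0) (hu : u ≠ 0) (h1 : g • f = h ^ n * u * f) :
    Hn (K := K) n u := by
  refine ⟨hu, fun w => ?_⟩
  have hhn : h ^ n ≠ 0 := pow_ne_zero n hh
  have e1 : w.ord (g • f) = (n : ℤ) * (D : Divisor K F) (g⁻¹ • w) := by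
    rw [ord_smul_eq, hfD]
  rw [h1, w.ord_mul (mul_ne_zero hhn hu) hf, w.ord_mul hhn hu,
    Fermat.Agent.S34.KummerZ.ord_pow, hfD w] at e1
  refine ⟨(D : Divisor K F) (g⁻¹ • w) - (D : Divisor K F) w - w.ord h, ?_⟩
  linarith

/-- **Kummer glue for two layers.**  `y = [D]`, `n D = div f`; (N1) `g f = h ^ n * u * f`;
(N2) `g u = c * h' ^ n * u ^ Q`.  Then `(g - Q)(g - 1) y = 0`. -/
theorem kummer_glue [HasPrincipalDivisors K F] (g : SemilinearAut K F) (n : ℕ) (hn : n ≠ 0)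
    (Q : ℕ) (D : Divisor.degZero (K := K) (F := F)) {f : F} (hf : f ≠ 0)
    (hfD : ∀ w : Place K F, w.ord f = (n : ℤ) * (D : Divisor K F) w)
    {h u : F} (hh : h ≠ 0) (hu : u ≠ 0) (h1 : g • f = h ^ n * u * f)
    {c : K} {h' : F} (hc : c ≠ 0) (hh' : h' ≠ 0)
    (h2 : g • u = algebraMap K F c * h' ^ n * u ^ Q) :
    g • (g • Pic0.mk D) + Q • Pic0.mk D = (Q + 1) • (g • Pic0.mk D) := by
  have hn' : (n : ℤ) ≠ 0 := Int.natCast_ne_zero.mpr hn
  -- divisors of `h`, `h'`
  obtain ⟨Eh, hEh, hEhdeg⟩ := HasPrincipalDivisors.exists_divisor (K := K) h hh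
  obtain ⟨Eh', hEh', hEh'deg⟩ := HasPrincipalDivisors.exists_divisor (K := K) h' hh'
  let Dh : Divisor.degZero (K := K) (F := F) := ⟨Eh, Divisor.mem_degZero.mpr hEhdeg⟩
  let Dh' : Divisor.degZero (K := K) (F := F) := ⟨Eh', Divisor.mem_degZero.mpr hEh'deg⟩
  have hDh : Pic0.mk Dh = 0 := mk_eq_zero_of_isDivOf hh (fun w => hEh w)
  have hDh' : Pic0.mk Dh' = 0 := mk_eq_zero_of_isDivOf hh' (fun w => hEh' w)
  -- the divisor of `u`
  let gD : Divisor.degZero (K := K) (F := F) := SemilinearAut.degZeroSMulHom g D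
  let Du : Divisor.degZero (K := K) (F := F) := gD - D - Dh
  have hgf : ∀ w : Place K F, w.ord (g • f) = (n : ℤ) * (gD : Divisor K F) w := fun w => by
    rw [ord_smul_eq, hfD, SemilinearAut.coe_degZeroSMulHom, SemilinearAut.divisor_smul_apply]
  have hhn : h ^ n ≠ 0 := pow_ne_zero n hh
  have hDu : ∀ w : Place K F, w.ord u = (n : ℤ) * (Du : Divisor K F) w := fun w => by
    have e1 := hgf w
    rw [h1, w.ord_mul (mul_ne_zero hhn hu) hf, w.ord_mul hhn hu,
      Fermat.Agent.S34.KummerZ.ord_pow, hfD w, ← hEh w] at e1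
    have e2 : ((Du : Divisor.degZero (K := K) (F := F)) : Divisor K F) w
        = (gD : Divisor K F) w - (D : Divisor K F) w - Eh w := by
      show ((gD - D - Dh : Divisor.degZero (K := K) (F := F)) : Divisor K F) w = _
      rw [AddSubgroup.coe_sub, AddSubgroup.coe_sub, Finsupp.sub_apply, Finsupp.sub_apply]
    rw [e2]
    linarith
  -- `g • Du = Dh' + Q • Du`
  have hgDu : SemilinearAut.degZeroSMulHom g Du = Dh' + Q • Du := by
    apply Subtype.ext
    apply Finsupp.ext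
    intro w
    have e1 : w.ord (g • u) = (n : ℤ) * ((SemilinearAut.degZeroSMulHom g Du :
        Divisor.degZero (K := K) (F := F)) : Divisor K F) w := by
      rw [ord_smul_eq, hDu, SemilinearAut.coe_degZeroSMulHom, SemilinearAut.divisor_smul_apply]
    have hcF : algebraMap K F c ≠ 0 := (_root_.map_ne_zero (algebraMap K F)).mpr hc
    have hh'n : h' ^ n ≠ 0 := pow_ne_zero n hh'
    have huQ : u ^ Q ≠ 0 := pow_ne_zero Q hu
    rw [h2, w.ord_mul (mul_ne_zero hcF hh'n) huQ, w.ord_mul hcF hh'n,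
      Fermat.Agent.S34.KummerZ.ord_algebraMap w hc, Fermat.Agent.S34.KummerZ.ord_pow,
      Fermat.Agent.S34.KummerZ.ord_pow, hDu w, ← hEh' w] at e1
    have e2 : ((Dh' + Q • Du : Divisor.degZero (K := K) (F := F)) : Divisor K F) w
        = Eh' w + (Q : ℤ) * (Du : Divisor K F) w := by
      rw [AddSubgroup.coe_add, AddSubgroup.coe_nsmul, Finsupp.add_apply, Finsupp.smul_apply,
        nsmul_eq_mul]
    rw [e2]
    have e3 : (n : ℤ) * ((SemilinearAut.degZeroSMulHom g Du :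
        Divisor.degZero (K := K) (F := F)) : Divisor K F) w
        = (n : ℤ) * (Eh' w + (Q : ℤ) * (Du : Divisor K F) w) := by
      linarith
    exact mul_left_cancel₀ hn' e3
  -- pass to classes
  have hcu : Pic0.mk Du = g • Pic0.mk D - Pic0.mk D := by
    have : Pic0.mk Du = Pic0.mk gD - Pic0.mk D - Pic0.mk Dh := rfl
    rw [this, hDh, sub_zero]
    rfl
  have hgcu : g • Pic0.mk Du = Q • Pic0.mk Du := by
    rw [SemilinearAut.pic0_smul_mk, hgDu]
    have : Pic0.mk (Dh' + Q • Du) = Pic0.mk Dh' + Q • Pic0.mk Du := rfl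
    rw [this, hDh', zero_add]
  rw [hcu, smul_sub, nsmul_sub] at hgcu
  have e : g • (g • Pic0.mk D) = g • Pic0.mk D + (Q • (g • Pic0.mk D) - Q • Pic0.mk D) :=
    eq_add_of_sub_eq' hgcu
  rw [e, add_smul, one_smul]
  abel

end Abstract

/-! ### The polynomial -/

section Poly

open Fermat.Agent.S35.Chain Fermat.Agent.S35.LinAlg

variable {J : Type*} [AddCommGroup J] {G : Type*} [Group G] [DistribMulAction G J]

/-- if `σ⁴ y + q² y = (q² + 1) σ² y` then `(σ² - 1)² (σ² - q²) y = 0` -/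
theorem polyEnd_frobPolyZ_eq_zero (σ : G) (q : ℕ) (y : J)
    (h : σ • σ • σ • σ • y + (q ^ 2) • y = (q ^ 2 + 1) • (σ • σ • y)) :
    polyEnd σ (frobPolyZ q) y = 0 := by
  set S : AddMonoid.End J := DistribMulAction.toAddMonoidEnd G J σ with hS
  have hSy : ∀ z : J, S z = σ • z := fun z => rfl
  have sub_app : ∀ (a b : AddMonoid.End J) (z : J), (a - b) z = a z - b z := fun _ _ _ => rfl
  have e : polyEnd σ (frobPolyZ q)
      = (S ^ 2 - 1) * ((S ^ 2 - 1) * (S ^ 2 - ((q ^ 2 : ℕ) : AddMonoid.End J))) := by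
    unfold polyEnd frobPolyZ frobPoly
    rw [map_mul, map_pow, map_sub, map_sub, map_pow, aeval_X, map_one, aeval_C, pow_two (S ^ 2 - 1),
      mul_assoc]
    congr 3
    simp
  have h0 : ((S ^ 2 - 1) * (S ^ 2 - ((q ^ 2 : ℕ) : AddMonoid.End J)) : AddMonoid.End J) y = 0 := by
    rw [AddMonoid.End.coe_mul, Function.comp_apply]
    have e1 : (S ^ 2 - ((q ^ 2 : ℕ) : AddMonoid.End J)) y = σ • σ • y - (q ^ 2) • y := by
      rw [sub_app, pow_two, AddMonoid.End.coe_mul, Function.comp_apply, hSy, hSy,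
        AddMonoid.End.natCast_apply]
    rw [e1, sub_app, pow_two, AddMonoid.End.coe_mul, Function.comp_apply, hSy, hSy,
      AddMonoid.End.coe_one, id, smul_sub, smul_sub, smul_comm σ (q ^ 2) y,
      smul_comm σ (q ^ 2) (σ • y)]
    have h' := h
    rw [add_smul, one_smul] at h'
    rw [sub_sub, sub_eq_zero, ← add_sub_assoc, ← h']
    abel
  rw [e, AddMonoid.End.coe_mul, Function.comp_apply, h0, map_zero]

end Poly

/-! ### `(NEW-σ)` at `X₀(M q)` from (N2) -/

section X0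

open Fermat.Agent.S34.Z1X0 Fermat.Agent.S34.Z1Abstract
open Fermat.Agent.S35.Chain Fermat.Agent.S35.LinAlg Fermat.Agent.S35.DegeneracyHecke
open Fermat.Agent.S35.OfDict Fermat.Agent.S35.FrobZOfPrincipal

local notation "Kb" => AlgebraicClosure ℚ

set_option maxHeartbeats 1600000 in
/-- **`(NEW-σ)` from (N2).**  (N1) is `N1X0.n1_of_torsion`. -/
theorem newSigmaHyp_of_frobZHyp {M q p : ℕ} [NeZero M] [hq : Fact q.Prime] [NeZero q]
    [NeZero (M * q)] (hqM : ¬ q ∣ M) (hp : p ≠ 0) (H : FrobZHyp M q p) :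
    NewSigmaHyp M q p := by
  intro A hA σ hσ y hy ha hb
  obtain ⟨k, hk⟩ := hy
  haveI := Fermat.Agent.S18.A.Instances.hasPrincipalDivisors_bar (M * q)
  have hn : p ^ k ≠ 0 := pow_ne_zero k hp
  have hy : ((p ^ k : ℕ) : ℤ) • y = 0 := by rw [natCast_zsmul]; exact hk
  obtain ⟨D, f, rfl, hf, hfD, h, u, hh, hu, hu1, hu2, h1⟩ :=
    Fermat.Agent.S35.N1X0.n1_of_torsion hA hqM hσ (p ^ k) hn hy ha hb
  have h1' : (arithmeticGalois (modularFunctionFieldFull (M * q)) σ *
      arithmeticGalois (modularFunctionFieldFull (M * q)) σ) • f = h ^ (p ^ k) * u * f := by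
    rw [mul_smul]; exact h1
  have hHn : Hn (K := Kb) (p ^ k) u := hn_of_layer _ (p ^ k) D hf hfD hh hu h1'
  obtain ⟨c, h', hc, hh', h2⟩ := H A hA hqM σ hσ k u hHn hu1 hu2
  have h2' : (arithmeticGalois (modularFunctionFieldFull (M * q)) σ *
      arithmeticGalois (modularFunctionFieldFull (M * q)) σ) • u
      = algebraMap Kb ↥(modularFunctionFieldBar (M * q)) c * h' ^ (p ^ k) * u ^ (q ^ 2) := by
    rw [mul_smul]; exact h2
  have key := kummer_glue _ (p ^ k) hn (q ^ 2) D hf hfD hh hu h1' hc hh' h2'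
  apply polyEnd_frobPolyZ_eq_zero
  rw [mul_smul, mul_smul] at key
  exact key

/-- the family form consumed by `OfDict.s35_of_newSigma` -/
theorem newSigma_of_frobZ
    (H : ∀ (M' q p : ℕ) [NeZero M'] [Fact q.Prime] [NeZero q], p.Prime → ¬ q ∣ M' → q ≠ p →
      FrobZHyp M' q p) :
    ∀ (M' q p : ℕ) [NeZero M'] [NeZero q] [NeZero (M' * q)], q.Prime → p.Prime →
      ¬ q ∣ M' → q ≠ p → NewSigmaHyp M' q p := by
  intro M' q p _ _ _ hq hp hqM hqp
  haveI : Fact q.Prime := ⟨hq⟩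
  exact newSigmaHyp_of_frobZHyp hqM hp.ne_zero (H M' q p hp hqM hqp)

end X0

end Fermat.Agent.S35.NewSigmaX0
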