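import Mathlib
import Fermat.Prelude.Def_GaloisRep_Adic
import Fermat.Agent.S30.Algebra.Cyclotomic
import Fermat.Agent.S30.Algebra.CharSum
import Fermat.Agent.S30.Algebra.DetLemma
import Fermat.Agent.S30.Algebra.DetGalois
import Fermat.Agent.S30.Density.Bridge

/-!
# S35: `det ρ` is the cyclotomic character, at the level of the frozen S30/S35 statements

For ANY `ρ : GaloisRepAdic 𝒪` (`𝒪` local, `𝔪`-adically separated, `p ∈ 𝔪`) with
`charpoly ρ(τ) = X² - a_ℓ X + ℓ` at all Frobenius lifts `τ` at the primes `ℓ ∉ Sg` (`p ∈ Sg`):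

* `det_eq_cycChar_of_frobCharpoly` : `det ρ(σ) = cycChar p ι σ` for ALL `σ` — no irreducibility or
  non-scalarity hypothesis (the characteristic polynomial, unlike the quadratic relation, pins the
  determinant at the Frobenius lifts);
* `det_frobenius_eq` : `det ρ(σ) = q` for every Frobenius lift `σ` at ANY prime `q ≠ p`, in
  particular at the primes `q ∣ N` (what clause 2 of S35 needs);
* `det_inertia_eq_one` : `det ρ(σ) = 1` on the inertia groups at `q ≠ p`.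

General principle (`eq_of_eqOn_frobSet`): two adically continuous characters `G_ℚ → 𝒪` that agree
on the Frobenius lifts at the primes outside a finite set are equal (density bridge of S30).
-/

set_option autoImplicit false
set_option linter.unusedSectionVars false
set_option linter.style.haveILetI false

namespace Fermat.Agent.S35.DetCyc

open Polynomial IsLocalRing
open Fermat.Agent.S30.Algebra
open Fermat.Agent.S30.Algebra.DetGalois (Qbar GQ Density FrobCharpoly frobSet inv_mul_apply_eq)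
open Fermat.Agent.S30.Algebra.CharSum (IsAdicContinuousChar)

variable {𝒪 : Type} [CommRing 𝒪] [IsLocalRing 𝒪]

/-- the density statement of S30, in the shape `DetGalois.Density` -/
theorem density (Sg : Finset ℕ) : Density Sg := fun L hL σ =>
  haveI := hL
  Fermat.Agent.S30.Density.Bridge.frobenius_density_final L σ Sg

/-- a character is constant modulo `𝔪 ^ n` on the cosets of the fixing group of `L` -/
theorem sub_mem_of_eqOn {θ : GQ →* 𝒪} {n : ℕ} {L : IntermediateField ℚ Qbar}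
    (hL : ∀ σ : GQ, (∀ x ∈ L, σ x = x) → θ σ - 1 ∈ maximalIdeal 𝒪 ^ n)
    {σ τ : GQ} (h : ∀ x ∈ L, τ x = σ x) : θ τ - θ σ ∈ maximalIdeal 𝒪 ^ n := by
  have h1 := hL (σ⁻¹ * τ) (fun x hx => inv_mul_apply_eq σ τ x (h x hx))
  have h2 : θ τ - θ σ = θ σ * (θ (σ⁻¹ * τ) - 1) := by
    rw [mul_sub, ← map_mul, mul_inv_cancel_left, mul_one]
  rw [h2]
  exact Ideal.mul_mem_left _ _ h1

theorem pow_sub_pow_mem {I : Ideal 𝒪} {x y : 𝒪} (h : x - y ∈ I) (j : ℕ) : x ^ j - y ^ j ∈ I := by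
  obtain ⟨c, hc⟩ := sub_dvd_pow_sub_pow x y j
  rw [hc]
  exact Ideal.mul_mem_right _ _ h

/-- **two adically continuous characters agreeing on the Frobenius lifts outside `Sg` are equal** -/
theorem eq_of_eqOn_frobSet (hsep : ∀ x : 𝒪, (∀ n, x ∈ maximalIdeal 𝒪 ^ n) → x = 0)
    (Sg : Finset ℕ) {θ₁ θ₂ : GQ →* 𝒪} (h₁ : IsAdicContinuousChar 𝒪 θ₁)
    (h₂ : IsAdicContinuousChar 𝒪 θ₂) (h : ∀ τ ∈ frobSet Sg, θ₁ τ = θ₂ τ) (σ : GQ) :
    θ₁ σ = θ₂ σ := by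
  rw [← sub_eq_zero]
  refine hsep _ fun n => ?_
  obtain ⟨L₁, hL₁fin, hL₁⟩ := h₁ n
  obtain ⟨L₂, hL₂fin, hL₂⟩ := h₂ n
  haveI := hL₁fin
  haveI := hL₂fin
  obtain ⟨ℓ, hℓ, hℓS, A, τ, k, j, hA, hτ, e1, e2⟩ :=
    density Sg (L₁ ⊔ L₂) (IntermediateField.finiteDimensional_sup L₁ L₂) σ
  have hτ' : θ₁ τ = θ₂ τ := h τ ⟨ℓ, hℓ, hℓS, A, hA, hτ⟩
  -- for each of the two characters, `θ σ ≡ (θ τ) ^ j`
  have key : ∀ (θ : GQ →* 𝒪) (L : IntermediateField ℚ Qbar), L ≤ L₁ ⊔ L₂ →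
      (∀ σ : GQ, (∀ x ∈ L, σ x = x) → θ σ - 1 ∈ maximalIdeal 𝒪 ^ n) →
      θ σ - θ τ ^ j ∈ maximalIdeal 𝒪 ^ n := by
    intro θ L hle hL
    have a1 : θ σ - θ ((σ ^ k) ^ j) ∈ maximalIdeal 𝒪 ^ n :=
      sub_mem_of_eqOn hL (fun x hx => (e2 x (hle hx)).symm)
    have a2 : θ τ - θ (σ ^ k) ∈ maximalIdeal 𝒪 ^ n :=
      sub_mem_of_eqOn hL (fun x hx => e1 x (hle hx))
    have a3 : θ (σ ^ k) ^ j - θ τ ^ j ∈ maximalIdeal 𝒪 ^ n := by
      have := pow_sub_pow_mem a2 j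
      rw [← neg_sub]
      exact Ideal.neg_mem_iff _ |>.2 this
    have : θ σ - θ τ ^ j = (θ σ - θ ((σ ^ k) ^ j)) + (θ (σ ^ k) ^ j - θ τ ^ j) := by
      rw [map_pow θ (σ ^ k) j]; ring
    rw [this]
    exact Ideal.add_mem _ a1 a3
  have k1 := key θ₁ L₁ le_sup_left hL₁
  have k2 := key θ₂ L₂ le_sup_right hL₂
  have : θ₁ σ - θ₂ σ = (θ₁ σ - θ₁ τ ^ j) - (θ₂ σ - θ₂ τ ^ j) := by rw [hτ']; ring
  rw [this]
  exact Ideal.sub_mem _ k1 k2

/-- the determinant of an adic Galois representation of rank two is an adically continuous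
character -/
theorem isAdicContinuousChar_det (ρ : GaloisRepAdic 𝒪) :
    IsAdicContinuousChar 𝒪 (LinearMap.det.comp ρ.ρ) := by
  classical
  intro n
  obtain ⟨L, hL, h⟩ := ρ.isAdicContinuous n
  refine ⟨L, hL, fun σ hσ => ?_⟩
  rcases subsingleton_or_nontrivial 𝒪 with hs | hs
  · rw [Subsingleton.elim (_ - 1 : 𝒪) 0]; exact Ideal.zero_mem _
  let b := Module.finBasisOfFinrankEq 𝒪 ρ.V ρ.finrank_eq
  have hent : ∀ i j : Fin 2, LinearMap.toMatrix b b (ρ.ρ σ) i j - (1 : Matrix (Fin 2) (Fin 2) 𝒪) i j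
      ∈ maximalIdeal 𝒪 ^ n := by
    intro i j
    have h1 := DetLemma.End.repr_mem_of_mem_smul_top b _ _ (h σ hσ (b j)) i
    rw [map_sub, Finsupp.sub_apply] at h1
    rw [LinearMap.toMatrix_apply, Matrix.one_apply]
    have h2 : b.repr (b j) i = if i = j then 1 else 0 := by
      rw [b.repr_self, Finsupp.single_apply]
      simp only [eq_comm]
    rw [h2] at h1
    exact h1
  change LinearMap.det (ρ.ρ σ) - 1 ∈ _
  rw [← LinearMap.det_toMatrix b, Matrix.det_fin_two]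
  set m := LinearMap.toMatrix b b (ρ.ρ σ) with hm
  have e00 := hent 0 0
  have e01 := hent 0 1
  have e10 := hent 1 0
  have e11 := hent 1 1
  simp only [Matrix.one_apply_eq, Matrix.one_apply_ne (show (0 : Fin 2) ≠ 1 by decide),
    Matrix.one_apply_ne (show (1 : Fin 2) ≠ 0 by decide), sub_zero] at e00 e01 e10 e11
  have : m 0 0 * m 1 1 - m 0 1 * m 1 0 - 1 =
      (m 0 0 - 1) * m 1 1 + (m 1 1 - 1) - m 0 1 * m 1 0 := by ring
  rw [this]
  exact Ideal.sub_mem _ (Ideal.add_mem _ (Ideal.mul_mem_right _ _ e00) e11)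
    (Ideal.mul_mem_right _ _ e01)

/-- an adically complete local ring is separated -/
theorem separated [IsAdicComplete (maximalIdeal 𝒪) 𝒪] (x : 𝒪)
    (hx : ∀ n, x ∈ maximalIdeal 𝒪 ^ n) : x = 0 := by
  have hH : IsHausdorff (maximalIdeal 𝒪) 𝒪 := inferInstance
  apply hH.haus'
  intro n
  rw [SModEq.zero, smul_eq_mul, Ideal.mul_top]
  exact hx n

section Main

variable (p : ℕ) [Fact p.Prime]

/-- **`det ρ` is the cyclotomic character** for every `ρ` with the characteristic polynomials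
`X² - a_ℓ X + ℓ` at the Frobenius lifts outside `Sg ∋ p`. -/
theorem det_eq_cycChar_of_frobCharpoly
    (hsep : ∀ x : 𝒪, (∀ n, x ∈ maximalIdeal 𝒪 ^ n) → x = 0)
    (hp : (p : 𝒪) ∈ maximalIdeal 𝒪) (ι : ℤ_[p] →+* 𝒪)
    (Sg : Finset ℕ) (hpS : p ∈ Sg) (a : ℕ → 𝒪) (ρ : GaloisRepAdic 𝒪)
    (hchar : FrobCharpoly ρ Sg a) (σ : GQ) :
    LinearMap.det (ρ.ρ σ) = Cyclotomic.cycChar p ι σ := by
  refine eq_of_eqOn_frobSet hsep Sg (θ₁ := LinearMap.det.comp ρ.ρ) (isAdicContinuousChar_det ρ)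
    (Cyclotomic.cycChar_continuous p ι (maximalIdeal 𝒪) hp) ?_ σ
  rintro τ ⟨ℓ, hℓ, hℓS, A, hA, hτ⟩
  have hℓp : ℓ ≠ p := fun h => hℓS (h ▸ hpS)
  rw [Cyclotomic.cycChar_isFrobeniusAt p ι hℓ hℓp A hA τ hτ]
  change LinearMap.det (ρ.ρ τ) = _
  have hc := hchar ℓ hℓ hℓS A hA τ hτ
  have h0 := congrArg (fun P : 𝒪[X] => P.coeff 0) hc
  simp only [coeff_add, coeff_sub, coeff_X_pow, coeff_C_mul, coeff_X_zero, coeff_C_zero] at h0
  have hdet : (LinearMap.charpoly (ρ.ρ τ)).coeff 0 = LinearMap.det (ρ.ρ τ) := by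
    rcases subsingleton_or_nontrivial 𝒪 with hs | hs
    · exact Subsingleton.elim _ _
    let b := Module.finBasisOfFinrankEq 𝒪 ρ.V ρ.finrank_eq
    rw [← LinearMap.charpoly_toMatrix (ρ.ρ τ) b, Matrix.charpoly_fin_two,
      ← LinearMap.det_toMatrix b]
    simp
  rw [← hdet, h0]
  simp

/-- **`det ρ(σ) = q` at every Frobenius lift at any prime `q ≠ p`** (also for `q` dividing the
level). -/
theorem det_frobenius_eq
    (hp : (p : 𝒪) ∈ maximalIdeal 𝒪) [IsAdicComplete (maximalIdeal 𝒪) 𝒪]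
    (Sg : Finset ℕ) (hpS : p ∈ Sg) (a : ℕ → 𝒪) (ρ : GaloisRepAdic 𝒪)
    (hchar : FrobCharpoly ρ Sg a) {q : ℕ} (hq : q.Prime) (hqp : q ≠ p)
    (A : ValuationSubring Qbar) (hA : A.LiesOverPrime q) (σ : GQ) (hσ : A.IsFrobeniusAt σ q) :
    LinearMap.det (ρ.ρ σ) = (q : 𝒪) := by
  obtain ⟨ι⟩ := Cyclotomic.exists_ringHom p (maximalIdeal 𝒪) hp
  rw [det_eq_cycChar_of_frobCharpoly p separated hp ι Sg hpS a ρ hchar σ,
    Cyclotomic.cycChar_isFrobeniusAt p ι hq hqp A hA σ hσ]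

/-- `det ρ(σ) = 1` on inertia at `q ≠ p`. -/
theorem det_inertia_eq_one
    (hp : (p : 𝒪) ∈ maximalIdeal 𝒪) [IsAdicComplete (maximalIdeal 𝒪) 𝒪]
    (Sg : Finset ℕ) (hpS : p ∈ Sg) (a : ℕ → 𝒪) (ρ : GaloisRepAdic 𝒪)
    (hchar : FrobCharpoly ρ Sg a) {q : ℕ} (hq : q.Prime) (hqp : q ≠ p)
    (A : ValuationSubring Qbar) (hA : A.LiesOverPrime q) (σ : GQ)
    (hσ : σ ∈ A.inertiaSubgroupIn ℚ) :
    LinearMap.det (ρ.ρ σ) = 1 := by
  obtain ⟨ι⟩ := Cyclotomic.exists_ringHom p (maximalIdeal 𝒪) hp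
  rw [det_eq_cycChar_of_frobCharpoly p separated hp ι Sg hpS a ρ hchar σ,
    Cyclotomic.cycChar_inertia p ι hq hqp A hA σ hσ]

end Main

end Fermat.Agent.S35.DetCyc
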