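/-
PROJECT S35, layer (N2) (helper24): the two "one Frobenius step" hypotheses `hstep1`, `hstep2` of
helper18's `S35/FrobZX0.frobDatum_of_step`, literally: for a Frobenius element `σ` at `A`
(`q ∤ M`), `R₁` a `SmoothRed` of `E = ℚ̄(X₀(M q))` with
`R₁.r = rOne r (restrAlong α hα) (restrAlong β hβ) Fr good` (`Fr = FrobK.Fr k M q`, `good` `Fr`-stable):

* `r1_smul_frobenius` : `R₁.r (σ_E • P) = Option.map Fr (R₁.r P)`;
* `r2_smul_frobenius` : `(smoothRedComap R₁ w_q).r (σ_E • P) = Option.map Fr ((smoothRedComap R₁ w_q).r P)`.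
-/
import Mathlib
import Fermat.Agent.S35.FrobSp

set_option autoImplicit false
set_option linter.unusedSectionVars false
set_option linter.style.haveILetI false

noncomputable section

namespace Fermat.Agent.S35.FrobSpComap

open AlgebraicCurve ModularCurve IsLocalRing
open Fermat.Agent.S34.NodalDefs Fermat.Agent.S34.Generic.Compat
open Fermat.Agent.S34.Generic.RestrAlong Fermat.Agent.S34.Generic.SmoothRedOfGeneric
open Fermat.Agent.S34.WqGalois Fermat.Agent.S34.FrobK Fermat.Agent.S35.FrobSp

local notation "Kb" => AlgebraicClosure ℚ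

set_option synthInstance.maxHeartbeats 400000

/-- instance shortcut (as in `S37/Equivariance/PlaceEquiv`) -/
noncomputable local instance algShortcut (A : ValuationSubring Kb) (N : ℕ) [NeZero N] :
    Algebra (ResidueField A) ↥(modularFunctionFieldFullC (ResidueField A) N) :=
  SubalgebraClass.toAlgebra (modularFunctionFieldFullC (ResidueField A) N)

variable {q : ℕ} [hq : Fact q.Prime] {M : ℕ} [NeZero M] [NeZero q] {A : ValuationSubring Kb}
variable {r : Place Kb ↥(modularFunctionFieldBar M) →
  Place (ResidueField A) ↥(modularFunctionFieldFullC (ResidueField A) M)}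
variable (hA : A.LiesOverPrime q) (hqM : ¬ q ∣ M)
variable (hr : IsPlaceReductionAlong A (residue A) M r)
variable (hgen : PrincipalGeneratedByIntegral A (residue A) M)
variable (hα : (heckeAlphaBar Kb M q).toRingHom.IsIntegral)
variable (hβ : (heckeBetaBar Kb M q).toRingHom.IsIntegral)
variable [CharP (ResidueField A) q] [PerfectField (ResidueField A)]
variable {σ : Kb ≃ₐ[ℚ] Kb} (hσ : A.IsFrobeniusAt σ q)
variable (good : Set (Place (ResidueField A) ↥(modularFunctionFieldFullC (ResidueField A) M)))
variable (hgood : ∀ Q, Fr (ResidueField A) M q Q ∈ good ↔ Q ∈ good)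
variable (R₁ : SmoothRed A (residue A) ↥(modularFunctionFieldBar (M * q))
  ↥(modularFunctionFieldFullC (ResidueField A) M))
variable (hR : R₁.r = rOne r (restrAlong (heckeAlphaBar Kb M q) hα)
  (restrAlong (heckeBetaBar Kb M q) hβ) (Fr (ResidueField A) M q) good)

include hA hqM hr hgen hσ hgood hR

/-- **one Frobenius step on the first component** -/
theorem r1_smul_frobenius (P : Place Kb ↥(modularFunctionFieldBar (M * q))) :
    R₁.r (arithmeticGalois (modularFunctionFieldFull (M * q)) σ • P) =
      Option.map (Fr (ResidueField A) M q) (R₁.r P) := by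
  rw [hR]
  exact rOne_smul_frobenius hA hqM hr hgen hα hβ hσ good hgood P

/-- **one Frobenius step on the second component** `smoothRedComap R₁ w_q` -/
theorem r2_smul_frobenius (P : Place Kb ↥(modularFunctionFieldBar (M * q))) :
    (smoothRedComap R₁ (wq M q hq.out hqM)).r
        (arithmeticGalois (modularFunctionFieldFull (M * q)) σ • P) =
      Option.map (Fr (ResidueField A) M q) ((smoothRedComap R₁ (wq M q hq.out hqM)).r P) := by
  rw [smoothRedComap_r_eq_rOne_swap r (heckeAlphaBar Kb M q) (heckeBetaBar Kb M q) hα hβ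
    (wq M q hq.out hqM) (fun g => wq_alpha hq.out hqM g) (fun g => wq_beta hq.out hqM g)
    (Fr (ResidueField A) M q) good R₁ hR]
  exact rOne_swap_smul_frobenius hA hqM hr hgen hα hβ hσ good hgood P

/-- the same for any `R₂` equal to `smoothRedComap R₁ w_q` -/
theorem r2_smul_frobenius_of_eq
    (R₂ : SmoothRed A (residue A) ↥(modularFunctionFieldBar (M * q))
      ↥(modularFunctionFieldFullC (ResidueField A) M))
    (hR2 : R₂ = smoothRedComap R₁ (wq M q hq.out hqM))
    (P : Place Kb ↥(modularFunctionFieldBar (M * q))) :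
    R₂.r (arithmeticGalois (modularFunctionFieldFull (M * q)) σ • P) =
      Option.map (Fr (ResidueField A) M q) (R₂.r P) := by
  subst hR2
  exact r2_smul_frobenius hA hqM hr hgen hα hβ hσ good hgood R₁ hR P

end Fermat.Agent.S35.FrobSpComap
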