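/-
S35 (downstream of PROJECT U), linear-algebra leaf in the form needed when the geometric input is
only available up to a finite-order factor (helper24).

`R` a domain of characteristic zero, `q ≥ 2`, `m ≥ 1`, `e` arbitrary,
`frobPolyR q m e = (X ^ m - 1) ^ e * (X ^ 2 - q ^ 2) ∈ R[X]`.

If a `2 × 2` matrix `M` over `R` (or an endomorphism `f` of a free module of rank two) has
determinant `q` and is killed by a polynomial `P` dividing `frobPolyR q m e`, then its
characteristic polynomial is `X² - (q+1) X + q` or `X² + (q+1) X + q`.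

Reason: over an algebraic closure the two eigenvalues `μ₁ μ₂ = q` are roots of `P`; if neither
is `± q` both are roots of unity, and then `q ^ m = 1`, absurd; if `μ₁ = ε q` then `μ₂ = ε`.

Use: `(X ^ r - 1) (X ^ 2 - 1) (X ^ 2 - q ^ 2)` (three layers `V/V₀`, `V₀ ∩ V_new / Z`, `Z` of the
`q`-new part of the torsion of `J₀(M)`, on which a Frobenius lift `σ` at `q ‖ M` satisfies
`σ^r = 1`, `σ² = 1`, `σ² = q²` respectively) divides `frobPolyR q (2 r) 2`;
`Fermat.Agent.S35.LinAlg.frobPoly q = (X² - 1)² (X² - q²)` is `frobPolyR q 2 2`.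
-/
import Mathlib

set_option autoImplicit false
set_option linter.style.haveILetI false
set_option linter.unusedSectionVars false

noncomputable section

namespace Fermat.Agent.S35.LinAlgR

open Polynomial

variable {R : Type*} [CommRing R]

/-- `(X ^ m - 1) ^ e * (X ^ 2 - q ^ 2)`. -/
def frobPolyR (R : Type*) [CommRing R] (q m e : ℕ) : R[X] :=
  (X ^ m - 1) ^ e * (X ^ 2 - C ((q : R) ^ 2))

theorem frobPolyR_map {S : Type*} [CommRing S] (φ : R →+* S) (q m e : ℕ) :
    (frobPolyR R q m e).map φ = frobPolyR S q m e := by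
  simp [frobPolyR]

theorem eval_frobPolyR (q m e : ℕ) (x : R) :
    (frobPolyR R q m e).eval x = (x ^ m - 1) ^ e * (x ^ 2 - (q : R) ^ 2) := by
  simp [frobPolyR]

/-- the three-layer polynomial divides `frobPolyR q (2 r) 2` -/
theorem layers_dvd (q r : ℕ) :
    ((X ^ r - 1) * (X ^ 2 - 1) * (X ^ 2 - C ((q : R) ^ 2)) : R[X]) ∣ frobPolyR R q (2 * r) 2 := by
  have h1 : ((X : R[X]) ^ r - 1) ∣ X ^ (2 * r) - 1 := by
    have := sub_dvd_pow_sub_pow ((X : R[X]) ^ r) 1 2
    rw [one_pow, ← pow_mul, mul_comm r 2] at this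
    exact this
  have h2 : ((X : R[X]) ^ 2 - 1) ∣ X ^ (2 * r) - 1 := by
    have := sub_dvd_pow_sub_pow ((X : R[X]) ^ 2) 1 r
    rw [one_pow, ← pow_mul] at this
    exact this
  have h3 : ((X : R[X]) ^ r - 1) * (X ^ 2 - 1) ∣ (X ^ (2 * r) - 1) ^ 2 := by
    rw [sq ((X : R[X]) ^ (2 * r) - 1)]
    exact mul_dvd_mul h1 h2
  exact mul_dvd_mul h3 dvd_rfl

/-- `(X² - 1)² (X² - q²) = frobPolyR q 2 2` -/
theorem frobPoly_eq (q : ℕ) :
    ((X ^ 2 - 1) ^ 2 * (X ^ 2 - C ((q : R) ^ 2)) : R[X]) = frobPolyR R q 2 2 := rfl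

/-! ### the scalar statement -/

section Field

variable {K : Type*} [Field K] [CharZero K]

theorem natCast_pow_ne_one {q m : ℕ} (hq : 2 ≤ q) (hm : 0 < m) : (q : K) ^ m ≠ 1 := by
  intro h
  have h1 : ((q ^ m : ℕ) : K) = ((1 : ℕ) : K) := by push_cast; exact h
  have h2 : q ^ m = 1 := Nat.cast_injective h1
  have h3 : 2 ^ m ≤ q ^ m := Nat.pow_le_pow_left hq m
  have h4 : 2 ≤ 2 ^ m := by
    calc 2 = 2 ^ 1 := (pow_one 2).symm
      _ ≤ 2 ^ m := Nat.pow_le_pow_right (by norm_num) hm
  omega

/-- if `a b = q`, `a + b = t` and both `a`, `b` are roots of `frobPolyR q m e`, then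
`t = ± (q + 1)` -/
theorem add_eq_of_roots {a b : K} {q m e : ℕ} (hq : 2 ≤ q) (hm : 0 < m)
    (hab : a * b = (q : K)) (ha : (frobPolyR K q m e).eval a = 0)
    (hb : (frobPolyR K q m e).eval b = 0) :
    a + b = (q : K) + 1 ∨ a + b = -((q : K) + 1) := by
  have hq0 : (q : K) ≠ 0 := by
    have : q ≠ 0 := by omega
    exact_mod_cast this
  rw [eval_frobPolyR] at ha hb
  -- a root with square `q²`
  have key : ∀ x y : K, x * y = (q : K) → x ^ 2 - (q : K) ^ 2 = 0 →
      x + y = (q : K) + 1 ∨ x + y = -((q : K) + 1) := by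
    intro x y hxy hx
    have h1 : x ^ 2 = (q : K) ^ 2 := by linear_combination hx
    rcases sq_eq_sq_iff_eq_or_eq_neg.1 h1 with h' | h'
    · left
      have hy : y = 1 := by
        rw [h'] at hxy
        have : (q : K) * y = (q : K) * 1 := by rw [hxy, mul_one]
        exact mul_left_cancel₀ hq0 this
      rw [h', hy]
    · right
      have hy : y = -1 := by
        rw [h'] at hxy
        have : (q : K) * y = (q : K) * (-1) := by linear_combination -hxy
        exact mul_left_cancel₀ hq0 this
      rw [h', hy]; ring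
  rcases mul_eq_zero.1 ha with ha1 | ha2
  · rcases mul_eq_zero.1 hb with hb1 | hb2
    · -- both are roots of unity: impossible
      exfalso
      have h1 : a ^ m = 1 := by
        by_cases he : e = 0
        · subst he
          simp at ha1
        · have := (pow_eq_zero_iff he).1 ha1
          linear_combination this
      have h2 : b ^ m = 1 := by
        by_cases he : e = 0
        · subst he
          simp at hb1
        · have := (pow_eq_zero_iff he).1 hb1
          linear_combination this
      apply natCast_pow_ne_one (K := K) hq hm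
      rw [← hab, mul_pow, h1, h2, mul_one]
    · have := key b a (by rw [mul_comm]; exact hab) hb2
      rwa [add_comm] at this
  · exact key a b hab ha2

end Field

/-! ### matrices -/

namespace Mat

section AlgClosed

variable {K : Type*} [Field K] [IsAlgClosed K] [CharZero K]

/-- a root of the characteristic polynomial is a root of every annihilating polynomial -/
theorem eval_eq_zero_of_isRoot_charpoly {n : Type*} [Fintype n] [DecidableEq n]
    (N : Matrix n n K) (P : K[X]) (hP : aeval N P = 0) {μ : K} (hμ : N.charpoly.IsRoot μ) :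
    P.eval μ = 0 := by
  have h1 : (Matrix.toLin' N).charpoly.IsRoot μ := by
    rwa [Matrix.charpoly_toLin']
  have h2 : Module.End.HasEigenvalue (Matrix.toLin' N) μ :=
    (Module.End.hasEigenvalue_iff_isRoot_charpoly _ μ).2 h1
  obtain ⟨v, hv⟩ := h2.exists_hasEigenvector
  have h3 := Module.End.aeval_apply_of_hasEigenvector (p := P) hv
  have h4 : aeval (Matrix.toLin' N) P = 0 := by
    have : Matrix.toLin' N = Matrix.toLinAlgEquiv' N := rfl
    rw [this, Polynomial.aeval_algHom_apply, hP, map_zero]
  rw [h4, LinearMap.zero_apply] at h3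
  exact (smul_eq_zero.1 h3.symm).resolve_right hv.2

theorem trace_of_aeval_algClosed {N : Matrix (Fin 2) (Fin 2) K} {q m e : ℕ} (hq : 2 ≤ q)
    (hm : 0 < m) (hdet : N.det = (q : K)) (hP : aeval N (frobPolyR K q m e) = 0) :
    N.trace = (q : K) + 1 ∨ N.trace = -((q : K) + 1) := by
  have hcp : N.charpoly = X ^ 2 - C N.trace * X + C N.det := Matrix.charpoly_fin_two N
  have hdeg : N.charpoly.degree ≠ 0 := by
    rw [Matrix.charpoly_degree_eq_dim]
    simp
  obtain ⟨a, ha⟩ := IsAlgClosed.exists_root N.charpoly hdeg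
  have ha' : a ^ 2 - N.trace * a + (q : K) = 0 := by
    have := ha
    rw [IsRoot.def, hcp, hdet] at this
    simpa using this
  set b : K := N.trace - a with hb
  have hab : a * b = (q : K) := by rw [hb]; linear_combination -ha'
  have hbroot : N.charpoly.IsRoot b := by
    rw [IsRoot.def, hcp, hdet]
    simp only [eval_add, eval_sub, eval_pow, eval_X, eval_mul, eval_C]
    rw [hb]; linear_combination ha'
  have h1 := eval_eq_zero_of_isRoot_charpoly N _ hP ha
  have h2 := eval_eq_zero_of_isRoot_charpoly N _ hP hbroot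
  have := add_eq_of_roots hq hm hab h1 h2
  have hsum : a + b = N.trace := by rw [hb]; ring
  rwa [hsum] at this

end AlgClosed

variable [IsDomain R] [CharZero R]

/-- **Key statement**: `det M = q` and `frobPolyR q m e (M) = 0` force `tr M = ± (q + 1)`. -/
theorem trace_of_aeval {M : Matrix (Fin 2) (Fin 2) R} {q m e : ℕ} (hq : 2 ≤ q) (hm : 0 < m)
    (hdet : M.det = (q : R)) (hP : aeval M (frobPolyR R q m e) = 0) :
    M.trace = (q : R) + 1 ∨ M.trace = -((q : R) + 1) := by
  let K := AlgebraicClosure (FractionRing R)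
  let φ : R →+* K := algebraMap R K
  have hφ : Function.Injective φ := by
    have h1 : Function.Injective (algebraMap R (FractionRing R)) := IsFractionRing.injective _ _
    have h2 : Function.Injective (algebraMap (FractionRing R) K) :=
      FaithfulSMul.algebraMap_injective (FractionRing R) K
    have : φ = (algebraMap (FractionRing R) K).comp (algebraMap R (FractionRing R)) :=
      IsScalarTower.algebraMap_eq R (FractionRing R) K
    rw [this]
    exact h2.comp h1
  haveI : CharZero K := charZero_of_injective_ringHom hφ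
  set N : Matrix (Fin 2) (Fin 2) K := φ.mapMatrix M with hN
  have hdetN : N.det = (q : K) := by
    rw [hN, ← RingHom.map_det, hdet, map_natCast]
  have hPN : aeval N (frobPolyR K q m e) = 0 := by
    have h := Polynomial.map_aeval_eq_aeval_map (φ := φ) (ψ := φ.mapMatrix)
      (S := Matrix (Fin 2) (Fin 2) R) (U := Matrix (Fin 2) (Fin 2) K) (by
        ext r i j
        simp [Matrix.algebraMap_matrix_apply, apply_ite φ]) (frobPolyR R q m e) M
    rw [hP, map_zero, frobPolyR_map] at h
    exact h.symm
  have htr : N.trace = φ M.trace := by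
    rw [hN]
    simp [Matrix.trace, Fin.sum_univ_two]
  rcases trace_of_aeval_algClosed hq hm hdetN hPN with h | h
  · left
    apply hφ
    rw [← htr, h]
    simp
  · right
    apply hφ
    rw [← htr, h]
    simp

/-- **The characteristic polynomial** is `X² - (q+1) X + q` or `X² + (q+1) X + q`. -/
theorem charpoly_of_aeval {M : Matrix (Fin 2) (Fin 2) R} {q m e : ℕ} (hq : 2 ≤ q) (hm : 0 < m)
    (hdet : M.det = (q : R)) (hP : aeval M (frobPolyR R q m e) = 0) :
    M.charpoly = X ^ 2 - C ((q : R) + 1) * X + C (q : R) ∨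
      M.charpoly = X ^ 2 + C ((q : R) + 1) * X + C (q : R) := by
  rw [Matrix.charpoly_fin_two, hdet]
  rcases trace_of_aeval hq hm hdet hP with h' | h'
  · left; rw [h']
  · right; rw [h', C_neg, neg_mul, sub_neg_eq_add]

/-- the same for any annihilating polynomial dividing `frobPolyR q m e` -/
theorem charpoly_of_aeval_of_dvd {M : Matrix (Fin 2) (Fin 2) R} {q m e : ℕ} (hq : 2 ≤ q)
    (hm : 0 < m) (hdet : M.det = (q : R)) {P : R[X]} (hdvd : P ∣ frobPolyR R q m e)
    (hP : aeval M P = 0) :
    M.charpoly = X ^ 2 - C ((q : R) + 1) * X + C (q : R) ∨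
      M.charpoly = X ^ 2 + C ((q : R) + 1) * X + C (q : R) :=
  charpoly_of_aeval hq hm hdet (Polynomial.aeval_eq_zero_of_dvd_aeval_eq_zero hdvd hP)

end Mat

/-! ### endomorphisms -/

section EndVersion

variable [IsDomain R] [CharZero R] {V : Type*} [AddCommGroup V] [Module R V]
  [Module.Free R V] [Module.Finite R V]

/-- **Endomorphism version**: `f` on a free module of rank two with `det f = q`, killed by a
divisor `P` of `frobPolyR q m e`, has characteristic polynomial `X² ∓ (q+1) X + q`. -/
theorem charpoly_of_aeval (b : Module.Basis (Fin 2) R V) (f : Module.End R V) {q m e : ℕ}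
    (hq : 2 ≤ q) (hm : 0 < m) (hdet : LinearMap.det f = (q : R)) {P : R[X]}
    (hdvd : P ∣ frobPolyR R q m e) (hP : aeval f P = 0) :
    LinearMap.charpoly f = X ^ 2 - C ((q : R) + 1) * X + C (q : R) ∨
      LinearMap.charpoly f = X ^ 2 + C ((q : R) + 1) * X + C (q : R) := by
  rw [← LinearMap.charpoly_toMatrix f b]
  apply Mat.charpoly_of_aeval_of_dvd hq hm _ hdvd
  · have h := congrArg (LinearMap.toMatrixAlgEquiv b) hP
    rw [map_zero, ← Polynomial.aeval_algHom_apply] at h
    exact h
  · rw [LinearMap.det_toMatrix, hdet]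

/-- The same from a basis-free rank hypothesis. -/
theorem charpoly_of_aeval'
    (hV : Module.finrank R V = 2) (f : Module.End R V) {q m e : ℕ}
    (hq : 2 ≤ q) (hm : 0 < m) (hdet : LinearMap.det f = (q : R)) {P : R[X]}
    (hdvd : P ∣ frobPolyR R q m e) (hP : aeval f P = 0) :
    LinearMap.charpoly f = X ^ 2 - C ((q : R) + 1) * X + C (q : R) ∨
      LinearMap.charpoly f = X ^ 2 + C ((q : R) + 1) * X + C (q : R) :=
  charpoly_of_aeval (Module.finBasisOfFinrankEq R V hV) f hq hm hdet hdvd hP

/-- the three-layer form: `(f^r - 1)(f² - 1)(f² - q²) = 0`, `det f = q`, `r ≥ 1`. -/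
theorem charpoly_of_layers
    (hV : Module.finrank R V = 2) (f : Module.End R V) {q r : ℕ}
    (hq : 2 ≤ q) (hr : 0 < r) (hdet : LinearMap.det f = (q : R))
    (hP : aeval f ((X ^ r - 1) * (X ^ 2 - 1) * (X ^ 2 - C ((q : R) ^ 2)) : R[X]) = 0) :
    LinearMap.charpoly f = X ^ 2 - C ((q : R) + 1) * X + C (q : R) ∨
      LinearMap.charpoly f = X ^ 2 + C ((q : R) + 1) * X + C (q : R) :=
  charpoly_of_aeval' hV f hq (by omega : 0 < 2 * r) hdet (layers_dvd q r) hP

end EndVersion

/-! ### the scalar twin -/

section Scalar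

variable [IsDomain R] [CharZero R]

/-- **Scalar twin**: if `a b = q`, and `a`, `b` are roots of a divisor of `frobPolyR q m e`, then
`a + b = ± (q + 1)` (so `(X - a)(X - b) = X² ∓ (q+1) X + q`). -/
theorem add_eq_of_roots_of_dvd {a b : R} {q m e : ℕ} (hq : 2 ≤ q) (hm : 0 < m)
    (hab : a * b = (q : R)) {P : R[X]} (hdvd : P ∣ frobPolyR R q m e)
    (ha : P.eval a = 0) (hb : P.eval b = 0) :
    a + b = (q : R) + 1 ∨ a + b = -((q : R) + 1) := by
  let K := FractionRing R
  have hφ : Function.Injective (algebraMap R K) := IsFractionRing.injective _ _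
  haveI : CharZero K := charZero_of_injective_ringHom hφ
  obtain ⟨Q, hQ⟩ := hdvd
  have ha' : (frobPolyR R q m e).eval a = 0 := by rw [hQ, eval_mul, ha, zero_mul]
  have hb' : (frobPolyR R q m e).eval b = 0 := by rw [hQ, eval_mul, hb, zero_mul]
  have hmapa : (frobPolyR K q m e).eval (algebraMap R K a) = 0 := by
    rw [← frobPolyR_map (algebraMap R K), eval_map, eval₂_at_apply, ha', map_zero]
  have hmapb : (frobPolyR K q m e).eval (algebraMap R K b) = 0 := by
    rw [← frobPolyR_map (algebraMap R K), eval_map, eval₂_at_apply, hb', map_zero]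
  have habK : algebraMap R K a * algebraMap R K b = (q : K) := by
    rw [← map_mul, hab, map_natCast]
  rcases add_eq_of_roots hq hm habK hmapa hmapb with h | h
  · left
    apply hφ
    rw [map_add, h]; simp
  · right
    apply hφ
    rw [map_add, h]; simp

end Scalar

end Fermat.Agent.S35.LinAlgR
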