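/-
S35, layer (M1) of (NEW-σ), abstract form (helper3).

Setting: a field `E` (the function field of `X₀(Mq)` over `ℚ̄`) with two valuation rings
`V₁`, `V₂` (the two Gauss rings above `q`) and residue maps `rᵢ : Vᵢ →+* κ` onto a common field
`κ` (the function field of `X₀(M)` over `𝔽̄_q`), ring automorphisms `A`, `B` of `κ` (the two
"norm" automorphisms `y ↦ φ⁻¹(y^q)` coming from the purely inseparable residue extensions along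
the two degeneracy maps) and a ring automorphism `s` of `E` (the square of a Frobenius lift)
which preserves `V₁`, `V₂` and induces `A ∘ B`, resp. `B ∘ A`, on the residue fields.

If `f` is a unit at both `V₁` and `V₂` such that the two "reduced norms"
`r₁ f * A (r₂ f)` and `B (r₁ f) * r₂ f` are `n`-th powers (this is what `α_* y = 0 = β_* y`
gives for a Kummer representative `f` of `y ∈ J[n]`, by the norm formulas), then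
`s f / f` is, up to an `n`-th power `h ^ n`, a ONE-UNIT at both `V₁` and `V₂`:
`(σ² - 1) y` lies in the toric layer `Z`.

No divisors, no places, no nodes: pure algebra over Mathlib.
-/
import Mathlib

set_option autoImplicit false

namespace Fermat.Agent.S35.NewLayer

variable {E κ : Type*} [Field E] [Field κ]

section Residue

variable {V : ValuationSubring E} (r : V →+* κ) (hr : ∀ u : V, r u = 0 ↔ ¬ IsUnit u)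
include hr

/-- An element with nonzero residue is a unit: its inverse is integral, with inverse residue. -/
theorem exists_inv_mem {x : E} (hx : x ∈ V) (h : r ⟨x, hx⟩ ≠ 0) :
    ∃ h' : x⁻¹ ∈ V, r ⟨x⁻¹, h'⟩ = (r ⟨x, hx⟩)⁻¹ := by
  have hu : IsUnit (⟨x, hx⟩ : V) := not_not.1 (mt (hr _).2 h)
  obtain ⟨u, hu⟩ := hu
  have hx0 : x ≠ 0 := by
    rintro rfl
    apply h
    have : (⟨0, hx⟩ : V) = 0 := rfl
    rw [this, map_zero]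
  have h1 : x * (((u⁻¹ : Vˣ) : V) : E) = 1 := by
    have := congrArg (fun v : V => (v : E)) (u.mul_inv)
    simpa [hu] using this
  have h2 : x⁻¹ = (((u⁻¹ : Vˣ) : V) : E) := by
    field_simp
    exact h1.symm
  have hmem : x⁻¹ ∈ V := h2 ▸ ((u⁻¹ : Vˣ) : V).2
  refine ⟨hmem, ?_⟩
  have h3 : (⟨x⁻¹, hmem⟩ : V) = ((u⁻¹ : Vˣ) : V) := Subtype.ext h2
  rw [h3]
  have h4 : r ((u⁻¹ : Vˣ) : V) * r (u : V) = 1 := by
    rw [← map_mul, Units.inv_mul, map_one]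
  rw [hu] at h4
  exact eq_inv_of_mul_eq_one_left h4

/-- Quotients by elements with nonzero residue. -/
theorem exists_div_mem {x y : E} (hx : x ∈ V) (hy : y ∈ V) (h : r ⟨y, hy⟩ ≠ 0) :
    ∃ h' : x / y ∈ V, r ⟨x / y, h'⟩ = r ⟨x, hx⟩ / r ⟨y, hy⟩ := by
  obtain ⟨hi, hri⟩ := exists_inv_mem r hr hy h
  have hmem : x / y ∈ V := by
    rw [div_eq_mul_inv]; exact V.mul_mem _ _ hx hi
  refine ⟨hmem, ?_⟩
  have : (⟨x / y, hmem⟩ : V) = ⟨x, hx⟩ * ⟨y⁻¹, hi⟩ := Subtype.ext (div_eq_mul_inv x y)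
  rw [this, map_mul, hri, div_eq_mul_inv]

omit hr in
/-- Residues of powers. -/
theorem pow_mem_residue {x : E} (hx : x ∈ V) (n : ℕ) :
    ∃ h' : x ^ n ∈ V, r ⟨x ^ n, h'⟩ = r ⟨x, hx⟩ ^ n :=
  ⟨V.pow_mem hx n, by
    have : (⟨x ^ n, V.pow_mem hx n⟩ : V) = ⟨x, hx⟩ ^ n := rfl
    rw [this, map_pow]⟩

omit hr in
/-- Residues of products. -/
theorem mul_mem_residue {x y : E} (hx : x ∈ V) (hy : y ∈ V) :
    ∃ h' : x * y ∈ V, r ⟨x * y, h'⟩ = r ⟨x, hx⟩ * r ⟨y, hy⟩ :=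
  ⟨V.mul_mem _ _ hx hy, by
    have : (⟨x * y, V.mul_mem _ _ hx hy⟩ : V) = ⟨x, hx⟩ * ⟨y, hy⟩ := rfl
    rw [this, map_mul]⟩

end Residue

/-- The residue computation behind `(M1)`: from `f₁ * A f₂ = z_a ^ n` and `B f₁ * f₂ = z_b ^ n`
one gets `A (B f₁) = f₁ * (A z_b / z_a) ^ n` and `B (A f₂) = f₂ * (B z_a / z_b) ^ n`. -/
theorem residue_identity (A B : κ ≃+* κ) {n : ℕ} {f₁ f₂ za zb : κ}
    (hf₁ : f₁ ≠ 0) (hf₂ : f₂ ≠ 0)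
    (ha : f₁ * A f₂ = za ^ n) (hb : B f₁ * f₂ = zb ^ n) :
    A (B f₁) = f₁ * (A zb / za) ^ n ∧ B (A f₂) = f₂ * (B za / zb) ^ n := by
  have hAf₂ : A f₂ ≠ 0 := (map_ne_zero A).2 hf₂
  have hBf₁ : B f₁ ≠ 0 := (map_ne_zero B).2 hf₁
  have hza : za ^ n ≠ 0 := ha ▸ mul_ne_zero hf₁ hAf₂
  have hzb : zb ^ n ≠ 0 := hb ▸ mul_ne_zero hBf₁ hf₂
  have hAb : A (B f₁) * A f₂ = A zb ^ n := by rw [← map_mul, hb, map_pow]
  have hBa : B f₁ * B (A f₂) = B za ^ n := by rw [← map_mul, ha, map_pow]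
  constructor
  · rw [div_pow, ← ha, ← hAb]
    field_simp
  · rw [div_pow, ← hb, ← hBa]
    field_simp

/-- **Layer (M1), abstract form.**  If the two reduced norms of a unit `f` (at both `V₁`, `V₂`)
are `n`-th powers, then `s f / f` is an `n`-th power times a one-unit at both `V₁` and `V₂`. -/
theorem exists_oneUnit_rep
    (V₁ V₂ : ValuationSubring E) (r₁ : V₁ →+* κ) (r₂ : V₂ →+* κ)
    (hr₁ : ∀ u : V₁, r₁ u = 0 ↔ ¬ IsUnit u) (hr₂ : ∀ u : V₂, r₂ u = 0 ↔ ¬ IsUnit u)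
    (A B : κ ≃+* κ) (s : E ≃+* E)
    (hs₁ : ∀ (u : E) (hu : u ∈ V₁), ∃ h : s u ∈ V₁, r₁ ⟨s u, h⟩ = A (B (r₁ ⟨u, hu⟩)))
    (hs₂ : ∀ (u : E) (hu : u ∈ V₂), ∃ h : s u ∈ V₂, r₂ ⟨s u, h⟩ = B (A (r₂ ⟨u, hu⟩)))
    (hsurj : ∀ a₁ a₂ : κ, ∃ (h : E) (h₁ : h ∈ V₁) (h₂ : h ∈ V₂),
      r₁ ⟨h, h₁⟩ = a₁ ∧ r₂ ⟨h, h₂⟩ = a₂)
    (n : ℕ) (hn : n ≠ 0) (f : E) (hf₁ : f ∈ V₁) (hf₂ : f ∈ V₂)
    (hf₁' : r₁ ⟨f, hf₁⟩ ≠ 0) (hf₂' : r₂ ⟨f, hf₂⟩ ≠ 0)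
    (ha : ∃ z : κ, r₁ ⟨f, hf₁⟩ * A (r₂ ⟨f, hf₂⟩) = z ^ n)
    (hb : ∃ z : κ, B (r₁ ⟨f, hf₁⟩) * r₂ ⟨f, hf₂⟩ = z ^ n) :
    ∃ h : E, h ≠ 0 ∧ ∃ (h₁ : s f / (f * h ^ n) ∈ V₁) (h₂ : s f / (f * h ^ n) ∈ V₂),
      r₁ ⟨s f / (f * h ^ n), h₁⟩ = 1 ∧ r₂ ⟨s f / (f * h ^ n), h₂⟩ = 1 := by
  obtain ⟨za, hza⟩ := ha
  obtain ⟨zb, hzb⟩ := hb
  obtain ⟨e₁, e₂⟩ := residue_identity A B hf₁' hf₂' hza hzb
  -- the two `n`-th roots are nonzero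
  have hA0 : A (B (r₁ ⟨f, hf₁⟩)) ≠ 0 := (map_ne_zero A).2 ((map_ne_zero B).2 hf₁')
  have hB0 : B (A (r₂ ⟨f, hf₂⟩)) ≠ 0 := (map_ne_zero B).2 ((map_ne_zero A).2 hf₂')
  have ha₁ : (A zb / za) ^ n ≠ 0 := by
    intro h0; rw [h0, mul_zero] at e₁; exact hA0 e₁
  have ha₂ : (B za / zb) ^ n ≠ 0 := by
    intro h0; rw [h0, mul_zero] at e₂; exact hB0 e₂
  obtain ⟨h, h₁, h₂, hh₁, hh₂⟩ := hsurj (A zb / za) (B za / zb)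
  obtain ⟨hp₁, hrp₁⟩ := pow_mem_residue r₁ h₁ n
  obtain ⟨hp₂, hrp₂⟩ := pow_mem_residue r₂ h₂ n
  obtain ⟨hm₁, hrm₁⟩ := mul_mem_residue r₁ hf₁ hp₁
  obtain ⟨hm₂, hrm₂⟩ := mul_mem_residue r₂ hf₂ hp₂
  obtain ⟨hs₁m, hs₁r⟩ := hs₁ f hf₁
  obtain ⟨hs₂m, hs₂r⟩ := hs₂ f hf₂
  have hne₁ : r₁ ⟨f * h ^ n, hm₁⟩ ≠ 0 := by
    rw [hrm₁, hrp₁, hh₁]; exact mul_ne_zero hf₁' ha₁
  have hne₂ : r₂ ⟨f * h ^ n, hm₂⟩ ≠ 0 := by
    rw [hrm₂, hrp₂, hh₂]; exact mul_ne_zero hf₂' ha₂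
  obtain ⟨hd₁, hrd₁⟩ := exists_div_mem r₁ hr₁ hs₁m hm₁ hne₁
  obtain ⟨hd₂, hrd₂⟩ := exists_div_mem r₂ hr₂ hs₂m hm₂ hne₂
  have hh0 : h ≠ 0 := by
    rintro rfl
    apply ha₁
    have : (⟨0, h₁⟩ : V₁) = 0 := rfl
    rw [← hh₁, this, map_zero, zero_pow hn]
  refine ⟨h, hh0, hd₁, hd₂, ?_, ?_⟩
  · rw [hrd₁, hs₁r, hrm₁, hrp₁, hh₁, e₁]
    exact div_self (mul_ne_zero hf₁' ha₁)
  · rw [hrd₂, hs₂r, hrm₂, hrp₂, hh₂, e₂]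
    exact div_self (mul_ne_zero hf₂' ha₂)

end Fermat.Agent.S35.NewLayer
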