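/-
S35, layer (M1) of (NEW-σ): from the norm formulas to the one-unit representative (helper3).

* `red_isPow_of_const_mul_pow` : for a reduction datum `R` (S18 `RedDatum`, the Gauss ring of the
  level-`M` function field) over an algebraically closed residue field, a function of the form
  `c * g ^ n` (`c` a constant) which is a Gauss unit reduces to an `n`-th power.  This is what
  `α_* y = 0` gives for `x = N_α f`, `f` a Kummer representative of `y ∈ J[n]`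
  (`div (N_α f) = n α_* D = div (g ^ n)`).
* `exists_oneUnit_rep_of_norms` : layer (M1) with the two norm formulas
  `red_M (N_α f) = r₁ f * A (r₂ f)`, `red_M (N_β f) = B (r₁ f) * r₂ f` as hypotheses on the
  two elements `xa = N_α f`, `xb = N_β f`.
-/
import Fermat.Agent.S18.CoreDefs
import Fermat.Agent.S35.NewLayer

set_option autoImplicit false

namespace Fermat.Agent.S35.NewLayerNorm

open AlgebraicCurve Fermat.Agent.S18.CoreDefs Fermat.Agent.S35.NewLayer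

variable {L : Type*} [Field L] {FL : Type*} [Field FL] [Algebra L FL]
variable {k : Type*} [Field k] {Fk : Type*} [Field Fk] [Algebra k Fk]

/-- A Gauss unit of the form `c * g ^ n` (`c` constant) reduces to an `n`-th power, when the
residue field of constants is algebraically closed. -/
theorem red_isPow_of_const_mul_pow [IsAlgClosed k] {A : ValuationSubring L} {π : A →+* k}
    {r : Place L FL → Place k Fk} (R : RedDatum A π r) (n : ℕ) (hn : n ≠ 0)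
    (x : FL) (hx : x ∈ R.O) (hne : R.red ⟨x, hx⟩ ≠ 0) (c : L) (g : FL)
    (hxg : x = algebraMap L FL c * g ^ n) : ∃ z : Fk, R.red ⟨x, hx⟩ = z ^ n := by
  have hx0 : x ≠ 0 := by
    rintro rfl
    apply hne
    have : (⟨0, hx⟩ : R.O) = 0 := rfl
    rw [this, map_zero]
  have hg0 : g ≠ 0 := by
    rintro rfl
    apply hx0
    rw [hxg, zero_pow hn, mul_zero]
  obtain ⟨d, hd, u, hu⟩ := R.exists_const_mul_unit g hg0
  -- `x = (c d^n) * u^n`
  have hx' : x = algebraMap L FL (c * d ^ n) * (((u : R.O) : FL)) ^ n := by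
    rw [hxg, hu, mul_pow, map_mul, map_pow]; ring
  have hun : (((u ^ n : R.Oˣ) : R.O) : FL) = (((u : R.O) : FL)) ^ n := by
    simp
  have hinv : (((u ^ n : R.Oˣ)⁻¹ : R.Oˣ) : R.O) * ((u ^ n : R.Oˣ) : R.O) = 1 := by
    rw [Units.inv_mul]
  have hmem : algebraMap L FL (c * d ^ n) ∈ R.O := by
    have h1 : algebraMap L FL (c * d ^ n)
        = x * ((((u ^ n : R.Oˣ)⁻¹ : R.Oˣ) : R.O) : FL) := by
      have h2 := congrArg (fun v : R.O => (v : FL)) hinv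
      simp only [MulMemClass.coe_mul, OneMemClass.coe_one] at h2
      rw [hx', mul_assoc, ← hun, mul_comm ((((u ^ n : R.Oˣ) : R.O)) : FL), h2, mul_one]
    rw [h1]
    exact R.O.mul_mem _ _ hx (Subtype.mem _)
  have hA : c * d ^ n ∈ A := R.mem_of_algebraMap_mem _ hmem
  have hred : R.red ⟨x, hx⟩
      = algebraMap k Fk (π ⟨c * d ^ n, hA⟩) * R.red (u : R.O) ^ n := by
    have : (⟨x, hx⟩ : R.O) = ⟨algebraMap L FL ((⟨c * d ^ n, hA⟩ : A) : L),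
        R.algebraMap_mem ⟨c * d ^ n, hA⟩⟩ * (u : R.O) ^ n := Subtype.ext (by
      simp only [MulMemClass.coe_mul, SubmonoidClass.coe_pow]
      exact hx')
    rw [this, map_mul, map_pow, R.red_algebraMap]
  obtain ⟨ζ, hζ⟩ := IsAlgClosed.exists_pow_nat_eq (π ⟨c * d ^ n, hA⟩) (Nat.pos_of_ne_zero hn)
  refine ⟨algebraMap k Fk ζ * R.red (u : R.O), ?_⟩
  rw [hred, mul_pow, ← map_pow (algebraMap k Fk), hζ]

variable {E : Type*} [Field E]

/-- **Layer (M1) from the norm formulas.**  `E` is the function field of `X₀(Mq)`, `FL` that of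
`X₀(M)` with Gauss datum `R`; `xa = N_α f` and `xb = N_β f` are the two norms of a function `f`
which is a unit at both Gauss rings `V₁`, `V₂` of `E`.  If both norms are of the form
`constant * n-th power` (i.e. the class of `f` in `J₀(Mq)[n]` dies under `α_*` and `β_*`) then
`s f / f` is an `n`-th power times a one-unit at both `V₁` and `V₂`. -/
theorem exists_oneUnit_rep_of_norms [IsAlgClosed k] {A₀ : ValuationSubring L} {π : A₀ →+* k}
    {r : Place L FL → Place k Fk} (R : RedDatum A₀ π r)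
    (V₁ V₂ : ValuationSubring E) (r₁ : V₁ →+* Fk) (r₂ : V₂ →+* Fk)
    (hr₁ : ∀ u : V₁, r₁ u = 0 ↔ ¬ IsUnit u) (hr₂ : ∀ u : V₂, r₂ u = 0 ↔ ¬ IsUnit u)
    (A B : Fk ≃+* Fk) (s : E ≃+* E)
    (hs₁ : ∀ (u : E) (hu : u ∈ V₁), ∃ h : s u ∈ V₁, r₁ ⟨s u, h⟩ = A (B (r₁ ⟨u, hu⟩)))
    (hs₂ : ∀ (u : E) (hu : u ∈ V₂), ∃ h : s u ∈ V₂, r₂ ⟨s u, h⟩ = B (A (r₂ ⟨u, hu⟩)))
    (hsurj : ∀ a₁ a₂ : Fk, ∃ (h : E) (h₁ : h ∈ V₁) (h₂ : h ∈ V₂),
      r₁ ⟨h, h₁⟩ = a₁ ∧ r₂ ⟨h, h₂⟩ = a₂)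
    (n : ℕ) (hn : n ≠ 0) (f : E) (hf₁ : f ∈ V₁) (hf₂ : f ∈ V₂)
    (hf₁' : r₁ ⟨f, hf₁⟩ ≠ 0) (hf₂' : r₂ ⟨f, hf₂⟩ ≠ 0)
    (xa xb : FL) (hxa : xa ∈ R.O) (hxb : xb ∈ R.O)
    (hra : R.red ⟨xa, hxa⟩ = r₁ ⟨f, hf₁⟩ * A (r₂ ⟨f, hf₂⟩))
    (hrb : R.red ⟨xb, hxb⟩ = B (r₁ ⟨f, hf₁⟩) * r₂ ⟨f, hf₂⟩)
    (ca : L) (ga : FL) (hxa' : xa = algebraMap L FL ca * ga ^ n)
    (cb : L) (gb : FL) (hxb' : xb = algebraMap L FL cb * gb ^ n) :
    ∃ h : E, h ≠ 0 ∧ ∃ (h₁ : s f / (f * h ^ n) ∈ V₁) (h₂ : s f / (f * h ^ n) ∈ V₂),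
      r₁ ⟨s f / (f * h ^ n), h₁⟩ = 1 ∧ r₂ ⟨s f / (f * h ^ n), h₂⟩ = 1 := by
  have hnea : R.red ⟨xa, hxa⟩ ≠ 0 := by
    rw [hra]; exact mul_ne_zero hf₁' ((map_ne_zero A).2 hf₂')
  have hneb : R.red ⟨xb, hxb⟩ ≠ 0 := by
    rw [hrb]; exact mul_ne_zero ((map_ne_zero B).2 hf₁') hf₂'
  obtain ⟨za, hza⟩ := red_isPow_of_const_mul_pow R n hn xa hxa hnea ca ga hxa'
  obtain ⟨zb, hzb⟩ := red_isPow_of_const_mul_pow R n hn xb hxb hneb cb gb hxb'
  exact exists_oneUnit_rep V₁ V₂ r₁ r₂ hr₁ hr₂ A B s hs₁ hs₂ hsurj n hn f hf₁ hf₂ hf₁' hf₂'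
    ⟨za, hra ▸ hza⟩ ⟨zb, hrb ▸ hzb⟩

end Fermat.Agent.S35.NewLayerNorm
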