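/-
S35, layer (N1) of (NEW-σ), abstract assembly (helper3).

`exists_oneUnit_decomposition` : the complete layer (N1) in the abstract setting:

* `E` a field over the constants `L` with two distinct archimedean valuation rings `V₁`, `V₂`
  (the two Gauss rings of `X₀(Mq)` above `q`), residue maps `rᵢ : Vᵢ →+* Fk` ONTO a common field
  with kernel the non-units, value groups attained on constants, `L` `n`-divisible;
* `FL` the level-`M` function field with S18 reduction datum `R` (residue constants `k`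
  algebraically closed);
* `Na Nb : E →* FL` (the two norms) with the norm formulas
  `red (Na u) = r₁ u * A (r₂ u)`, `red (Nb u) = B (r₁ u) * r₂ u` on `V₁ ∩ V₂`;
* `s : E ≃+* E` (the square of a Frobenius lift) inducing `A ∘ B` on the residue field of `V₁` and
  `B ∘ A` on that of `V₂`.

Then every `f ≠ 0` whose two norms are `constant * n-th power` satisfies
`s f = h ^ n * u * f` with `u` a one-unit at both `V₁` and `V₂` (`Z1Abstract.IsOneUnit`).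
-/
import Fermat.Agent.S34.Z1Abstract
import Fermat.Agent.S34.WeakApproxMul
import Fermat.Agent.S35.NewLayerNorm

set_option autoImplicit false

namespace Fermat.Agent.S35.NewLayerAssembly

open AlgebraicCurve Fermat.Agent.S18.CoreDefs Fermat.Agent.S35.NewLayer
open Fermat.Agent.S35.NewLayerNorm Fermat.Agent.S34.WeakApprox Fermat.Agent.S34.WeakApproxMul
open Fermat.Agent.S34.Z1Abstract

variable {E κ : Type*} [Field E] [Field κ]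

/-- The residue of an element differing from `x` by a non-unit. -/
theorem residue_eq_of_sub_mem {V : ValuationSubring E} (r : V →+* κ)
    (hr : ∀ u : V, r u = 0 ↔ ¬ IsUnit u) {x y : E} (hx : x ∈ V) (hxy : y - x ∈ V.nonunits) :
    ∃ hy : y ∈ V, r ⟨y, hy⟩ = r ⟨x, hx⟩ := by
  have hd : y - x ∈ V := ValuationSubring.nonunits_subset hxy
  have hy : y ∈ V := by
    have : y = (y - x) + x := by ring
    rw [this]; exact V.add_mem _ _ hd hx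
  refine ⟨hy, ?_⟩
  have h0 : r ⟨y - x, hd⟩ = 0 := by
    rw [hr]
    have : ((⟨y - x, hd⟩ : V) : E) ∈ V.nonunits := hxy
    rw [ValuationSubring.coe_mem_nonunits_iff, IsLocalRing.mem_maximalIdeal,
      mem_nonunits_iff] at this
    exact this
  have h1 : (⟨y, hy⟩ : V) = ⟨y - x, hd⟩ + ⟨x, hx⟩ := Subtype.ext (by simp)
  rw [h1, map_add, h0, zero_add]

/-- Weak approximation gives the simultaneous surjectivity of the two residue maps. -/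
theorem exists_residues {V₁ V₂ : ValuationSubring E} (h₁ : Arch V₁) (h₂ : Arch V₂)
    (hne : V₁ ≠ V₂) (ht₁ : V₁ ≠ ⊤) (ht₂ : V₂ ≠ ⊤) (r₁ : V₁ →+* κ) (r₂ : V₂ →+* κ)
    (hr₁ : ∀ u : V₁, r₁ u = 0 ↔ ¬ IsUnit u) (hr₂ : ∀ u : V₂, r₂ u = 0 ↔ ¬ IsUnit u)
    (hs₁ : Function.Surjective r₁) (hs₂ : Function.Surjective r₂) (a₁ a₂ : κ) :
    ∃ (h : E) (m₁ : h ∈ V₁) (m₂ : h ∈ V₂), r₁ ⟨h, m₁⟩ = a₁ ∧ r₂ ⟨h, m₂⟩ = a₂ := by
  obtain ⟨⟨u₁, hu₁⟩, rfl⟩ := hs₁ a₁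
  obtain ⟨⟨u₂, hu₂⟩, rfl⟩ := hs₂ a₂
  obtain ⟨y, hy₁, hy₂⟩ := exists_approx_two_add h₁ h₂ hne ht₁ ht₂ hu₁ hu₂
  obtain ⟨m₁, e₁⟩ := residue_eq_of_sub_mem r₁ hr₁ hu₁ hy₁
  obtain ⟨m₂, e₂⟩ := residue_eq_of_sub_mem r₂ hr₂ hu₂ hy₂
  exact ⟨y, m₁, m₂, e₁, e₂⟩

/-- Residue `1` means one-unit. -/
theorem isOneUnit_of_residue_eq_one {V : ValuationSubring E} (r : V →+* κ)
    (hr : ∀ u : V, r u = 0 ↔ ¬ IsUnit u) {x : E} (hx : x ∈ V) (h : r ⟨x, hx⟩ = 1) :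
    IsOneUnit V x := by
  unfold IsOneUnit
  have hd : x - 1 ∈ V := sub_mem hx V.one_mem
  have h0 : r ⟨x - 1, hd⟩ = 0 := by
    have : (⟨x - 1, hd⟩ : V) = ⟨x, hx⟩ - 1 := rfl
    rw [this, map_sub, h, map_one, sub_self]
  rw [hr] at h0
  have : ((⟨x - 1, hd⟩ : V) : E) ∈ V.nonunits := by
    rw [ValuationSubring.coe_mem_nonunits_iff, IsLocalRing.mem_maximalIdeal, mem_nonunits_iff]
    exact h0
  exact this

/-- An element of valuation one has nonzero residue. -/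
theorem residue_ne_zero_of_valuation_eq_one {V : ValuationSubring E} (r : V →+* κ)
    (hr : ∀ u : V, r u = 0 ↔ ¬ IsUnit u) {x : E} (hv : V.valuation x = 1) :
    ∃ hx : x ∈ V, r ⟨x, hx⟩ ≠ 0 := by
  have hx : x ∈ V := (V.valuation_le_one_iff x).1 hv.le
  refine ⟨hx, fun h0 => ?_⟩
  rw [hr] at h0
  exact h0 ((V.valuation_eq_one_iff ⟨x, hx⟩).2 hv)

section Main

variable {L : Type*} [Field L] {FL : Type*} [Field FL] [Algebra L FL] [Algebra L E]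
variable {k : Type*} [Field k] {Fk : Type*} [Field Fk] [Algebra k Fk]

/-- Normalisation: dividing by a suitable `n`-th power makes `f` a unit at both `V₁` and `V₂`. -/
theorem exists_normalisation {V₁ V₂ : ValuationSubring E} (h₁ : Arch V₁) (h₂ : Arch V₂)
    (hne : V₁ ≠ V₂) (ht₁ : V₁ ≠ ⊤) (ht₂ : V₂ ≠ ⊤)
    (hval₁ : ∀ f : E, f ≠ 0 → ∃ c : L, V₁.valuation f = V₁.valuation (algebraMap L E c))
    (hval₂ : ∀ f : E, f ≠ 0 → ∃ c : L, V₂.valuation f = V₂.valuation (algebraMap L E c))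
    (n : ℕ) (hn : n ≠ 0) (hdiv : ∀ c : L, ∃ d : L, d ^ n = c) (f : E) (hf : f ≠ 0) :
    ∃ h₀ : E, h₀ ≠ 0 ∧ V₁.valuation (f / h₀ ^ n) = 1 ∧ V₂.valuation (f / h₀ ^ n) = 1 := by
  have key : ∀ (V : ValuationSubring E),
      (∀ f : E, f ≠ 0 → ∃ c : L, V.valuation f = V.valuation (algebraMap L E c)) →
      ∃ d : L, d ≠ 0 ∧ V.valuation f = V.valuation (algebraMap L E d) ^ n := by
    intro V hval
    obtain ⟨c, hcv⟩ := hval f hf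
    have hc : c ≠ 0 := by
      rintro rfl
      rw [map_zero, map_zero] at hcv
      exact hf ((Valuation.zero_iff _).mp hcv)
    obtain ⟨d, hd⟩ := hdiv c
    refine ⟨d, ?_, ?_⟩
    · rintro rfl
      rw [zero_pow hn] at hd
      exact hc hd.symm
    · rw [hcv, ← hd, map_pow, map_pow]
  obtain ⟨d₁, hd₁0, hd₁⟩ := key V₁ hval₁
  obtain ⟨d₂, hd₂0, hd₂⟩ := key V₂ hval₂
  have ha₁ : algebraMap L E d₁ ≠ 0 := (map_ne_zero _).mpr hd₁0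
  have ha₂ : algebraMap L E d₂ ≠ 0 := (map_ne_zero _).mpr hd₂0
  obtain ⟨y, hy0, ⟨-, hyv₁⟩, ⟨-, hyv₂⟩⟩ := exists_approx_two h₁ h₂ hne ht₁ ht₂ ha₁ ha₂
  refine ⟨y, hy0, ?_, ?_⟩
  · rw [map_div₀, map_pow, hd₁, hyv₁]
    exact div_self (pow_ne_zero _ ((Valuation.ne_zero_iff _).mpr ha₁))
  · rw [map_div₀, map_pow, hd₂, hyv₂]
    exact div_self (pow_ne_zero _ ((Valuation.ne_zero_iff _).mpr ha₂))

/-- **Layer (N1), abstract assembly.** -/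
theorem exists_oneUnit_decomposition [IsAlgClosed k] {A₀ : ValuationSubring L} {π : A₀ →+* k}
    {r : Place L FL → Place k Fk} (R : RedDatum A₀ π r)
    {V₁ V₂ : ValuationSubring E} (h₁ : Arch V₁) (h₂ : Arch V₂)
    (hne : V₁ ≠ V₂) (ht₁ : V₁ ≠ ⊤) (ht₂ : V₂ ≠ ⊤)
    (r₁ : V₁ →+* Fk) (r₂ : V₂ →+* Fk)
    (hr₁ : ∀ u : V₁, r₁ u = 0 ↔ ¬ IsUnit u) (hr₂ : ∀ u : V₂, r₂ u = 0 ↔ ¬ IsUnit u)
    (hsj₁ : Function.Surjective r₁) (hsj₂ : Function.Surjective r₂)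
    (hval₁ : ∀ f : E, f ≠ 0 → ∃ c : L, V₁.valuation f = V₁.valuation (algebraMap L E c))
    (hval₂ : ∀ f : E, f ≠ 0 → ∃ c : L, V₂.valuation f = V₂.valuation (algebraMap L E c))
    (n : ℕ) (hn : n ≠ 0) (hdiv : ∀ c : L, ∃ d : L, d ^ n = c)
    (A B : Fk ≃+* Fk) (s : E ≃+* E)
    (hs₁ : ∀ (u : E) (hu : u ∈ V₁), ∃ h : s u ∈ V₁, r₁ ⟨s u, h⟩ = A (B (r₁ ⟨u, hu⟩)))
    (hs₂ : ∀ (u : E) (hu : u ∈ V₂), ∃ h : s u ∈ V₂, r₂ ⟨s u, h⟩ = B (A (r₂ ⟨u, hu⟩)))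
    (Na Nb : E →* FL) (hNa0 : ∀ x : E, x ≠ 0 → Na x ≠ 0) (hNb0 : ∀ x : E, x ≠ 0 → Nb x ≠ 0)
    (hNa : ∀ (u : E) (m₁ : u ∈ V₁) (m₂ : u ∈ V₂), ∃ h : Na u ∈ R.O,
      R.red ⟨Na u, h⟩ = r₁ ⟨u, m₁⟩ * A (r₂ ⟨u, m₂⟩))
    (hNb : ∀ (u : E) (m₁ : u ∈ V₁) (m₂ : u ∈ V₂), ∃ h : Nb u ∈ R.O,
      R.red ⟨Nb u, h⟩ = B (r₁ ⟨u, m₁⟩) * r₂ ⟨u, m₂⟩)
    (f : E) (hf : f ≠ 0)
    (hfa : ∃ (c : L) (g : FL), Na f = algebraMap L FL c * g ^ n)
    (hfb : ∃ (c : L) (g : FL), Nb f = algebraMap L FL c * g ^ n) :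
    ∃ h u : E, h ≠ 0 ∧ u ≠ 0 ∧ IsOneUnit V₁ u ∧ IsOneUnit V₂ u ∧ s f = h ^ n * u * f := by
  obtain ⟨h₀, hh₀, hv₁, hv₂⟩ :=
    exists_normalisation (L := L) h₁ h₂ hne ht₁ ht₂ hval₁ hval₂ n hn hdiv f hf
  set f' : E := f / h₀ ^ n with hf'
  have hpow0 : h₀ ^ n ≠ 0 := pow_ne_zero _ hh₀
  have hf'0 : f' ≠ 0 := div_ne_zero hf hpow0
  have hff' : f = f' * h₀ ^ n := by rw [hf', div_mul_cancel₀ _ hpow0]
  obtain ⟨m₁, hm₁⟩ := residue_ne_zero_of_valuation_eq_one r₁ hr₁ hv₁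
  obtain ⟨m₂, hm₂⟩ := residue_ne_zero_of_valuation_eq_one r₂ hr₂ hv₂
  obtain ⟨hxa, hra⟩ := hNa f' m₁ m₂
  obtain ⟨hxb, hrb⟩ := hNb f' m₁ m₂
  obtain ⟨ca, ga, hca⟩ := hfa
  obtain ⟨cb, gb, hcb⟩ := hfb
  have hxa' : Na f' = algebraMap L FL ca * (ga / Na h₀) ^ n := by
    have h1 : Na f = Na f' * Na h₀ ^ n := by rw [hff', map_mul, map_pow]
    have h2 : Na h₀ ^ n ≠ 0 := pow_ne_zero _ (hNa0 h₀ hh₀)
    rw [div_pow, ← mul_div_assoc, ← hca, h1, mul_div_assoc, div_self h2, mul_one]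
  have hxb' : Nb f' = algebraMap L FL cb * (gb / Nb h₀) ^ n := by
    have h1 : Nb f = Nb f' * Nb h₀ ^ n := by rw [hff', map_mul, map_pow]
    have h2 : Nb h₀ ^ n ≠ 0 := pow_ne_zero _ (hNb0 h₀ hh₀)
    rw [div_pow, ← mul_div_assoc, ← hcb, h1, mul_div_assoc, div_self h2, mul_one]
  obtain ⟨h, hh0, hw₁, hw₂, e₁, e₂⟩ := exists_oneUnit_rep_of_norms R V₁ V₂ r₁ r₂ hr₁ hr₂ A B s
    hs₁ hs₂ (exists_residues h₁ h₂ hne ht₁ ht₂ r₁ r₂ hr₁ hr₂ hsj₁ hsj₂) n hn f' m₁ m₂ hm₁ hm₂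
    (Na f') (Nb f') hxa hxb hra hrb ca _ hxa' cb _ hxb'
  have hsf'0 : s f' ≠ 0 := (map_ne_zero s).2 hf'0
  have hhn0 : h ^ n ≠ 0 := pow_ne_zero _ hh0
  refine ⟨h * s h₀ / h₀, s f' / (f' * h ^ n), ?_, ?_, ?_, ?_, ?_⟩
  · exact div_ne_zero (mul_ne_zero hh0 ((map_ne_zero s).2 hh₀)) hh₀
  · exact div_ne_zero hsf'0 (mul_ne_zero hf'0 hhn0)
  · exact isOneUnit_of_residue_eq_one r₁ hr₁ hw₁ e₁
  · exact isOneUnit_of_residue_eq_one r₂ hr₂ hw₂ e₂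
  · have h3 : s f = s f' * s h₀ ^ n := by
      conv_lhs => rw [hff']
      rw [map_mul, map_pow]
    rw [h3]
    conv_rhs => rw [hff']
    have h4 : (h * s h₀ / h₀) ^ n * h₀ ^ n = s h₀ ^ n * h ^ n := by
      rw [← mul_pow, div_mul_cancel₀ _ hh₀, mul_pow, mul_comm]
    field_simp
    exact h4.symm

end Main

end Fermat.Agent.S35.NewLayerAssembly
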