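/-
S35 (downstream of PROJECT U), the Kummer glue for `(NEW-σ)` (helper19).

Abstract form (any function field `F / K`, any semilinear automorphism `g`, to be used with
`g = σ²` for a Frobenius lift `σ` at `q` and `Q = q²`): if

* `(N1)` for every `f` with `n ∣ div f` which is NEW (predicate `PN`):
  `g f / f ∈ K^× · F^{×n} · Z` (`Z` = the functions with the predicate `PZ`: one-units at both
  Gauss valuations), and
* `(N2)` for every `u ∈ Z` with `n ∣ div u`: `g u / u ^ Q ∈ K^× · F^{×n}`,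

then `(g - Q) (g - 1) = 0` on every class `[D]`, `n D = div f`, `f` new, i.e.
`g (g y) + Q y = (Q + 1) (g y)`.

Galois form at level `N`: `galois_frob_of_kummer`; consequence for the polynomial
`(X² - 1)² (X² - q²)` of `S35/Chain`: `polyEnd_frobPolyZ_eq_zero`.
-/
import Fermat.Agent.S34.KummerZ
import Fermat.Agent.S35.Chain

set_option autoImplicit false

noncomputable section

namespace Fermat.Agent.S35.NewSigma

open AlgebraicCurve Fermat.Agent.S34.KummerZ

variable {K F : Type*} [Field K] [Field F] [Algebra K F]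

/-- **Kummer glue for Frobenius.**  If `(N1)` `g f / f ∈ K^× · F^{×n} · Z` for all new `f ∈ H_n`,
and `(N2)` `g u / u ^ Q ∈ K^× · F^{×n}` for all `u ∈ H_n ∩ Z`, then `(g - Q) (g - 1)` kills the
class of `D` whenever `n D = div f` with `f` new. -/
theorem frob_of_kummer (g : SemilinearAut K F) (n : ℕ) (hn : n ≠ 0) (Q : ℕ) (PN PZ : F → Prop)
    (h1 : ∀ f : F, Hn (K := K) n f → PN f → ∃ (c : K) (h u : F), c ≠ 0 ∧ h ≠ 0 ∧ u ≠ 0 ∧ PZ u ∧
      g • f = algebraMap K F c * h ^ n * u * f)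
    (h2 : ∀ u : F, Hn (K := K) n u → PZ u → ∃ (c : K) (h : F), c ≠ 0 ∧ h ≠ 0 ∧
      g • u = algebraMap K F c * h ^ n * u ^ Q)
    (D : Divisor.degZero (K := K) (F := F)) (f : F) (hf : f ≠ 0)
    (hD : ∀ w : Place K F, w.ord f = n * (D : Divisor K F) w) (hN : PN f) :
    g • (g • Pic0.mk D) + Q • Pic0.mk D = (Q + 1) • (g • Pic0.mk D) := by
  have hn' : (n : ℤ) ≠ 0 := Int.natCast_ne_zero.mpr hn
  have hHf : Hn (K := K) n f := ⟨hf, fun w => ⟨_, hD w⟩⟩
  obtain ⟨c, h, u, hc, hh, hu, hPu, hgf⟩ := h1 f hHf hN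
  have hcF : algebraMap K F c ≠ 0 := (map_ne_zero _).mpr hc
  have hgf0 : g • f ≠ 0 := by
    rw [hgf]
    exact mul_ne_zero (mul_ne_zero (mul_ne_zero hcF (pow_ne_zero _ hh)) hu) hf
  -- `u ∈ H_n`
  have hHu : Hn (K := K) n u := by
    refine ⟨hu, fun w => ?_⟩
    have e1 : w.ord (g • f) = w.ord (algebraMap K F c * h ^ n * u * f) := by rw [hgf]
    rw [w.ord_mul (mul_ne_zero (mul_ne_zero hcF (pow_ne_zero _ hh)) hu) hf,
      w.ord_mul (mul_ne_zero hcF (pow_ne_zero _ hh)) hu,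
      w.ord_mul hcF (pow_ne_zero _ hh), ord_algebraMap w hc, ord_pow, ord_smul_eq, hD, hD] at e1
    refine ⟨(D : Divisor K F) (g⁻¹ • w) - w.ord h - (D : Divisor K F) w, ?_⟩
    linarith
  obtain ⟨c', h', hc', hh', hgu⟩ := h2 u hHu hPu
  have hc'F : algebraMap K F c' ≠ 0 := (map_ne_zero _).mpr hc'
  have hgh : g • h ≠ 0 := by
    rw [SemilinearAut.smul_def]
    exact (map_ne_zero _).mpr hh
  have hgc : SemilinearAut.baseAut g c ≠ 0 := (map_ne_zero _).mpr hc
  have hgcF : algebraMap K F (SemilinearAut.baseAut g c) ≠ 0 := (map_ne_zero _).mpr hgc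
  have hcQ : c ^ Q ≠ 0 := pow_ne_zero _ hc
  have hcQF : algebraMap K F (c ^ Q) ≠ 0 := (map_ne_zero _).mpr hcQ
  -- the key identity `g²f · f^Q · c^Q = gc · c' · (g h · h' / h^Q)^n · (g f)^(Q+1)`
  set H : F := g • h * h' * (h ^ Q)⁻¹ with hH
  have hH0 : H ≠ 0 :=
    mul_ne_zero (mul_ne_zero hgh hh') (inv_ne_zero (pow_ne_zero _ hh))
  have key : g • (g • f) * f ^ Q * algebraMap K F (c ^ Q)
      = algebraMap K F (SemilinearAut.baseAut g c) * algebraMap K F c' * H ^ n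
        * (g • f) ^ (Q + 1) := by
    have e2 : g • (g • f) = algebraMap K F (SemilinearAut.baseAut g c) * (g • h) ^ n
        * (g • u) * (g • f) := by
      conv_lhs => rw [hgf]
      rw [smul_mul', smul_mul', smul_mul', smul_pow', SemilinearAut.smul_algebraMap]
    have e3 : (g • f) ^ Q = (algebraMap K F c) ^ Q * (h ^ n) ^ Q * u ^ Q * f ^ Q := by
      rw [hgf, mul_pow, mul_pow, mul_pow]
    rw [e2, hgu, pow_succ, e3, hH, mul_pow, mul_pow, inv_pow, map_pow]
    have hhnQ : (h ^ Q) ^ n ≠ 0 := pow_ne_zero _ (pow_ne_zero _ hh)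
    field_simp
    ring
  -- take orders
  have hord : ∀ w : Place K F,
      (D : Divisor K F) (g⁻¹ • (g⁻¹ • w)) + (Q : ℤ) * (D : Divisor K F) w
        - ((Q : ℤ) + 1) * (D : Divisor K F) (g⁻¹ • w) = w.ord H := by
    intro w
    have e3 := congrArg w.ord key
    have hggf0 : g • (g • f) ≠ 0 := by
      rw [SemilinearAut.smul_def]
      exact (map_ne_zero _).mpr hgf0
    rw [w.ord_mul (mul_ne_zero hggf0 (pow_ne_zero _ hf)) hcQF,
      w.ord_mul hggf0 (pow_ne_zero _ hf), ord_algebraMap w hcQ,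
      w.ord_mul (mul_ne_zero (mul_ne_zero hgcF hc'F) (pow_ne_zero _ hH0))
        (pow_ne_zero _ hgf0),
      w.ord_mul (mul_ne_zero hgcF hc'F) (pow_ne_zero _ hH0), w.ord_mul hgcF hc'F,
      ord_algebraMap w hgc, ord_algebraMap w hc', ord_pow, ord_pow, ord_pow,
      ord_smul_eq g w (g • f), ord_smul_eq g (g⁻¹ • w) f, ord_smul_eq g w f, hD, hD, hD] at e3
    have e4 : (n : ℤ) * ((D : Divisor K F) (g⁻¹ • (g⁻¹ • w)) + (Q : ℤ) * (D : Divisor K F) w
        - ((Q : ℤ) + 1) * (D : Divisor K F) (g⁻¹ • w)) = (n : ℤ) * w.ord H := by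
      push_cast at e3
      linarith
    exact mul_left_cancel₀ hn' e4
  -- conclude in `Pic0`
  rw [SemilinearAut.pic0_smul_mk, SemilinearAut.pic0_smul_mk, ← sub_eq_zero]
  have hQ1 : ∀ (m : ℕ) (E : Divisor.degZero (K := K) (F := F)), m • Pic0.mk E = Pic0.mk (m • E) :=
    fun m E => (map_nsmul (QuotientAddGroup.mk' _) m E).symm
  rw [hQ1, hQ1, ← Pic0.mk_add]
  have hsub : Pic0.mk (SemilinearAut.degZeroSMulHom g (SemilinearAut.degZeroSMulHom g D) + Q • D)
      - Pic0.mk ((Q + 1) • SemilinearAut.degZeroSMulHom g D)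
      = Pic0.mk (SemilinearAut.degZeroSMulHom g (SemilinearAut.degZeroSMulHom g D) + Q • D
        - (Q + 1) • SemilinearAut.degZeroSMulHom g D) := rfl
  rw [hsub]
  refine mk_eq_zero_of_isDivOf hH0 (fun w => ?_)
  rw [← hord w]
  simp only [AddSubgroup.coe_sub, AddSubgroup.coe_add, AddSubgroup.coe_nsmul,
    SemilinearAut.coe_degZeroSMulHom, Finsupp.sub_apply, Finsupp.add_apply, Finsupp.smul_apply,
    SemilinearAut.divisor_smul_apply, nsmul_eq_mul]
  push_cast
  ring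

/-! ### The consequence for the polynomial `(X² - 1)² (X² - q²)` of `S35/Chain` -/

open Polynomial Fermat.Agent.S35.Chain Fermat.Agent.S35.LinAlg

/-- If `σ⁴ y + q² y = (q² + 1) σ² y` then `(σ² - 1)² (σ² - q²) y = 0`. -/
theorem polyEnd_frobPolyZ_eq_zero {J : Type*} [AddCommGroup J] {G : Type*} [Group G]
    [DistribMulAction G J] (σ : G) (q : ℕ) (y : J)
    (h : (σ * σ) • ((σ * σ) • y) + (q ^ 2) • y = (q ^ 2 + 1) • ((σ * σ) • y)) :
    polyEnd σ (frobPolyZ q) y = 0 := by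
  set s : AddMonoid.End J := DistribMulAction.toAddMonoidEnd G J σ with hs
  have hmul : ∀ (a b : AddMonoid.End J) (z : J), (a * b) z = a (b z) := fun _ _ _ => rfl
  have hsub : ∀ (a b : AddMonoid.End J) (z : J), (a - b) z = a z - b z := fun _ _ _ => rfl
  have hs1 : ∀ z : J, s z = σ • z := fun z => rfl
  have hs2 : ∀ z : J, (s ^ 2) z = (σ * σ) • z := fun z => by
    rw [pow_two, hmul, hs1, hs1, mul_smul]
  have hq : ∀ z : J, (((q : ℤ) ^ 2 : ℤ) : AddMonoid.End J) z = (q ^ 2) • z := fun z => by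
    rw [AddMonoid.End.intCast_apply]
    have : ((q : ℤ) ^ 2 : ℤ) = ((q ^ 2 : ℕ) : ℤ) := by push_cast; rfl
    rw [this, natCast_zsmul]
  have h0 : ((s ^ 2 - 1) * (s ^ 2 - (((q : ℤ) ^ 2 : ℤ) : AddMonoid.End J)) : AddMonoid.End J) y
      = 0 := by
    rw [hmul, hsub, hsub, hq, map_sub, hs2, hs2, hs2, AddMonoid.End.one_apply,
      smul_comm (σ * σ) (q ^ 2) y]
    have h' := h
    rw [add_smul, one_smul] at h'
    have h'' : (σ * σ) • (σ * σ) • y = q ^ 2 • (σ * σ) • y + (σ * σ) • y - q ^ 2 • y :=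
      eq_sub_of_add_eq h'
    rw [h'']
    abel
  have hP : polyEnd σ (frobPolyZ q) =
      (s ^ 2 - 1) * ((s ^ 2 - 1) * (s ^ 2 - (((q : ℤ) ^ 2 : ℤ) : AddMonoid.End J))) := by
    rw [polyEnd, frobPolyZ, frobPoly, map_mul, map_pow, map_sub, map_sub, map_pow, aeval_X,
      map_one, aeval_C, pow_two (s ^ 2 - 1), mul_assoc, eq_intCast]
  rw [hP, hmul, h0, map_zero]

/-! ### The Galois form at level `N` -/

open ModularCurve

local notation "Kb" => AlgebraicClosure ℚ

/-- **`(NEW-σ)` from the two Kummer statements `(N1)`, `(N2)`**, for one Galois element `σ`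
(`g = σ²`) and one exponent `n`: the class `y = [D]`, `n D = div f`, `f` new, satisfies
`(σ² - 1)² (σ² - q²) y = 0`. -/
theorem galois_polyEnd_eq_zero (N : ℕ) [NeZero N] (σ : Kb ≃ₐ[ℚ] Kb) (n : ℕ) (hn : n ≠ 0) (q : ℕ)
    (PN PZ : modularFunctionFieldBar N → Prop)
    (h1 : ∀ f : modularFunctionFieldBar N, Hn (K := Kb) n f → PN f →
      ∃ (c : Kb) (h u : modularFunctionFieldBar N), c ≠ 0 ∧ h ≠ 0 ∧ u ≠ 0 ∧ PZ u ∧
        arithmeticGalois (modularFunctionFieldFull N) σ •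
            (arithmeticGalois (modularFunctionFieldFull N) σ • f)
          = algebraMap Kb (modularFunctionFieldBar N) c * h ^ n * u * f)
    (h2 : ∀ u : modularFunctionFieldBar N, Hn (K := Kb) n u → PZ u →
      ∃ (c : Kb) (h : modularFunctionFieldBar N), c ≠ 0 ∧ h ≠ 0 ∧
        arithmeticGalois (modularFunctionFieldFull N) σ •
            (arithmeticGalois (modularFunctionFieldFull N) σ • u)
          = algebraMap Kb (modularFunctionFieldBar N) c * h ^ n * u ^ (q ^ 2))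
    (D : Divisor.degZero (K := Kb) (F := modularFunctionFieldBar N))
    (f : modularFunctionFieldBar N) (hf : f ≠ 0)
    (hD : ∀ w : Place Kb (modularFunctionFieldBar N), w.ord f = n * (D : Divisor Kb _) w)
    (hN : PN f) :
    polyEnd σ (frobPolyZ q) (Pic0.mk D : JZero N) = 0 := by
  apply polyEnd_frobPolyZ_eq_zero
  rw [galois_smul_pic0_def, galois_smul_pic0_def]
  refine frob_of_kummer _ n hn (q ^ 2) PN PZ ?_ ?_ D f hf hD hN
  · intro f hHf hPN
    obtain ⟨c, h, u, hc, hh, hu, hPZ, e⟩ := h1 f hHf hPN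
    exact ⟨c, h, u, hc, hh, hu, hPZ, by rw [map_mul, mul_smul]; exact e⟩
  · intro u hHu hPZ
    obtain ⟨c, h, hc, hh, e⟩ := h2 u hHu hPZ
    exact ⟨c, h, hc, hh, by rw [map_mul, mul_smul]; exact e⟩

end Fermat.Agent.S35.NewSigma
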