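import Mathlib
import Fermat.Agent.S35.NormRed
import Fermat.Agent.S34.FrobDegree
import Fermat.Agent.S34.Z1X0

/-!
# S35, layers (L1) + (L2): the norm formulas (B3) at `X₀(M q)`, both degeneracy maps

`F = ℚ̄(X₀(M))`, `E = ℚ̄(X₀(M q))`, `q ∤ M`, `G = gaussDatum M A hA hqM` the Gauss datum of level
`M` at a place `A` of `ℚ̄` over `q`, `κ = modularFunctionFieldFullC k M` its residue field
(`k = ResidueField A`), `phi`, `psi` the Frobenius package of `S34/FrobK` on `κ`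
(`phi g = (psi g)^q`; `psi.symm` = the coefficientwise `q`-th power = the action of a Frobenius
lift on `κ`).

`V₁`, `V₂` two valuation rings of `E` with reduction maps `ρ₁, ρ₂ : V_i →+* κ` (onto, kernel the
nonunits).

* `red_norm_along` : for ANY `ψA : F →ₐ[ℚ̄] E` of degree `q + 1` with `V_i ∩ ψA F = ψA G.O`,
  `ρ₁ ∘ ψA = red_M` and `ρ₂ ∘ ψA = phi ∘ red_M`, and every `y ∈ V₁ ∩ V₂`:
  `N_{ψA} y ∈ G.O` and `red_M (N_{ψA} y) = ρ₁ y * psi.symm (ρ₂ y)`.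
* `red_norm_alpha` : the case `ψA = α` (`ρ₁ ∘ α = red_M`, `ρ₂ ∘ α = phi ∘ red_M`):
  `red_M (N_α y) = ρ₁ y * psi.symm (ρ₂ y)`;
* `red_norm_beta` : the case `ψA = β` (`ρ₁ ∘ β = phi ∘ red_M`, `ρ₂ ∘ β = red_M`):
  `red_M (N_β y) = psi.symm (ρ₁ y) * ρ₂ y`;
* `phi_red_norm_alpha`, `phi_red_norm_beta` : the same after applying `phi`
  (`phi (red_M (N_α y)) = phi (ρ₁ y) * (ρ₂ y)^q`);
* `isUnit_norm_along` : if `y` is a unit of `V₁` and of `V₂` then `N y` is a unit of `G.O`.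

The hypotheses on `ρ₁, ρ₂` are literally the exports of `S34/GaussPairX0` (helper16, #2118).
-/

set_option autoImplicit false
set_option linter.unusedSectionVars false
set_option linter.style.haveILetI false

noncomputable section

namespace Fermat.Agent.S35.NormRedX0

open ModularCurve AlgebraicCurve IsLocalRing
open Fermat.Agent.S37.Gauss.Datum
open Fermat.Agent.S34.WeakApprox
open Fermat.Agent.S34.TwoGaussX0 Fermat.Agent.S34.Z1X0
open Fermat.Agent.S34.FrobK Fermat.Agent.S34.FrobDegree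
open Fermat.Agent.S35.NormRed

local notation "Kb" => AlgebraicClosure ℚ

variable {q : ℕ} [hq : Fact q.Prime] {M : ℕ} [NeZero M] {A : ValuationSubring Kb}
variable (hA : A.LiesOverPrime q) (hqM : ¬ q ∣ M) [NeZero q]
variable [CharP (ResidueField ↥A) q] [PerfectField (ResidueField ↥A)]

set_option synthInstance.maxHeartbeats 400000
set_option maxHeartbeats 1600000

/-! ### the general form, along an arbitrary embedding -/

section Along

variable (ψA : ↥(modularFunctionFieldBar M) →ₐ[Kb] ↥(modularFunctionFieldBar (M * q)))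
variable {V₁ V₂ : ValuationSubring ↥(modularFunctionFieldBar (M * q))}

include hA hqM in
/-- **(B3), general form**: the norm along `ψA` commutes with reduction. -/
theorem red_norm_along (hfin : finrankAlong Kb ψA = q + 1)
    (hV₁ : ∀ g : ↥(modularFunctionFieldBar M), ψA g ∈ V₁ ↔ g ∈ (gaussDatum M A hA hqM).O)
    (hV₂ : ∀ g : ↥(modularFunctionFieldBar M), ψA g ∈ V₂ ↔ g ∈ (gaussDatum M A hA hqM).O)
    (hne : V₁ ≠ V₂)
    (ρ₁ : ↥V₁ →+* ↥(modularFunctionFieldFullC (ResidueField ↥A) M))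
    (ρ₂ : ↥V₂ →+* ↥(modularFunctionFieldFullC (ResidueField ↥A) M))
    (hρ₁ : ∀ y : ↥V₁, ρ₁ y = 0 ↔ (y : ↥(modularFunctionFieldBar (M * q))) ∈ V₁.nonunits)
    (hρ₂ : ∀ y : ↥V₂, ρ₂ y = 0 ↔ (y : ↥(modularFunctionFieldBar (M * q))) ∈ V₂.nonunits)
    (hs₁ : Function.Surjective ρ₁) (hs₂ : Function.Surjective ρ₂)
    (hc₁ : ∀ (g : ↥(gaussDatum M A hA hqM).O)
      (h : ψA (g : ↥(modularFunctionFieldBar M)) ∈ V₁),
      ρ₁ ⟨ψA (g : ↥(modularFunctionFieldBar M)), h⟩ = (gaussDatum M A hA hqM).red g)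
    (hc₂ : ∀ (g : ↥(gaussDatum M A hA hqM).O)
      (h : ψA (g : ↥(modularFunctionFieldBar M)) ∈ V₂),
      ρ₂ ⟨ψA (g : ↥(modularFunctionFieldBar M)), h⟩ =
        phi (ResidueField ↥A) M q ((gaussDatum M A hA hqM).red g))
    {y : ↥(modularFunctionFieldBar (M * q))} (hy₁ : y ∈ V₁) (hy₂ : y ∈ V₂) :
    ∃ h : @Algebra.norm ↥(modularFunctionFieldBar M) _ _ _ (algebraAlong ψA) y ∈
        (gaussDatum M A hA hqM).O,
      (gaussDatum M A hA hqM).red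
          ⟨@Algebra.norm ↥(modularFunctionFieldBar M) _ _ _ (algebraAlong ψA) y, h⟩ =
        ρ₁ ⟨y, hy₁⟩ * (psi (ResidueField ↥A) M q).symm (ρ₂ ⟨y, hy₂⟩) := by
  letI : Algebra ↥(modularFunctionFieldBar M) ↥(modularFunctionFieldBar (M * q)) :=
    algebraAlong ψA
  have hfin' : Module.finrank ↥(modularFunctionFieldBar M) ↥(modularFunctionFieldBar (M * q))
      = q + 1 := hfin
  haveI : Module.Finite ↥(modularFunctionFieldBar M) ↥(modularFunctionFieldBar (M * q)) :=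
    Module.finite_of_finrank_pos (by rw [hfin']; omega)
  have hcm₁ : V₁.comap (algebraMap ↥(modularFunctionFieldBar M)
      ↥(modularFunctionFieldBar (M * q))) = (gaussDatum M A hA hqM).O := by
    ext g
    exact hV₁ g
  have hcm₂ : V₂.comap (algebraMap ↥(modularFunctionFieldBar M)
      ↥(modularFunctionFieldBar (M * q))) = (gaussDatum M A hA hqM).O := by
    ext g
    exact hV₂ g
  haveI : Algebra.IsAlgebraic ↥(modularFunctionFieldBar M) ↥(modularFunctionFieldBar (M * q)) :=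
    Algebra.IsAlgebraic.of_finite _ _
  have hA₁ : Arch V₁ :=
    Fermat.Agent.S34.ArchGauss.arch_of_comap_eq hcm₁ (Fermat.Agent.S34.ArchGauss.arch_gaussDatum hA hqM)
  have hA₂ : Arch V₂ :=
    Fermat.Agent.S34.ArchGauss.arch_of_comap_eq hcm₂ (Fermat.Agent.S34.ArchGauss.arch_gaussDatum hA hqM)
  have ht₁ : V₁ ≠ ⊤ := Fermat.Agent.S34.ArchGauss.ne_top_of_comap_eq hcm₁
    (Fermat.Agent.S34.ArchGauss.gaussDatum_ne_top hA hqM)
  have ht₂ : V₂ ≠ ⊤ := Fermat.Agent.S34.ArchGauss.ne_top_of_comap_eq hcm₂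
    (Fermat.Agent.S34.ArchGauss.gaussDatum_ne_top hA hqM)
  have h12 : ¬ V₁ ≤ V₂ := fun hle => hne (le_antisymm hle (hA₁.le_of_le hle ht₂))
  have h21 : ¬ V₂ ≤ V₁ := fun hle => hne (le_antisymm (hA₂.le_of_le hle ht₁) hle)
  have hred : ∀ c : ↥(gaussDatum M A hA hqM).O, (gaussDatum M A hA hqM).red c = 0 ↔
      (c : ↥(modularFunctionFieldBar M)) ∈ (gaussDatum M A hA hqM).O.nonunits := by
    intro c
    rw [(gaussDatum M A hA hqM).red_eq_zero_iff, ValuationSubring.coe_mem_nonunits_iff,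
      mem_maximalIdeal, mem_nonunits_iff]
  -- the second reduction map with values in `KappaPhi`
  set ρ₂' : ↥V₂ →+* KappaPhi (ResidueField ↥A) M q :=
    ((toKappaPhi (ResidueField ↥A) M q : _ →+* _)).comp ρ₂ with hρ₂'
  have hdim : Module.finrank ↥(modularFunctionFieldFullC (ResidueField ↥A) M)
        ↥(modularFunctionFieldFullC (ResidueField ↥A) M)
      + Module.finrank ↥(modularFunctionFieldFullC (ResidueField ↥A) M)
        (KappaPhi (ResidueField ↥A) M q)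
      = Module.finrank ↥(modularFunctionFieldBar M) ↥(modularFunctionFieldBar (M * q)) := by
    rw [Module.finrank_self, finrank_kappaPhi, hfin', add_comm]
  obtain ⟨h, hn⟩ := red_norm₂ (κ := ↥(modularFunctionFieldFullC (ResidueField ↥A) M))
    (κ₁ := ↥(modularFunctionFieldFullC (ResidueField ↥A) M))
    (κ₂ := KappaPhi (ResidueField ↥A) M q) hcm₁ hcm₂ (gaussDatum M A hA hqM).red ρ₁ ρ₂' hred hρ₁
    (fun y => by
      rw [hρ₂', RingHom.comp_apply]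
      exact (map_eq_zero_iff _ (toKappaPhi (ResidueField ↥A) M q).injective).trans (hρ₂ y))
    (fun c h => hc₁ c h)
    (fun c h => by
      rw [hρ₂', RingHom.comp_apply, algebraMap_kappaPhi]
      exact congrArg _ (hc₂ c h))
    hs₁ ((toKappaPhi (ResidueField ↥A) M q).surjective.comp hs₂) hA₁ hA₂ h12 h21 hdim hy₁ hy₂
  refine ⟨h, ?_⟩
  rw [hn, Algebra.norm_self, MonoidHom.id_apply, norm_kappaPhi]
  rfl

include hA hqM in
/-- the same after applying `phi`: `phi (red_M (N y)) = phi (ρ₁ y) * (ρ₂ y)^q` -/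
theorem phi_red_norm_along (hfin : finrankAlong Kb ψA = q + 1)
    (hV₁ : ∀ g : ↥(modularFunctionFieldBar M), ψA g ∈ V₁ ↔ g ∈ (gaussDatum M A hA hqM).O)
    (hV₂ : ∀ g : ↥(modularFunctionFieldBar M), ψA g ∈ V₂ ↔ g ∈ (gaussDatum M A hA hqM).O)
    (hne : V₁ ≠ V₂)
    (ρ₁ : ↥V₁ →+* ↥(modularFunctionFieldFullC (ResidueField ↥A) M))
    (ρ₂ : ↥V₂ →+* ↥(modularFunctionFieldFullC (ResidueField ↥A) M))
    (hρ₁ : ∀ y : ↥V₁, ρ₁ y = 0 ↔ (y : ↥(modularFunctionFieldBar (M * q))) ∈ V₁.nonunits)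
    (hρ₂ : ∀ y : ↥V₂, ρ₂ y = 0 ↔ (y : ↥(modularFunctionFieldBar (M * q))) ∈ V₂.nonunits)
    (hs₁ : Function.Surjective ρ₁) (hs₂ : Function.Surjective ρ₂)
    (hc₁ : ∀ (g : ↥(gaussDatum M A hA hqM).O)
      (h : ψA (g : ↥(modularFunctionFieldBar M)) ∈ V₁),
      ρ₁ ⟨ψA (g : ↥(modularFunctionFieldBar M)), h⟩ = (gaussDatum M A hA hqM).red g)
    (hc₂ : ∀ (g : ↥(gaussDatum M A hA hqM).O)
      (h : ψA (g : ↥(modularFunctionFieldBar M)) ∈ V₂),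
      ρ₂ ⟨ψA (g : ↥(modularFunctionFieldBar M)), h⟩ =
        phi (ResidueField ↥A) M q ((gaussDatum M A hA hqM).red g))
    {y : ↥(modularFunctionFieldBar (M * q))} (hy₁ : y ∈ V₁) (hy₂ : y ∈ V₂) :
    ∃ h : @Algebra.norm ↥(modularFunctionFieldBar M) _ _ _ (algebraAlong ψA) y ∈
        (gaussDatum M A hA hqM).O,
      phi (ResidueField ↥A) M q ((gaussDatum M A hA hqM).red
          ⟨@Algebra.norm ↥(modularFunctionFieldBar M) _ _ _ (algebraAlong ψA) y, h⟩) =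
        phi (ResidueField ↥A) M q (ρ₁ ⟨y, hy₁⟩) * ρ₂ ⟨y, hy₂⟩ ^ q := by
  obtain ⟨h, hn⟩ := red_norm_along hA hqM ψA hfin hV₁ hV₂ hne ρ₁ ρ₂ hρ₁ hρ₂ hs₁ hs₂ hc₁ hc₂ hy₁ hy₂
  refine ⟨h, ?_⟩
  rw [hn, map_mul, phi_eq_pow (ResidueField ↥A) M q ((psi (ResidueField ↥A) M q).symm _),
    RingEquiv.apply_symm_apply]

include hA hqM in
/-- the norm of an element invertible in `V₁` and in `V₂` is invertible in the Gauss ring -/
theorem inv_norm_mem_along (hfin : finrankAlong Kb ψA = q + 1)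
    (hV₁ : ∀ g : ↥(modularFunctionFieldBar M), ψA g ∈ V₁ ↔ g ∈ (gaussDatum M A hA hqM).O)
    (hV₂ : ∀ g : ↥(modularFunctionFieldBar M), ψA g ∈ V₂ ↔ g ∈ (gaussDatum M A hA hqM).O)
    (hne : V₁ ≠ V₂)
    (ρ₁ : ↥V₁ →+* ↥(modularFunctionFieldFullC (ResidueField ↥A) M))
    (ρ₂ : ↥V₂ →+* ↥(modularFunctionFieldFullC (ResidueField ↥A) M))
    (hρ₁ : ∀ y : ↥V₁, ρ₁ y = 0 ↔ (y : ↥(modularFunctionFieldBar (M * q))) ∈ V₁.nonunits)
    (hρ₂ : ∀ y : ↥V₂, ρ₂ y = 0 ↔ (y : ↥(modularFunctionFieldBar (M * q))) ∈ V₂.nonunits)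
    (hs₁ : Function.Surjective ρ₁) (hs₂ : Function.Surjective ρ₂)
    (hc₁ : ∀ (g : ↥(gaussDatum M A hA hqM).O)
      (h : ψA (g : ↥(modularFunctionFieldBar M)) ∈ V₁),
      ρ₁ ⟨ψA (g : ↥(modularFunctionFieldBar M)), h⟩ = (gaussDatum M A hA hqM).red g)
    (hc₂ : ∀ (g : ↥(gaussDatum M A hA hqM).O)
      (h : ψA (g : ↥(modularFunctionFieldBar M)) ∈ V₂),
      ρ₂ ⟨ψA (g : ↥(modularFunctionFieldBar M)), h⟩ =
        phi (ResidueField ↥A) M q ((gaussDatum M A hA hqM).red g))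
    {y : ↥(modularFunctionFieldBar (M * q))} (hy₁ : y⁻¹ ∈ V₁) (hy₂ : y⁻¹ ∈ V₂) :
    (@Algebra.norm ↥(modularFunctionFieldBar M) _ _ _ (algebraAlong ψA) y)⁻¹ ∈
        (gaussDatum M A hA hqM).O := by
  obtain ⟨h, -⟩ := red_norm_along hA hqM ψA hfin hV₁ hV₂ hne ρ₁ ρ₂ hρ₁ hρ₂ hs₁ hs₂ hc₁ hc₂ hy₁ hy₂
  letI : Algebra ↥(modularFunctionFieldBar M) ↥(modularFunctionFieldBar (M * q)) :=
    algebraAlong ψA
  have hfin' : Module.finrank ↥(modularFunctionFieldBar M) ↥(modularFunctionFieldBar (M * q))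
      = q + 1 := hfin
  haveI : Module.Finite ↥(modularFunctionFieldBar M) ↥(modularFunctionFieldBar (M * q)) :=
    Module.finite_of_finrank_pos (by rw [hfin']; omega)
  rwa [Algebra.norm_inv] at h

end Along

/-! ### the two degeneracy maps -/

section AlphaBeta

variable {V₁ V₂ : ValuationSubring ↥(modularFunctionFieldBar (M * q))}

include hA hqM in
/-- **(B3) along `α`**: `red_M (N_α y) = ρ₁ y * psi.symm (ρ₂ y)`
(`ρ₁ ∘ α = red_M`, `ρ₂ ∘ α = phi ∘ red_M`). -/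
theorem red_norm_alpha
    (hV₁ : ∀ g : ↥(modularFunctionFieldBar M),
      heckeAlphaBar Kb M q g ∈ V₁ ↔ g ∈ (gaussDatum M A hA hqM).O)
    (hV₂ : ∀ g : ↥(modularFunctionFieldBar M),
      heckeAlphaBar Kb M q g ∈ V₂ ↔ g ∈ (gaussDatum M A hA hqM).O)
    (hne : V₁ ≠ V₂)
    (ρ₁ : ↥V₁ →+* ↥(modularFunctionFieldFullC (ResidueField ↥A) M))
    (ρ₂ : ↥V₂ →+* ↥(modularFunctionFieldFullC (ResidueField ↥A) M))
    (hρ₁ : ∀ y : ↥V₁, ρ₁ y = 0 ↔ (y : ↥(modularFunctionFieldBar (M * q))) ∈ V₁.nonunits)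
    (hρ₂ : ∀ y : ↥V₂, ρ₂ y = 0 ↔ (y : ↥(modularFunctionFieldBar (M * q))) ∈ V₂.nonunits)
    (hs₁ : Function.Surjective ρ₁) (hs₂ : Function.Surjective ρ₂)
    (hc₁ : ∀ (g : ↥(gaussDatum M A hA hqM).O)
      (h : heckeAlphaBar Kb M q (g : ↥(modularFunctionFieldBar M)) ∈ V₁),
      ρ₁ ⟨heckeAlphaBar Kb M q (g : ↥(modularFunctionFieldBar M)), h⟩ =
        (gaussDatum M A hA hqM).red g)
    (hc₂ : ∀ (g : ↥(gaussDatum M A hA hqM).O)
      (h : heckeAlphaBar Kb M q (g : ↥(modularFunctionFieldBar M)) ∈ V₂),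
      ρ₂ ⟨heckeAlphaBar Kb M q (g : ↥(modularFunctionFieldBar M)), h⟩ =
        phi (ResidueField ↥A) M q ((gaussDatum M A hA hqM).red g))
    {y : ↥(modularFunctionFieldBar (M * q))} (hy₁ : y ∈ V₁) (hy₂ : y ∈ V₂) :
    ∃ h : @Algebra.norm ↥(modularFunctionFieldBar M) _ _ _
          (algebraAlong (heckeAlphaBar Kb M q)) y ∈ (gaussDatum M A hA hqM).O,
      (gaussDatum M A hA hqM).red
          ⟨@Algebra.norm ↥(modularFunctionFieldBar M) _ _ _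
            (algebraAlong (heckeAlphaBar Kb M q)) y, h⟩ =
        ρ₁ ⟨y, hy₁⟩ * (psi (ResidueField ↥A) M q).symm (ρ₂ ⟨y, hy₂⟩) :=
  red_norm_along hA hqM (heckeAlphaBar Kb M q)
    (Fermat.Agent.S37.ES.DegreeBeta.finrankAlong_alpha M hq.out hqM)
    hV₁ hV₂ hne ρ₁ ρ₂ hρ₁ hρ₂ hs₁ hs₂ hc₁ hc₂ hy₁ hy₂

include hA hqM in
/-- **(B3) along `β`**: `red_M (N_β y) = psi.symm (ρ₁ y) * ρ₂ y`
(`ρ₁ ∘ β = phi ∘ red_M`, `ρ₂ ∘ β = red_M`). -/
theorem red_norm_beta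
    (hV₁ : ∀ g : ↥(modularFunctionFieldBar M),
      heckeBetaBar Kb M q g ∈ V₁ ↔ g ∈ (gaussDatum M A hA hqM).O)
    (hV₂ : ∀ g : ↥(modularFunctionFieldBar M),
      heckeBetaBar Kb M q g ∈ V₂ ↔ g ∈ (gaussDatum M A hA hqM).O)
    (hne : V₁ ≠ V₂)
    (ρ₁ : ↥V₁ →+* ↥(modularFunctionFieldFullC (ResidueField ↥A) M))
    (ρ₂ : ↥V₂ →+* ↥(modularFunctionFieldFullC (ResidueField ↥A) M))
    (hρ₁ : ∀ y : ↥V₁, ρ₁ y = 0 ↔ (y : ↥(modularFunctionFieldBar (M * q))) ∈ V₁.nonunits)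
    (hρ₂ : ∀ y : ↥V₂, ρ₂ y = 0 ↔ (y : ↥(modularFunctionFieldBar (M * q))) ∈ V₂.nonunits)
    (hs₁ : Function.Surjective ρ₁) (hs₂ : Function.Surjective ρ₂)
    (hc₁ : ∀ (g : ↥(gaussDatum M A hA hqM).O)
      (h : heckeBetaBar Kb M q (g : ↥(modularFunctionFieldBar M)) ∈ V₁),
      ρ₁ ⟨heckeBetaBar Kb M q (g : ↥(modularFunctionFieldBar M)), h⟩ =
        phi (ResidueField ↥A) M q ((gaussDatum M A hA hqM).red g))
    (hc₂ : ∀ (g : ↥(gaussDatum M A hA hqM).O)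
      (h : heckeBetaBar Kb M q (g : ↥(modularFunctionFieldBar M)) ∈ V₂),
      ρ₂ ⟨heckeBetaBar Kb M q (g : ↥(modularFunctionFieldBar M)), h⟩ =
        (gaussDatum M A hA hqM).red g)
    {y : ↥(modularFunctionFieldBar (M * q))} (hy₁ : y ∈ V₁) (hy₂ : y ∈ V₂) :
    ∃ h : @Algebra.norm ↥(modularFunctionFieldBar M) _ _ _
          (algebraAlong (heckeBetaBar Kb M q)) y ∈ (gaussDatum M A hA hqM).O,
      (gaussDatum M A hA hqM).red
          ⟨@Algebra.norm ↥(modularFunctionFieldBar M) _ _ _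
            (algebraAlong (heckeBetaBar Kb M q)) y, h⟩ =
        (psi (ResidueField ↥A) M q).symm (ρ₁ ⟨y, hy₁⟩) * ρ₂ ⟨y, hy₂⟩ := by
  obtain ⟨h, hn⟩ := red_norm_along hA hqM (heckeBetaBar Kb M q)
    (Fermat.Agent.S37.ES.DegreeBeta.finrankAlong_beta M hq.out hqM)
    hV₂ hV₁ hne.symm ρ₂ ρ₁ hρ₂ hρ₁ hs₂ hs₁ hc₂ hc₁ hy₂ hy₁
  exact ⟨h, hn.trans (mul_comm _ _)⟩

attribute [local instance] algFE

include hA hqM in
/-- **(B3) along `α`, for the two extensions of `setupX0`** (`Z1X0.V1X0`, `Z1X0.V2X0`, or any other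
realisation): the membership hypotheses are `IsExt.comap`. -/
theorem red_norm_alpha_of_isExt
    (h₁ : (setupX0 hA hqM).IsExt (setupX0 hA hqM).G₁ V₁)
    (h₂ : (setupX0 hA hqM).IsExt (setupX0 hA hqM).G₂ V₂)
    (ρ₁ : ↥V₁ →+* ↥(modularFunctionFieldFullC (ResidueField ↥A) M))
    (ρ₂ : ↥V₂ →+* ↥(modularFunctionFieldFullC (ResidueField ↥A) M))
    (hρ₁ : ∀ y : ↥V₁, ρ₁ y = 0 ↔ (y : ↥(modularFunctionFieldBar (M * q))) ∈ V₁.nonunits)
    (hρ₂ : ∀ y : ↥V₂, ρ₂ y = 0 ↔ (y : ↥(modularFunctionFieldBar (M * q))) ∈ V₂.nonunits)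
    (hs₁ : Function.Surjective ρ₁) (hs₂ : Function.Surjective ρ₂)
    (hc₁ : ∀ (g : ↥(gaussDatum M A hA hqM).O)
      (h : heckeAlphaBar Kb M q (g : ↥(modularFunctionFieldBar M)) ∈ V₁),
      ρ₁ ⟨heckeAlphaBar Kb M q (g : ↥(modularFunctionFieldBar M)), h⟩ =
        (gaussDatum M A hA hqM).red g)
    (hc₂ : ∀ (g : ↥(gaussDatum M A hA hqM).O)
      (h : heckeAlphaBar Kb M q (g : ↥(modularFunctionFieldBar M)) ∈ V₂),
      ρ₂ ⟨heckeAlphaBar Kb M q (g : ↥(modularFunctionFieldBar M)), h⟩ =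
        phi (ResidueField ↥A) M q ((gaussDatum M A hA hqM).red g))
    {y : ↥(modularFunctionFieldBar (M * q))} (hy₁ : y ∈ V₁) (hy₂ : y ∈ V₂) :
    ∃ h : Algebra.norm ↥(modularFunctionFieldBar M) y ∈ (gaussDatum M A hA hqM).O,
      (gaussDatum M A hA hqM).red ⟨Algebra.norm ↥(modularFunctionFieldBar M) y, h⟩ =
        ρ₁ ⟨y, hy₁⟩ * (psi (ResidueField ↥A) M q).symm (ρ₂ ⟨y, hy₂⟩) :=
  red_norm_alpha hA hqM
    (fun g => by rw [← h₁.comap, ValuationSubring.mem_comap, algebraMap_FE])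
    (fun g => by rw [← h₂.comap, ValuationSubring.mem_comap, algebraMap_FE])
    (Fermat.Agent.S34.ArchGauss.ne_of_isExt _ h₁ h₂) ρ₁ ρ₂ hρ₁ hρ₂ hs₁ hs₂ hc₁ hc₂ hy₁ hy₂

end AlphaBeta

end Fermat.Agent.S35.NormRedX0
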