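/-
S35 input (helper8): Kummer presentations by Gauss units.

* `exists_rescale` (abstract, `S34/Z1Abstract` setting): for finitely many incomparable archimedean
  valuation rings `O i` of `F` whose value groups are attained on an `n`-divisible field of constants,
  every `f ≠ 0` can be rescaled by an `n`-th power to a unit of all `O i`;
* `exists_unit_presentation` : at `E = ℚ̄(X₀(M q))` every class `y ∈ J₀(M q)[n]` is the class of a
  degree-zero divisor `D` with `n D = div f`, `f` a unit of both Gauss valuation rings `V1X0`, `V2X0`.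
-/
import Mathlib
import Fermat.Agent.S34.Z1X0
import Fermat.Agent.S34.KummerZ
import Fermat.Agent.S34.CoreZOfPrincipal
import Fermat.Agent.S18.A.Instances

set_option autoImplicit false
set_option linter.unusedSectionVars false
set_option linter.style.haveILetI false

noncomputable section

namespace Fermat.Agent.S35.UnitRep

open ModularCurve AlgebraicCurve
open Fermat.Agent.S34.WeakApprox Fermat.Agent.S34.Z1Abstract Fermat.Agent.S34.Z1X0

section Abstract

variable {F : Type*} [Field F] {K : Type*} [Field K] [Algebra K F]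
variable {ι : Type*} (O : ι → ValuationSubring F)

/-- every nonzero function is an `n`-th power times a simultaneous unit -/
theorem exists_rescale [Finite ι] (n : ℕ)
    (hA : ∀ i, Arch (O i)) (hinc : ∀ i j, i ≠ j → ¬ O i ≤ O j)
    (hval : ∀ i, ∀ f : F, f ≠ 0 →
      ∃ c : K, (O i).valuation f = (O i).valuation (algebraMap K F c))
    (hdiv : ∀ c : K, ∃ d : K, d ^ n = c)
    (f : F) (hf : f ≠ 0) :
    ∃ h : F, h ≠ 0 ∧ ∀ i, (O i).valuation (f / h ^ n) = 1 := by
  classical
  have h1 : ∀ i, ∃ d : K, d ≠ 0 ∧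
      (O i).valuation f = (O i).valuation (algebraMap K F d) ^ n := by
    intro i
    obtain ⟨c, hcv⟩ := hval i f hf
    have hc : c ≠ 0 := by
      rintro rfl
      rw [map_zero, map_zero] at hcv
      exact hf ((Valuation.zero_iff _).mp hcv)
    obtain ⟨d, hd⟩ := hdiv c
    rcases Nat.eq_zero_or_pos n with hn | hn
    · subst hn
      refine ⟨1, one_ne_zero, ?_⟩
      rw [hcv, ← hd, pow_zero, pow_zero, map_one, map_one]
    · refine ⟨d, ?_, ?_⟩
      · rintro rfl
        rw [zero_pow hn.ne'] at hd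
        exact hc hd.symm
      · rw [hcv, ← hd, map_pow, map_pow]
  choose d hd0 hdv using h1
  have hdF : ∀ i, algebraMap K F (d i) ≠ 0 := fun i => (map_ne_zero _).mpr (hd0 i)
  obtain ⟨h, hh0, hh⟩ := exists_simultaneous O hA hinc (fun i => algebraMap K F (d i)) hdF
  refine ⟨h, hh0, fun i => ?_⟩
  have h2 : (O i).valuation (h / algebraMap K F (d i)) = 1 := (hh i).valuation_eq_one
  rw [map_div₀] at h2
  have h3 : (O i).valuation h = (O i).valuation (algebraMap K F (d i)) := by
    have hne : (O i).valuation (algebraMap K F (d i)) ≠ 0 :=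
      (Valuation.ne_zero_iff _).mpr (hdF i)
    rwa [div_eq_one_iff_eq hne] at h2
  rw [map_div₀, map_pow, hdv i, h3]
  exact div_self (pow_ne_zero _ ((Valuation.ne_zero_iff _).mpr (hdF i)))

end Abstract

section X0

local notation "Kb" => AlgebraicClosure ℚ

variable {q : ℕ} [hq : Fact q.Prime] {M : ℕ} [NeZero M] {A : ValuationSubring Kb}
variable (hA : A.LiesOverPrime q) (hqM : ¬ q ∣ M) [NeZero q]

/-- rescaling at `X₀(M q)`: every nonzero function is an `n`-th power times a unit of both Gauss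
valuation rings -/
theorem exists_rescale_X0 (n : ℕ) (hn : n ≠ 0) (f : ↥(modularFunctionFieldBar (M * q)))
    (hf : f ≠ 0) :
    ∃ h : ↥(modularFunctionFieldBar (M * q)), h ≠ 0 ∧
      (V1X0 hA hqM).valuation (f / h ^ n) = 1 ∧ (V2X0 hA hqM).valuation (f / h ^ n) = 1 := by
  obtain ⟨h, hh, hv⟩ := exists_rescale (K := Kb) (VX0 hA hqM) n (arch_VX0 hA hqM)
    (not_le_VX0 hA hqM) (hval_VX0 hA hqM)
    (fun c => IsAlgClosed.exists_pow_nat_eq c (Nat.pos_of_ne_zero hn)) f hf
  exact ⟨h, hh, hv 0, hv 1⟩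

/-- **Kummer presentations by Gauss units.**  Every class killed by `n` in `J₀(M q)` is the class
of a degree-zero divisor `D` with `n D = div f`, where `f` is a unit of both `V1X0` and `V2X0`. -/
theorem exists_unit_presentation [NeZero (M * q)] (n : ℕ) (hn : n ≠ 0) {y : JZero (M * q)}
    (hy : (n : ℤ) • y = 0) :
    ∃ (D : Divisor.degZero (K := Kb) (F := ↥(modularFunctionFieldBar (M * q))))
      (f : ↥(modularFunctionFieldBar (M * q))), y = Pic0.mk D ∧ f ≠ 0 ∧
      (∀ w : Place Kb ↥(modularFunctionFieldBar (M * q)),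
        w.ord f = (n : ℤ) * (D : Divisor Kb ↥(modularFunctionFieldBar (M * q))) w) ∧
      (V1X0 hA hqM).valuation f = 1 ∧ (V2X0 hA hqM).valuation f = 1 := by
  haveI := Fermat.Agent.S18.A.Instances.hasPrincipalDivisors_bar (M * q)
  obtain ⟨D₀, f₀, rfl, hf₀, hfD₀⟩ := Fermat.Agent.S34.KummerZ.exists_mk_of_zsmul_eq_zero hy
  obtain ⟨h, hh, hv1, hv2⟩ := exists_rescale_X0 hA hqM n hn f₀ hf₀
  obtain ⟨Eh, hEh, hEdeg⟩ := HasPrincipalDivisors.exists_divisor (K := Kb) h hh
  let Dh : Divisor.degZero (K := Kb) (F := ↥(modularFunctionFieldBar (M * q))) :=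
    ⟨Eh, Divisor.mem_degZero.mpr hEdeg⟩
  have hDh : Pic0.mk Dh = 0 :=
    Fermat.Agent.S34.KummerZ.mk_eq_zero_of_isDivOf hh (fun w => hEh w)
  have hhn : h ^ n ≠ 0 := pow_ne_zero n hh
  refine ⟨D₀ - Dh, f₀ / h ^ n, ?_, div_ne_zero hf₀ hhn, fun w => ?_, hv1, hv2⟩
  · have h1 : Pic0.mk (D₀ - Dh) = Pic0.mk D₀ - Pic0.mk Dh := rfl
    rw [h1, hDh, sub_zero]
  · rw [Fermat.Agent.S34.CoreZOfPrincipal.ord_div' w hf₀ hhn, hfD₀ w,
      Fermat.Agent.S34.KummerZ.ord_pow]
    have : ((D₀ - Dh : Divisor.degZero (K := Kb) (F := ↥(modularFunctionFieldBar (M * q)))) :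
        Divisor Kb ↥(modularFunctionFieldBar (M * q))) w
        = (D₀ : Divisor Kb ↥(modularFunctionFieldBar (M * q))) w - Eh w := by
      rw [AddSubgroup.coe_sub, Finsupp.sub_apply]
    rw [this, hEh w]
    ring

end X0

end Fermat.Agent.S35.UnitRep
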